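import Mathlib
import Fermat.Prelude.Def_FLTPrelim_FreyPackage

/-!
# Arithmetic of the Frey curve (for S05, case of multiplicative reduction)

`A := a ^ p`, `B := b ^ p`, `C := c ^ p = A + B`.  The Frey curve is
`y² + x y = x³ + ((B - 1 - A)/4) x² - (A B / 16) x`, so with `Y := 2 y + x`:
`Y² = x (4 x² + (B - A) x - A B / 4) = 4 x (x - A/4) (x + B/4)`.
-/

set_option autoImplicit false

namespace Fermat.Agent.S05

open WeierstrassCurve

namespace FreyArith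

variable (P : FreyPackage)

/-- `A = a ^ p` as a rational number. -/
noncomputable def cA : ℚ := (P.a : ℚ) ^ P.p
/-- `B = b ^ p` as a rational number. -/
noncomputable def cB : ℚ := (P.b : ℚ) ^ P.p
/-- `C = c ^ p` as a rational number. -/
noncomputable def cC : ℚ := (P.c : ℚ) ^ P.p

lemma cA_add_cB : cA P + cB P = cC P := by
  have h := P.hFLT
  have h' : ((P.a ^ P.p + P.b ^ P.p : ℤ) : ℚ) = ((P.c ^ P.p : ℤ) : ℚ) := by rw [h]
  push_cast at h'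
  exact h'

lemma cA_ne_zero : cA P ≠ 0 := pow_ne_zero _ (Int.cast_ne_zero.mpr P.ha0)
lemma cB_ne_zero : cB P ≠ 0 := pow_ne_zero _ (Int.cast_ne_zero.mpr P.hb0)
lemma cC_ne_zero : cC P ≠ 0 := pow_ne_zero _ (Int.cast_ne_zero.mpr P.hc0)

end FreyArith

open FreyArith

variable (P : FreyPackage)

lemma FreyArith.freyCurve_a₁ : P.freyCurve.a₁ = 1 := rfl
lemma FreyArith.freyCurve_a₂ : P.freyCurve.a₂ = (cB P - 1 - cA P) / 4 := rfl
lemma FreyArith.freyCurve_a₃ : P.freyCurve.a₃ = 0 := rfl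
lemma FreyArith.freyCurve_a₄ : P.freyCurve.a₄ = -(cA P * cB P) / 16 := by
  change -((P.a : ℚ) ^ P.p) * ((P.b : ℚ) ^ P.p) / 16 = _
  simp [cA, cB]
lemma FreyArith.freyCurve_a₆ : P.freyCurve.a₆ = 0 := rfl

lemma FreyArith.freyCurve_b₂ : P.freyCurve.b₂ = cB P - cA P := by
  simp only [WeierstrassCurve.b₂, freyCurve_a₁, freyCurve_a₂]; ring

lemma FreyArith.freyCurve_b₄ : P.freyCurve.b₄ = -(cA P * cB P) / 8 := by
  simp only [WeierstrassCurve.b₄, freyCurve_a₁, freyCurve_a₃, freyCurve_a₄]; ring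

lemma FreyArith.freyCurve_b₆ : P.freyCurve.b₆ = 0 := by
  simp only [WeierstrassCurve.b₆, freyCurve_a₃, freyCurve_a₆]; ring

lemma FreyArith.freyCurve_b₈ : P.freyCurve.b₈ = -(cA P * cB P / 16) ^ 2 := by
  simp only [WeierstrassCurve.b₈, freyCurve_a₁, freyCurve_a₂, freyCurve_a₃, freyCurve_a₄,
    freyCurve_a₆]; ring

lemma FreyArith.freyCurve_c₄ : P.freyCurve.c₄ = cA P ^ 2 + cA P * cB P + cB P ^ 2 := by
  simp only [WeierstrassCurve.c₄, freyCurve_b₂, freyCurve_b₄]; ring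

lemma FreyArith.freyCurve_Δ : P.freyCurve.Δ = (cA P * cB P * cC P) ^ 2 / 2 ^ 8 := by
  simp only [WeierstrassCurve.Δ, freyCurve_b₂, freyCurve_b₄, freyCurve_b₆, freyCurve_b₈,
    ← cA_add_cB]; ring

lemma FreyArith.freyCurve_Δ' :
    P.freyCurve.Δ = ((P.a * P.b * P.c : ℤ) : ℚ) ^ (2 * P.p) / 2 ^ 8 := by
  rw [freyCurve_Δ]; simp only [cA, cB, cC]; push_cast; ring

lemma FreyArith.freyCurve_Δ_ne_zero : P.freyCurve.Δ ≠ 0 := by
  rw [freyCurve_Δ]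
  exact div_ne_zero (pow_ne_zero _ (mul_ne_zero (mul_ne_zero (cA_ne_zero P) (cB_ne_zero P))
    (cC_ne_zero P))) (by norm_num)

/-- The Weierstrass coefficients of the Frey curve are integers divided by powers of `2`. -/
lemma FreyArith.freyCurve_coeff_int :
    ∃ n₂ n₄ : ℤ, P.freyCurve.a₁ = 1 ∧ P.freyCurve.a₂ = (n₂ : ℚ) / 2 ^ 2 ∧ P.freyCurve.a₃ = 0 ∧
      P.freyCurve.a₄ = (n₄ : ℚ) / 2 ^ 4 ∧ P.freyCurve.a₆ = 0 := by
  refine ⟨P.b ^ P.p - 1 - P.a ^ P.p, -(P.a ^ P.p * P.b ^ P.p), rfl, ?_, rfl, ?_, rfl⟩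
  · rw [freyCurve_a₂]; simp only [cA, cB]; push_cast; norm_num
  · rw [freyCurve_a₄]; simp only [cA, cB]; push_cast; norm_num

namespace FreyArith

variable {P}

lemma not_dvd_one {q : ℕ} (hq : q.Prime) : ¬ (q : ℤ) ∣ 1 := by
  intro h
  have h1 : (q : ℤ) ∣ ((1 : ℕ) : ℤ) := by simpa using h
  exact hq.one_lt.ne' (Nat.dvd_one.mp (Int.natCast_dvd_natCast.mp h1))

lemma not_dvd_of_gcd {q : ℕ} (hq : q.Prime) {x y : ℤ} (h : gcd x y = 1) (hx : (q : ℤ) ∣ x) :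
    ¬ (q : ℤ) ∣ y := fun hy => not_dvd_one hq (h ▸ dvd_gcd hx hy)

lemma padicValRat_int_div_two_pow {q : ℕ} (hq : q.Prime) (hq2 : q ≠ 2) {n : ℤ}
    (hn : ¬ (q : ℤ) ∣ n) (k : ℕ) : padicValRat q ((n : ℚ) / 2 ^ k) = 0 := by
  have : Fact q.Prime := ⟨hq⟩
  have hn0 : n ≠ 0 := fun h => hn (h ▸ dvd_zero _)
  have h2 : ¬ (q : ℤ) ∣ 2 := by
    intro h
    have h' : (q : ℤ) ∣ ((2 : ℕ) : ℤ) := by simpa using h
    exact hq2 ((Nat.prime_dvd_prime_iff_eq hq Nat.prime_two).mp (Int.natCast_dvd_natCast.mp h'))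
  rw [padicValRat.div (by exact_mod_cast hn0) (by positivity), padicValRat.pow,
    padicValRat.of_int, padicValInt.eq_zero_of_not_dvd hn]
  have : padicValRat q (2 : ℚ) = 0 := by
    have := padicValRat.of_int (p := q) (z := 2)
    rw [padicValInt.eq_zero_of_not_dvd h2] at this
    simpa using this
  rw [this]; simp

lemma int_div_two_pow_ne_zero {q : ℕ} {n : ℤ} (hn : ¬ (q : ℤ) ∣ n) (k : ℕ) :
    ((n : ℚ) / 2 ^ k) ≠ 0 := by
  have hn0 : n ≠ 0 := fun h => hn (h ▸ dvd_zero _)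
  exact div_ne_zero (by exact_mod_cast hn0) (by positivity)

lemma not_dvd_pow {q : ℕ} (hq : q.Prime) {x : ℤ} (hx : ¬ (q : ℤ) ∣ x) (n : ℕ) :
    ¬ (q : ℤ) ∣ x ^ n := fun h => hx ((Nat.prime_iff_prime_int.mp hq).dvd_of_dvd_pow h)

end FreyArith

/-- **Frey arithmetic for the case of multiplicative reduction.**  If an odd prime `q` divides
`a b c`, there are a centre `e ∈ ℚ` (a `2`-torsion `x`-coordinate), a `q`-unit `u`, a `q`-unit `ε`
and a nonzero integer `d` divisible by `q` such that, with `β := ε * d ^ p`, the `b`-invariants of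
the Frey curve centred at `e` are `b₂' = u`, `b₄' = 2 β`, `b₆' = 0`, `b₈' = - β ^ 2`; i.e. with
`X := x - e` and `Y := 2 y + x` the curve is `Y² = X (4 X² + u X + 4 β)`. -/
theorem exists_centre {q : ℕ} (hq : q.Prime) (hq2 : q ≠ 2)
    (hdvd : (q : ℤ) ∣ P.a * P.b * P.c) :
    ∃ (e u ε : ℚ) (d : ℤ),
      (e = 0 ∨ padicValRat q e = 0) ∧ u ≠ 0 ∧ padicValRat q u = 0 ∧
      ε ≠ 0 ∧ padicValRat q ε = 0 ∧ d ≠ 0 ∧ (q : ℤ) ∣ d ∧
      P.freyCurve.b₂ + 12 * e = u ∧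
      P.freyCurve.b₄ + e * P.freyCurve.b₂ + 6 * e ^ 2 = 2 * (ε * (d : ℚ) ^ P.p) ∧
      P.freyCurve.b₆ + 2 * e * P.freyCurve.b₄ + e ^ 2 * P.freyCurve.b₂ + 4 * e ^ 3 = 0 ∧
      P.freyCurve.b₈ + 3 * e * P.freyCurve.b₆ + 3 * e ^ 2 * P.freyCurve.b₄
        + e ^ 3 * P.freyCurve.b₂ + 3 * e ^ 4 = -(ε * (d : ℚ) ^ P.p) ^ 2 := by
  have hqi : Prime (q : ℤ) := Nat.prime_iff_prime_int.mp hq
  have hABC := cA_add_cB P
  rcases hqi.dvd_mul.mp hdvd with hab | hc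
  · rcases hqi.dvd_mul.mp hab with ha | hb
    · -- `q ∣ a`
      have hb : ¬ (q : ℤ) ∣ P.b := not_dvd_of_gcd hq P.hgcdab ha
      have hu : ¬ (q : ℤ) ∣ (P.b ^ P.p - P.a ^ P.p) := by
        intro h
        have h2 : (q : ℤ) ∣ P.a ^ P.p := dvd_pow ha P.hp0
        exact not_dvd_pow hq hb P.p ((dvd_sub_left h2).mp h)
      have hε : ¬ (q : ℤ) ∣ (-(P.b ^ P.p)) := by
        rw [dvd_neg]; exact not_dvd_pow hq hb P.p
      have hu0 := padicValRat_int_div_two_pow hq hq2 hu 0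
      have hε0 := padicValRat_int_div_two_pow hq hq2 hε 4
      have hun := int_div_two_pow_ne_zero hu 0
      have hεn := int_div_two_pow_ne_zero hε 4
      refine ⟨0, _, _, P.a, Or.inl rfl, hun, hu0, hεn, hε0, P.ha0, ha, ?_, ?_, ?_, ?_⟩
      · rw [freyCurve_b₂]; simp only [cA, cB]; push_cast; ring
      · rw [freyCurve_b₄, freyCurve_b₂]; simp only [cA, cB]; push_cast; ring
      · rw [freyCurve_b₆, freyCurve_b₄, freyCurve_b₂]; ring
      · rw [freyCurve_b₈, freyCurve_b₆, freyCurve_b₄, freyCurve_b₂]; simp only [cA, cB]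
        push_cast; ring
    · -- `q ∣ b`
      have ha : ¬ (q : ℤ) ∣ P.a := not_dvd_of_gcd hq (gcd_comm P.a P.b ▸ P.hgcdab) hb
      have hu : ¬ (q : ℤ) ∣ (P.b ^ P.p - P.a ^ P.p) := by
        intro h
        have h2 : (q : ℤ) ∣ P.b ^ P.p := dvd_pow hb P.hp0
        exact not_dvd_pow hq ha P.p ((dvd_sub_right h2).mp h)
      have hε : ¬ (q : ℤ) ∣ (-(P.a ^ P.p)) := by
        rw [dvd_neg]; exact not_dvd_pow hq ha P.p
      have hu0 := padicValRat_int_div_two_pow hq hq2 hu 0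
      have hε0 := padicValRat_int_div_two_pow hq hq2 hε 4
      have hun := int_div_two_pow_ne_zero hu 0
      have hεn := int_div_two_pow_ne_zero hε 4
      refine ⟨0, _, _, P.b, Or.inl rfl, hun, hu0, hεn, hε0, P.hb0, hb, ?_, ?_, ?_, ?_⟩
      · rw [freyCurve_b₂]; simp only [cA, cB]; push_cast; ring
      · rw [freyCurve_b₄, freyCurve_b₂]; simp only [cA, cB]; push_cast; ring
      · rw [freyCurve_b₆, freyCurve_b₄, freyCurve_b₂]; ring
      · rw [freyCurve_b₈, freyCurve_b₆, freyCurve_b₄, freyCurve_b₂]; simp only [cA, cB]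
        push_cast; ring
  · -- `q ∣ c`
    have ha : ¬ (q : ℤ) ∣ P.a := not_dvd_of_gcd hq (gcd_comm P.a P.c ▸ P.hgcdac) hc
    have hu : ¬ (q : ℤ) ∣ (P.a ^ P.p + P.c ^ P.p) := by
      intro h
      have h2 : (q : ℤ) ∣ P.c ^ P.p := dvd_pow hc P.hp0
      exact not_dvd_pow hq ha P.p ((dvd_add_left h2).mp h)
    have hε : ¬ (q : ℤ) ∣ (P.a ^ P.p) := not_dvd_pow hq ha P.p
    have hu0 := padicValRat_int_div_two_pow hq hq2 hu 0
    have hε0 := padicValRat_int_div_two_pow hq hq2 hε 4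
    have he0 := padicValRat_int_div_two_pow hq hq2 hε 2
    have hun := int_div_two_pow_ne_zero hu 0
    have hεn := int_div_two_pow_ne_zero hε 4
    have hC : cC P = cA P + cB P := hABC.symm
    refine ⟨_, _, _, P.c, Or.inr he0, hun, hu0, hεn, hε0, P.hc0, hc, ?_, ?_, ?_, ?_⟩
    · rw [freyCurve_b₂]
      have : ((P.c : ℚ)) ^ P.p = cA P + cB P := hC
      push_cast; rw [this]; simp only [cA, cB]; ring
    · rw [freyCurve_b₄, freyCurve_b₂]
      have : ((P.c : ℚ)) ^ P.p = cA P + cB P := hC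
      push_cast; rw [this]; simp only [cA, cB]; ring
    · rw [freyCurve_b₆, freyCurve_b₄, freyCurve_b₂]; simp only [cA, cB]; push_cast; ring
    · rw [freyCurve_b₈, freyCurve_b₆, freyCurve_b₄, freyCurve_b₂]
      have : ((P.c : ℚ)) ^ P.p = cA P + cB P := hC
      push_cast; rw [this]; simp only [cA, cB]; ring

namespace FreyArith

lemma one_le_padicValInt {q : ℕ} (hq : q.Prime) {d : ℤ} (hd : d ≠ 0) (h : (q : ℤ) ∣ d) :
    1 ≤ padicValInt q d := by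
  have : Fact q.Prime := ⟨hq⟩
  have h' : q ∣ d.natAbs := Int.natCast_dvd.mp h
  exact one_le_padicValNat_of_dvd (Int.natAbs_ne_zero.mpr hd) h'

lemma padicValRat_unit_mul_pow {q : ℕ} (hq : q.Prime) {ε : ℚ} (hε : ε ≠ 0)
    (hε0 : padicValRat q ε = 0) {d : ℤ} (hd : d ≠ 0) (n : ℕ) :
    padicValRat q (ε * (d : ℚ) ^ n) = n * padicValInt q d := by
  have : Fact q.Prime := ⟨hq⟩
  have hd' : (d : ℚ) ≠ 0 := by exact_mod_cast hd
  rw [padicValRat.mul hε (pow_ne_zero _ hd'), hε0, zero_add, padicValRat.pow, padicValRat.of_int]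

end FreyArith

/-- `exists_centre` with the valuation of `β = ε * d ^ p` made explicit:
`v_q(β) = p * m` with `m = v_q(d) ≥ 1`. -/
theorem exists_centre' {q : ℕ} (hq : q.Prime) (hq2 : q ≠ 2)
    (hdvd : (q : ℤ) ∣ P.a * P.b * P.c) :
    ∃ (e u β : ℚ) (m : ℕ),
      (e = 0 ∨ padicValRat q e = 0) ∧ u ≠ 0 ∧ padicValRat q u = 0 ∧
      β ≠ 0 ∧ 1 ≤ m ∧ padicValRat q β = (P.p * m : ℕ) ∧
      P.freyCurve.b₂ + 12 * e = u ∧
      P.freyCurve.b₄ + e * P.freyCurve.b₂ + 6 * e ^ 2 = 2 * β ∧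
      P.freyCurve.b₆ + 2 * e * P.freyCurve.b₄ + e ^ 2 * P.freyCurve.b₂ + 4 * e ^ 3 = 0 ∧
      P.freyCurve.b₈ + 3 * e * P.freyCurve.b₆ + 3 * e ^ 2 * P.freyCurve.b₄
        + e ^ 3 * P.freyCurve.b₂ + 3 * e ^ 4 = -β ^ 2 := by
  obtain ⟨e, u, ε, d, he, hu, hu0, hε, hε0, hd, hqd, h2, h4, h6, h8⟩ := exists_centre P hq hq2 hdvd
  have hd' : (d : ℚ) ≠ 0 := by exact_mod_cast hd
  refine ⟨e, u, ε * (d : ℚ) ^ P.p, padicValInt q d, he, hu, hu0,
    mul_ne_zero hε (pow_ne_zero _ hd'), one_le_padicValInt hq hd hqd, ?_, h2, h4, h6, h8⟩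
  rw [padicValRat_unit_mul_pow hq hε hε0 hd]; push_cast; ring

/-- The exact shape used by the case-M assembly (`CaseM.lean`). -/
theorem frey_caseM (P : FreyPackage) {q : ℕ} (hq : q.Prime) (hq2 : q ≠ 2)
    (hqabc : (q : ℤ) ∣ P.a * P.b * P.c) :
    ∃ (e u β : ℚ) (n₀ : ℕ), 0 < n₀ ∧ β ≠ 0 ∧ padicValRat q β = (P.p : ℤ) * n₀ ∧ u ≠ 0 ∧
      padicValRat q u = 0 ∧ (e = 0 ∨ padicValRat q e = 0) ∧
      P.freyCurve.b₂ + 12 * e = u ∧
      P.freyCurve.b₄ + e * P.freyCurve.b₂ + 6 * e ^ 2 = 2 * β ∧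
      P.freyCurve.b₆ + 2 * e * P.freyCurve.b₄ + e ^ 2 * P.freyCurve.b₂ + 4 * e ^ 3 = 0 := by
  obtain ⟨e, u, β, m, he, hu, hu0, hβ, hm, hβv, h2, h4, h6, -⟩ := exists_centre' P hq hq2 hqabc
  exact ⟨e, u, β, m, hm, hβ, by rw [hβv]; push_cast; ring, hu, hu0, he, h2, h4, h6⟩

/-- `frey_caseM` together with the fourth centred invariant `b₈' = -β²`. -/
theorem frey_caseM' (P : FreyPackage) {q : ℕ} (hq : q.Prime) (hq2 : q ≠ 2)
    (hqabc : (q : ℤ) ∣ P.a * P.b * P.c) :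
    ∃ (e u β : ℚ) (n₀ : ℕ), 0 < n₀ ∧ β ≠ 0 ∧ padicValRat q β = (P.p : ℤ) * n₀ ∧ u ≠ 0 ∧
      padicValRat q u = 0 ∧ (e = 0 ∨ padicValRat q e = 0) ∧
      P.freyCurve.b₂ + 12 * e = u ∧
      P.freyCurve.b₄ + e * P.freyCurve.b₂ + 6 * e ^ 2 = 2 * β ∧
      P.freyCurve.b₆ + 2 * e * P.freyCurve.b₄ + e ^ 2 * P.freyCurve.b₂ + 4 * e ^ 3 = 0 ∧
      P.freyCurve.b₈ + 3 * e * P.freyCurve.b₆ + 3 * e ^ 2 * P.freyCurve.b₄
        + e ^ 3 * P.freyCurve.b₂ + 3 * e ^ 4 = -β ^ 2 := by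
  obtain ⟨e, u, β, m, he, hu, hu0, hβ, hm, hβv, h2, h4, h6, h8⟩ := exists_centre' P hq hq2 hqabc
  exact ⟨e, u, β, m, hm, hβ, by rw [hβv]; push_cast; ring, hu, hu0, he, h2, h4, h6, h8⟩

namespace FreyArith

lemma padicValRat_int_div_two_pow_nonneg {q : ℕ} (hq : q.Prime) (hq2 : q ≠ 2) (n : ℤ) (k : ℕ) :
    0 ≤ padicValRat q ((n : ℚ) / 2 ^ k) := by
  have : Fact q.Prime := ⟨hq⟩
  rcases eq_or_ne n 0 with rfl | hn0
  · simp
  have h2 : ¬ (q : ℤ) ∣ 2 := by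
    intro h
    have h' : (q : ℤ) ∣ ((2 : ℕ) : ℤ) := by simpa using h
    exact hq2 ((Nat.prime_dvd_prime_iff_eq hq Nat.prime_two).mp (Int.natCast_dvd_natCast.mp h'))
  have h2' : padicValRat q (2 : ℚ) = 0 := by
    have := padicValRat.of_int (p := q) (z := 2)
    rw [padicValInt.eq_zero_of_not_dvd h2] at this
    simpa using this
  rw [padicValRat.div (by exact_mod_cast hn0) (by positivity), padicValRat.pow,
    padicValRat.of_int, h2']
  simp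

end FreyArith

/-- The coefficients `a₂`, `a₄` of the Frey curve are `q`-integral for odd `q`
(`a₁ = 1`, `a₃ = a₆ = 0` hold by `rfl`). -/
theorem frey_coeff_padic (P : FreyPackage) {q : ℕ} (hq : q.Prime) (hq2 : q ≠ 2) :
    0 ≤ padicValRat q P.freyCurve.a₂ ∧ 0 ≤ padicValRat q P.freyCurve.a₄ := by
  obtain ⟨n₂, n₄, -, h2, -, h4, -⟩ := freyCurve_coeff_int P
  rw [h2, h4]
  exact ⟨padicValRat_int_div_two_pow_nonneg hq hq2 n₂ 2,
    padicValRat_int_div_two_pow_nonneg hq hq2 n₄ 4⟩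

/-- `exists_centre` after base change to a field `K ⊇ ℚ` (e.g. `K = AlgebraicClosure ℚ`). -/
theorem exists_centre_baseChange (K : Type*) [Field K] [Algebra ℚ K] {q : ℕ} (hq : q.Prime)
    (hq2 : q ≠ 2) (hdvd : (q : ℤ) ∣ P.a * P.b * P.c) :
    ∃ (e u ε : ℚ) (d : ℤ),
      (e = 0 ∨ padicValRat q e = 0) ∧ u ≠ 0 ∧ padicValRat q u = 0 ∧
      ε ≠ 0 ∧ padicValRat q ε = 0 ∧ d ≠ 0 ∧ (q : ℤ) ∣ d ∧
      (P.freyCurve⁄K).b₂ + 12 * algebraMap ℚ K e = algebraMap ℚ K u ∧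
      (P.freyCurve⁄K).b₄ + algebraMap ℚ K e * (P.freyCurve⁄K).b₂ + 6 * algebraMap ℚ K e ^ 2
        = 2 * algebraMap ℚ K (ε * (d : ℚ) ^ P.p) ∧
      (P.freyCurve⁄K).b₆ + 2 * algebraMap ℚ K e * (P.freyCurve⁄K).b₄
        + algebraMap ℚ K e ^ 2 * (P.freyCurve⁄K).b₂ + 4 * algebraMap ℚ K e ^ 3 = 0 ∧
      (P.freyCurve⁄K).b₈ + 3 * algebraMap ℚ K e * (P.freyCurve⁄K).b₆
        + 3 * algebraMap ℚ K e ^ 2 * (P.freyCurve⁄K).b₄
        + algebraMap ℚ K e ^ 3 * (P.freyCurve⁄K).b₂ + 3 * algebraMap ℚ K e ^ 4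
        = -(algebraMap ℚ K (ε * (d : ℚ) ^ P.p)) ^ 2 := by
  obtain ⟨e, u, ε, d, he, hu, hu0, hε, hε0, hd, hqd, h2, h4, h6, h8⟩ := exists_centre P hq hq2 hdvd
  refine ⟨e, u, ε, d, he, hu, hu0, hε, hε0, hd, hqd, ?_, ?_, ?_, ?_⟩
  · have := congrArg (algebraMap ℚ K) h2
    simp only [map_add, map_mul, map_ofNat] at this
    simpa only [WeierstrassCurve.baseChange, WeierstrassCurve.map_b₂] using this
  · generalize ε * (d : ℚ) ^ P.p = β at h4 ⊢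
    have := congrArg (algebraMap ℚ K) h4
    simp only [map_add, map_mul, map_pow, map_ofNat] at this
    simpa only [WeierstrassCurve.baseChange, WeierstrassCurve.map_b₂,
      WeierstrassCurve.map_b₄] using this
  · have := congrArg (algebraMap ℚ K) h6
    simp only [map_add, map_mul, map_pow, map_ofNat, map_zero] at this
    simpa only [WeierstrassCurve.baseChange, WeierstrassCurve.map_b₂,
      WeierstrassCurve.map_b₄, WeierstrassCurve.map_b₆] using this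
  · generalize ε * (d : ℚ) ^ P.p = β at h8 ⊢
    have := congrArg (algebraMap ℚ K) h8
    simp only [map_add, map_mul, map_pow, map_ofNat, map_neg] at this
    simpa only [WeierstrassCurve.baseChange, WeierstrassCurve.map_b₂,
      WeierstrassCurve.map_b₄, WeierstrassCurve.map_b₆, WeierstrassCurve.map_b₈] using this

/-- The discriminant of the Frey curve after base change. -/
lemma FreyArith.freyCurve_baseChange_Δ (K : Type*) [Field K] [Algebra ℚ K] :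
    (P.freyCurve⁄K).Δ
      = algebraMap ℚ K (((P.a * P.b * P.c : ℤ) : ℚ) ^ (2 * P.p) / 2 ^ 8) := by
  simp [WeierstrassCurve.baseChange, freyCurve_Δ']

lemma FreyArith.freyCurve_baseChange_Δ_ne_zero (K : Type*) [Field K] [Algebra ℚ K] :
    (P.freyCurve⁄K).Δ ≠ 0 := by
  simp only [WeierstrassCurve.baseChange, WeierstrassCurve.map_Δ]
  exact (map_ne_zero_iff _ (algebraMap ℚ K).injective).mpr (freyCurve_Δ_ne_zero P)

/-- The Weierstrass coefficients of the base-changed Frey curve. -/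
lemma FreyArith.freyCurve_baseChange_coeff (K : Type*) [Field K] [Algebra ℚ K] :
    ∃ n₂ n₄ : ℤ, (P.freyCurve⁄K).a₁ = 1 ∧ (P.freyCurve⁄K).a₂ = (n₂ : K) / 2 ^ 2 ∧
      (P.freyCurve⁄K).a₃ = 0 ∧ (P.freyCurve⁄K).a₄ = (n₄ : K) / 2 ^ 4 ∧
      (P.freyCurve⁄K).a₆ = 0 := by
  obtain ⟨n₂, n₄, h1, h2, h3, h4, h6⟩ := freyCurve_coeff_int P
  refine ⟨n₂, n₄, ?_, ?_, ?_, ?_, ?_⟩ <;>
    simp [WeierstrassCurve.baseChange, h1, h2, h3, h4, h6]

end Fermat.Agent.S05
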