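/-
S05 / Xonly: x-coordinate-only addition and duplication formulas for nonsingular points of a
Weierstrass curve over a field (Mathlib's `WeierstrassCurve.Affine.Point`), in `b`-invariant form
and centred at an arbitrary `e`.

Main exports (ALL in namespace `Fermat.Agent.S05.XOnly`):
* `eta_sq`                : `(2y + a₁x + a₃)² = 4x³ + b₂x² + 2b₄x + b₆` on the curve.
* `exists_add_sub`        : for `x₁ ≠ x₂`, `P + Q` and `P - Q` are affine.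
* `x_add_mul_x_sub`, `x_add_add_x_sub` : product / sum of `x(P + Q)`, `x(P - Q)`.
* `add_sub_x_formulas`    : the previous three packaged as one existential statement.
* `x_add_self`, `two_nsmul_x_formula`, `add_self_eq_zero_iff` : duplication.
* `some_eq_or_eq_neg_of_x_eq` : x-injectivity up to sign.
* `centred_prod`, `centred_sum`, `centred_dbl`, `centred_eta_sq` : the same identities in the
  coordinate `X = x - e` when `e` is a root of the 2-division polynomial (`b₆' = 0`), with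
  `b₄' = 2β`, `b₂' = u`.
-/
import Mathlib

set_option autoImplicit false

namespace Fermat.Agent.S05

open WeierstrassCurve

namespace XOnly

section algebra

variable {F : Type*} [Field F] (W : WeierstrassCurve F)

/-- The Weierstrass equation of a nonsingular point, written out. -/
theorem eqn {x y : F} (h : W.toAffine.Nonsingular x y) :
    y ^ 2 + W.a₁ * x * y + W.a₃ * y = x ^ 3 + W.a₂ * x ^ 2 + W.a₄ * x + W.a₆ :=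
  (W.toAffine.equation_iff x y).1 h.1

/-- Raw product identity. -/
theorem raw_prod {x₁ y₁ x₂ y₂ x₃ x₄ : F}
    (E₁ : y₁ ^ 2 + W.a₁ * x₁ * y₁ + W.a₃ * y₁ = x₁ ^ 3 + W.a₂ * x₁ ^ 2 + W.a₄ * x₁ + W.a₆)
    (E₂ : y₂ ^ 2 + W.a₁ * x₂ * y₂ + W.a₃ * y₂ = x₂ ^ 3 + W.a₂ * x₂ ^ 2 + W.a₄ * x₂ + W.a₆)
    (hx : x₁ ≠ x₂)
    (h₃ : x₃ * (x₁ - x₂) ^ 2 =
      (y₁ - y₂) ^ 2 + W.a₁ * (y₁ - y₂) * (x₁ - x₂) - (W.a₂ + x₁ + x₂) * (x₁ - x₂) ^ 2)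
    (h₄ : x₄ * (x₁ - x₂) ^ 2 =
      (y₁ + y₂ + W.a₁ * x₂ + W.a₃) ^ 2 + W.a₁ * (y₁ + y₂ + W.a₁ * x₂ + W.a₃) * (x₁ - x₂)
        - (W.a₂ + x₁ + x₂) * (x₁ - x₂) ^ 2) :
    x₃ * x₄ * (x₁ - x₂) ^ 2 = x₁ ^ 2 * x₂ ^ 2 - W.b₄ * x₁ * x₂ - W.b₆ * (x₁ + x₂) - W.b₈ := by
  have hd : (x₁ - x₂) ^ 2 ≠ 0 := pow_ne_zero 2 (sub_ne_zero.2 hx)
  apply mul_right_cancel₀ hd
  simp only [b₄, b₆, b₈]
  linear_combination (x₄ * (x₁ - x₂) ^ 2) * h₃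
    + ((y₁ - y₂) ^ 2 + W.a₁ * (y₁ - y₂) * (x₁ - x₂) - (W.a₂ + x₁ + x₂) * (x₁ - x₂) ^ 2) * h₄
    + ((2 * (x₁ ^ 3 - x₂ ^ 3) + (2 * W.a₄ + W.a₁ * W.a₃) * (x₁ - x₂)
          - 2 * (x₁ + x₂) * (x₁ - x₂) ^ 2 + (W.a₁ ^ 2 + 4 * W.a₂) * x₂ * (x₁ - x₂))
        + ((y₁ ^ 2 + W.a₁ * x₁ * y₁ + W.a₃ * y₁ - (x₁ ^ 3 + W.a₂ * x₁ ^ 2 + W.a₄ * x₁ + W.a₆))
          - (y₂ ^ 2 + W.a₁ * x₂ * y₂ + W.a₃ * y₂
            - (x₂ ^ 3 + W.a₂ * x₂ ^ 2 + W.a₄ * x₂ + W.a₆)))) * E₁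
    + (-(2 * (x₁ ^ 3 - x₂ ^ 3) + (2 * W.a₄ + W.a₁ * W.a₃) * (x₁ - x₂)
          - 2 * (x₁ + x₂) * (x₁ - x₂) ^ 2 + (W.a₁ ^ 2 + 4 * W.a₂) * x₂ * (x₁ - x₂))
        - (W.a₁ ^ 2 + 4 * W.a₂ + 4 * (x₁ + x₂)) * (x₁ - x₂) ^ 2
        - ((y₁ ^ 2 + W.a₁ * x₁ * y₁ + W.a₃ * y₁ - (x₁ ^ 3 + W.a₂ * x₁ ^ 2 + W.a₄ * x₁ + W.a₆))
          - (y₂ ^ 2 + W.a₁ * x₂ * y₂ + W.a₃ * y₂
            - (x₂ ^ 3 + W.a₂ * x₂ ^ 2 + W.a₄ * x₂ + W.a₆)))) * E₂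

/-- Raw sum identity. -/
theorem raw_sum {x₁ y₁ x₂ y₂ x₃ x₄ : F}
    (E₁ : y₁ ^ 2 + W.a₁ * x₁ * y₁ + W.a₃ * y₁ = x₁ ^ 3 + W.a₂ * x₁ ^ 2 + W.a₄ * x₁ + W.a₆)
    (E₂ : y₂ ^ 2 + W.a₁ * x₂ * y₂ + W.a₃ * y₂ = x₂ ^ 3 + W.a₂ * x₂ ^ 2 + W.a₄ * x₂ + W.a₆)
    (h₃ : x₃ * (x₁ - x₂) ^ 2 =
      (y₁ - y₂) ^ 2 + W.a₁ * (y₁ - y₂) * (x₁ - x₂) - (W.a₂ + x₁ + x₂) * (x₁ - x₂) ^ 2)
    (h₄ : x₄ * (x₁ - x₂) ^ 2 =
      (y₁ + y₂ + W.a₁ * x₂ + W.a₃) ^ 2 + W.a₁ * (y₁ + y₂ + W.a₁ * x₂ + W.a₃) * (x₁ - x₂)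
        - (W.a₂ + x₁ + x₂) * (x₁ - x₂) ^ 2) :
    (x₃ + x₄) * (x₁ - x₂) ^ 2 =
      2 * x₁ * x₂ * (x₁ + x₂) + W.b₂ * x₁ * x₂ + W.b₄ * (x₁ + x₂) + W.b₆ := by
  simp only [b₂, b₄, b₆]
  linear_combination h₃ + h₄ + 2 * E₁ + 2 * E₂

/-- Raw duplication identity. -/
theorem raw_dbl {x y x₃ : F}
    (E : y ^ 2 + W.a₁ * x * y + W.a₃ * y = x ^ 3 + W.a₂ * x ^ 2 + W.a₄ * x + W.a₆)
    (h₃ : x₃ * (2 * y + W.a₁ * x + W.a₃) ^ 2 =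
      (3 * x ^ 2 + 2 * W.a₂ * x + W.a₄ - W.a₁ * y) ^ 2
        + W.a₁ * (3 * x ^ 2 + 2 * W.a₂ * x + W.a₄ - W.a₁ * y) * (2 * y + W.a₁ * x + W.a₃)
        - (W.a₂ + x + x) * (2 * y + W.a₁ * x + W.a₃) ^ 2) :
    x₃ * (4 * x ^ 3 + W.b₂ * x ^ 2 + 2 * W.b₄ * x + W.b₆) =
      x ^ 4 - W.b₄ * x ^ 2 - 2 * W.b₆ * x - W.b₈ := by
  simp only [b₂, b₄, b₆, b₈]
  linear_combination h₃ + (-(W.a₁ ^ 2 + 4 * W.a₂ + 8 * x) - 4 * x₃) * E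

variable [DecidableEq F]

theorem addX_slope_mul {x₁ y₁ x₂ y₂ : F} (hx : x₁ ≠ x₂) :
    W.toAffine.addX x₁ x₂ (W.toAffine.slope x₁ x₂ y₁ y₂) * (x₁ - x₂) ^ 2 =
      (y₁ - y₂) ^ 2 + W.a₁ * (y₁ - y₂) * (x₁ - x₂) - (W.a₂ + x₁ + x₂) * (x₁ - x₂) ^ 2 := by
  have hd : x₁ - x₂ ≠ 0 := sub_ne_zero.2 hx
  rw [Affine.slope_of_X_ne hx, Affine.addX]
  field_simp
  ring

theorem addX_slope_self_mul {x y : F} (hy : y ≠ W.toAffine.negY x y) :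
    W.toAffine.addX x x (W.toAffine.slope x x y y) * (2 * y + W.a₁ * x + W.a₃) ^ 2 =
      (3 * x ^ 2 + 2 * W.a₂ * x + W.a₄ - W.a₁ * y) ^ 2
        + W.a₁ * (3 * x ^ 2 + 2 * W.a₂ * x + W.a₄ - W.a₁ * y) * (2 * y + W.a₁ * x + W.a₃)
        - (W.a₂ + x + x) * (2 * y + W.a₁ * x + W.a₃) ^ 2 := by
  have hd : y - W.toAffine.negY x y ≠ 0 := sub_ne_zero.2 hy
  have hd' : y - W.toAffine.negY x y = 2 * y + W.a₁ * x + W.a₃ := by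
    rw [Affine.negY]; ring
  rw [Affine.slope_of_Y_ne rfl hy, Affine.addX, hd']
  rw [hd'] at hd
  have h1 : (3 * x ^ 2 + 2 * W.a₂ * x + W.a₄ - W.a₁ * y) / (2 * y + W.a₁ * x + W.a₃)
      * (2 * y + W.a₁ * x + W.a₃) = 3 * x ^ 2 + 2 * W.a₂ * x + W.a₄ - W.a₁ * y :=
    div_mul_cancel₀ _ hd
  linear_combination ((3 * x ^ 2 + 2 * W.a₂ * x + W.a₄ - W.a₁ * y) / (2 * y + W.a₁ * x + W.a₃)
      * (2 * y + W.a₁ * x + W.a₃) + (3 * x ^ 2 + 2 * W.a₂ * x + W.a₄ - W.a₁ * y)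
      + W.a₁ * (2 * y + W.a₁ * x + W.a₃)) * h1

end algebra

variable {F : Type*} [Field F] (W : WeierstrassCurve F)

/-- `η² = 4x³ + b₂x² + 2b₄x + b₆` with `η = 2y + a₁x + a₃`. -/
theorem eta_sq {x y : F} (h : W.toAffine.Nonsingular x y) :
    (2 * y + W.a₁ * x + W.a₃) ^ 2 = 4 * x ^ 3 + W.b₂ * x ^ 2 + 2 * W.b₄ * x + W.b₆ := by
  have E := eqn W h
  simp only [b₂, b₄, b₆]
  linear_combination 4 * E

/-- `y = negY x y` iff `η = 2y + a₁x + a₃ = 0`. -/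
theorem y_eq_negY_iff {x y : F} : y = W.toAffine.negY x y ↔ 2 * y + W.a₁ * x + W.a₃ = 0 := by
  rw [Affine.negY]
  constructor
  · intro h; linear_combination h
  · intro h; linear_combination h

/-- x-injectivity up to sign: two affine points with the same `x` are equal or opposite. -/
theorem some_eq_or_eq_neg_of_x_eq {x₁ y₁ x₂ y₂ : F} (h₁ : W.toAffine.Nonsingular x₁ y₁)
    (h₂ : W.toAffine.Nonsingular x₂ y₂) (hx : x₁ = x₂) :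
    Affine.Point.some x₂ y₂ h₂ = Affine.Point.some x₁ y₁ h₁ ∨
      Affine.Point.some x₂ y₂ h₂ = -Affine.Point.some x₁ y₁ h₁ :=
  Affine.Point.X_eq_iff.1 hx.symm

variable [DecidableEq F]

/-- If `x₁ ≠ x₂` then `P + Q` and `P - Q` are affine points. -/
theorem exists_add_sub {x₁ y₁ x₂ y₂ : F} (h₁ : W.toAffine.Nonsingular x₁ y₁)
    (h₂ : W.toAffine.Nonsingular x₂ y₂) (hx : x₁ ≠ x₂) :
    ∃ (x₃ y₃ x₄ y₄ : F) (h₃ : W.toAffine.Nonsingular x₃ y₃) (h₄ : W.toAffine.Nonsingular x₄ y₄),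
      Affine.Point.some x₁ y₁ h₁ + Affine.Point.some x₂ y₂ h₂ = Affine.Point.some x₃ y₃ h₃ ∧
      Affine.Point.some x₁ y₁ h₁ - Affine.Point.some x₂ y₂ h₂ = Affine.Point.some x₄ y₄ h₄ := by
  have h₂' : W.toAffine.Nonsingular x₂ (W.toAffine.negY x₂ y₂) :=
    (W.toAffine.nonsingular_neg x₂ y₂).mpr h₂
  refine ⟨_, _, _, _, Affine.nonsingular_add h₁ h₂ (fun hxy => hx hxy.left),
    Affine.nonsingular_add h₁ h₂' (fun hxy => hx hxy.left), Affine.Point.add_of_X_ne hx, ?_⟩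
  rw [sub_eq_add_neg, Affine.Point.neg_some]
  exact Affine.Point.add_of_X_ne hx

/-- The x-coordinates of `P + Q` and `P - Q`: product formula. -/
theorem x_add_mul_x_sub {x₁ y₁ x₂ y₂ x₃ y₃ x₄ y₄ : F} {h₁ : W.toAffine.Nonsingular x₁ y₁}
    {h₂ : W.toAffine.Nonsingular x₂ y₂} {h₃ : W.toAffine.Nonsingular x₃ y₃}
    {h₄ : W.toAffine.Nonsingular x₄ y₄} (hx : x₁ ≠ x₂)
    (hadd : Affine.Point.some x₁ y₁ h₁ + Affine.Point.some x₂ y₂ h₂ = Affine.Point.some x₃ y₃ h₃)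
    (hsub : Affine.Point.some x₁ y₁ h₁ - Affine.Point.some x₂ y₂ h₂ = Affine.Point.some x₄ y₄ h₄) :
    x₃ * x₄ * (x₁ - x₂) ^ 2 = x₁ ^ 2 * x₂ ^ 2 - W.b₄ * x₁ * x₂ - W.b₆ * (x₁ + x₂) - W.b₈ := by
  rw [Affine.Point.add_of_X_ne hx, Affine.Point.some.injEq] at hadd
  rw [sub_eq_add_neg, Affine.Point.neg_some, Affine.Point.add_of_X_ne hx,
    Affine.Point.some.injEq] at hsub
  have e₃ := addX_slope_mul W (y₁ := y₁) (y₂ := y₂) hx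
  have e₄ := addX_slope_mul W (y₁ := y₁) (y₂ := W.toAffine.negY x₂ y₂) hx
  rw [hadd.1] at e₃
  rw [hsub.1] at e₄
  refine raw_prod W (eqn W h₁) (eqn W h₂) hx e₃ ?_
  rw [e₄, Affine.negY]
  ring

/-- The x-coordinates of `P + Q` and `P - Q`: sum formula. -/
theorem x_add_add_x_sub {x₁ y₁ x₂ y₂ x₃ y₃ x₄ y₄ : F} {h₁ : W.toAffine.Nonsingular x₁ y₁}
    {h₂ : W.toAffine.Nonsingular x₂ y₂} {h₃ : W.toAffine.Nonsingular x₃ y₃}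
    {h₄ : W.toAffine.Nonsingular x₄ y₄} (hx : x₁ ≠ x₂)
    (hadd : Affine.Point.some x₁ y₁ h₁ + Affine.Point.some x₂ y₂ h₂ = Affine.Point.some x₃ y₃ h₃)
    (hsub : Affine.Point.some x₁ y₁ h₁ - Affine.Point.some x₂ y₂ h₂ = Affine.Point.some x₄ y₄ h₄) :
    (x₃ + x₄) * (x₁ - x₂) ^ 2 =
      2 * x₁ * x₂ * (x₁ + x₂) + W.b₂ * x₁ * x₂ + W.b₄ * (x₁ + x₂) + W.b₆ := by
  rw [Affine.Point.add_of_X_ne hx, Affine.Point.some.injEq] at hadd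
  rw [sub_eq_add_neg, Affine.Point.neg_some, Affine.Point.add_of_X_ne hx,
    Affine.Point.some.injEq] at hsub
  have e₃ := addX_slope_mul W (y₁ := y₁) (y₂ := y₂) hx
  have e₄ := addX_slope_mul W (y₁ := y₁) (y₂ := W.toAffine.negY x₂ y₂) hx
  rw [hadd.1] at e₃
  rw [hsub.1] at e₄
  refine raw_sum W (eqn W h₁) (eqn W h₂) e₃ ?_
  rw [e₄, Affine.negY]
  ring

/-- (X-add) Packaged x-only addition formulas. -/
theorem add_sub_x_formulas {x₁ y₁ x₂ y₂ : F} (h₁ : W.toAffine.Nonsingular x₁ y₁)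
    (h₂ : W.toAffine.Nonsingular x₂ y₂) (hx : x₁ ≠ x₂) :
    ∃ (x₃ y₃ x₄ y₄ : F) (h₃ : W.toAffine.Nonsingular x₃ y₃) (h₄ : W.toAffine.Nonsingular x₄ y₄),
      Affine.Point.some x₁ y₁ h₁ + Affine.Point.some x₂ y₂ h₂ = Affine.Point.some x₃ y₃ h₃ ∧
      Affine.Point.some x₁ y₁ h₁ - Affine.Point.some x₂ y₂ h₂ = Affine.Point.some x₄ y₄ h₄ ∧
      x₃ * x₄ * (x₁ - x₂) ^ 2 =
        x₁ ^ 2 * x₂ ^ 2 - W.b₄ * x₁ * x₂ - W.b₆ * (x₁ + x₂) - W.b₈ ∧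
      (x₃ + x₄) * (x₁ - x₂) ^ 2 =
        2 * x₁ * x₂ * (x₁ + x₂) + W.b₂ * x₁ * x₂ + W.b₄ * (x₁ + x₂) + W.b₆ := by
  obtain ⟨x₃, y₃, x₄, y₄, h₃, h₄, hadd, hsub⟩ := exists_add_sub W h₁ h₂ hx
  exact ⟨x₃, y₃, x₄, y₄, h₃, h₄, hadd, hsub, x_add_mul_x_sub W hx hadd hsub,
    x_add_add_x_sub W hx hadd hsub⟩

/-- `P + P = 0` iff `y = negY x y` (i.e. `2y + a₁x + a₃ = 0`). -/
theorem add_self_eq_zero_iff {x y : F} (h : W.toAffine.Nonsingular x y) :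
    Affine.Point.some x y h + Affine.Point.some x y h = 0 ↔ y = W.toAffine.negY x y := by
  constructor
  · intro h0
    by_contra hy
    rw [Affine.Point.add_self_of_Y_ne hy] at h0
    exact Affine.Point.some_ne_zero _ h0
  · intro hy
    exact Affine.Point.add_self_of_Y_eq hy

/-- Duplication formula for the x-coordinate (hypothesis form). -/
theorem x_add_self {x y x₃ y₃ : F} {h : W.toAffine.Nonsingular x y}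
    {h₃ : W.toAffine.Nonsingular x₃ y₃}
    (hdbl : Affine.Point.some x y h + Affine.Point.some x y h = Affine.Point.some x₃ y₃ h₃) :
    x₃ * (4 * x ^ 3 + W.b₂ * x ^ 2 + 2 * W.b₄ * x + W.b₆) =
      x ^ 4 - W.b₄ * x ^ 2 - 2 * W.b₆ * x - W.b₈ := by
  by_cases hy : y = W.toAffine.negY x y
  · rw [Affine.Point.add_self_of_Y_eq hy] at hdbl
    exact absurd hdbl.symm (Affine.Point.some_ne_zero _)
  · rw [Affine.Point.add_self_of_Y_ne hy, Affine.Point.some.injEq] at hdbl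
    have e₃ := addX_slope_self_mul W hy
    rw [hdbl.1] at e₃
    exact raw_dbl W (eqn W h) e₃

/-- (X-dbl) Packaged duplication formula. -/
theorem two_nsmul_x_formula {x y : F} (h : W.toAffine.Nonsingular x y)
    (hy : y ≠ W.toAffine.negY x y) :
    ∃ (x₃ y₃ : F) (h₃ : W.toAffine.Nonsingular x₃ y₃),
      Affine.Point.some x y h + Affine.Point.some x y h = Affine.Point.some x₃ y₃ h₃ ∧
      x₃ * (4 * x ^ 3 + W.b₂ * x ^ 2 + 2 * W.b₄ * x + W.b₆) =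
        x ^ 4 - W.b₄ * x ^ 2 - 2 * W.b₆ * x - W.b₈ :=
  ⟨_, _, Affine.nonsingular_add h h (fun hxy => hy hxy.right), Affine.Point.add_self_of_Y_ne hy,
    x_add_self W (h := h) (Affine.Point.add_self_of_Y_ne hy)⟩

/-! ### Centred forms

`e` is a root of the 2-division polynomial (`b₆' = 0`), `X = x - e`, `b₂' = u`, `b₄' = 2β`
(then `b₈' = -β²` automatically, by `b_relation`, as soon as `2 ≠ 0`). -/

section centred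

variable {e u β : F}

omit [DecidableEq F] in
/-- Four times the centred `b₈` is `-4β²` (no hypothesis on the characteristic). -/
theorem four_mul_centred_b₈ (hb₄ : W.b₄ + e * W.b₂ + 6 * e ^ 2 = 2 * β)
    (hb₆ : W.b₆ + 2 * e * W.b₄ + e ^ 2 * W.b₂ + 4 * e ^ 3 = 0) :
    4 * (W.b₈ + 3 * e * W.b₆ + 3 * e ^ 2 * W.b₄ + e ^ 3 * W.b₂ + 3 * e ^ 4) = -4 * β ^ 2 := by
  have hr := W.b_relation
  linear_combination hr + (W.b₂ + 12 * e) * hb₆ - (W.b₄ + e * W.b₂ + 6 * e ^ 2 + 2 * β) * hb₄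

omit [DecidableEq F] in
/-- The centred `b₈` is `-β²`. -/
theorem centred_b₈ (h2 : (2 : F) ≠ 0) (hb₄ : W.b₄ + e * W.b₂ + 6 * e ^ 2 = 2 * β)
    (hb₆ : W.b₆ + 2 * e * W.b₄ + e ^ 2 * W.b₂ + 4 * e ^ 3 = 0) :
    W.b₈ + 3 * e * W.b₆ + 3 * e ^ 2 * W.b₄ + e ^ 3 * W.b₂ + 3 * e ^ 4 = -β ^ 2 := by
  have h4 : (4 : F) ≠ 0 := by
    have : (4 : F) = 2 * 2 := by norm_num
    rw [this]; exact mul_ne_zero h2 h2
  apply mul_left_cancel₀ h4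
  linear_combination four_mul_centred_b₈ W hb₄ hb₆

omit [DecidableEq F] in
/-- Centred form of `eta_sq`: `Y² = X (4X² + uX + 4β)` with `Y = 2y + a₁x + a₃`, `X = x - e`. -/
theorem centred_eta_sq (hb₂ : W.b₂ + 12 * e = u) (hb₄ : W.b₄ + e * W.b₂ + 6 * e ^ 2 = 2 * β)
    (hb₆ : W.b₆ + 2 * e * W.b₄ + e ^ 2 * W.b₂ + 4 * e ^ 3 = 0)
    {x y : F} (h : W.toAffine.Nonsingular x y) :
    (2 * y + W.a₁ * x + W.a₃) ^ 2 = (x - e) * (4 * (x - e) ^ 2 + u * (x - e) + 4 * β) := by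
  linear_combination eta_sq W h + (x - e) ^ 2 * hb₂ + 2 * (x - e) * hb₄ + hb₆

/-- (X1) Centred product formula: `X(P+Q) X(P-Q) (x₁ - x₂)² = (X₁ X₂ - β)²`. -/
theorem centred_prod (h2 : (2 : F) ≠ 0) (hb₄ : W.b₄ + e * W.b₂ + 6 * e ^ 2 = 2 * β)
    (hb₆ : W.b₆ + 2 * e * W.b₄ + e ^ 2 * W.b₂ + 4 * e ^ 3 = 0)
    {x₁ y₁ x₂ y₂ x₃ y₃ x₄ y₄ : F} {h₁ : W.toAffine.Nonsingular x₁ y₁}
    {h₂ : W.toAffine.Nonsingular x₂ y₂} {h₃ : W.toAffine.Nonsingular x₃ y₃}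
    {h₄ : W.toAffine.Nonsingular x₄ y₄} (hx : x₁ ≠ x₂)
    (hadd : Affine.Point.some x₁ y₁ h₁ + Affine.Point.some x₂ y₂ h₂ = Affine.Point.some x₃ y₃ h₃)
    (hsub : Affine.Point.some x₁ y₁ h₁ - Affine.Point.some x₂ y₂ h₂ = Affine.Point.some x₄ y₄ h₄) :
    (x₃ - e) * (x₄ - e) * (x₁ - x₂) ^ 2 = ((x₁ - e) * (x₂ - e) - β) ^ 2 := by
  have hP := x_add_mul_x_sub W hx hadd hsub
  have hS := x_add_add_x_sub W hx hadd hsub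
  have hb₈ := centred_b₈ W h2 hb₄ hb₆
  linear_combination hP - e * hS - (x₁ - e) * (x₂ - e) * hb₄ - ((x₁ - e) + (x₂ - e)) * hb₆ - hb₈

/-- (X2) Centred sum formula:
`(X(P+Q) + X(P-Q)) (x₁ - x₂)² = 2 (X₁ + X₂) (X₁ X₂ + β) + u X₁ X₂`. -/
theorem centred_sum (hb₂ : W.b₂ + 12 * e = u) (hb₄ : W.b₄ + e * W.b₂ + 6 * e ^ 2 = 2 * β)
    (hb₆ : W.b₆ + 2 * e * W.b₄ + e ^ 2 * W.b₂ + 4 * e ^ 3 = 0)
    {x₁ y₁ x₂ y₂ x₃ y₃ x₄ y₄ : F} {h₁ : W.toAffine.Nonsingular x₁ y₁}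
    {h₂ : W.toAffine.Nonsingular x₂ y₂} {h₃ : W.toAffine.Nonsingular x₃ y₃}
    {h₄ : W.toAffine.Nonsingular x₄ y₄} (hx : x₁ ≠ x₂)
    (hadd : Affine.Point.some x₁ y₁ h₁ + Affine.Point.some x₂ y₂ h₂ = Affine.Point.some x₃ y₃ h₃)
    (hsub : Affine.Point.some x₁ y₁ h₁ - Affine.Point.some x₂ y₂ h₂ = Affine.Point.some x₄ y₄ h₄) :
    ((x₃ - e) + (x₄ - e)) * (x₁ - x₂) ^ 2 =
      2 * ((x₁ - e) + (x₂ - e)) * ((x₁ - e) * (x₂ - e) + β) + u * ((x₁ - e) * (x₂ - e)) := by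
  have hS := x_add_add_x_sub W hx hadd hsub
  linear_combination hS + (x₁ - e) * (x₂ - e) * hb₂ + ((x₁ - e) + (x₂ - e)) * hb₄ + hb₆

/-- (X3) Centred duplication formula:
`X(2P) · (X (4X² + uX + 4β)) = (X² - β)²` (and `X (4X² + uX + 4β) = Y²` by `centred_eta_sq`). -/
theorem centred_dbl (h2 : (2 : F) ≠ 0) (hb₂ : W.b₂ + 12 * e = u)
    (hb₄ : W.b₄ + e * W.b₂ + 6 * e ^ 2 = 2 * β)
    (hb₆ : W.b₆ + 2 * e * W.b₄ + e ^ 2 * W.b₂ + 4 * e ^ 3 = 0)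
    {x y x₃ y₃ : F} {h : W.toAffine.Nonsingular x y} {h₃ : W.toAffine.Nonsingular x₃ y₃}
    (hdbl : Affine.Point.some x y h + Affine.Point.some x y h = Affine.Point.some x₃ y₃ h₃) :
    (x₃ - e) * ((x - e) * (4 * (x - e) ^ 2 + u * (x - e) + 4 * β)) = ((x - e) ^ 2 - β) ^ 2 := by
  have hD := x_add_self W hdbl
  have hb₈ := centred_b₈ W h2 hb₄ hb₆
  linear_combination hD - (x₃ - e) * ((x - e) ^ 2 * hb₂ + 2 * (x - e) * hb₄ + hb₆)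
    - (x - e) ^ 2 * hb₄ - 2 * (x - e) * hb₆ - hb₈

end centred

end XOnly

end Fermat.Agent.S05
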