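import Mathlib
import Fermat.Agent.S05.XOnly

/-!
# S05 / G1, x-coordinate-only version (helper8)

Kernel of reduction has no torsion of order prime to the residue characteristic,
proved with the x-only addition formulas alone (no `(t, w)` chart, no formal group).

Abstract core: `G` an additive commutative group, `xc : G → F` an "x-coordinate" satisfying the
classical x-only product formula and the duplication formula with coefficients in a valuation
subring `A` of `F`.  For `T ≠ 0` with `xc T ∉ A` put `u := (xc T)⁻¹`.  Then for every `k` there is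
`ρ ∈ A` with `1 / xc (k • T) = ρ * u` (`ρ = 0` if `k • T = 0`) and `ρ ≡ k ^ 2` modulo the maximal
ideal.
-/

namespace Fermat.Agent.S05.KerRedX

open IsLocalRing

section Core

variable {F : Type*} [Field F] (A : ValuationSubring F)

theorem residue_eq_zero_of_mem_nonunits {a : A} (h : (a : F) ∈ A.nonunits) :
    residue A a = 0 := by
  rw [IsLocalRing.residue_eq_zero_iff]
  exact ValuationSubring.coe_mem_nonunits_iff.mp h

theorem exists_mul_eq_one_of_residue_eq_one {D : A} (h : residue A D = 1) :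
    ∃ Di : A, D * Di = 1 ∧ residue A Di = 1 := by
  have hu : IsUnit D := by
    rw [← IsLocalRing.notMem_maximalIdeal, ← IsLocalRing.residue_eq_zero_iff, h]
    exact one_ne_zero
  obtain ⟨Di, hDi⟩ := hu.exists_right_inv
  refine ⟨Di, hDi, ?_⟩
  have := congrArg (residue A) hDi
  rw [map_mul, h, one_mul, map_one] at this
  exact this

theorem coe_two' : ((2 : A) : F) = 2 := rfl

theorem coe_four' : ((4 : A) : F) = 4 := rfl

variable {G : Type*} [AddCommGroup G] (xc : G → F) (b₂ b₄ b₆ b₈ : A)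

/-- The abstract x-only hypotheses. -/
structure XData : Prop where
  hneg : ∀ P, xc (-P) = xc P
  hinj : ∀ P Q, P ≠ 0 → Q ≠ 0 → xc P = xc Q → P = Q ∨ P = -Q
  hadd : ∀ P Q, P ≠ 0 → Q ≠ 0 → xc P ≠ xc Q →
    xc (P + Q) * xc (P - Q) * (xc P - xc Q) ^ 2 =
      xc P ^ 2 * xc Q ^ 2 - (b₄ : F) * xc P * xc Q - (b₆ : F) * (xc P + xc Q) - (b₈ : F)
  hdbl0 : ∀ P, P ≠ 0 → 2 • P = 0 →
    4 * xc P ^ 3 + (b₂ : F) * xc P ^ 2 + 2 * (b₄ : F) * xc P + (b₆ : F) = 0
  hdbl : ∀ P, P ≠ 0 → 2 • P ≠ 0 →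
    xc (2 • P) * (4 * xc P ^ 3 + (b₂ : F) * xc P ^ 2 + 2 * (b₄ : F) * xc P + (b₆ : F)) =
      xc P ^ 4 - (b₄ : F) * xc P ^ 2 - 2 * (b₆ : F) * xc P - (b₈ : F)

/-- the induction predicate -/
def Good (T : G) (u : A) (k : ℕ) : Prop :=
  ∃ ρ : A, (k • T = 0 → ρ = 0) ∧ (k • T ≠ 0 → xc (k • T) * ((ρ : F) * (u : F)) = 1) ∧
    residue A ρ = (k : ResidueField A) ^ 2

variable {A xc b₂ b₄ b₆ b₈}

theorem good_zero (T : G) (u : A) : Good A xc T u 0 :=
  ⟨0, fun _ => rfl, fun h => absurd (zero_nsmul T) h, by simp⟩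

theorem good_one (T : G) (u : A) (hT : T ≠ 0) (hxu : xc T * (u : F) = 1) : Good A xc T u 1 :=
  ⟨1, fun h => absurd (by rwa [one_nsmul] at h) hT,
    fun _ => by rw [one_nsmul]; simpa using hxu, by simp⟩

theorem good_double (hX : XData A xc b₂ b₄ b₆ b₈) (T : G) (u : A)
    (hu : (u : F) ∈ A.nonunits) (a : ℕ) (ha : Good A xc T u a) : Good A xc T u (2 * a) := by
  obtain ⟨ρ, h0, h1, hres⟩ := ha
  have hur : residue A u = 0 := residue_eq_zero_of_mem_nonunits A hu
  by_cases hP : a • T = 0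
  · refine ⟨0, fun _ => rfl, fun h => absurd (by rw [mul_nsmul', hP, nsmul_zero]) h, ?_⟩
    have hρ := h0 hP
    rw [hρ, map_zero] at hres
    rw [map_zero]
    push_cast
    rw [mul_pow, ← hres, mul_zero]
  · set t : A := ρ * u with ht_def
    have ht : xc (a • T) * (t : F) = 1 := by
      have := h1 hP
      rw [ht_def]; push_cast; exact this
    have htr : residue A t = 0 := by rw [ht_def, map_mul, hur, mul_zero]
    have ht0 : (t : F) ≠ 0 := right_ne_zero_of_mul_eq_one ht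
    have hx : xc (a • T) = (t : F)⁻¹ := eq_inv_of_mul_eq_one_left ht
    by_cases h2 : 2 • (a • T) = 0
    · have h := hX.hdbl0 _ hP h2
      have h4 : (4 + b₂ * t + 2 * b₄ * t ^ 2 + b₆ * t ^ 3 : A) = 0 := by
        apply Subtype.ext
        push_cast
        rw [coe_two', coe_four']
        rw [hx] at h
        field_simp at h
        linear_combination h
      have h4r : (4 : ResidueField A) = 0 := by
        have := congrArg (residue A) h4
        simp only [map_add, map_mul, map_pow, htr, map_zero, mul_zero, add_zero, ne_eq,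
          OfNat.ofNat_ne_zero, not_false_eq_true, zero_pow, map_ofNat] at this
        exact this
      refine ⟨0, fun _ => rfl, fun h => absurd (by rw [mul_nsmul', h2]) h, ?_⟩
      rw [map_zero]
      push_cast
      rw [mul_pow]
      have : (2 : ResidueField A) ^ 2 = 4 := by norm_num
      rw [this, h4r, zero_mul]
    · have h := hX.hdbl _ hP h2
      set D : A := 1 - b₄ * t ^ 2 - 2 * b₆ * t ^ 3 - b₈ * t ^ 4 with hD_def
      have hDr : residue A D = 1 := by
        rw [hD_def]; simp [htr]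
      obtain ⟨Di, hDi, hDir⟩ := exists_mul_eq_one_of_residue_eq_one A hDr
      have hDiF : (D : F) * (Di : F) = 1 := by exact_mod_cast congrArg (Subtype.val) hDi
      have hkey : xc (2 • a • T) * (t : F) * (4 + b₂ * t + 2 * b₄ * t ^ 2 + b₆ * t ^ 3 : F) = (D : F) := by
        rw [hD_def]
        push_cast
        rw [coe_two']
        rw [hx] at h
        field_simp at h
        linear_combination h
      refine ⟨ρ * (4 + b₂ * t + 2 * b₄ * t ^ 2 + b₆ * t ^ 3) * Di, fun h => absurd (by rwa [mul_nsmul'] at h) h2,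
        fun _ => ?_, ?_⟩
      · rw [mul_nsmul']
        have ht' : (t : F) = (ρ : F) * (u : F) := by rw [ht_def]; push_cast; rfl
        push_cast
        simp only [coe_two', coe_four']
        linear_combination (Di : F) * hkey + hDiF -
          (xc (2 • a • T) * (4 + b₂ * t + 2 * b₄ * t ^ 2 + b₆ * t ^ 3 : F) * (Di : F)) * ht'
      · simp only [map_mul, map_add, map_pow, htr, hDir, hres, mul_zero, add_zero, ne_eq,
          OfNat.ofNat_ne_zero, not_false_eq_true, zero_pow, map_ofNat, mul_one]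
        push_cast
        ring

theorem good_odd (hX : XData A xc b₂ b₄ b₆ b₈) (T : G) (u : A) (hT : T ≠ 0)
    (hu : (u : F) ∈ A.nonunits) (hxu : xc T * (u : F) = 1) (b : ℕ)
    (hb : Good A xc T u b) (hb1 : Good A xc T u (b + 1)) : Good A xc T u (2 * b + 1) := by
  obtain ⟨ρb, hb0, hb1', hbres⟩ := hb
  obtain ⟨ρa, ha0, ha1, hares⟩ := hb1
  have hur : residue A u = 0 := residue_eq_zero_of_mem_nonunits A hu
  have hu0 : (u : F) ≠ 0 := right_ne_zero_of_mul_eq_one hxu
  have hsum : (2 * b + 1) • T = (b + 1) • T + b • T := by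
    rw [← add_nsmul]; congr 1; ring
  have hdiff : (b + 1) • T - b • T = T := by
    rw [add_nsmul, one_nsmul]; abel
  by_cases hQ : b • T = 0
  · have hn : (2 * b + 1) • T = T := by
      rw [hsum, add_nsmul, hQ, one_nsmul]; simp
    refine ⟨1, fun h => absurd (hn ▸ h) hT, fun _ => by rw [hn]; simpa using hxu, ?_⟩
    have hρ := hb0 hQ
    rw [hρ, map_zero] at hbres
    have hb' : (b : ResidueField A) = 0 := (pow_eq_zero_iff two_ne_zero).mp hbres.symm
    rw [map_one]; push_cast; rw [hb']; ring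
  by_cases hP : (b + 1) • T = 0
  · have hbT : b • T = -T := by
      have h1 : (b + 1) • T = b • T + T := by rw [add_nsmul, one_nsmul]
      rw [h1] at hP
      exact eq_neg_of_add_eq_zero_left hP
    have hn : (2 * b + 1) • T = -T := by rw [hsum, hP, hbT, zero_add]
    refine ⟨1, fun h => absurd (neg_eq_zero.mp (hn ▸ h)) hT,
      fun _ => by rw [hn, hX.hneg]; simpa using hxu, ?_⟩
    have hρ := ha0 hP
    rw [hρ, map_zero] at hares
    have ha' : ((b + 1 : ℕ) : ResidueField A) = 0 :=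
      (pow_eq_zero_iff two_ne_zero).mp hares.symm
    push_cast at ha'
    have hb' : (b : ResidueField A) = -1 := eq_neg_of_add_eq_zero_left ha'
    rw [map_one]; push_cast; rw [hb']; ring
  · have hta : xc ((b + 1) • T) * ((ρa : F) * (u : F)) = 1 := ha1 hP
    have htb : xc (b • T) * ((ρb : F) * (u : F)) = 1 := hb1' hQ
    by_cases hxx : xc ((b + 1) • T) = xc (b • T)
    · rcases hX.hinj _ _ hP hQ hxx with h | h
      · exfalso; apply hT; rw [← hdiff, h, sub_self]
      · have hn : (2 * b + 1) • T = 0 := by rw [hsum, h]; simp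
        refine ⟨0, fun _ => rfl, fun h => absurd hn h, ?_⟩
        have hρF : (ρa : F) = ρb := by
          rw [hxx] at hta
          have hxb0 : xc (b • T) ≠ 0 := left_ne_zero_of_mul_eq_one htb
          have h3 := mul_left_cancel₀ hxb0 (hta.trans htb.symm)
          exact mul_right_cancel₀ hu0 h3
        have hρ : ρa = ρb := Subtype.ext hρF
        rw [hρ, hbres] at hares
        rw [map_zero]
        push_cast at hares ⊢
        have h0 : (2 * (b : ResidueField A) + 1) = 0 := by linear_combination -hares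
        rw [h0]; ring
    · have h := hX.hadd _ _ hP hQ hxx
      rw [← hsum, hdiff] at h
      set ta : A := ρa * u with hta_def
      set tb : A := ρb * u with htb_def
      have htar : residue A ta = 0 := by rw [hta_def, map_mul, hur, mul_zero]
      have htbr : residue A tb = 0 := by rw [htb_def, map_mul, hur, mul_zero]
      set D : A := 1 - b₄ * ta * tb - b₆ * ta * tb * (ta + tb) - b₈ * ta ^ 2 * tb ^ 2 with hD_def
      have hDr : residue A D = 1 := by
        rw [hD_def]; simp [htar, htbr]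
      obtain ⟨Di, hDi, hDir⟩ := exists_mul_eq_one_of_residue_eq_one A hDr
      have hDiF : (D : F) * (Di : F) = 1 := by exact_mod_cast congrArg (Subtype.val) hDi
      have hnT : (2 * b + 1) • T ≠ 0 := by
        intro h0
        apply hxx
        rw [hsum] at h0
        have h1 : (b + 1) • T = -(b • T) := eq_neg_of_add_eq_zero_left h0
        rw [h1, hX.hneg]
      have hρa0 : (ρa : F) ≠ 0 := left_ne_zero_of_mul (right_ne_zero_of_mul_eq_one hta)
      have hρb0 : (ρb : F) ≠ 0 := left_ne_zero_of_mul (right_ne_zero_of_mul_eq_one htb)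
      have hxa : xc ((b + 1) • T) = ((ρa : F) * (u : F))⁻¹ := eq_inv_of_mul_eq_one_left hta
      have hxb : xc (b • T) = ((ρb : F) * (u : F))⁻¹ := eq_inv_of_mul_eq_one_left htb
      have hxT : xc T = (u : F)⁻¹ := eq_inv_of_mul_eq_one_left hxu
      have hkey : xc ((2 * b + 1) • T) * (u : F) * ((ρa : F) - (ρb : F)) ^ 2 = (D : F) := by
        rw [hD_def, hta_def, htb_def]
        push_cast
        rw [hxa, hxb, hxT] at h
        field_simp at h
        linear_combination h
      refine ⟨(ρa - ρb) ^ 2 * Di, fun h => absurd h hnT, fun _ => ?_, ?_⟩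
      · push_cast
        linear_combination (Di : F) * hkey + hDiF
      · simp only [map_mul, map_sub, map_pow, hDir, hares, hbres, mul_one]
        push_cast
        ring

theorem good_all (hX : XData A xc b₂ b₄ b₆ b₈) (T : G) (u : A) (hT : T ≠ 0)
    (hu : (u : F) ∈ A.nonunits) (hxu : xc T * (u : F) = 1) (k : ℕ) : Good A xc T u k := by
  induction k using Nat.strong_induction_on with
  | _ k ih =>
    rcases Nat.even_or_odd' k with ⟨m, rfl | rfl⟩
    · rcases Nat.eq_zero_or_pos m with rfl | hm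
      · exact good_zero T u
      · exact good_double hX T u hu m (ih m (by omega))
    · rcases Nat.eq_zero_or_pos m with rfl | hm
      · exact good_one T u hT hxu
      · exact good_odd hX T u hT hu hxu m (ih m (by omega)) (ih (m + 1) (by omega))

/-- **x-only G1, abstract form**: if `xc T ∉ A` and `n • T = 0` then `n` is a non-unit of `A`
(i.e. the residue characteristic divides `n`). -/
theorem natCast_mem_nonunits_of_nsmul_eq_zero (hX : XData A xc b₂ b₄ b₆ b₈) (T : G) (hT : T ≠ 0)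
    (hx : xc T ∉ A) (n : ℕ) (hn : n • T = 0) : (n : F) ∈ A.nonunits := by
  have hx0 : xc T ≠ 0 := fun h => hx (h ▸ A.zero_mem)
  have hu : (xc T)⁻¹ ∈ A.nonunits := A.inv_mem_nonunits_iff.mpr (Or.inr hx)
  obtain ⟨ρ, h0, -, hres⟩ := good_all hX T ⟨(xc T)⁻¹, A.nonunits_subset hu⟩ hT hu
    (mul_inv_cancel₀ hx0) n
  rw [h0 hn, map_zero] at hres
  have hn0 : (n : ResidueField A) = 0 := (pow_eq_zero_iff two_ne_zero).mp hres.symm
  have hn1 : residue A (n : A) = 0 := by rw [map_natCast]; exact hn0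
  rw [IsLocalRing.residue_eq_zero_iff] at hn1
  have := ValuationSubring.coe_mem_nonunits_iff.mpr hn1
  exact_mod_cast this

/-- multiples of a point of the kernel of reduction stay in the kernel of reduction. -/
theorem xc_nsmul_notMem (hX : XData A xc b₂ b₄ b₆ b₈) (T : G) (hT : T ≠ 0)
    (hx : xc T ∉ A) (k : ℕ) (hk : k • T ≠ 0) : xc (k • T) ∉ A := by
  have hx0 : xc T ≠ 0 := fun h => hx (h ▸ A.zero_mem)
  have hu : (xc T)⁻¹ ∈ A.nonunits := A.inv_mem_nonunits_iff.mpr (Or.inr hx)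
  obtain ⟨ρ, -, h1, -⟩ := good_all hX T ⟨(xc T)⁻¹, A.nonunits_subset hu⟩ hT hu
    (mul_inv_cancel₀ hx0) k
  have h := h1 hk
  intro hmem
  have h2 : xc (k • T) * ((ρ : F) * (xc T)⁻¹) ∈ A.nonunits := by
    rw [ValuationSubring.mem_nonunits_iff] at hu ⊢
    rw [map_mul, map_mul]
    have ha := (A.valuation_le_one_iff _).mpr hmem
    have hb := A.valuation_le_one ρ
    calc A.valuation (xc (k • T)) * (A.valuation (ρ : F) * A.valuation (xc T)⁻¹)
        ≤ 1 * (1 * A.valuation (xc T)⁻¹) := by gcongr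
      _ < 1 := by simpa using hu
  rw [h, ValuationSubring.mem_nonunits_iff, map_one] at h2
  exact lt_irrefl _ h2

end Core

section Concrete

open WeierstrassCurve

variable {F : Type*} [Field F] (W : WeierstrassCurve F)

/-- The x-coordinate of a point, with junk value `0` at the origin. -/
def xc : W.toAffine.Point → F
  | .zero => 0
  | .some x _ _ => x

@[simp] theorem xc_some {x y : F} (h : W.toAffine.Nonsingular x y) :
    xc W (Affine.Point.some x y h) = x := rfl

theorem xc_neg (P : W.toAffine.Point) : xc W (-P) = xc W P := by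
  cases P <;> rfl

theorem b₂_mem (A : ValuationSubring F) (ha₁ : W.a₁ ∈ A) (ha₂ : W.a₂ ∈ A) : W.b₂ ∈ A := by
  rw [WeierstrassCurve.b₂]
  exact A.add_mem _ _ (pow_mem ha₁ 2) (A.mul_mem _ _ (ofNat_mem A 4) ha₂)

theorem b₄_mem (A : ValuationSubring F) (ha₁ : W.a₁ ∈ A) (ha₃ : W.a₃ ∈ A) (ha₄ : W.a₄ ∈ A) : W.b₄ ∈ A := by
  rw [WeierstrassCurve.b₄]
  exact A.add_mem _ _ (A.mul_mem _ _ (ofNat_mem A 2) ha₄) (A.mul_mem _ _ ha₁ ha₃)

theorem b₆_mem (A : ValuationSubring F) (ha₃ : W.a₃ ∈ A) (ha₆ : W.a₆ ∈ A) : W.b₆ ∈ A := by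
  rw [WeierstrassCurve.b₆]
  exact A.add_mem _ _ (pow_mem ha₃ 2) (A.mul_mem _ _ (ofNat_mem A 4) ha₆)

theorem b₈_mem (A : ValuationSubring F) (ha₁ : W.a₁ ∈ A) (ha₂ : W.a₂ ∈ A) (ha₃ : W.a₃ ∈ A) (ha₄ : W.a₄ ∈ A)
    (ha₆ : W.a₆ ∈ A) : W.b₈ ∈ A := by
  rw [WeierstrassCurve.b₈]
  refine sub_mem (A.add_mem _ _ (sub_mem (A.add_mem _ _ ?_ ?_) ?_) ?_) (pow_mem ha₄ 2)
  · exact A.mul_mem _ _ (pow_mem ha₁ 2) ha₆
  · exact A.mul_mem _ _ (A.mul_mem _ _ (ofNat_mem A 4) ha₂) ha₆
  · exact A.mul_mem _ _ (A.mul_mem _ _ ha₁ ha₃) ha₄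
  · exact A.mul_mem _ _ ha₂ (pow_mem ha₃ 2)

variable [DecidableEq F]

/-- Mathlib's point group satisfies the abstract x-only hypotheses. -/
theorem xData (A : ValuationSubring F) (hb₂ : W.b₂ ∈ A) (hb₄ : W.b₄ ∈ A) (hb₆ : W.b₆ ∈ A)
    (hb₈ : W.b₈ ∈ A) :
    XData A (xc W) ⟨W.b₂, hb₂⟩ ⟨W.b₄, hb₄⟩ ⟨W.b₆, hb₆⟩ ⟨W.b₈, hb₈⟩ where
  hneg := xc_neg W
  hinj := by
    rintro (_ | ⟨x₁, y₁, h₁⟩) (_ | ⟨x₂, y₂, h₂⟩) hP hQ hx
    · exact absurd rfl hP
    · exact absurd rfl hP
    · exact absurd rfl hQ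
    · exact Affine.Point.X_eq_iff.mp hx
  hadd := by
    rintro (_ | ⟨x₁, y₁, h₁⟩) (_ | ⟨x₂, y₂, h₂⟩) hP hQ hx
    · exact absurd rfl hP
    · exact absurd rfl hP
    · exact absurd rfl hQ
    · obtain ⟨x₃, y₃, x₄, y₄, h₃, h₄, hadd, hsub, hprod, -⟩ :=
        XOnly.add_sub_x_formulas W h₁ h₂ hx
      rw [hadd, hsub]
      exact hprod
  hdbl0 := by
    rintro (_ | ⟨x, y, h⟩) hP h2
    · exact absurd rfl hP
    · rw [two_nsmul] at h2
      have h3 := (XOnly.add_self_eq_zero_iff W h).mp h2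
      rw [XOnly.y_eq_negY_iff] at h3
      have e := XOnly.eta_sq W h
      rw [h3] at e
      simp only [xc_some]
      linear_combination -e
  hdbl := by
    rintro (_ | ⟨x, y, h⟩) hP h2
    · exact absurd rfl hP
    · rw [two_nsmul] at h2 ⊢
      have hy : y ≠ W.toAffine.negY x y :=
        fun hy => h2 ((XOnly.add_self_eq_zero_iff W h).mpr hy)
      obtain ⟨x₃, y₃, h₃, hd, hf⟩ := XOnly.two_nsmul_x_formula W h hy
      rw [hd]
      exact hf

variable (A : ValuationSubring F)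

/-- **G1 (x-only proof), `b`-invariant form.**  If the `b`-invariants are integral, `x ∉ A` and
`n • (x, y) = 0`, then `n` lies in the maximal ideal. -/
theorem natCast_mem_nonunits_of_nsmul_some_eq_zero (hb₂ : W.b₂ ∈ A) (hb₄ : W.b₄ ∈ A)
    (hb₆ : W.b₆ ∈ A) (hb₈ : W.b₈ ∈ A) (n : ℕ) {x y : F} (h : W.toAffine.Nonsingular x y)
    (hx : x ∉ A) (hn : n • Affine.Point.some x y h = 0) : (n : F) ∈ A.nonunits :=
  natCast_mem_nonunits_of_nsmul_eq_zero (xData W A hb₂ hb₄ hb₆ hb₈) (Affine.Point.some x y h)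
    (Affine.Point.some_ne_zero h) hx n hn

/-- Multiples of a point with non-integral `x` are `0` or have non-integral `x`. -/
theorem x_notMem_of_nsmul_some_eq_some (hb₂ : W.b₂ ∈ A) (hb₄ : W.b₄ ∈ A)
    (hb₆ : W.b₆ ∈ A) (hb₈ : W.b₈ ∈ A) (k : ℕ) {x y x' y' : F} (h : W.toAffine.Nonsingular x y)
    (h' : W.toAffine.Nonsingular x' y')
    (hx : x ∉ A) (hk : k • Affine.Point.some x y h = Affine.Point.some x' y' h') : x' ∉ A := by
  have := xc_nsmul_notMem (xData W A hb₂ hb₄ hb₆ hb₈) (Affine.Point.some x y h)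
    (Affine.Point.some_ne_zero h) hx k (by rw [hk]; exact Affine.Point.some_ne_zero h')
  rwa [hk] at this

end Concrete

section Final

open WeierstrassCurve

/-- **G1 (x-only proof).**  The kernel of reduction has no `n`-torsion for `n` a unit of `A`
(stated as: `n` not in the maximal ideal).  Any residue characteristic. -/
theorem nsmul_ne_zero_of_x_notMem_of_notMem_nonunits {F : Type*} [Field F] [DecidableEq F]
    (A : ValuationSubring F) (W : WeierstrassCurve F) (ha₁ : W.a₁ ∈ A) (ha₂ : W.a₂ ∈ A)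
    (ha₃ : W.a₃ ∈ A) (ha₄ : W.a₄ ∈ A) (ha₆ : W.a₆ ∈ A) (n : ℕ) (hn : (n : F) ∉ A.nonunits)
    {x y : F} (h : W.toAffine.Nonsingular x y) (hx : x ∉ A) :
    n • Affine.Point.some x y h ≠ 0 := fun h0 =>
  hn (natCast_mem_nonunits_of_nsmul_some_eq_zero W A (b₂_mem W A ha₁ ha₂)
    (b₄_mem W A ha₁ ha₃ ha₄) (b₆_mem W A ha₃ ha₆) (b₈_mem W A ha₁ ha₂ ha₃ ha₄ ha₆) n h hx h0)

/-- **G1 (x-only proof)**, in the shape of the S05 assembly (plus the necessary `n ≠ 0` in `F`):
`n ≠ 0` in `F` and `n⁻¹ ∈ A`. -/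
theorem nsmul_ne_zero_of_x_notMem {F : Type*} [Field F] [DecidableEq F]
    (A : ValuationSubring F) (W : WeierstrassCurve F) (ha₁ : W.a₁ ∈ A) (ha₂ : W.a₂ ∈ A)
    (ha₃ : W.a₃ ∈ A) (ha₄ : W.a₄ ∈ A) (ha₆ : W.a₆ ∈ A) (n : ℕ) (hn0 : (n : F) ≠ 0)
    (hn : (n : F)⁻¹ ∈ A) {x y : F} (h : W.toAffine.Nonsingular x y) (hx : x ∉ A) :
    n • Affine.Point.some x y h ≠ 0 := by
  refine nsmul_ne_zero_of_x_notMem_of_notMem_nonunits A W ha₁ ha₂ ha₃ ha₄ ha₆ n ?_ h hx
  intro hmem
  rw [A.mem_nonunits_iff_or] at hmem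
  rcases hmem with h0 | h1
  · exact hn0 h0
  · exact h1 hn

/-- **G1, contraposed** (the `hG1` hypothesis of `Inertia.inertia_fixed_of_torsion`):
an `n`-torsion point, `n` a unit of `A`, has integral `x`. -/
theorem x_mem_of_nsmul_eq_zero {F : Type*} [Field F] [DecidableEq F]
    (A : ValuationSubring F) (W : WeierstrassCurve F) (ha₁ : W.a₁ ∈ A) (ha₂ : W.a₂ ∈ A)
    (ha₃ : W.a₃ ∈ A) (ha₄ : W.a₄ ∈ A) (ha₆ : W.a₆ ∈ A) (n : ℕ) (hn : (n : F) ∉ A.nonunits)
    {x y : F} (h : W.toAffine.Nonsingular x y) (h0 : n • Affine.Point.some x y h = 0) : x ∈ A := by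
  by_contra hx
  exact nsmul_ne_zero_of_x_notMem_of_notMem_nonunits A W ha₁ ha₂ ha₃ ha₄ ha₆ n hn h hx h0

end Final

end Fermat.Agent.S05.KerRedX
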