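/-
S05: points with nonsingular reduction on an integral Weierstrass model over a valuation subring.
* `NonsingRed.sub_some_x_notMem`: if `T` is integral with nonsingular reduction and `T' ≠ T` is
  congruent to `T` modulo the maximal ideal, then `T' - T` is not integral (it lies in the kernel
  of reduction).
* `NonsingRed.not_both_mem_nonunits_of_Δ`: if `Δ` is a unit, every integral point has
  nonsingular reduction.
* `NonsingRed.y_mem_of_x_mem`: a point with integral `x` has integral `y`.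
Owner: helper12.
-/
import Mathlib

set_option autoImplicit false

open WeierstrassCurve WeierstrassCurve.Affine

namespace Fermat.Agent.S05

namespace NonsingRed

variable {F : Type*} [Field F] (A : ValuationSubring F)

/-! ### Small facts on valuation subrings -/

theorem one_notMem_nonunits : (1 : F) ∉ A.nonunits := by
  rw [A.mem_nonunits_iff, map_one]
  exact lt_irrefl _

theorem mul_mem_nonunits_left {a x : F} (ha : a ∈ A) (hx : x ∈ A.nonunits) :
    a * x ∈ A.nonunits := by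
  rw [A.mem_nonunits_iff] at hx ⊢
  rw [map_mul]
  exact mul_lt_one_of_nonneg_of_lt_one_right ((A.valuation_le_one_iff _).mpr ha) zero_le hx

theorem mul_mem_nonunits_right {a x : F} (hx : x ∈ A.nonunits) (ha : a ∈ A) :
    x * a ∈ A.nonunits := by
  rw [mul_comm]
  exact mul_mem_nonunits_left A ha hx

/-- A unit plus an element of the maximal ideal is a unit. -/
theorem add_notMem_nonunits {u m : F} (hu : u ∉ A.nonunits) (hm : m ∈ A.nonunits) :
    u + m ∉ A.nonunits := by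
  intro h
  apply hu
  have := sub_mem h hm
  rwa [add_sub_cancel_right] at this

theorem inv_mem_of_notMem_nonunits {z : F} (hz : z ∉ A.nonunits) : z⁻¹ ∈ A := by
  rw [A.mem_nonunits_iff, not_lt] at hz
  rw [← A.valuation_le_one_iff, map_inv₀]
  exact inv_le_one_of_one_le₀ hz

theorem ne_zero_of_notMem_nonunits {z : F} (hz : z ∉ A.nonunits) : z ≠ 0 := by
  rintro rfl
  apply hz
  rw [A.mem_nonunits_iff, map_zero]
  exact zero_lt_one

/-- A unit divided by a nonzero element of the maximal ideal is not integral. -/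
theorem div_notMem {n d : F} (hn : n ∉ A.nonunits) (hd : d ∈ A.nonunits) (hd0 : d ≠ 0) :
    n / d ∉ A := by
  have hn0 : n ≠ 0 := ne_zero_of_notMem_nonunits A hn
  have h1 : (n / d)⁻¹ ∈ A.nonunits := by
    rw [inv_div, div_eq_mul_inv]
    exact mul_mem_nonunits_right A hd (inv_mem_of_notMem_nonunits A hn)
  rcases A.inv_mem_nonunits_iff.mp h1 with h | h
  · exact absurd h (div_ne_zero hn0 hd0)
  · exact h

variable (W : WeierstrassCurve F)

/-- If the slope is not integral, neither is the `x`-coordinate of the sum. -/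
theorem addX_notMem (ha₁ : W.a₁ ∈ A) (ha₂ : W.a₂ ∈ A) {x₁ x₂ ℓ : F} (hx₁ : x₁ ∈ A)
    (hx₂ : x₂ ∈ A) (hℓ : ℓ ∉ A) : W.toAffine.addX x₁ x₂ ℓ ∉ A := by
  intro h
  have hℓ0 : ℓ ≠ 0 := fun h0 => hℓ (h0 ▸ zero_mem A)
  have hinv : ℓ⁻¹ ∈ A.nonunits := A.inv_mem_nonunits_iff.mpr (Or.inr hℓ)
  have hS : W.toAffine.addX x₁ x₂ ℓ + W.a₂ + x₁ + x₂ ∈ A :=
    add_mem (add_mem (add_mem h ha₂) hx₁) hx₂
  have h1 : (1 : F) = ℓ⁻¹ * ((W.toAffine.addX x₁ x₂ ℓ + W.a₂ + x₁ + x₂) * ℓ⁻¹ - W.a₁) := by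
    simp only [addX]
    field_simp
    ring
  apply one_notMem_nonunits A
  rw [h1]
  exact mul_mem_nonunits_right A hinv (sub_mem (mul_mem hS (A.nonunits_le hinv)) ha₁)

/-- A point with integral `x`-coordinate has integral `y`-coordinate. -/
theorem y_mem_of_x_mem (ha₁ : W.a₁ ∈ A) (ha₂ : W.a₂ ∈ A) (ha₃ : W.a₃ ∈ A) (ha₄ : W.a₄ ∈ A)
    (ha₆ : W.a₆ ∈ A) {x y : F} (h : W.toAffine.Equation x y) (hx : x ∈ A) : y ∈ A := by
  by_contra hy
  have hy0 : y ≠ 0 := fun h0 => hy (h0 ▸ zero_mem A)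
  have hinv : y⁻¹ ∈ A.nonunits := A.inv_mem_nonunits_iff.mpr (Or.inr hy)
  rw [equation_iff] at h
  have h1 : (1 : F) = y⁻¹ * ((x ^ 3 + W.a₂ * x ^ 2 + W.a₄ * x + W.a₆) * y⁻¹
      - (W.a₁ * x + W.a₃)) := by
    rw [← h]
    field_simp
    ring
  apply one_notMem_nonunits A
  rw [h1]
  refine mul_mem_nonunits_right A hinv (sub_mem (mul_mem ?_ (A.nonunits_le hinv)) ?_)
  · exact add_mem (add_mem (add_mem (pow_mem hx 3) (mul_mem ha₂ (pow_mem hx 2)))
      (mul_mem ha₄ hx)) ha₆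
  · exact add_mem (mul_mem ha₁ hx) ha₃

variable [DecidableEq F]

/-- **Nonsingular difference.** Let `T = (x, y)` be an integral point whose reduction is
nonsingular and `T' = (x', y') ≠ T` a point congruent to `T` modulo the maximal ideal.  Then the
`x`-coordinate of `T' - T` is not integral. -/
theorem sub_some_x_notMem (ha₁ : W.a₁ ∈ A) (ha₂ : W.a₂ ∈ A)
    {x y x' y' : F} (h : W.toAffine.Nonsingular x y) (h' : W.toAffine.Nonsingular x' y')
    (hx : x ∈ A) (hy : y ∈ A) (hdx : x' - x ∈ A.nonunits) (hdy : y' - y ∈ A.nonunits)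
    (hns : W.a₁ * y - (3 * x ^ 2 + 2 * W.a₂ * x + W.a₄) ∉ A.nonunits ∨
      2 * y + W.a₁ * x + W.a₃ ∉ A.nonunits)
    (hne : Point.some x' y' h' ≠ Point.some x y h) :
    ∃ (x₃ y₃ : F) (h₃ : W.toAffine.Nonsingular x₃ y₃),
      Point.some x' y' h' - Point.some x y h = Point.some x₃ y₃ h₃ ∧ x₃ ∉ A := by
  have hx' : x' ∈ A := by
    have := add_mem (A.nonunits_le hdx) hx
    rwa [sub_add_cancel] at this
  have hy' : y' ∈ A := by
    have := add_mem (A.nonunits_le hdy) hy
    rwa [sub_add_cancel] at this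
  have heq := (equation_iff ..).mp h.1
  have heq' := (equation_iff ..).mp h'.1
  -- the unit `-W_X + a₁ W_Y` when `W_Y` is in the maximal ideal
  have hunit : 2 * y + W.a₁ * x + W.a₃ ∈ A.nonunits →
      3 * x ^ 2 + 2 * W.a₂ * x + W.a₄ + W.a₁ * y + W.a₁ * (W.a₁ * x + W.a₃) ∉ A.nonunits := by
    intro hWY
    have hWX : W.a₁ * y - (3 * x ^ 2 + 2 * W.a₂ * x + W.a₄) ∉ A.nonunits := by
      rcases hns with h1 | h1
      · exact h1
      · exact absurd hWY h1
    have h2 : -(W.a₁ * y - (3 * x ^ 2 + 2 * W.a₂ * x + W.a₄)) ∉ A.nonunits := fun h3 =>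
      hWX (by simpa using neg_mem h3)
    have h3 := add_notMem_nonunits A h2 (mul_mem_nonunits_left A ha₁ hWY)
    have h4 : -(W.a₁ * y - (3 * x ^ 2 + 2 * W.a₂ * x + W.a₄)) +
        W.a₁ * (2 * y + W.a₁ * x + W.a₃) =
        3 * x ^ 2 + 2 * W.a₂ * x + W.a₄ + W.a₁ * y + W.a₁ * (W.a₁ * x + W.a₃) := by ring
    rwa [h4] at h3
  rw [sub_eq_add_neg, Point.neg_some]
  by_cases hxx : x' = x
  · -- `T' = -T`
    have hyy : y' = W.toAffine.negY x y := by
      rcases Y_eq_of_X_eq h'.1 h.1 hxx with hyy | hyy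
      · exfalso
        apply hne
        subst hxx
        subst hyy
        rfl
      · exact hyy
    have hyne : y' ≠ y := by
      intro hyy'
      apply hne
      subst hxx
      subst hyy'
      rfl
    have hYne : y' ≠ W.toAffine.negY x (W.toAffine.negY x y) := by
      rw [negY_negY]
      exact hyne
    rw [Point.add_of_Y_ne hYne]
    refine ⟨_, _, _, rfl, ?_⟩
    apply addX_notMem A W ha₁ ha₂ hx' hx
    rw [slope_of_Y_ne hxx hYne]
    -- numerator and denominator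
    have hWY : 2 * y + W.a₁ * x + W.a₃ ∈ A.nonunits := by
      have h1 : 2 * y + W.a₁ * x + W.a₃ = -(y' - y) := by
        rw [hyy]
        simp only [negY]
        ring
      rw [h1]
      exact neg_mem hdy
    have hn : 3 * x' ^ 2 + 2 * W.a₂ * x' + W.a₄ - W.a₁ * y' =
        3 * x ^ 2 + 2 * W.a₂ * x + W.a₄ + W.a₁ * y + W.a₁ * (W.a₁ * x + W.a₃) := by
      rw [hxx, hyy]
      simp only [negY]
      ring
    have hd : y' - W.toAffine.negY x' y' = -(2 * y + W.a₁ * x + W.a₃) := by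
      rw [hxx, hyy]
      simp only [negY]
      ring
    rw [hn, hd]
    refine div_notMem A (hunit hWY) (neg_mem hWY) ?_
    rw [← hd, sub_ne_zero]
    intro h0
    apply hyne
    rw [hxx, hyy, negY_negY] at h0
    rw [hyy]
    exact h0
  · -- the chord
    rw [Point.add_of_X_ne hxx]
    refine ⟨_, _, _, rfl, ?_⟩
    apply addX_notMem A W ha₁ ha₂ hx' hx
    rw [slope_of_X_ne hxx]
    have hD1 : x' - x ≠ 0 := sub_ne_zero.mpr hxx
    by_cases hWY : 2 * y + W.a₁ * x + W.a₃ ∈ A.nonunits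
    · -- second form of the slope
      have hN2 : x' ^ 2 + x' * x + x ^ 2 + W.a₂ * (x' + x) + W.a₄ - W.a₁ * W.toAffine.negY x y
          ∉ A.nonunits := by
        have h1 := add_notMem_nonunits A (hunit hWY)
          (mul_mem_nonunits_right A hdx (add_mem (add_mem hx' (mul_mem (ofNat_mem A 2) hx)) ha₂))
        have h2 : 3 * x ^ 2 + 2 * W.a₂ * x + W.a₄ + W.a₁ * y + W.a₁ * (W.a₁ * x + W.a₃) +
            (x' - x) * (x' + 2 * x + W.a₂) =
            x' ^ 2 + x' * x + x ^ 2 + W.a₂ * (x' + x) + W.a₄ - W.a₁ * W.toAffine.negY x y := by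
          simp only [negY]
          ring
        rwa [h2] at h1
      have hD2 : y' + W.toAffine.negY x y + W.a₁ * x' + W.a₃ ∈ A.nonunits := by
        have h1 := add_mem hdy (mul_mem_nonunits_left A ha₁ hdx)
        have h2 : y' - y + W.a₁ * (x' - x) = y' + W.toAffine.negY x y + W.a₁ * x' + W.a₃ := by
          simp only [negY]
          ring
        rwa [h2] at h1
      have hid : (y' - W.toAffine.negY x y) * (y' + W.toAffine.negY x y + W.a₁ * x' + W.a₃) =
          (x' - x) * (x' ^ 2 + x' * x + x ^ 2 + W.a₂ * (x' + x) + W.a₄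
            - W.a₁ * W.toAffine.negY x y) := by
        simp only [negY]
        linear_combination heq' - heq
      have hN2' := ne_zero_of_notMem_nonunits A hN2
      have hD2' : y' + W.toAffine.negY x y + W.a₁ * x' + W.a₃ ≠ 0 := by
        intro h0
        rw [h0, mul_zero] at hid
        exact mul_ne_zero hD1 hN2' hid.symm
      have hslope : (y' - W.toAffine.negY x y) / (x' - x) =
          (x' ^ 2 + x' * x + x ^ 2 + W.a₂ * (x' + x) + W.a₄ - W.a₁ * W.toAffine.negY x y) /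
            (y' + W.toAffine.negY x y + W.a₁ * x' + W.a₃) := by
        rw [div_eq_div_iff hD1 hD2']
        linear_combination hid
      rw [hslope]
      exact div_notMem A hN2 hD2 hD2'
    · -- first form of the slope
      have hN1 : y' - W.toAffine.negY x y ∉ A.nonunits := by
        have h1 := add_notMem_nonunits A hWY hdy
        have h2 : 2 * y + W.a₁ * x + W.a₃ + (y' - y) = y' - W.toAffine.negY x y := by
          simp only [negY]
          ring
        rwa [h2] at h1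
      exact div_notMem A hN1 hdx hD1

/-! ### Unit discriminant -/

omit [DecidableEq F] in
/-- The discriminant lies in the ideal generated by the two partial derivatives at a point of
the curve.  Consequently, if the discriminant is a unit, every integral point has nonsingular
reduction. -/
theorem not_both_mem_nonunits_of_Δ (ha₁ : W.a₁ ∈ A) (ha₂ : W.a₂ ∈ A)
    (hΔ : W.Δ ∉ A.nonunits) {x y : F} (h : W.toAffine.Equation x y) (hx : x ∈ A) :
    W.a₁ * y - (3 * x ^ 2 + 2 * W.a₂ * x + W.a₄) ∉ A.nonunits ∨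
      2 * y + W.a₁ * x + W.a₃ ∉ A.nonunits := by
  by_contra hcon
  push Not at hcon
  obtain ⟨hWX, hWY⟩ := hcon
  apply hΔ
  rw [equation_iff] at h
  -- the translated coefficients
  set c₃ : F := 2 * y + W.a₁ * x + W.a₃ with hc₃
  set c₄ : F := -(W.a₁ * y - (3 * x ^ 2 + 2 * W.a₂ * x + W.a₄)) with hc₄
  have hc₄m : c₄ ∈ A.nonunits := neg_mem hWX
  set c₂ : F := W.a₂ + 3 * x with hc₂
  have hc₂A : c₂ ∈ A := add_mem ha₂ (mul_mem (ofNat_mem A 3) hx)
  set d₂ : F := W.a₁ ^ 2 + 4 * c₂ with hd₂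
  have hd₂A : d₂ ∈ A := add_mem (pow_mem ha₁ 2) (mul_mem (ofNat_mem A 4) hc₂A)
  have hc₃A : c₃ ∈ A := A.nonunits_le hWY
  have hc₄A : c₄ ∈ A := A.nonunits_le hc₄m
  have key : W.Δ = c₃ * (d₂ ^ 2 * W.a₁ * c₄ - d₂ ^ 2 * c₂ * c₃ - 27 * c₃ ^ 3
        + 9 * d₂ * (2 * c₄ + W.a₁ * c₃) * c₃ - 8 * W.a₁ * (2 * c₄ + W.a₁ * c₃) ^ 2)
      + c₄ * (d₂ ^ 2 * c₄ - 16 * (2 * c₄ + W.a₁ * c₃) ^ 2) := by
    simp only [WeierstrassCurve.Δ, WeierstrassCurve.b₂, WeierstrassCurve.b₄, WeierstrassCurve.b₆,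
      WeierstrassCurve.b₈, hc₃, hc₄, hc₂, hd₂]
    linear_combination ((W.a₁ ^ 2 + 4 * (W.a₂ + 3 * x)) ^ 3
      + 216 * (2 * y + W.a₁ * x + W.a₃) ^ 2
      - 432 * (y ^ 2 + W.a₁ * x * y + W.a₃ * y - (x ^ 3 + W.a₂ * x ^ 2 + W.a₄ * x + W.a₆))
      - 36 * (W.a₁ ^ 2 + 4 * (W.a₂ + 3 * x)) *
        (2 * (-(W.a₁ * y - (3 * x ^ 2 + 2 * W.a₂ * x + W.a₄)))
          + W.a₁ * (2 * y + W.a₁ * x + W.a₃))) * h
  rw [key]
  refine add_mem (mul_mem_nonunits_right A hWY ?_) (mul_mem_nonunits_right A hc₄m ?_)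
  · refine sub_mem (add_mem (sub_mem (sub_mem ?_ ?_) ?_) ?_) ?_
    · exact mul_mem (mul_mem (pow_mem hd₂A 2) ha₁) hc₄A
    · exact mul_mem (mul_mem (pow_mem hd₂A 2) hc₂A) hc₃A
    · exact mul_mem (ofNat_mem A 27) (pow_mem hc₃A 3)
    · exact mul_mem (mul_mem (mul_mem (ofNat_mem A 9) hd₂A)
        (add_mem (mul_mem (ofNat_mem A 2) hc₄A) (mul_mem ha₁ hc₃A))) hc₃A
    · exact mul_mem (mul_mem (ofNat_mem A 8) ha₁)
        (pow_mem (add_mem (mul_mem (ofNat_mem A 2) hc₄A) (mul_mem ha₁ hc₃A)) 2)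
  · refine sub_mem (mul_mem (pow_mem hd₂A 2) hc₄A) ?_
    exact mul_mem (ofNat_mem A 16)
      (pow_mem (add_mem (mul_mem (ofNat_mem A 2) hc₄A) (mul_mem ha₁ hc₃A)) 2)

end NonsingRed

end Fermat.Agent.S05
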