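/-
S05, package Wval: the `ℚ`-valued additive valuation attached to a valuation subring `A` of an
algebraic extension `L` of `ℚ` lying over a prime `q`, normalised by `w(q) = 1`.
Owner: helper12.
-/
import Mathlib

set_option autoImplicit false

namespace Fermat.Agent.S05

variable {L : Type*} [Field L]

namespace QVal

/-- `x` has exponent `m / n` with respect to `q`: `v(x) ^ n = v(q) ^ m`. -/
def HasExp (A : ValuationSubring L) (q : ℕ) (x : L) (n : ℕ) (m : ℤ) : Prop :=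
  0 < n ∧ A.valuation x ^ n = A.valuation (q : L) ^ m

end QVal

open Classical in
/-- The additive valuation of `x` attached to the valuation subring `A`, normalised by
`wval A q q = 1`; it is the rational number `m / n` with `v(x) ^ n = v(q) ^ m`
(junk value `0` if `x = 0` or if no such exponent exists). -/
noncomputable def wval (A : ValuationSubring L) (q : ℕ) (x : L) : ℚ :=
  if h : ∃ nm : ℕ × ℤ, x ≠ 0 ∧ QVal.HasExp A q x nm.1 nm.2 then
    (h.choose.2 : ℚ) / (h.choose.1 : ℚ)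
  else 0

theorem wval_zero (A : ValuationSubring L) (q : ℕ) : wval A q 0 = 0 := by
  rw [wval, dif_neg]
  rintro ⟨nm, h, -⟩
  exact h rfl

namespace QVal

variable {A : ValuationSubring L} {q : ℕ}

theorem valuation_q_lt_one (hA : (q : L) ∈ A.nonunits) : A.valuation (q : L) < 1 :=
  A.mem_nonunits_iff.mp hA

theorem valuation_q_ne_zero (hq0 : (q : L) ≠ 0) : A.valuation (q : L) ≠ 0 :=
  (Valuation.ne_zero_iff _).mpr hq0

theorem valuation_q_pos (hq0 : (q : L) ≠ 0) : 0 < A.valuation (q : L) :=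
  zero_lt_iff.mpr (valuation_q_ne_zero hq0)

theorem HasExp.le_iff (hq0 : (q : L) ≠ 0) (hA : (q : L) ∈ A.nonunits) {x y : L} {n n' : ℕ}
    {m m' : ℤ} (hx : HasExp A q x n m) (hy : HasExp A q y n' m') :
    (m : ℚ) / n ≤ (m' : ℚ) / n' ↔ A.valuation y ≤ A.valuation x := by
  obtain ⟨hn, hx⟩ := hx
  obtain ⟨hn', hy⟩ := hy
  have hnQ : (0 : ℚ) < n := by exact_mod_cast hn
  have hnQ' : (0 : ℚ) < n' := by exact_mod_cast hn'
  rw [div_le_div_iff₀ hnQ hnQ']
  have h1 : (m : ℚ) * n' ≤ m' * n ↔ m * (n' : ℤ) ≤ m' * (n : ℤ) := by exact_mod_cast Iff.rfl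
  rw [h1, ← zpow_le_zpow_iff_right_of_lt_one₀ (valuation_q_pos hq0) (valuation_q_lt_one hA),
    zpow_mul, zpow_mul, ← hx, ← hy, zpow_natCast, zpow_natCast, ← pow_mul, ← pow_mul,
    mul_comm n' n, pow_le_pow_iff_left₀ zero_le zero_le (Nat.mul_pos hn hn').ne']

theorem HasExp.unique (hq0 : (q : L) ≠ 0) (hA : (q : L) ∈ A.nonunits) {x : L} {n n' : ℕ}
    {m m' : ℤ} (h : HasExp A q x n m) (h' : HasExp A q x n' m') :
    (m : ℚ) / n = (m' : ℚ) / n' :=
  le_antisymm ((h.le_iff hq0 hA h').mpr le_rfl) ((h'.le_iff hq0 hA h).mpr le_rfl)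

theorem wval_eq_of_hasExp (hq0 : (q : L) ≠ 0) (hA : (q : L) ∈ A.nonunits) {x : L} (hx : x ≠ 0)
    {n : ℕ} {m : ℤ} (h : HasExp A q x n m) : wval A q x = (m : ℚ) / n := by
  have hex : ∃ nm : ℕ × ℤ, x ≠ 0 ∧ HasExp A q x nm.1 nm.2 := ⟨(n, m), hx, h⟩
  rw [wval, dif_pos hex]
  exact HasExp.unique hq0 hA hex.choose_spec.2 h

theorem hasExp_one : HasExp A q 1 1 0 := ⟨one_pos, by simp⟩

theorem hasExp_q : HasExp A q (q : L) 1 1 := ⟨one_pos, by simp⟩

theorem HasExp.mul (hq0 : (q : L) ≠ 0) {x y : L} {n n' : ℕ} {m m' : ℤ}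
    (hx : HasExp A q x n m) (hy : HasExp A q y n' m') :
    HasExp A q (x * y) (n * n') (m * n' + m' * n) := by
  refine ⟨Nat.mul_pos hx.1 hy.1, ?_⟩
  rw [map_mul, mul_pow, pow_mul, hx.2, mul_comm n n', pow_mul, hy.2,
    zpow_add₀ (valuation_q_ne_zero hq0), zpow_mul, zpow_mul, zpow_natCast, zpow_natCast]

theorem HasExp.inv {x : L} {n : ℕ} {m : ℤ} (hx : HasExp A q x n m) :
    HasExp A q x⁻¹ n (-m) := by
  refine ⟨hx.1, ?_⟩
  rw [map_inv₀, inv_pow, hx.2, zpow_neg]

theorem HasExp.neg {x : L} {n : ℕ} {m : ℤ} (hx : HasExp A q x n m) :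
    HasExp A q (-x) n m := by
  refine ⟨hx.1, ?_⟩
  rw [Valuation.map_neg, hx.2]

/-- In a vanishing sum of nonzero terms two different terms have the same valuation. -/
theorem exists_ne_valuation_eq {Γ₀ : Type*} [LinearOrderedCommGroupWithZero Γ₀]
    (v : Valuation L Γ₀) {ι : Type*} [DecidableEq ι] (s : Finset ι) (f : ι → L)
    (hf : ∀ i ∈ s, f i ≠ 0) (hs : s.Nonempty) (hsum : ∑ i ∈ s, f i = 0) :
    ∃ i ∈ s, ∃ j ∈ s, i ≠ j ∧ v (f i) = v (f j) := by
  obtain ⟨i0, hi0, hmax⟩ := Finset.exists_max_image s (fun i => v (f i)) hs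
  by_contra hno
  push Not at hno
  have hlt : ∀ j ∈ s.erase i0, v (f j) < v (f i0) := by
    intro j hj
    have hj' := Finset.mem_erase.mp hj
    exact lt_of_le_of_ne (hmax j hj'.2) (fun h => hno i0 hi0 j hj'.2 (Ne.symm hj'.1) h.symm)
  have h0 : v (f i0) ≠ 0 := (Valuation.ne_zero_iff _).mpr (hf i0 hi0)
  have h1 := Valuation.map_sum_lt v h0 hlt
  rw [← Finset.add_sum_erase s f hi0] at hsum
  have h2 : ∑ j ∈ s.erase i0, f j = -f i0 := by
    rw [eq_neg_iff_add_eq_zero, add_comm]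
    exact hsum
  rw [h2, Valuation.map_neg] at h1
  exact lt_irrefl _ h1

theorem valuation_natCast_of_not_dvd (hq : q.Prime) (hA : (q : L) ∈ A.nonunits) {k : ℕ}
    (hk : ¬ q ∣ k) : A.valuation (k : L) = 1 := by
  have hcop : Nat.Coprime q k := (Nat.Prime.coprime_iff_not_dvd hq).mpr hk
  obtain ⟨a, b, hab⟩ := (Nat.isCoprime_iff_coprime.mpr hcop : IsCoprime (q : ℤ) (k : ℤ))
  have hab' : (a : L) * (q : L) + (b : L) * (k : L) = 1 := by exact_mod_cast congrArg (Int.cast : ℤ → L) hab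
  have hk1 : A.valuation (k : L) ≤ 1 := (A.valuation_le_one_iff _).mpr (natCast_mem A k)
  by_contra hne
  have hk2 : A.valuation (k : L) < 1 := lt_of_le_of_ne hk1 hne
  have ha : A.valuation (a : L) ≤ 1 := (A.valuation_le_one_iff _).mpr (intCast_mem A a)
  have hb : A.valuation (b : L) ≤ 1 := (A.valuation_le_one_iff _).mpr (intCast_mem A b)
  have h1 : A.valuation ((a : L) * (q : L)) < 1 := by
    rw [map_mul]
    exact mul_lt_one_of_nonneg_of_lt_one_right ha zero_le (valuation_q_lt_one hA)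
  have h2 : A.valuation ((b : L) * (k : L)) < 1 := by
    rw [map_mul]
    exact mul_lt_one_of_nonneg_of_lt_one_right hb zero_le hk2
  have h3 := A.valuation.map_add_lt h1 h2
  rw [hab', map_one] at h3
  exact lt_irrefl _ h3

theorem valuation_natCast (hq : q.Prime) (hA : (q : L) ∈ A.nonunits) {k : ℕ} (hk : k ≠ 0) :
    A.valuation (k : L) = A.valuation (q : L) ^ padicValNat q k := by
  conv_lhs => rw [← Nat.ordProj_mul_ordCompl_eq_self k q]
  rw [Nat.cast_mul, Nat.cast_pow, map_mul, map_pow,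
    valuation_natCast_of_not_dvd hq hA (Nat.not_dvd_ordCompl hq hk), mul_one,
    Nat.factorization_def k hq]

theorem valuation_intCast (hq : q.Prime) (hA : (q : L) ∈ A.nonunits) {z : ℤ} (hz : z ≠ 0) :
    A.valuation (z : L) = A.valuation (q : L) ^ padicValInt q z := by
  have hk : z.natAbs ≠ 0 := Int.natAbs_ne_zero.mpr hz
  have h1 : A.valuation (z : L) = A.valuation ((z.natAbs : ℕ) : L) := by
    rcases Int.natAbs_eq z with h | h
    · conv_lhs => rw [h]
      rw [Int.cast_natCast]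
    · conv_lhs => rw [h]
      rw [Int.cast_neg, Int.cast_natCast, Valuation.map_neg]
  rw [h1, valuation_natCast hq hA hk]
  rfl

theorem valuation_algebraMap_rat [Algebra ℚ L] (hq : q.Prime) (hq0 : (q : L) ≠ 0)
    (hA : (q : L) ∈ A.nonunits) {r : ℚ} (hr : r ≠ 0) :
    A.valuation (algebraMap ℚ L r) = A.valuation (q : L) ^ padicValRat q r := by
  have h1 : algebraMap ℚ L r = (r.num : L) / (r.den : L) := by
    conv_lhs => rw [← Rat.num_div_den r]
    rw [map_div₀, map_intCast, map_natCast]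
  rw [h1, map_div₀, valuation_intCast hq hA (Rat.num_ne_zero.mpr hr),
    valuation_natCast hq hA r.den_ne_zero, padicValRat_def, zpow_sub₀ (valuation_q_ne_zero hq0),
    zpow_natCast, zpow_natCast]

theorem exists_hasExp [Algebra ℚ L] [Algebra.IsAlgebraic ℚ L] (hq : q.Prime)
    (hq0 : (q : L) ≠ 0) (hA : (q : L) ∈ A.nonunits) {x : L} (hx : x ≠ 0) :
    ∃ (n : ℕ) (m : ℤ), HasExp A q x n m := by
  have hint : IsIntegral ℚ x := Algebra.IsIntegral.isIntegral x
  have hP0 : minpoly ℚ x ≠ 0 := minpoly.ne_zero hint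
  have hPx : Polynomial.aeval x (minpoly ℚ x) = 0 := minpoly.aeval ℚ x
  rw [Polynomial.aeval_def, Polynomial.eval₂_eq_sum, Polynomial.sum_def] at hPx
  have hne : (minpoly ℚ x).support.Nonempty := Polynomial.support_nonempty.mpr hP0
  have hcoeff : ∀ n ∈ (minpoly ℚ x).support, (minpoly ℚ x).coeff n ≠ 0 := fun n hn =>
    Polynomial.mem_support_iff.mp hn
  obtain ⟨i, hi, j, hj, hij, hv⟩ := exists_ne_valuation_eq A.valuation (minpoly ℚ x).support
    (fun n => algebraMap ℚ L ((minpoly ℚ x).coeff n) * x ^ n)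
    (fun n hn => mul_ne_zero ((map_ne_zero _).mpr (hcoeff n hn)) (pow_ne_zero _ hx)) hne hPx
  wlog hlt : i < j generalizing i j
  · exact this j hj i hi hij.symm hv.symm (lt_of_le_of_ne (not_lt.mp hlt) hij.symm)
  simp only [map_mul, map_pow] at hv
  rw [valuation_algebraMap_rat hq hq0 hA (hcoeff i hi),
    valuation_algebraMap_rat hq hq0 hA (hcoeff j hj)] at hv
  have hvx : A.valuation x ≠ 0 := (Valuation.ne_zero_iff _).mpr hx
  have hvq : A.valuation (q : L) ≠ 0 := valuation_q_ne_zero hq0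
  refine ⟨j - i, padicValRat q ((minpoly ℚ x).coeff i) - padicValRat q ((minpoly ℚ x).coeff j),
    Nat.sub_pos_of_lt hlt, ?_⟩
  have hpow : A.valuation x ^ j = A.valuation x ^ (j - i) * A.valuation x ^ i := by
    rw [← pow_add, Nat.sub_add_cancel hlt.le]
  rw [hpow, ← mul_assoc] at hv
  have h3 := mul_right_cancel₀ (pow_ne_zero i hvx) hv
  rw [zpow_sub₀ hvq, h3, mul_div_cancel_left₀ _ (zpow_ne_zero _ hvq)]

end QVal

open QVal

/-! ### The API -/

section API

variable [Algebra ℚ L] (A : ValuationSubring L) {q : ℕ}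

omit [Algebra ℚ L] in
theorem wval_one (hq0 : (q : L) ≠ 0) (hA : (q : L) ∈ A.nonunits) : wval A q 1 = 0 := by
  rw [wval_eq_of_hasExp hq0 hA one_ne_zero hasExp_one]
  simp

/-- `(q : L) ≠ 0` for a prime `q`, as `L` has characteristic zero. -/
theorem QVal.natCast_ne_zero (hq : q.Prime) : (q : L) ≠ 0 := by
  have : CharZero L := algebraRat.charZero L
  exact Nat.cast_ne_zero.mpr hq.ne_zero

theorem wval_q (hq : q.Prime) (hA : (q : L) ∈ A.nonunits) : wval A q (q : L) = 1 := by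
  have hq0 : (q : L) ≠ 0 := QVal.natCast_ne_zero hq
  rw [wval_eq_of_hasExp hq0 hA hq0 hasExp_q]
  simp

theorem wval_intCast (hq : q.Prime) (hA : (q : L) ∈ A.nonunits) {z : ℤ} (hz : z ≠ 0) :
    wval A q (z : L) = padicValInt q z := by
  have hq0 : (q : L) ≠ 0 := QVal.natCast_ne_zero hq
  have : CharZero L := algebraRat.charZero L
  have hz' : (z : L) ≠ 0 := Int.cast_ne_zero.mpr hz
  have h : HasExp A q (z : L) 1 (padicValInt q z) :=
    ⟨one_pos, by rw [pow_one, valuation_intCast hq hA hz, zpow_natCast]⟩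
  rw [wval_eq_of_hasExp hq0 hA hz' h]
  simp

theorem wval_natCast (hq : q.Prime) (hA : (q : L) ∈ A.nonunits) {k : ℕ} (hk : k ≠ 0) :
    wval A q (k : L) = padicValNat q k := by
  have h := wval_intCast A hq hA (z := (k : ℤ)) (Int.natCast_ne_zero.mpr hk)
  rw [Int.cast_natCast] at h
  rw [h]
  rfl

theorem wval_natCast_of_not_dvd (hq : q.Prime) (hA : (q : L) ∈ A.nonunits) {k : ℕ}
    (hk : ¬ q ∣ k) : wval A q (k : L) = 0 := by
  have hk0 : k ≠ 0 := fun h => hk (h ▸ dvd_zero q)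
  rw [wval_natCast A hq hA hk0, padicValNat.eq_zero_of_not_dvd hk]
  rfl

theorem wval_intCast_of_not_dvd (hq : q.Prime) (hA : (q : L) ∈ A.nonunits) {z : ℤ}
    (hz : ¬ (q : ℤ) ∣ z) : wval A q (z : L) = 0 := by
  have hz0 : z ≠ 0 := fun h => hz (h ▸ dvd_zero _)
  rw [wval_intCast A hq hA hz0, padicValInt.eq_zero_of_not_dvd hz]
  rfl

theorem wval_algebraMap_rat (hq : q.Prime) (hA : (q : L) ∈ A.nonunits) {r : ℚ} (hr : r ≠ 0) :
    wval A q (algebraMap ℚ L r) = padicValRat q r := by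
  have hq0 : (q : L) ≠ 0 := QVal.natCast_ne_zero hq
  have hr' : algebraMap ℚ L r ≠ 0 := (map_ne_zero _).mpr hr
  have h : HasExp A q (algebraMap ℚ L r) 1 (padicValRat q r) :=
    ⟨one_pos, by rw [pow_one, valuation_algebraMap_rat hq hq0 hA hr]⟩
  rw [wval_eq_of_hasExp hq0 hA hr' h]
  simp

variable [Algebra.IsAlgebraic ℚ L]

theorem wval_le_iff (hq : q.Prime) (hA : (q : L) ∈ A.nonunits) {x y : L} (hx : x ≠ 0)
    (hy : y ≠ 0) : wval A q x ≤ wval A q y ↔ A.valuation y ≤ A.valuation x := by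
  have hq0 : (q : L) ≠ 0 := QVal.natCast_ne_zero hq
  obtain ⟨n, m, h⟩ := exists_hasExp hq hq0 hA hx
  obtain ⟨n', m', h'⟩ := exists_hasExp hq hq0 hA hy
  rw [wval_eq_of_hasExp hq0 hA hx h, wval_eq_of_hasExp hq0 hA hy h']
  exact h.le_iff hq0 hA h'

theorem wval_lt_iff (hq : q.Prime) (hA : (q : L) ∈ A.nonunits) {x y : L} (hx : x ≠ 0)
    (hy : y ≠ 0) : wval A q x < wval A q y ↔ A.valuation y < A.valuation x := by
  rw [← not_le, ← not_le, wval_le_iff A hq hA hy hx]

theorem wval_eq_iff (hq : q.Prime) (hA : (q : L) ∈ A.nonunits) {x y : L} (hx : x ≠ 0)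
    (hy : y ≠ 0) : wval A q x = wval A q y ↔ A.valuation x = A.valuation y := by
  rw [le_antisymm_iff, le_antisymm_iff, wval_le_iff A hq hA hx hy, wval_le_iff A hq hA hy hx,
    and_comm]

theorem wval_mul (hq : q.Prime) (hA : (q : L) ∈ A.nonunits) {x y : L} (hx : x ≠ 0)
    (hy : y ≠ 0) : wval A q (x * y) = wval A q x + wval A q y := by
  have hq0 : (q : L) ≠ 0 := QVal.natCast_ne_zero hq
  obtain ⟨n, m, h⟩ := exists_hasExp hq hq0 hA hx
  obtain ⟨n', m', h'⟩ := exists_hasExp hq hq0 hA hy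
  rw [wval_eq_of_hasExp hq0 hA hx h, wval_eq_of_hasExp hq0 hA hy h',
    wval_eq_of_hasExp hq0 hA (mul_ne_zero hx hy) (h.mul hq0 h')]
  have hn : (n : ℚ) ≠ 0 := by exact_mod_cast h.1.ne'
  have hn' : (n' : ℚ) ≠ 0 := by exact_mod_cast h'.1.ne'
  push_cast
  field_simp

theorem wval_inv (hq : q.Prime) (hA : (q : L) ∈ A.nonunits) (x : L) :
    wval A q x⁻¹ = -wval A q x := by
  have hq0 : (q : L) ≠ 0 := QVal.natCast_ne_zero hq
  by_cases hx : x = 0
  · rw [hx, inv_zero, wval_zero, neg_zero]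
  obtain ⟨n, m, h⟩ := exists_hasExp hq hq0 hA hx
  rw [wval_eq_of_hasExp hq0 hA hx h, wval_eq_of_hasExp hq0 hA (inv_ne_zero hx) h.inv]
  push_cast
  ring

theorem wval_div (hq : q.Prime) (hA : (q : L) ∈ A.nonunits) {x y : L} (hx : x ≠ 0)
    (hy : y ≠ 0) : wval A q (x / y) = wval A q x - wval A q y := by
  rw [div_eq_mul_inv, wval_mul A hq hA hx (inv_ne_zero hy), wval_inv A hq hA, sub_eq_add_neg]

theorem wval_neg (hq : q.Prime) (hA : (q : L) ∈ A.nonunits) (x : L) :
    wval A q (-x) = wval A q x := by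
  have hq0 : (q : L) ≠ 0 := QVal.natCast_ne_zero hq
  by_cases hx : x = 0
  · rw [hx, neg_zero]
  obtain ⟨n, m, h⟩ := exists_hasExp hq hq0 hA hx
  rw [wval_eq_of_hasExp hq0 hA hx h, wval_eq_of_hasExp hq0 hA (neg_ne_zero.mpr hx) h.neg]

theorem wval_pow (hq : q.Prime) (hA : (q : L) ∈ A.nonunits) (x : L) (n : ℕ) :
    wval A q (x ^ n) = n * wval A q x := by
  have hq0 : (q : L) ≠ 0 := QVal.natCast_ne_zero hq
  by_cases hx : x = 0
  · rcases Nat.eq_zero_or_pos n with rfl | hn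
    · rw [pow_zero, wval_one A hq0 hA]
      simp
    · rw [hx, zero_pow hn.ne', wval_zero, mul_zero]
  induction n with
  | zero =>
      rw [pow_zero, wval_one A hq0 hA]
      simp
  | succ k ih =>
      rw [pow_succ, wval_mul A hq hA (pow_ne_zero k hx) hx, ih]
      push_cast
      ring

theorem wval_zpow (hq : q.Prime) (hA : (q : L) ∈ A.nonunits) (x : L) (n : ℤ) :
    wval A q (x ^ n) = n * wval A q x := by
  cases n with
  | ofNat k =>
      rw [Int.ofNat_eq_natCast, zpow_natCast, wval_pow A hq hA]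
      simp
  | negSucc k =>
      rw [zpow_negSucc, wval_inv A hq hA, wval_pow A hq hA, Int.cast_negSucc]
      push_cast
      ring

theorem wval_add_ge (hq : q.Prime) (hA : (q : L) ∈ A.nonunits) {x y : L} (hx : x ≠ 0)
    (hy : y ≠ 0) (hxy : x + y ≠ 0) : min (wval A q x) (wval A q y) ≤ wval A q (x + y) := by
  rcases le_max_iff.mp (A.valuation.map_add x y) with h | h
  · exact (min_le_left _ _).trans ((wval_le_iff A hq hA hx hxy).mpr h)
  · exact (min_le_right _ _).trans ((wval_le_iff A hq hA hy hxy).mpr h)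

theorem wval_add_eq_of_lt (hq : q.Prime) (hA : (q : L) ∈ A.nonunits) {x y : L} (hx : x ≠ 0)
    (hy : y ≠ 0) (h : wval A q x < wval A q y) : wval A q (x + y) = wval A q x := by
  have h1 : A.valuation y < A.valuation x := (wval_lt_iff A hq hA hx hy).mp h
  have h2 : A.valuation (x + y) = A.valuation x := Valuation.map_add_eq_of_lt_left _ h1
  have hxy : x + y ≠ 0 := by
    rw [← Valuation.ne_zero_iff A.valuation, h2]
    exact (Valuation.ne_zero_iff _).mpr hx
  exact (wval_eq_iff A hq hA hxy hx).mpr h2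

theorem wval_sub_eq_of_lt (hq : q.Prime) (hA : (q : L) ∈ A.nonunits) {x y : L} (hx : x ≠ 0)
    (hy : y ≠ 0) (h : wval A q x < wval A q y) : wval A q (x - y) = wval A q x := by
  rw [sub_eq_add_neg]
  exact wval_add_eq_of_lt A hq hA hx (neg_ne_zero.mpr hy) (by rwa [wval_neg A hq hA])

theorem wval_sub_ge (hq : q.Prime) (hA : (q : L) ∈ A.nonunits) {x y : L} (hx : x ≠ 0)
    (hy : y ≠ 0) (hxy : x - y ≠ 0) : min (wval A q x) (wval A q y) ≤ wval A q (x - y) := by
  have h := wval_add_ge A hq hA hx (neg_ne_zero.mpr hy) (by rwa [← sub_eq_add_neg])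
  rwa [wval_neg A hq hA, ← sub_eq_add_neg] at h

theorem wval_nonneg_iff (hq : q.Prime) (hA : (q : L) ∈ A.nonunits) {x : L} (hx : x ≠ 0) :
    0 ≤ wval A q x ↔ x ∈ A := by
  have hq0 : (q : L) ≠ 0 := QVal.natCast_ne_zero hq
  rw [← wval_one A hq0 hA, wval_le_iff A hq hA one_ne_zero hx, map_one, A.valuation_le_one_iff]

theorem wval_pos_iff (hq : q.Prime) (hA : (q : L) ∈ A.nonunits) {x : L} (hx : x ≠ 0) :
    0 < wval A q x ↔ x ∈ A.nonunits := by
  have hq0 : (q : L) ≠ 0 := QVal.natCast_ne_zero hq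
  rw [← wval_one A hq0 hA, wval_lt_iff A hq hA one_ne_zero hx, map_one, A.mem_nonunits_iff]

theorem wval_eq_zero_iff (hq : q.Prime) (hA : (q : L) ∈ A.nonunits) {x : L} (hx : x ≠ 0) :
    wval A q x = 0 ↔ x ∈ A ∧ x⁻¹ ∈ A := by
  rw [← wval_nonneg_iff A hq hA hx, ← wval_nonneg_iff A hq hA (inv_ne_zero hx),
    wval_inv A hq hA, neg_nonneg]
  exact ⟨fun h => ⟨h.ge, h.le⟩, fun h => le_antisymm h.2 h.1⟩

/-- An element of integral valuation `m` is `q ^ m` times a unit of `A`. -/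
theorem exists_unit_of_wval_eq_int (hq : q.Prime) (hA : (q : L) ∈ A.nonunits) {x : L}
    (hx : x ≠ 0) (m : ℤ) (h : wval A q x = m) :
    ∃ u : L, u ∈ A ∧ u⁻¹ ∈ A ∧ x = (q : L) ^ m * u := by
  have hq0 : (q : L) ≠ 0 := QVal.natCast_ne_zero hq
  have hqm : (q : L) ^ m ≠ 0 := zpow_ne_zero _ hq0
  have hu0 : x / (q : L) ^ m ≠ 0 := div_ne_zero hx hqm
  have hu : wval A q (x / (q : L) ^ m) = 0 := by
    rw [wval_div A hq hA hx hqm, wval_zpow A hq hA, wval_q A hq hA, h]
    ring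
  obtain ⟨h1, h2⟩ := (wval_eq_zero_iff A hq hA hu0).mp hu
  exact ⟨x / (q : L) ^ m, h1, h2, by field_simp⟩

/-- A ring automorphism preserving `A` preserves the valuation. -/
theorem wval_map (hq : q.Prime) (hA : (q : L) ∈ A.nonunits) (σ : L ≃+* L)
    (hσ : ∀ z : L, z ∈ A ↔ σ z ∈ A) (x : L) : wval A q (σ x) = wval A q x := by
  have hq0 : (q : L) ≠ 0 := QVal.natCast_ne_zero hq
  by_cases hx : x = 0
  · rw [hx, map_zero]
  have hσx : σ x ≠ 0 := (map_ne_zero σ).mpr hx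
  obtain ⟨n, m, hn, h⟩ := exists_hasExp hq hq0 hA hx
  have hnQ : (n : ℚ) ≠ 0 := by exact_mod_cast hn.ne'
  -- `u = x ^ n / q ^ m` is a unit of `A`
  have hqm : (q : L) ^ m ≠ 0 := zpow_ne_zero _ hq0
  have hu0 : x ^ n / (q : L) ^ m ≠ 0 := div_ne_zero (pow_ne_zero n hx) hqm
  have hu : wval A q (x ^ n / (q : L) ^ m) = 0 := by
    rw [wval_div A hq hA (pow_ne_zero n hx) hqm, wval_zpow A hq hA, wval_pow A hq hA,
      wval_q A hq hA, wval_eq_of_hasExp hq0 hA hx ⟨hn, h⟩]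
    field_simp
    ring
  obtain ⟨h1, h2⟩ := (wval_eq_zero_iff A hq hA hu0).mp hu
  have hσu : σ (x ^ n / (q : L) ^ m) = σ x ^ n / (q : L) ^ m := by
    rw [map_div₀, map_pow, map_zpow₀, map_natCast]
  have h1' : σ x ^ n / (q : L) ^ m ∈ A := by
    rw [← hσu]
    exact (hσ _).mp h1
  have h2' : (σ x ^ n / (q : L) ^ m)⁻¹ ∈ A := by
    rw [← hσu, ← map_inv₀]
    exact (hσ _).mp h2
  have hu' : wval A q (σ x ^ n / (q : L) ^ m) = 0 :=
    (wval_eq_zero_iff A hq hA (div_ne_zero (pow_ne_zero n hσx) hqm)).mpr ⟨h1', h2'⟩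
  rw [wval_div A hq hA (pow_ne_zero n hσx) hqm, wval_zpow A hq hA, wval_pow A hq hA,
    wval_q A hq hA] at hu'
  rw [wval_div A hq hA (pow_ne_zero n hx) hqm, wval_zpow A hq hA, wval_pow A hq hA,
    wval_q A hq hA] at hu
  have h3 : (n : ℚ) * wval A q (σ x) = n * wval A q x := by linarith
  exact mul_left_cancel₀ hnQ h3

/-- If `σ` preserves `A` and acts trivially on the residue field, then `σ x / x ≡ 1` modulo the
maximal ideal for every `x` of integral valuation. -/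
theorem map_div_sub_one_mem_nonunits (hq : q.Prime) (hA : (q : L) ∈ A.nonunits) (σ : L ≃+* L)
    (hσI : ∀ z : L, z ∈ A → σ z - z ∈ A.nonunits) {x : L} (hx : x ≠ 0) (m : ℤ)
    (h : wval A q x = m) : σ x / x - 1 ∈ A.nonunits := by
  have hq0 : (q : L) ≠ 0 := QVal.natCast_ne_zero hq
  obtain ⟨u, hu, hu', rfl⟩ := exists_unit_of_wval_eq_int A hq hA hx m h
  have hqm : (q : L) ^ m ≠ 0 := zpow_ne_zero _ hq0
  have hu0 : u ≠ 0 := right_ne_zero_of_mul hx
  have h1 : σ ((q : L) ^ m * u) / ((q : L) ^ m * u) - 1 = (σ u - u) * u⁻¹ := by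
    rw [map_mul, map_zpow₀, map_natCast]
    field_simp
  rw [h1, A.mem_nonunits_iff, map_mul]
  have h2 : A.valuation (σ u - u) < 1 := A.mem_nonunits_iff.mp (hσI u hu)
  have h3 : A.valuation u⁻¹ ≤ 1 := (A.valuation_le_one_iff _).mpr hu'
  exact mul_lt_one_of_nonneg_of_lt_one_left zero_le h2 h3

/-- If `σ` preserves `A` and acts trivially on the residue field, then every `x` of integral
valuation is either fixed by `σ` or moved by an element of strictly larger valuation. -/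
theorem map_eq_or_wval_lt (hq : q.Prime) (hA : (q : L) ∈ A.nonunits) (σ : L ≃+* L)
    (hσI : ∀ z : L, z ∈ A → σ z - z ∈ A.nonunits) {x : L} (hx : x ≠ 0) (m : ℤ)
    (h : wval A q x = m) : σ x = x ∨ wval A q x < wval A q (σ x - x) := by
  by_cases hfix : σ x = x
  · exact Or.inl hfix
  right
  have hd : σ x - x ≠ 0 := sub_ne_zero.mpr hfix
  have h1 := map_div_sub_one_mem_nonunits A hq hA σ hσI hx m h
  have h2 : σ x / x - 1 = (σ x - x) / x := by field_simp
  rw [h2, ← wval_pos_iff A hq hA (div_ne_zero hd hx), wval_div A hq hA hd hx] at h1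
  linarith

end API

end Fermat.Agent.S05
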