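/-
S05, package Wval (second part): decomposition and inertia groups versus the valuation subring,
and the behaviour of the `ℚ`-valued valuation `wval` under them.
Owner: helper12.
-/
import Mathlib
import Fermat.Prelude.Def_FLTPrelim_Ramification
import Fermat.Agent.S05.QVal

set_option autoImplicit false

open scoped Pointwise

namespace Fermat.Agent.S05

namespace QVal

section General

variable {K L : Type*} [Field K] [Field L] [Algebra K L] (A : ValuationSubring L)

/-- Elements of the decomposition group preserve the valuation subring. -/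
theorem mem_iff_of_mem_decomposition {σ : L ≃ₐ[K] L} (hσ : σ ∈ A.decompositionSubgroup K)
    (z : L) : z ∈ A ↔ σ z ∈ A := by
  have h : σ • A = A := MulAction.mem_stabilizer_iff.mp hσ
  constructor
  · intro hz
    have h1 : σ • z ∈ σ • A := ValuationSubring.smul_mem_pointwise_smul σ z A hz
    rw [h] at h1
    exact h1
  · intro hz
    have h1 : σ • z ∈ σ • A := by
      rw [h]
      exact hz
    exact ValuationSubring.smul_mem_pointwise_smul_iff.mp h1

/-- The inertia group (as a subgroup of the Galois group) lies in the decomposition group. -/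
theorem mem_decomposition_of_mem_inertia {σ : L ≃ₐ[K] L} (hσ : σ ∈ A.inertiaSubgroupIn K) :
    σ ∈ A.decompositionSubgroup K := by
  obtain ⟨τ, -, rfl⟩ := hσ
  exact τ.2

/-- Elements of the inertia group act trivially on the residue field. -/
theorem sub_mem_nonunits_of_mem_inertia {σ : L ≃ₐ[K] L} (hσ : σ ∈ A.inertiaSubgroupIn K)
    {z : L} (hz : z ∈ A) : σ z - z ∈ A.nonunits := by
  obtain ⟨τ, hτ, rfl⟩ := hσ
  have h1 : MulSemiringAction.toRingAut (A.decompositionSubgroup K) (IsLocalRing.ResidueField A) τ
      = 1 := hτ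
  have h2 : τ • IsLocalRing.residue A ⟨z, hz⟩ = IsLocalRing.residue A ⟨z, hz⟩ := by
    have := congrArg (fun e : RingAut (IsLocalRing.ResidueField A) =>
      e (IsLocalRing.residue A ⟨z, hz⟩)) h1
    exact this
  rw [← IsLocalRing.ResidueField.residue_smul, ← sub_eq_zero, ← map_sub,
    IsLocalRing.residue_eq_zero_iff, ← ValuationSubring.coe_mem_nonunits_iff] at h2
  exact h2

end General

/-- `AlgebraicClosure ℚ` is algebraic over `ℚ` for the default `ℚ`-algebra structure (the one
used by the frozen statements). -/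
theorem isAlgebraic_Qbar : Algebra.IsAlgebraic ℚ (AlgebraicClosure ℚ) := by
  have h : @Algebra.IsAlgebraic ℚ (AlgebraicClosure ℚ) _ _ (AlgebraicClosure.instAlgebra ℚ) :=
    AlgebraicClosure.isAlgebraic ℚ
  convert h
  exact Subsingleton.elim _ _

end QVal

section Gal

variable {L : Type*} [Field L] [Algebra ℚ L] [Algebra.IsAlgebraic ℚ L] (A : ValuationSubring L)
  {q : ℕ}

/-- The decomposition group preserves the valuation. -/
theorem wval_algEquiv (hq : q.Prime) (hA : (q : L) ∈ A.nonunits) {σ : L ≃ₐ[ℚ] L}
    (hσ : σ ∈ A.decompositionSubgroup ℚ) (x : L) : wval A q (σ x) = wval A q x :=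
  wval_map A hq hA σ.toRingEquiv (fun z => QVal.mem_iff_of_mem_decomposition A hσ z) x

/-- Inertia fixes, up to strictly larger valuation, every element of integral valuation. -/
theorem map_eq_or_wval_lt_of_mem_inertia (hq : q.Prime) (hA : (q : L) ∈ A.nonunits)
    {σ : L ≃ₐ[ℚ] L} (hσ : σ ∈ A.inertiaSubgroupIn ℚ) {x : L} (hx : x ≠ 0) (m : ℤ)
    (h : wval A q x = m) : σ x = x ∨ wval A q x < wval A q (σ x - x) :=
  map_eq_or_wval_lt A hq hA σ.toRingEquiv
    (fun _ hz => QVal.sub_mem_nonunits_of_mem_inertia A hσ hz) hx m h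

/-- Inertia acts trivially modulo the maximal ideal on `σ x / x` for `x` of integral valuation. -/
theorem map_div_sub_one_mem_nonunits_of_mem_inertia (hq : q.Prime) (hA : (q : L) ∈ A.nonunits)
    {σ : L ≃ₐ[ℚ] L} (hσ : σ ∈ A.inertiaSubgroupIn ℚ) {x : L} (hx : x ≠ 0) (m : ℤ)
    (h : wval A q x = m) : σ x / x - 1 ∈ A.nonunits :=
  map_div_sub_one_mem_nonunits A hq hA σ.toRingEquiv
    (fun _ hz => QVal.sub_mem_nonunits_of_mem_inertia A hσ hz) hx m h

end Gal

end Fermat.Agent.S05
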