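/-
S05, CASE G (good reduction): for an odd prime `q` not dividing `abc`, inertia at `q` acts
trivially on the `p`-torsion of the Frey curve, GIVEN that the kernel of reduction has no
`p`-torsion (hypothesis `hG1`, package G1).
Owner: helper12.
-/
import Mathlib
import Fermat.Prelude.Def_FLTPrelim_Ramification
import Fermat.Agent.S05.QVal
import Fermat.Agent.S05.QValGal
import Fermat.Agent.S05.NonsingRed
import Fermat.Agent.S05.FreyArith
import Fermat.Agent.S05.KerRedX

set_option autoImplicit false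

open WeierstrassCurve WeierstrassCurve.Affine

namespace Fermat.Agent.S05

namespace CaseG

section Generic

variable {F : Type*} [Field F] [DecidableEq F] (A : ValuationSubring F) (W : WeierstrassCurve F)

/-- **Good reduction, any residue characteristic.**  Let `W` be an integral Weierstrass model
with unit discriminant and `σ` an automorphism acting trivially on the residue field.  For a point
`T = (x, y)` with integral `x`, either `σ T = T`, or `σ T - T` is an affine point with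
non-integral `x` (a nonzero point of the kernel of reduction). -/
theorem map_eq_or_sub_x_notMem (ha₁ : W.a₁ ∈ A) (ha₂ : W.a₂ ∈ A) (ha₃ : W.a₃ ∈ A)
    (ha₄ : W.a₄ ∈ A) (ha₆ : W.a₆ ∈ A) (hΔ : W.Δ ∉ A.nonunits) (σ : F ≃+* F)
    (hσA : ∀ z ∈ A, σ z - z ∈ A.nonunits)
    {x y : F} (h : W.toAffine.Nonsingular x y) (h' : W.toAffine.Nonsingular (σ x) (σ y))
    (hx : x ∈ A) :
    (σ x = x ∧ σ y = y) ∨ ∃ x₃ y₃, ∃ h₃ : W.toAffine.Nonsingular x₃ y₃,
      Point.some (σ x) (σ y) h' - Point.some x y h = Point.some x₃ y₃ h₃ ∧ x₃ ∉ A := by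
  have hy : y ∈ A := NonsingRed.y_mem_of_x_mem A W ha₁ ha₂ ha₃ ha₄ ha₆ h.1 hx
  have hns := NonsingRed.not_both_mem_nonunits_of_Δ A W ha₁ ha₂ hΔ h.1 hx
  by_cases hcon : σ x = x ∧ σ y = y
  · exact Or.inl hcon
  · right
    have hne : Point.some (σ x) (σ y) h' ≠ Point.some x y h := fun heq =>
      hcon (Point.some.inj heq)
    exact NonsingRed.sub_some_x_notMem A W ha₁ ha₂ h h' hx hy (hσA x hx) (hσA y hy) hns hne

/-- **Good reduction: inertia fixes the torsion.**  Let `W` be an integral Weierstrass model with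
unit discriminant, `σ` an automorphism acting trivially on the residue field, and `T = (x, y)` a
point such that `T` and `σ T` are killed by `p`.  If the kernel of reduction has no `p`-torsion
(`hG1`), then `σ T = T`. -/
theorem map_eq_of_torsion (ha₁ : W.a₁ ∈ A) (ha₂ : W.a₂ ∈ A) (ha₃ : W.a₃ ∈ A) (ha₄ : W.a₄ ∈ A)
    (ha₆ : W.a₆ ∈ A) (hΔ : W.Δ ∉ A.nonunits) (σ : F ≃+* F)
    (hσA : ∀ z ∈ A, σ z - z ∈ A.nonunits) {p : ℕ}
    (hG1 : ∀ {x y : F} (h : W.toAffine.Nonsingular x y), p • Point.some x y h = 0 → x ∈ A)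
    {x y : F} (h : W.toAffine.Nonsingular x y) (h' : W.toAffine.Nonsingular (σ x) (σ y))
    (hP : p • Point.some x y h = 0) (hP' : p • Point.some (σ x) (σ y) h' = 0) :
    σ x = x ∧ σ y = y := by
  have hx : x ∈ A := hG1 h hP
  rcases map_eq_or_sub_x_notMem A W ha₁ ha₂ ha₃ ha₄ ha₆ hΔ σ hσA h h' hx with hfix | hsub
  · exact hfix
  · obtain ⟨x₃, y₃, h₃, hsub, hx₃⟩ := hsub
    exfalso
    apply hx₃
    apply hG1 h₃
    rw [← hsub, nsmul_sub, hP, hP', sub_zero]

end Generic

section Frey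

local notation "K" => AlgebraicClosure ℚ

theorem algebraMap_mem (A : ValuationSubring K) {q : ℕ} (hq : q.Prime) (hA : A.LiesOverPrime q)
    {r : ℚ} (hr : 0 ≤ padicValRat q r) : algebraMap ℚ K r ∈ A := by
  have := QVal.isAlgebraic_Qbar
  by_cases h0 : r = 0
  · rw [h0, map_zero]
    exact zero_mem A
  have h1 : algebraMap ℚ K r ≠ 0 := (map_ne_zero _).mpr h0
  rw [← wval_nonneg_iff A hq hA h1, wval_algebraMap_rat A hq hA h0]
  exact_mod_cast hr

theorem algebraMap_notMem_nonunits (A : ValuationSubring K) {q : ℕ} (hq : q.Prime)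
    (hA : A.LiesOverPrime q) {r : ℚ} (hr0 : r ≠ 0) (hr : padicValRat q r = 0) :
    algebraMap ℚ K r ∉ A.nonunits := by
  have := QVal.isAlgebraic_Qbar
  have h1 : algebraMap ℚ K r ≠ 0 := (map_ne_zero _).mpr hr0
  rw [← wval_pos_iff A hq hA h1, wval_algebraMap_rat A hq hA hr0, hr]
  simp

theorem natCast_notMem_nonunits (A : ValuationSubring K) {q : ℕ} (hq : q.Prime)
    (hA : A.LiesOverPrime q) {k : ℕ} (hk : ¬ q ∣ k) : (k : K) ∉ A.nonunits := by
  have := QVal.isAlgebraic_Qbar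
  have hk0 : k ≠ 0 := fun h => hk (h ▸ dvd_zero q)
  have h1 : (k : K) ≠ 0 := Nat.cast_ne_zero.mpr hk0
  rw [← wval_pos_iff A hq hA h1, wval_natCast_of_not_dvd A hq hA hk]
  exact lt_irrefl _

/-- For an odd prime `q`, the Frey curve is an integral model at every place over `q`. -/
theorem freyCurve_coeff_mem (P : FreyPackage) {q : ℕ} (hq : q.Prime) (hq2 : q ≠ 2)
    (A : ValuationSubring K) (hA : A.LiesOverPrime q) :
    (P.freyCurve⁄K).a₁ ∈ A ∧ (P.freyCurve⁄K).a₂ ∈ A ∧ (P.freyCurve⁄K).a₃ ∈ A ∧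
      (P.freyCurve⁄K).a₄ ∈ A ∧ (P.freyCurve⁄K).a₆ ∈ A := by
  obtain ⟨hp₂, hp₄⟩ := frey_coeff_padic P hq hq2
  refine ⟨?_, algebraMap_mem A hq hA hp₂, ?_, algebraMap_mem A hq hA hp₄, ?_⟩
  · have h1 : (P.freyCurve⁄K).a₁ = 1 := by
      simp [WeierstrassCurve.baseChange, FreyArith.freyCurve_a₁]
    rw [h1]
    exact one_mem A
  · have h1 : (P.freyCurve⁄K).a₃ = 0 := by
      simp [WeierstrassCurve.baseChange, FreyArith.freyCurve_a₃]
    rw [h1]
    exact zero_mem A
  · have h1 : (P.freyCurve⁄K).a₆ = 0 := by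
      simp [WeierstrassCurve.baseChange, FreyArith.freyCurve_a₆]
    rw [h1]
    exact zero_mem A

/-- For an odd prime `q ∤ abc`, the discriminant of the Frey curve is a unit at every place
over `q`. -/
theorem freyCurve_Δ_notMem_nonunits (P : FreyPackage) {q : ℕ} (hq : q.Prime) (hq2 : q ≠ 2)
    (hqabc : ¬ (q : ℤ) ∣ P.a * P.b * P.c) (A : ValuationSubring K) (hA : A.LiesOverPrime q) :
    (P.freyCurve⁄K).Δ ∉ A.nonunits := by
  rw [FreyArith.freyCurve_baseChange_Δ]
  have h1 : ((P.a * P.b * P.c : ℤ) : ℚ) ^ (2 * P.p) / 2 ^ 8 =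
      (((P.a * P.b * P.c) ^ (2 * P.p) : ℤ) : ℚ) / 2 ^ 8 := by
    push_cast
    ring
  rw [h1]
  exact algebraMap_notMem_nonunits A hq hA
    (FreyArith.int_div_two_pow_ne_zero (FreyArith.not_dvd_pow hq hqabc _) 8)
    (FreyArith.padicValRat_int_div_two_pow hq hq2 (FreyArith.not_dvd_pow hq hqabc _) 8)

/-- CASE G of S05, modulo G1 (`hG1`: `p`-torsion points have integral `x` at every place
over `q`). -/
theorem unramified_of_not_dvd_of_G1 (P : FreyPackage) {q : ℕ} (hq : q.Prime) (hq2 : q ≠ 2)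
    (hqabc : ¬ (q : ℤ) ∣ P.a * P.b * P.c)
    (hG1 : ∀ A : ValuationSubring K, A.LiesOverPrime q →
      ∀ {x y : K} (h : (P.freyCurve⁄K).Nonsingular x y),
        P.p • Point.some x y h = 0 → x ∈ A) :
    P.GaloisRepUnramifiedAt q := by
  intro A hA σ hσ x
  -- the coefficients are integral and the discriminant is a unit
  obtain ⟨hc₁, hc₂, hc₃, hc₄, hc₆⟩ := freyCurve_coeff_mem P hq hq2 A hA
  have hΔ := freyCurve_Δ_notMem_nonunits P hq hq2 hqabc A hA
  -- unfold the action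
  apply Subtype.ext
  have hx := x.2
  rw [Submodule.mem_torsionBy_iff] at hx
  show Point.map σ.toAlgHom x.1 = x.1
  generalize x.1 = T at hx ⊢
  rcases T with _ | ⟨X, Y, h⟩
  · rfl
  · have hP : P.p • Point.some X Y h = 0 := by
      rwa [natCast_zsmul] at hx
    have h' : (P.freyCurve⁄K).Nonsingular (σ X) (σ Y) :=
      (WeierstrassCurve.Affine.baseChange_nonsingular P.freyCurve σ.toAlgHom.injective ..).mpr h
    have hmap : Point.map σ.toAlgHom (Point.some X Y h) = Point.some (σ X) (σ Y) h' := rfl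
    have hP' : P.p • Point.some (σ X) (σ Y) h' = 0 := by
      rw [← hmap, ← map_nsmul, hP, map_zero]
    obtain ⟨h1, h2⟩ := map_eq_of_torsion A (P.freyCurve.baseChange K) hc₁ hc₂ hc₃ hc₄ hc₆ hΔ
      σ.toRingEquiv (fun z hz => QVal.sub_mem_nonunits_of_mem_inertia A hσ hz)
      (fun h hP => hG1 A hA h hP) h h' hP hP'
    rw [hmap]
    have h1' : σ X = X := h1
    have h2' : σ Y = Y := h2
    congr

/-- **CASE G of S05** (good reduction): for an odd prime `q ≠ p` not dividing `abc`, the mod `p`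
representation of the Frey curve is unramified at `q`. -/
theorem unramified_of_not_dvd (P : FreyPackage) {q : ℕ} (hq : q.Prime) (hq2 : q ≠ 2)
    (hqp : q ≠ P.p) (hqabc : ¬ (q : ℤ) ∣ P.a * P.b * P.c) : P.GaloisRepUnramifiedAt q := by
  refine unramified_of_not_dvd_of_G1 P hq hq2 hqabc ?_
  intro A hA x y h hP
  obtain ⟨hc₁, hc₂, hc₃, hc₄, hc₆⟩ := freyCurve_coeff_mem P hq hq2 A hA
  have hpu : (P.p : K) ∉ A.nonunits :=
    natCast_notMem_nonunits A hq hA (fun hdvd => hqp ((Nat.prime_dvd_prime_iff_eq hq P.pp).mp hdvd))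
  exact KerRedX.x_mem_of_nsmul_eq_zero A (P.freyCurve.baseChange K) hc₁ hc₂ hc₃ hc₄ hc₆ P.p hpu h hP

end Frey

end CaseG

end Fermat.Agent.S05
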