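import Mathlib

/-!
# S05: rational-valued additive valuations on the nonzero elements of a field

`RatVal L` is a function `w : L → ℚ` which is additive on products of nonzero elements and
ultrametric on sums of nonzero elements (the value at `0` is junk and never used).
`v.Ge x m` means "`x = 0` or `m ≤ w x`" and `v.Is x m` means "`x ≠ 0` and `w x = m`".
-/

set_option autoImplicit false

namespace Fermat.Agent.S05

/-- A `ℚ`-valued additive valuation on the nonzero elements of a field. -/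
structure RatVal (L : Type*) [Field L] where
  /-- the valuation (junk at `0`) -/
  w : L → ℚ
  map_mul : ∀ {x y : L}, x ≠ 0 → y ≠ 0 → w (x * y) = w x + w y
  map_add : ∀ {x y : L}, x ≠ 0 → y ≠ 0 → x + y ≠ 0 → min (w x) (w y) ≤ w (x + y)

namespace RatVal

variable {L : Type*} [Field L] (v : RatVal L)

theorem map_one : v.w 1 = 0 := by
  have h := v.map_mul (one_ne_zero (α := L)) (one_ne_zero (α := L))
  rw [mul_one] at h
  linarith

theorem map_neg_one : v.w (-1) = 0 := by
  have h := v.map_mul (neg_ne_zero.mpr (one_ne_zero (α := L))) (neg_ne_zero.mpr (one_ne_zero (α := L)))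
  rw [neg_mul_neg, mul_one, v.map_one] at h
  linarith

theorem map_neg (x : L) : v.w (-x) = v.w x := by
  rcases eq_or_ne x 0 with rfl | hx
  · rw [neg_zero]
  · have h := v.map_mul (neg_ne_zero.mpr (one_ne_zero (α := L))) hx
    rw [neg_one_mul, v.map_neg_one, zero_add] at h
    exact h

theorem map_inv {x : L} (hx : x ≠ 0) : v.w x⁻¹ = - v.w x := by
  have h := v.map_mul hx (inv_ne_zero hx)
  rw [mul_inv_cancel₀ hx, v.map_one] at h
  linarith

theorem map_div {x y : L} (hx : x ≠ 0) (hy : y ≠ 0) : v.w (x / y) = v.w x - v.w y := by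
  rw [div_eq_mul_inv, v.map_mul hx (inv_ne_zero hy), v.map_inv hy]
  ring

theorem map_pow {x : L} (hx : x ≠ 0) (n : ℕ) : v.w (x ^ n) = n * v.w x := by
  induction n with
  | zero => simp [v.map_one]
  | succ n ih =>
    rw [pow_succ, v.map_mul (pow_ne_zero n hx) hx, ih]
    push_cast
    ring

theorem map_sub_swap (x y : L) : v.w (x - y) = v.w (y - x) := by
  rw [← v.map_neg (y - x), neg_sub]

/-- If `w x < w y` then `w (x + y) = w x`. -/
theorem map_add_of_lt {x y : L} (hx : x ≠ 0) (hy : y ≠ 0) (h : v.w x < v.w y) :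
    x + y ≠ 0 ∧ v.w (x + y) = v.w x := by
  have hne : x + y ≠ 0 := by
    intro h0
    have : x = -y := eq_neg_of_add_eq_zero_left h0
    rw [this, v.map_neg] at h
    exact lt_irrefl _ h
  refine ⟨hne, le_antisymm ?_ ?_⟩
  · -- x = (x + y) + (-y)
    by_contra hlt
    push Not at hlt
    have h1 := v.map_add hne (neg_ne_zero.mpr hy) (by rw [add_neg_cancel_right]; exact hx)
    rw [add_neg_cancel_right, v.map_neg] at h1
    rcases min_le_iff.mp h1 with h2 | h2 <;> linarith
  · have h1 := v.map_add hx hy hne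
    rwa [min_eq_left h.le] at h1

/-- "`x = 0` or `m ≤ w x`". -/
def Ge (x : L) (m : ℚ) : Prop := x = 0 ∨ m ≤ v.w x

/-- "`x ≠ 0` and `w x = m`". -/
def Is (x : L) (m : ℚ) : Prop := x ≠ 0 ∧ v.w x = m

variable {v}

theorem Is.ne_zero {x : L} {m : ℚ} (h : v.Is x m) : x ≠ 0 := h.1

theorem Is.eq {x : L} {m : ℚ} (h : v.Is x m) : v.w x = m := h.2

theorem is_self {x : L} (hx : x ≠ 0) : v.Is x (v.w x) := ⟨hx, rfl⟩

theorem Is.ge {x : L} {m : ℚ} (h : v.Is x m) : v.Ge x m := Or.inr h.2.ge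

theorem Is.ge_of_le {x : L} {m n : ℚ} (h : v.Is x m) (hn : n ≤ m) : v.Ge x n :=
  Or.inr (h.2 ▸ hn)

theorem Is.congr {x : L} {m n : ℚ} (h : v.Is x m) (hn : m = n) : v.Is x n := hn ▸ h

theorem Is.unique {x : L} {m n : ℚ} (h : v.Is x m) (h' : v.Is x n) : m = n := by
  rw [← h.2, ← h'.2]

theorem Ge.mono {x : L} {m n : ℚ} (h : v.Ge x m) (hn : n ≤ m) : v.Ge x n :=
  h.imp id fun h => hn.trans h

theorem ge_zero (m : ℚ) : v.Ge (0 : L) m := Or.inl rfl

theorem Ge.le_of_is {x : L} {m n : ℚ} (h : v.Ge x m) (h' : v.Is x n) : m ≤ n := by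
  rcases h with h | h
  · exact absurd h h'.1
  · rw [← h'.2]; exact h

theorem Is.mul {x y : L} {m n : ℚ} (hx : v.Is x m) (hy : v.Is y n) : v.Is (x * y) (m + n) :=
  ⟨mul_ne_zero hx.1 hy.1, by rw [v.map_mul hx.1 hy.1, hx.2, hy.2]⟩

theorem Is.inv {x : L} {m : ℚ} (hx : v.Is x m) : v.Is x⁻¹ (-m) :=
  ⟨inv_ne_zero hx.1, by rw [v.map_inv hx.1, hx.2]⟩

theorem Is.div {x y : L} {m n : ℚ} (hx : v.Is x m) (hy : v.Is y n) : v.Is (x / y) (m - n) :=
  ⟨div_ne_zero hx.1 hy.1, by rw [v.map_div hx.1 hy.1, hx.2, hy.2]⟩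

theorem Is.pow {x : L} {m : ℚ} (hx : v.Is x m) (n : ℕ) : v.Is (x ^ n) (n * m) :=
  ⟨pow_ne_zero n hx.1, by rw [v.map_pow hx.1, hx.2]⟩

theorem Is.sq {x : L} {m : ℚ} (hx : v.Is x m) : v.Is (x ^ 2) (2 * m) := by
  have := hx.pow 2
  simpa using this

theorem Is.neg {x : L} {m : ℚ} (hx : v.Is x m) : v.Is (-x) m :=
  ⟨neg_ne_zero.mpr hx.1, by rw [v.map_neg, hx.2]⟩

theorem Ge.neg {x : L} {m : ℚ} (hx : v.Ge x m) : v.Ge (-x) m := by
  rcases hx with h | h
  · exact Or.inl (by rw [h, neg_zero])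
  · exact Or.inr (by rwa [v.map_neg])

theorem Ge.add {x y : L} {m : ℚ} (hx : v.Ge x m) (hy : v.Ge y m) : v.Ge (x + y) m := by
  rcases hx with rfl | hx
  · rwa [zero_add]
  rcases hy with rfl | hy
  · rw [add_zero]; exact Or.inr hx
  rcases eq_or_ne x 0 with rfl | hx0
  · rw [zero_add]; exact Or.inr hy
  rcases eq_or_ne y 0 with rfl | hy0
  · rw [add_zero]; exact Or.inr hx
  rcases eq_or_ne (x + y) 0 with h0 | h0
  · exact Or.inl h0
  · exact Or.inr ((le_min hx hy).trans (v.map_add hx0 hy0 h0))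

theorem Ge.sub {x y : L} {m : ℚ} (hx : v.Ge x m) (hy : v.Ge y m) : v.Ge (x - y) m := by
  rw [sub_eq_add_neg]
  exact hx.add hy.neg

theorem Ge.mul {x y : L} {m n : ℚ} (hx : v.Ge x m) (hy : v.Ge y n) : v.Ge (x * y) (m + n) := by
  rcases hx with rfl | hx
  · rw [zero_mul]; exact Or.inl rfl
  rcases hy with rfl | hy
  · rw [mul_zero]; exact Or.inl rfl
  rcases eq_or_ne x 0 with rfl | hx0
  · rw [zero_mul]; exact Or.inl rfl
  rcases eq_or_ne y 0 with rfl | hy0
  · rw [mul_zero]; exact Or.inl rfl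
  · exact Or.inr (by rw [v.map_mul hx0 hy0]; linarith)

/-- Strict dominance: `w x = m`, `w y > m` (or `y = 0`) gives `w (x + y) = m`. -/
theorem Is.add_of_lt {x y : L} {m n : ℚ} (hx : v.Is x m) (hy : v.Ge y n) (hmn : m < n) :
    v.Is (x + y) m := by
  rcases hy with rfl | hy
  · rwa [add_zero]
  rcases eq_or_ne y 0 with rfl | hy0
  · rwa [add_zero]
  have := v.map_add_of_lt hx.1 hy0 (by rw [hx.2]; linarith)
  exact ⟨this.1, by rw [this.2, hx.2]⟩

theorem Is.add_of_lt' {x y : L} {m n : ℚ} (hy : v.Ge x n) (hx : v.Is y m) (hmn : m < n) :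
    v.Is (x + y) m := by
  rw [add_comm]
  exact hx.add_of_lt hy hmn

theorem Is.sub_of_lt {x y : L} {m n : ℚ} (hx : v.Is x m) (hy : v.Ge y n) (hmn : m < n) :
    v.Is (x - y) m := by
  rw [sub_eq_add_neg]
  exact hx.add_of_lt hy.neg hmn

theorem Is.sub_of_lt' {x y : L} {m n : ℚ} (hx : v.Ge x n) (hy : v.Is y m) (hmn : m < n) :
    v.Is (x - y) m := by
  rw [sub_eq_add_neg]
  exact Is.add_of_lt' hx hy.neg hmn

/-- Two nonzero elements with different valuations: the sum has the smaller valuation. -/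
theorem is_add_of_ne {x y : L} {m n : ℚ} (hx : v.Is x m) (hy : v.Is y n) (hmn : m ≠ n) :
    v.Is (x + y) (min m n) := by
  rcases lt_or_gt_of_ne hmn with h | h
  · rw [min_eq_left h.le]; exact hx.add_of_lt hy.ge h
  · rw [min_eq_right h.le]; exact Is.add_of_lt' hx.ge hy h

/-- If the sum and the product of two nonzero elements satisfy `w (x * y) = 2 s` and
`x + y = 0 ∨ s ≤ w (x + y)`, then both have valuation `s`. -/
theorem both_eq_of_sum_ge {x y : L} {s : ℚ} (hx : x ≠ 0) (hy : y ≠ 0)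
    (hprod : v.w x + v.w y = 2 * s) (hsum : v.Ge (x + y) s) : v.w x = s ∧ v.w y = s := by
  by_cases hxy : v.w x = v.w y
  · constructor <;> linarith
  · exfalso
    have h := is_add_of_ne (is_self hx) (is_self hy) hxy
    have h2 := hsum.le_of_is h
    rcases le_min_iff.mp h2 with ⟨h3, h4⟩
    rcases lt_or_gt_of_ne hxy with h5 | h5 <;> linarith

/-- If `w x + w y = π`, `w (x + y) = m` and `2 m < π`, then `{w x, w y} = {m, π - m}`. -/
theorem split_of_sum_is {x y : L} {m π : ℚ} (hx : x ≠ 0) (hy : y ≠ 0)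
    (hprod : v.w x + v.w y = π) (hsum : v.Is (x + y) m) (hlt : 2 * m < π) :
    (v.w x = m ∧ v.w y = π - m) ∨ (v.w x = π - m ∧ v.w y = m) := by
  by_cases hxy : v.w x = v.w y
  · exfalso
    have h1 : v.Ge (x + y) (v.w x) := (is_self hx).ge.add ((is_self hy).ge_of_le hxy.le)
    have h2 := h1.le_of_is hsum
    linarith
  · have h := is_add_of_ne (is_self hx) (is_self hy) hxy
    have h2 := h.unique hsum
    rcases lt_or_gt_of_ne hxy with h5 | h5
    · left
      rw [min_eq_left h5.le] at h2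
      constructor <;> linarith
    · right
      rw [min_eq_right h5.le] at h2
      constructor <;> linarith

/-- If `w x + w y ≤ π ≤ 0`-type bound: both valuations are `≤ t` as soon as the sum is
`≥ π - t` in valuation. Precisely: `w x + w y = π`, `π ≤ 2 t`... we state the form used:
if `w x + w y = π`, `π ≤ t`, `0 ≤ t`... -/
theorem both_le_of_sum_ge {x y : L} {π t : ℚ} (hx : x ≠ 0) (hy : y ≠ 0)
    (hprod : v.w x + v.w y = π) (hπ : π ≤ 2 * t) (hsum : v.Ge (x + y) (π - t)) :
    v.w x ≤ t ∧ v.w y ≤ t := by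
  by_contra hcon
  rw [not_and_or] at hcon
  push Not at hcon
  have key : ∀ {a b : L}, a ≠ 0 → b ≠ 0 → v.w a + v.w b = π → v.Ge (a + b) (π - t) →
      t < v.w a → False := by
    intro a b ha hb hab hs hta
    have hb' : v.w b < π - t := by linarith
    have hne : v.w b ≠ v.w a := by intro h; linarith
    have h := is_add_of_ne (is_self hb) (is_self ha) hne
    rw [min_eq_left (by linarith : v.w b ≤ v.w a), add_comm] at h
    have := hs.le_of_is h
    linarith
  rcases hcon with h | h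
  · exact key hx hy hprod hsum h
  · exact key hy hx (by linarith) (by rwa [add_comm]) h

/-- Both valuations are `≥ t` if `w x + w y ≥ 2 t'`-type bound; the form used:
`w x + w y = π`, `2 t ≤ π`... and the sum is `≥ t`. -/
theorem both_ge_of_sum_ge {x y : L} {π t : ℚ} (hx : x ≠ 0) (hy : y ≠ 0)
    (hprod : v.w x + v.w y = π) (hπ : 2 * t ≤ π) (hsum : v.Ge (x + y) t) :
    t ≤ v.w x ∧ t ≤ v.w y := by
  by_contra hcon
  rw [not_and_or] at hcon
  push Not at hcon
  have key : ∀ {a b : L}, a ≠ 0 → b ≠ 0 → v.w a + v.w b = π → v.Ge (a + b) t →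
      v.w a < t → False := by
    intro a b ha hb hab hs hta
    have hb' : t < v.w b := by linarith
    have hne : v.w a ≠ v.w b := by intro h; linarith
    have h := is_add_of_ne (is_self ha) (is_self hb) hne
    rw [min_eq_left (by linarith : v.w a ≤ v.w b)] at h
    have := hs.le_of_is h
    linarith
  rcases hcon with h | h
  · exact key hx hy hprod hsum h
  · exact key hy hx (by linarith) (by rwa [add_comm]) h

end RatVal

end Fermat.Agent.S05
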