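import Mathlib
import Fermat.Agent.S05.RatVal

/-!
# S05, case M: the fold rule

Abstract valued-field core of the elementary proof of the multiplicative case.

`L` is a field with a `ℚ`-valued valuation `v`, `β u : L` with `w β = N > 0`, `w u = 0`,
`w 2 = 0`.  For an abelian group `G` with an "`x`-coordinate" `X : G → L` satisfying the
classical `x`-only addition formulas of the curve `Y² = X (4X² + uX + 4β)`,
the function `c P := min (max (w (X P)) 0) N` satisfies `c (k • P) ≡ ± k * c P (mod 2N)`.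
Consequently, a point `P` with `n • P = 0` has `n * c P ∈ 2Nℤ`.
-/

set_option autoImplicit false

namespace Fermat.Agent.S05

namespace Fold

/-- Clamp to `[0, N]`. -/
def cl (N t : ℚ) : ℚ := min (max t 0) N

/-- `t ≡ ± s (mod 2N)`. -/
def FoldEq (N t s : ℚ) : Prop := ∃ j : ℤ, t = s + 2 * N * j ∨ t = -s + 2 * N * j

theorem cl_of_nonpos {N t : ℚ} (hN : 0 < N) (ht : t ≤ 0) : cl N t = 0 := by
  unfold cl
  rw [max_eq_right ht, min_eq_left hN.le]

theorem cl_of_mem {N t : ℚ} (h0 : 0 ≤ t) (hN : t ≤ N) : cl N t = t := by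
  unfold cl
  rw [max_eq_left h0, min_eq_left hN]

theorem cl_of_ge {N t : ℚ} (hN : 0 < N) (ht : N ≤ t) : cl N t = N := by
  unfold cl
  rw [max_eq_left (hN.le.trans ht), min_eq_right ht]

theorem cl_nonneg {N t : ℚ} (hN : 0 < N) : 0 ≤ cl N t := by
  unfold cl
  exact le_min (le_max_right _ _) hN.le

theorem cl_le {N t : ℚ} : cl N t ≤ N := by
  unfold cl
  exact min_le_right _ _

theorem FoldEq.refl (N t : ℚ) : FoldEq N t t := ⟨0, Or.inl (by simp)⟩

theorem FoldEq.of_eq {N t s : ℚ} (h : t = s) : FoldEq N t s := h ▸ FoldEq.refl N t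

theorem FoldEq.of_neg {N t s : ℚ} (h : t = -s) : FoldEq N t s := ⟨0, Or.inr (by simp [h])⟩

theorem FoldEq.symm {N t s : ℚ} (h : FoldEq N t s) : FoldEq N s t := by
  obtain ⟨j, h | h⟩ := h
  · exact ⟨-j, Or.inl (by push_cast; linarith)⟩
  · exact ⟨j, Or.inr (by linarith)⟩

theorem FoldEq.trans {N t s r : ℚ} (h : FoldEq N t s) (h' : FoldEq N s r) : FoldEq N t r := by
  obtain ⟨j, h | h⟩ := h <;> obtain ⟨k, h' | h'⟩ := h'
  · exact ⟨j + k, Or.inl (by push_cast; linarith)⟩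
  · exact ⟨j + k, Or.inr (by push_cast; linarith)⟩
  · exact ⟨j - k, Or.inr (by push_cast; linarith)⟩
  · exact ⟨j - k, Or.inl (by push_cast; linarith)⟩

theorem FoldEq.neg_right {N t s : ℚ} (h : FoldEq N t s) : FoldEq N t (-s) := by
  obtain ⟨j, h | h⟩ := h
  · exact ⟨j, Or.inr (by linarith)⟩
  · exact ⟨j, Or.inl (by linarith)⟩

theorem FoldEq.add_period {N t s : ℚ} (h : FoldEq N t s) (k : ℤ) :
    FoldEq N t (s + 2 * N * k) := by
  obtain ⟨j, h | h⟩ := h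
  · exact ⟨j - k, Or.inl (by push_cast; linarith)⟩
  · exact ⟨j + k, Or.inr (by push_cast; linarith)⟩

/-- Adding and subtracting `c` on both sides, up to swapping. -/
theorem FoldEq.add_sub {N t s : ℚ} (h : FoldEq N t s) (c : ℚ) :
    (FoldEq N (t + c) (s + c) ∧ FoldEq N (t - c) (s - c)) ∨
      (FoldEq N (t + c) (s - c) ∧ FoldEq N (t - c) (s + c)) := by
  obtain ⟨j, h | h⟩ := h
  · exact Or.inl ⟨⟨j, Or.inl (by linarith)⟩, ⟨j, Or.inl (by linarith)⟩⟩
  · exact Or.inr ⟨⟨j, Or.inr (by linarith)⟩, ⟨j, Or.inr (by linarith)⟩⟩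

theorem foldEq_zero_iff {N t : ℚ} : FoldEq N 0 t ↔ ∃ j : ℤ, t = 2 * N * j := by
  constructor
  · rintro ⟨j, h | h⟩
    · exact ⟨-j, by push_cast; linarith⟩
    · exact ⟨j, by linarith⟩
  · rintro ⟨j, h⟩
    exact ⟨j, Or.inr (by linarith)⟩

end Fold

open Fold

namespace Fold

variable {L : Type*} [Field L] {v : RatVal L}

/-- The valuation of `T = X₁X₂ - β` in terms of `s = w (X₁X₂)`. -/
theorem val_T {N s : ℚ} {M β : L} (hM : v.Is M s) (hβ : v.Is β N) (hT : M - β ≠ 0) :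
    (s < N ∧ v.w (M - β) = s) ∨ (N < s ∧ v.w (M - β) = N) ∨ (s = N ∧ N ≤ v.w (M - β)) := by
  rcases lt_trichotomy s N with h | h | h
  · exact Or.inl ⟨h, (hM.sub_of_lt hβ.ge h).2⟩
  · refine Or.inr (Or.inr ⟨h, ?_⟩)
    have : v.Ge (M - β) N := (hM.ge_of_le h.ge).sub hβ.ge
    exact this.le_of_is (RatVal.is_self hT)
  · exact Or.inr (Or.inl ⟨h, (RatVal.Is.sub_of_lt' hM.ge hβ h).2⟩)

/-- Arithmetic: the clamp of `2t - s` folds to `s`, where `t` is the valuation of `T`. -/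
theorem foldEq_of_val_T {N s t : ℚ} (hs0 : 0 < s) (hs2 : s < 2 * N)
    (h : (s < N ∧ t = s) ∨ (N < s ∧ t = N) ∨ (s = N ∧ N ≤ t)) :
    FoldEq N (cl N (2 * t - s)) s := by
  have hN : 0 < N := by linarith
  rcases h with ⟨h1, h2⟩ | ⟨h1, h2⟩ | ⟨h1, h2⟩
  · rw [h2, cl_of_mem (by linarith) (by linarith)]
    exact FoldEq.of_eq (by ring)
  · rw [h2, cl_of_mem (by linarith) (by linarith)]
    exact ⟨1, Or.inr (by push_cast; ring)⟩
  · rw [cl_of_ge hN (by linarith)]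
    exact FoldEq.of_eq h1.symm

section pair

variable {N : ℚ} {β u X₁ X₂ Xp Xm : L}

/-- The pair rule, assuming `w X₁ ≤ w X₂`. -/
theorem pair_rule_aux (hN : 0 < N) (hβ : v.Is β N) (hu : v.Is u 0) (h2 : v.Is (2 : L) 0)
    (hX₁ : X₁ ≠ 0) (hX₂ : X₂ ≠ 0) (hXp : Xp ≠ 0) (hXm : Xm ≠ 0) (hne : X₁ ≠ X₂)
    (h1 : Xp * Xm * (X₁ - X₂) ^ 2 = (X₁ * X₂ - β) ^ 2)
    (hS : (Xp + Xm) * (X₁ - X₂) ^ 2 = 2 * (X₁ + X₂) * (X₁ * X₂ + β) + u * X₁ * X₂)
    (hab : v.w X₁ ≤ v.w X₂) :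
    (FoldEq N (cl N (v.w Xp)) (cl N (v.w X₁) + cl N (v.w X₂)) ∧
        FoldEq N (cl N (v.w Xm)) (cl N (v.w X₁) - cl N (v.w X₂))) ∨
      (FoldEq N (cl N (v.w Xp)) (cl N (v.w X₁) - cl N (v.w X₂)) ∧
        FoldEq N (cl N (v.w Xm)) (cl N (v.w X₁) + cl N (v.w X₂))) := by
  set a := v.w X₁ with ha_def
  set b := v.w X₂ with hb_def
  have ha : v.Is X₁ a := ⟨hX₁, rfl⟩
  have hb : v.Is X₂ b := ⟨hX₂, rfl⟩
  have hD0 : X₁ - X₂ ≠ 0 := sub_ne_zero.mpr hne
  set d := v.w (X₁ - X₂) with hd_def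
  have hD : v.Is (X₁ - X₂) d := ⟨hD0, rfl⟩
  have hT0 : X₁ * X₂ - β ≠ 0 := by
    intro h0
    rw [h0] at h1
    have : Xp * Xm * (X₁ - X₂) ^ 2 ≠ 0 := mul_ne_zero (mul_ne_zero hXp hXm) (pow_ne_zero 2 hD0)
    exact this (by rw [h1]; ring)
  set t := v.w (X₁ * X₂ - β) with ht_def
  have hT : v.Is (X₁ * X₂ - β) t := ⟨hT0, rfl⟩
  have hM : v.Is (X₁ * X₂) (a + b) := ha.mul hb
  -- product relation
  have hprod : v.w Xp + v.w Xm = 2 * t - 2 * d := by
    have e1 : v.Is (Xp * Xm * (X₁ - X₂) ^ 2) (v.w Xp + v.w Xm + 2 * d) :=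
      ((RatVal.is_self hXp).mul (RatVal.is_self hXm)).mul hD.sq
    have e2 : v.Is ((X₁ * X₂ - β) ^ 2) (2 * t) := hT.sq
    rw [h1] at e1
    have := e1.unique e2
    linarith
  -- sum relation
  have hD2 : v.Is ((X₁ - X₂) ^ 2)⁻¹ (-(2 * d)) := hD.sq.inv
  have hSeq : ∀ R : L, (Xp + Xm) * (X₁ - X₂) ^ 2 = R → Xp + Xm = R * ((X₁ - X₂) ^ 2)⁻¹ := by
    intro R hR
    rw [← hR, mul_assoc, mul_inv_cancel₀ (pow_ne_zero 2 hD0), mul_one]
  have sum_is : ∀ {R : L} {r : ℚ}, (Xp + Xm) * (X₁ - X₂) ^ 2 = R → v.Is R r →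
      v.Is (Xp + Xm) (r - 2 * d) := by
    intro R r hR hr
    rw [hSeq R hR]
    exact (hr.mul hD2).congr (by ring)
  have sum_ge : ∀ {R : L} {r : ℚ}, (Xp + Xm) * (X₁ - X₂) ^ 2 = R → v.Ge R r →
      v.Ge (Xp + Xm) (r - 2 * d) := by
    intro R r hR hr
    rw [hSeq R hR]
    exact (hr.mul hD2.ge).mono (by linarith)
  -- second form of the right-hand side
  have hS' : (Xp + Xm) * (X₁ - X₂) ^ 2
      = X₁ * X₂ * (2 * (X₁ + X₂) + u) + 2 * β * (X₁ + X₂) := by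
    rw [hS]; ring
  have hvT := val_T hM hβ hT0
  rcases le_or_gt b 0 with hb0 | hb0
  · -- Case 1: both ≤ 0
    have ha0 : a ≤ 0 := hab.trans hb0
    have hda : a ≤ d := (ha.ge.sub (hb.ge_of_le hab)).le_of_is hD
    have ht : t = a + b := by
      rcases hvT with ⟨_, h⟩ | ⟨h, _⟩ | ⟨h, _⟩
      · exact h
      · linarith
      · linarith
    have hR : v.Ge (2 * (X₁ + X₂) * (X₁ * X₂ + β) + u * X₁ * X₂) (2 * a + b) := by
      have e1 : v.Ge (X₁ + X₂) a := ha.ge.add (hb.ge_of_le hab)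
      have e2 : v.Is (X₁ * X₂ + β) (a + b) := hM.add_of_lt hβ.ge (by linarith)
      have e3 : v.Ge (2 * (X₁ + X₂) * (X₁ * X₂ + β)) (0 + a + (a + b)) := (h2.ge.mul e1).mul e2.ge
      have e4 : v.Ge (u * X₁ * X₂) (0 + a + b) := ((hu.mul ha).mul hb).ge
      exact (e3.mono (by linarith)).add (e4.mono (by linarith))
    have hSg := sum_ge hS hR
    have := RatVal.both_le_of_sum_ge (t := 0) hXp hXm hprod (by linarith) (hSg.mono (by linarith))
    rw [cl_of_nonpos hN this.1, cl_of_nonpos hN this.2, cl_of_nonpos hN ha0, cl_of_nonpos hN hb0]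
    exact Or.inl ⟨FoldEq.of_eq (by ring), FoldEq.of_eq (by ring)⟩
  rcases le_or_gt a 0 with ha0 | ha0
  · -- Case 2: a ≤ 0 < b
    have hd : d = a := (ha.sub_of_lt hb.ge (by linarith)).unique hD |>.symm
    rcases lt_or_ge (a + b) N with hlt | hge
    · -- 2a
      have ht : t = a + b := by
        rcases hvT with ⟨_, h⟩ | ⟨h, _⟩ | ⟨h, _⟩
        · exact h
        · linarith
        · linarith
      have hR : v.Ge (2 * (X₁ + X₂) * (X₁ * X₂ + β) + u * X₁ * X₂) (2 * a + b) := by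
        have e1 : v.Ge (X₁ + X₂) a := ha.ge.add (hb.ge_of_le hab)
        have e2 : v.Is (X₁ * X₂ + β) (a + b) := hM.add_of_lt hβ.ge (by linarith)
        have e3 : v.Ge (2 * (X₁ + X₂) * (X₁ * X₂ + β)) (0 + a + (a + b)) :=
          (h2.ge.mul e1).mul e2.ge
        have e4 : v.Ge (u * X₁ * X₂) (0 + a + b) := ((hu.mul ha).mul hb).ge
        exact (e3.mono (by linarith)).add (e4.mono (by linarith))
      have hSg := sum_ge hS hR
      have := RatVal.both_eq_of_sum_ge (s := b) hXp hXm (by rw [hprod, ht, hd]; ring)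
        (hSg.mono (by rw [hd]; linarith))
      rw [this.1, this.2, cl_of_nonpos hN ha0]
      exact Or.inl ⟨FoldEq.of_eq (by ring), FoldEq.of_neg (by ring)⟩
    · -- 2b
      have ht : N ≤ t := by
        rcases hvT with ⟨h, _⟩ | ⟨_, h⟩ | ⟨_, h⟩
        · linarith
        · exact h.ge
        · exact h
      have hR : v.Ge (X₁ * X₂ * (2 * (X₁ + X₂) + u) + 2 * β * (X₁ + X₂)) (N + a) := by
        have e1 : v.Ge (X₁ + X₂) a := ha.ge.add (hb.ge_of_le hab)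
        have e2 : v.Ge (2 * (X₁ + X₂) + u) a :=
          ((h2.ge.mul e1).mono (by linarith)).add (hu.ge_of_le ha0)
        have e3 : v.Ge (X₁ * X₂ * (2 * (X₁ + X₂) + u)) (a + b + a) := hM.ge.mul e2
        have e4 : v.Ge (2 * β * (X₁ + X₂)) (0 + N + a) := (h2.mul hβ).ge.mul e1
        exact (e3.mono (by linarith)).add (e4.mono (by linarith))
      have hSg := sum_ge hS' hR
      have := RatVal.both_ge_of_sum_ge (t := N) hXp hXm hprod (by rw [hd]; linarith)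
        (hSg.mono (by rw [hd]; linarith))
      rw [cl_of_ge hN this.1, cl_of_ge hN this.2, cl_of_nonpos hN ha0,
        cl_of_ge hN (by linarith : N ≤ b)]
      exact Or.inl ⟨FoldEq.of_eq (by ring), FoldEq.of_neg (by ring)⟩
  -- Case 3: 0 < a ≤ b
  have hunit : v.Is (2 * (X₁ + X₂) + u) 0 :=
    RatVal.Is.add_of_lt' ((h2.ge.mul (ha.ge.add (hb.ge_of_le hab))).mono (le_refl _)) hu
      (by linarith)
  have hfirst : v.Is (X₁ * X₂ * (2 * (X₁ + X₂) + u)) (a + b) := (hM.mul hunit).congr (by ring)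
  have hsecond : v.Ge (2 * β * (X₁ + X₂)) (N + a) :=
    ((h2.mul hβ).ge.mul (ha.ge.add (hb.ge_of_le hab))).mono (by linarith)
  rcases le_or_gt N a with hNa | hNa
  · -- 3a: both ≥ N
    have hda : a ≤ d := (ha.ge.sub (hb.ge_of_le hab)).le_of_is hD
    have ht : t = N := by
      rcases hvT with ⟨h, _⟩ | ⟨_, h⟩ | ⟨h, _⟩
      · linarith
      · exact h
      · linarith
    have hR : v.Ge (X₁ * X₂ * (2 * (X₁ + X₂) + u) + 2 * β * (X₁ + X₂)) (2 * N) :=
      (hfirst.ge_of_le (by linarith)).add (hsecond.mono (by linarith))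
    have hSg := sum_ge hS' hR
    have := RatVal.both_le_of_sum_ge (t := 0) hXp hXm hprod (by rw [ht]; linarith)
      (hSg.mono (by rw [ht]; linarith))
    rw [cl_of_nonpos hN this.1, cl_of_nonpos hN this.2, cl_of_ge hN hNa,
      cl_of_ge hN (hNa.trans hab)]
    exact Or.inl ⟨⟨-1, Or.inl (by push_cast; ring)⟩, FoldEq.of_eq (by ring)⟩
  rcases le_or_gt N b with hNb | hNb
  · -- 3b: a < N ≤ b
    have hd : d = a := (ha.sub_of_lt hb.ge (by linarith)).unique hD |>.symm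
    have ht : t = N := by
      rcases hvT with ⟨h, _⟩ | ⟨_, h⟩ | ⟨h, _⟩
      · linarith
      · exact h
      · linarith
    have hR : v.Ge (X₁ * X₂ * (2 * (X₁ + X₂) + u) + 2 * β * (X₁ + X₂)) (N + a) :=
      (hfirst.ge_of_le (by linarith)).add hsecond
    have hSg := sum_ge hS' hR
    have := RatVal.both_eq_of_sum_ge (s := N - a) hXp hXm (by rw [hprod, ht, hd]; ring)
      (hSg.mono (by rw [hd]; linarith))
    rw [this.1, this.2, cl_of_mem (by linarith) (by linarith), cl_of_mem ha0.le hNa.le,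
      cl_of_ge hN hNb]
    exact Or.inl ⟨⟨1, Or.inr (by push_cast; ring)⟩, FoldEq.of_neg (by ring)⟩
  -- 3c: 0 < a ≤ b < N
  have hR : v.Is (X₁ * X₂ * (2 * (X₁ + X₂) + u) + 2 * β * (X₁ + X₂)) (a + b) :=
    hfirst.add_of_lt hsecond (by linarith)
  have hSi := sum_is hS' hR
  rw [cl_of_mem ha0.le hNa.le, cl_of_mem hb0.le hNb.le]
  have htt : (a + b < N ∧ t = a + b) ∨ (N < a + b ∧ t = N) ∨ (a + b = N ∧ N ≤ t) := hvT
  have hfold := foldEq_of_val_T (by linarith : 0 < a + b) (by linarith) htt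
  have htge : a + b ≤ 2 * t ∧ t ≤ N ∨ N ≤ t := by
    rcases htt with ⟨h, h'⟩ | ⟨h, h'⟩ | ⟨h, h'⟩
    · left; constructor <;> linarith
    · right; linarith
    · right; linarith
  rcases lt_or_eq_of_le hab with hlt | heq
  · -- a < b
    have hd : d = a := (ha.sub_of_lt hb.ge hlt).unique hD |>.symm
    have hsplit := RatVal.split_of_sum_is (m := b - a) (π := 2 * t - 2 * a) hXp hXm
      (by rw [hprod, hd]) (hSi.congr (by rw [hd]; ring)) (by
        rcases htt with ⟨h, h'⟩ | ⟨h, h'⟩ | ⟨h, h'⟩ <;> linarith)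
    have hba : cl N (b - a) = b - a := cl_of_mem (by linarith) (by linarith)
    have e : 2 * t - 2 * a - (b - a) = 2 * t - (a + b) := by ring
    rcases hsplit with ⟨hp, hm⟩ | ⟨hp, hm⟩
    · right
      rw [hp, hm, hba, e]
      exact ⟨FoldEq.of_neg (by ring), hfold⟩
    · left
      rw [hp, hm, hba, e]
      exact ⟨hfold, FoldEq.of_neg (by ring)⟩
  · -- a = b
    have hda : a ≤ d := (ha.ge.sub (hb.ge_of_le hab)).le_of_is hD
    have hsplit := RatVal.split_of_sum_is (m := a + b - 2 * d) (π := 2 * t - 2 * d) hXp hXm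
      hprod hSi (by
        rcases htt with ⟨h, h'⟩ | ⟨h, h'⟩ | ⟨h, h'⟩ <;> linarith)
    have hz : cl N (a + b - 2 * d) = 0 := cl_of_nonpos hN (by linarith)
    have e : 2 * t - 2 * d - (a + b - 2 * d) = 2 * t - (a + b) := by ring
    have hzero : FoldEq N 0 (a - b) := FoldEq.of_eq (by linarith)
    rcases hsplit with ⟨hp, hm⟩ | ⟨hp, hm⟩
    · right
      rw [hp, hm, hz, e]
      exact ⟨hzero, hfold⟩
    · left
      rw [hp, hm, hz, e]
      exact ⟨hfold, hzero⟩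

/-- The pair rule: `{c(P+Q), c(P-Q)} ≡ {c P + c Q, c P - c Q}` up to sign mod `2N`. -/
theorem pair_rule (hN : 0 < N) (hβ : v.Is β N) (hu : v.Is u 0) (h2 : v.Is (2 : L) 0)
    (hX₁ : X₁ ≠ 0) (hX₂ : X₂ ≠ 0) (hXp : Xp ≠ 0) (hXm : Xm ≠ 0) (hne : X₁ ≠ X₂)
    (h1 : Xp * Xm * (X₁ - X₂) ^ 2 = (X₁ * X₂ - β) ^ 2)
    (hS : (Xp + Xm) * (X₁ - X₂) ^ 2 = 2 * (X₁ + X₂) * (X₁ * X₂ + β) + u * X₁ * X₂) :
    (FoldEq N (cl N (v.w Xp)) (cl N (v.w X₁) + cl N (v.w X₂)) ∧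
        FoldEq N (cl N (v.w Xm)) (cl N (v.w X₁) - cl N (v.w X₂))) ∨
      (FoldEq N (cl N (v.w Xp)) (cl N (v.w X₁) - cl N (v.w X₂)) ∧
        FoldEq N (cl N (v.w Xm)) (cl N (v.w X₁) + cl N (v.w X₂))) := by
  rcases le_total (v.w X₁) (v.w X₂) with hab | hab
  · exact pair_rule_aux hN hβ hu h2 hX₁ hX₂ hXp hXm hne h1 hS hab
  · have h1' : Xp * Xm * (X₂ - X₁) ^ 2 = (X₂ * X₁ - β) ^ 2 := by
      rw [show (X₂ - X₁) ^ 2 = (X₁ - X₂) ^ 2 by ring, h1]; ring
    have hS' : (Xp + Xm) * (X₂ - X₁) ^ 2 = 2 * (X₂ + X₁) * (X₂ * X₁ + β) + u * X₂ * X₁ := by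
      rw [show (X₂ - X₁) ^ 2 = (X₁ - X₂) ^ 2 by ring, hS]; ring
    have := pair_rule_aux hN hβ hu h2 hX₂ hX₁ hXp hXm (Ne.symm hne) h1' hS' hab
    rcases this with ⟨hp, hm⟩ | ⟨hp, hm⟩
    · left
      refine ⟨by rw [add_comm]; exact hp, ?_⟩
      have := hm.neg_right
      rwa [neg_sub] at this
    · right
      refine ⟨?_, by rw [add_comm]; exact hm⟩
      have := hp.neg_right
      rwa [neg_sub] at this

end pair

section dup

variable {N : ℚ} {β u X Xd : L}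

/-- The duplication rule: `c(2P) ≡ ± 2 c(P) (mod 2N)`. -/
theorem dup_rule (hN : 0 < N) (hβ : v.Is β N) (hu : v.Is u 0) (h2 : v.Is (2 : L) 0)
    (hX : X ≠ 0) (hXd : Xd ≠ 0)
    (h3 : Xd * (X * (4 * X ^ 2 + u * X + 4 * β)) = (X ^ 2 - β) ^ 2) :
    FoldEq N (cl N (v.w Xd)) (2 * cl N (v.w X)) := by
  set a := v.w X with ha_def
  have ha : v.Is X a := ⟨hX, rfl⟩
  have h4 : v.Is (4 : L) 0 := by
    have := h2.mul h2
    rw [show (2 : L) * 2 = 4 by norm_num] at this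
    exact this.congr (by ring)
  have hM : v.Is (X ^ 2) (2 * a) := ha.sq
  have e1 : v.Is (4 * X ^ 2) (2 * a) := (h4.mul hM).congr (by ring)
  have e2 : v.Is (u * X) a := (hu.mul ha).congr (by ring)
  have e3 : v.Is (4 * β) N := (h4.mul hβ).congr (by ring)
  -- if the numerator is nonzero, so is `g`
  have hg_of : X ^ 2 - β ≠ 0 → 4 * X ^ 2 + u * X + 4 * β ≠ 0 := by
    intro hT hg
    rw [hg, mul_zero, mul_zero] at h3
    exact pow_ne_zero 2 hT h3.symm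
  have hT_of : 4 * X ^ 2 + u * X + 4 * β ≠ 0 → X ^ 2 - β ≠ 0 := by
    intro hg hT
    rw [hT] at h3
    have : Xd * (X * (4 * X ^ 2 + u * X + 4 * β)) ≠ 0 := mul_ne_zero hXd (mul_ne_zero hX hg)
    exact this (by rw [h3]; ring)
  have hrel : ∀ (hT : X ^ 2 - β ≠ 0) (hg : 4 * X ^ 2 + u * X + 4 * β ≠ 0),
      v.w Xd + a + v.w (4 * X ^ 2 + u * X + 4 * β) = 2 * v.w (X ^ 2 - β) := by
    intro hT hg
    have l1 : v.Is (Xd * (X * (4 * X ^ 2 + u * X + 4 * β)))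
        (v.w Xd + (a + v.w (4 * X ^ 2 + u * X + 4 * β))) :=
      (RatVal.is_self hXd).mul (ha.mul (RatVal.is_self hg))
    have l2 : v.Is ((X ^ 2 - β) ^ 2) (2 * v.w (X ^ 2 - β)) := (RatVal.is_self hT).sq
    rw [h3] at l1
    have := l1.unique l2
    linarith
  rcases le_or_gt a 0 with ha0 | ha0
  · -- a ≤ 0
    have hT : v.Is (X ^ 2 - β) (2 * a) := hM.sub_of_lt hβ.ge (by linarith)
    have hg := hg_of hT.1
    have hgge : v.Ge (4 * X ^ 2 + u * X + 4 * β) (2 * a) :=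
      (e1.ge.add (e2.ge_of_le (by linarith))).add (e3.ge_of_le (by linarith))
    have hγ := hgge.le_of_is (RatVal.is_self hg)
    have hr := hrel hT.1 hg
    rw [hT.2] at hr
    rw [cl_of_nonpos hN (by linarith : v.w Xd ≤ 0), cl_of_nonpos hN ha0]
    exact FoldEq.of_eq (by ring)
  rcases lt_or_ge a N with haN | haN
  · -- 0 < a < N
    have hgis : v.Is (4 * X ^ 2 + u * X + 4 * β) a :=
      (RatVal.Is.add_of_lt' (e1.ge_of_le (le_refl _)) e2 (by linarith)).add_of_lt e3.ge haN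
    have hT := hT_of hgis.1
    have hvT := val_T hM hβ hT
    have hr := hrel hT hgis.1
    rw [hgis.2] at hr
    have hfold := foldEq_of_val_T (by linarith : 0 < 2 * a) (by linarith) hvT
    rw [cl_of_mem ha0.le haN.le]
    have e : v.w Xd = 2 * v.w (X ^ 2 - β) - 2 * a := by linarith
    rw [e]
    exact hfold
  · -- N ≤ a
    have hT : v.Is (X ^ 2 - β) N := RatVal.Is.sub_of_lt' hM.ge hβ (by linarith)
    have hg := hg_of hT.1
    have hgge : v.Ge (4 * X ^ 2 + u * X + 4 * β) N :=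
      ((e1.ge_of_le (by linarith)).add (e2.ge_of_le haN)).add e3.ge
    have hγ := hgge.le_of_is (RatVal.is_self hg)
    have hr := hrel hT.1 hg
    rw [hT.2] at hr
    rw [cl_of_nonpos hN (by linarith : v.w Xd ≤ 0), cl_of_ge hN haN]
    exact ⟨-1, Or.inl (by push_cast; ring)⟩

end dup

section induction

variable {N : ℚ} {β u : L} {G : Type*} [AddCommGroup G]

open Classical in
/-- The clamped valuation of the `x`-coordinate of a point (`0` at the origin). -/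
noncomputable def cc (v : RatVal L) (N : ℚ) (X : G → L) (Q : G) : ℚ :=
  if Q = 0 then 0 else cl N (v.w (X Q))

theorem cc_zero (X : G → L) : cc v N X 0 = 0 := by
  unfold cc
  rw [if_pos rfl]

theorem cc_of_ne (X : G → L) {Q : G} (hQ : Q ≠ 0) : cc v N X Q = cl N (v.w (X Q)) := by
  unfold cc
  rw [if_neg hQ]

/-- **Fold rule**: `c (k • P) ≡ ± k * c P (mod 2N)`. -/
theorem fold_rule (X : G → L) (hN : 0 < N) (hβ : v.Is β N) (hu : v.Is u 0) (h2 : v.Is (2 : L) 0)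
    (hneg : ∀ P : G, X (-P) = X P)
    (hX1 : ∀ P Q : G, P ≠ 0 → Q ≠ 0 → X P ≠ X Q →
      X (P + Q) * X (P - Q) * (X P - X Q) ^ 2 = (X P * X Q - β) ^ 2)
    (hX2 : ∀ P Q : G, P ≠ 0 → Q ≠ 0 → X P ≠ X Q →
      (X (P + Q) + X (P - Q)) * (X P - X Q) ^ 2
        = 2 * (X P + X Q) * (X P * X Q + β) + u * X P * X Q)
    (hX3 : ∀ P : G, P ≠ 0 → 2 • P ≠ 0 →
      X (2 • P) * (X P * (4 * X P ^ 2 + u * X P + 4 * β)) = (X P ^ 2 - β) ^ 2)
    (hinj : ∀ P Q : G, P ≠ 0 → Q ≠ 0 → X P = X Q → Q = P ∨ Q = -P)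
    (P : G) (hP2 : 2 • P ≠ 0) (hX0 : ∀ k : ℕ, k • P ≠ 0 → X (k • P) ≠ 0) (k : ℕ) :
    FoldEq N (cc v N X (k • P)) (k * cl N (v.w (X P))) := by
  have hP : P ≠ 0 := by
    rintro rfl
    exact hP2 (smul_zero 2)
  have hXP : X P ≠ 0 := by
    have := hX0 1 (by rwa [one_smul])
    rwa [one_smul] at this
  set c := cl N (v.w (X P)) with hc
  have hdup : FoldEq N (cl N (v.w (X (2 • P)))) (2 * c) :=
    dup_rule hN hβ hu h2 hXP (hX0 2 hP2) (hX3 P hP hP2)
  suffices H : ∀ k : ℕ, FoldEq N (cc v N X (k • P)) (k * c) ∧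
      FoldEq N (cc v N X ((k + 1) • P)) ((k + 1 : ℕ) * c) from (H k).1
  intro k
  induction k with
  | zero =>
    refine ⟨?_, ?_⟩
    · rw [zero_smul, cc_zero]; exact FoldEq.of_eq (by simp)
    · rw [zero_add, one_smul, cc_of_ne X hP]; exact FoldEq.of_eq (by simp [hc])
  | succ k ih =>
    obtain ⟨ih0, ih1⟩ := ih
    refine ⟨ih1, ?_⟩
    set Q := (k + 1) • P with hQ
    have hQp : (k + 1 + 1) • P = Q + P := by rw [hQ, succ_nsmul]
    have hQm : k • P = Q - P := by rw [hQ, succ_nsmul, add_sub_cancel_right]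
    have hcast : ((k + 1 + 1 : ℕ) : ℚ) * c = ((k + 1 : ℕ) : ℚ) * c + c := by push_cast; ring
    have hcast' : ((k : ℕ) : ℚ) * c = ((k + 1 : ℕ) : ℚ) * c - c := by push_cast; ring
    by_cases hQ0 : Q = 0
    · -- the middle point is the origin
      rw [hQp, hQ0, zero_add, cc_of_ne X hP, hcast]
      rw [hQ0, cc_zero] at ih1
      obtain ⟨j, hj⟩ := foldEq_zero_iff.mp ih1
      rw [hj]
      exact (FoldEq.refl N c).add_period j |>.trans (FoldEq.of_eq (by ring))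
    by_cases hXQ : X Q = X P
    · rcases hinj P Q hP hQ0 hXQ.symm with hQP | hQP
      · -- Q = P
        have hk0 : k • P = 0 := by rw [hQm, hQP, sub_self]
        rw [hk0, cc_zero] at ih0
        obtain ⟨j, hj⟩ := foldEq_zero_iff.mp ih0
        have h2P : Q + P = 2 • P := by rw [hQP, two_nsmul]
        rw [hQp, h2P, cc_of_ne X hP2]
        have e : ((k + 1 + 1 : ℕ) : ℚ) * c = 2 * c + 2 * N * j := by
          push_cast; linarith
        rw [e]
        exact hdup.add_period j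
      · -- Q = -P
        have hp0 : Q + P = 0 := by rw [hQP, neg_add_cancel]
        rw [hQp, hp0, cc_zero]
        have hm2 : Q - P = -(2 • P) := by rw [hQP, two_nsmul]; abel
        have hm2ne : -(2 • P) ≠ 0 := neg_ne_zero.mpr hP2
        rw [hQm, hm2, cc_of_ne X hm2ne, hneg] at ih0
        rw [cc_of_ne X hQ0, hXQ] at ih1
        -- ih0 : c(2P) ≈ k c ; hdup : c(2P) ≈ 2c ; ih1 : c ≈ (k+1) c
        have h5 : FoldEq N ((k : ℕ) * c) (2 * c) := ih0.symm.trans hdup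
        rw [foldEq_zero_iff]
        obtain ⟨i, hi | hi⟩ := ih1 <;> obtain ⟨j, hj | hj⟩ := h5
        · exact ⟨-i - (i + j), by push_cast at hi hj ⊢; linarith⟩
        · exact ⟨j, by push_cast at hi hj ⊢; linarith⟩
        · exact ⟨i, by push_cast at hi hj ⊢; linarith⟩
        · exact ⟨i, by push_cast at hi hj ⊢; linarith⟩
    · -- generic case
      have hp0 : Q + P ≠ 0 := by
        intro h
        have : Q = -P := eq_neg_of_add_eq_zero_left h
        exact hXQ (by rw [this, hneg])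
      have hm0 : Q - P ≠ 0 := by
        intro h
        exact hXQ (by rw [sub_eq_zero.mp h])
      have hXp : X (Q + P) ≠ 0 := by
        have := hX0 (k + 1 + 1) (by rwa [hQp])
        rwa [hQp] at this
      have hXm : X (Q - P) ≠ 0 := by
        have := hX0 k (by rwa [hQm])
        rwa [hQm] at this
      have hXQ0 : X Q ≠ 0 := hX0 (k + 1) hQ0
      have hpair := pair_rule hN hβ hu h2 hXQ0 hXP hXp hXm hXQ (hX1 Q P hQ0 hP hXQ)
        (hX2 Q P hQ0 hP hXQ)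
      rw [cc_of_ne X hQ0] at ih1
      rw [hQm, cc_of_ne X hm0] at ih0
      rw [hQp, cc_of_ne X hp0, hcast]
      rw [hcast'] at ih0
      have hadd := ih1.add_sub c
      rcases hpair with ⟨hp, hm⟩ | ⟨hp, hm⟩ <;> rcases hadd with ⟨ha, hs⟩ | ⟨ha, hs⟩
      · exact hp.trans ha
      · -- c⁺ ≈ kc ≈ c⁻ ≈ (k+2)c
        exact (hp.trans ha).trans (ih0.symm.trans (hm.trans hs))
      · exact (hp.trans hs).trans (ih0.symm.trans (hm.trans ha))
      · exact hp.trans hs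

/-- A point killed by `n` has `n * c P ∈ 2Nℤ`. -/
theorem torsion_cl (X : G → L) (hN : 0 < N) (hβ : v.Is β N) (hu : v.Is u 0)
    (h2 : v.Is (2 : L) 0)
    (hneg : ∀ P : G, X (-P) = X P)
    (hX1 : ∀ P Q : G, P ≠ 0 → Q ≠ 0 → X P ≠ X Q →
      X (P + Q) * X (P - Q) * (X P - X Q) ^ 2 = (X P * X Q - β) ^ 2)
    (hX2 : ∀ P Q : G, P ≠ 0 → Q ≠ 0 → X P ≠ X Q →
      (X (P + Q) + X (P - Q)) * (X P - X Q) ^ 2
        = 2 * (X P + X Q) * (X P * X Q + β) + u * X P * X Q)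
    (hX3 : ∀ P : G, P ≠ 0 → 2 • P ≠ 0 →
      X (2 • P) * (X P * (4 * X P ^ 2 + u * X P + 4 * β)) = (X P ^ 2 - β) ^ 2)
    (hinj : ∀ P Q : G, P ≠ 0 → Q ≠ 0 → X P = X Q → Q = P ∨ Q = -P)
    (P : G) (hP2 : 2 • P ≠ 0) (hX0 : ∀ k : ℕ, k • P ≠ 0 → X (k • P) ≠ 0)
    (n : ℕ) (hn : n • P = 0) :
    ∃ j : ℤ, (n : ℚ) * cl N (v.w (X P)) = 2 * N * j := by
  have := fold_rule X hN hβ hu h2 hneg hX1 hX2 hX3 hinj P hP2 hX0 n
  rw [hn, cc_zero] at this
  exact foldEq_zero_iff.mp this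

end induction

end Fold

/-- **Integrality of the valuation of torsion points (case M).**
Let `X : G → L` satisfy the `x`-only addition formulas of `Y² = X (4X² + uX + 4β)` with
`w u = 0`, `w 2 = 0`, `w β = N = p * n₀ > 0`, `p` odd.  If `p • P = 0`, `P ≠ 0`, then either
`w (X P) ≤ 0`, or `w (X P)` is an integer strictly between `0` and `N`. -/
theorem torsion_val_int {L : Type*} [Field L] (v : RatVal L) {G : Type*} [AddCommGroup G]
    (X : G → L) {N : ℚ} {β u : L} (hN : 0 < N) (hβ : v.Is β N) (hu : v.Is u 0)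
    (h2 : v.Is (2 : L) 0)
    (hneg : ∀ P : G, X (-P) = X P)
    (hX1 : ∀ P Q : G, P ≠ 0 → Q ≠ 0 → X P ≠ X Q →
      X (P + Q) * X (P - Q) * (X P - X Q) ^ 2 = (X P * X Q - β) ^ 2)
    (hX2 : ∀ P Q : G, P ≠ 0 → Q ≠ 0 → X P ≠ X Q →
      (X (P + Q) + X (P - Q)) * (X P - X Q) ^ 2
        = 2 * (X P + X Q) * (X P * X Q + β) + u * X P * X Q)
    (hX3 : ∀ P : G, P ≠ 0 → 2 • P ≠ 0 →
      X (2 • P) * (X P * (4 * X P ^ 2 + u * X P + 4 * β)) = (X P ^ 2 - β) ^ 2)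
    (hinj : ∀ P Q : G, P ≠ 0 → Q ≠ 0 → X P = X Q → Q = P ∨ Q = -P)
    (hX0 : ∀ Q : G, Q ≠ 0 → X Q = 0 → 2 • Q = 0)
    (p n₀ : ℕ) (hp : Odd p) (hNp : N = p * n₀)
    (P : G) (hP : P ≠ 0) (hpP : p • P = 0) :
    v.w (X P) ≤ 0 ∨ ∃ m : ℤ, v.w (X P) = m ∧ 0 < m ∧ (m : ℚ) < N := by
  obtain ⟨r, hr⟩ := hp
  -- a point killed by `2` and by `p` is zero
  have hkill : ∀ Q : G, p • Q = 0 → 2 • Q = 0 → Q = 0 := by
    intro Q h1 h2'
    have : p • Q = r • (2 • Q) + Q := by rw [hr, add_smul, mul_comm, mul_smul, one_smul]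
    rw [h1, h2', smul_zero, zero_add] at this
    exact this.symm
  have hP2 : 2 • P ≠ 0 := fun h => hP (hkill P hpP h)
  have hX0' : ∀ k : ℕ, k • P ≠ 0 → X (k • P) ≠ 0 := by
    intro k hk hX
    apply hk
    apply hkill _ _ (hX0 _ hk hX)
    rw [smul_comm, hpP, smul_zero]
  obtain ⟨j, hj⟩ := Fold.torsion_cl X hN hβ hu h2 hneg hX1 hX2 hX3 hinj P hP2 hX0' p hpP
  have hp0 : (p : ℚ) ≠ 0 := by
    rw [hr]; push_cast; positivity
  have hn₀ : (n₀ : ℚ) ≠ 0 := by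
    rintro h
    rw [hNp, h, mul_zero] at hN
    exact lt_irrefl _ hN
  have hc : Fold.cl N (v.w (X P)) = 2 * n₀ * j := by
    have : (p : ℚ) * Fold.cl N (v.w (X P)) = p * (2 * n₀ * j) := by rw [hj, hNp]; ring
    exact mul_left_cancel₀ hp0 this
  rcases le_or_gt (v.w (X P)) 0 with h0 | h0
  · exact Or.inl h0
  right
  rcases lt_or_ge (v.w (X P)) N with hlt | hge
  · rw [Fold.cl_of_mem h0.le hlt.le] at hc
    refine ⟨2 * n₀ * j, by rw [hc]; push_cast; ring, ?_, ?_⟩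
    · have : (0 : ℚ) < ((2 * n₀ * j : ℤ) : ℚ) := by push_cast; rw [← hc]; exact h0
      exact_mod_cast this
    · push_cast; rw [← hc]; exact hlt
  · exfalso
    rw [Fold.cl_of_ge hN hge, hNp] at hc
    have h3 : (p : ℚ) = 2 * j := by
      have : (n₀ : ℚ) * p = n₀ * (2 * j) := by rw [mul_comm, hc]; ring
      exact mul_left_cancel₀ hn₀ this
    have h4 : (p : ℤ) = 2 * j := by exact_mod_cast h3
    rw [hr] at h4
    push_cast at h4
    omega

end Fermat.Agent.S05
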