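import Mathlib
import Fermat.Agent.S05.Fold
import Fermat.Agent.S05.XOnly

/-!
# S05, case M: the fold rule on a Weierstrass curve

Adapter between the `x`-only addition formulas on `W.toAffine.Point` and the abstract fold rule
`Fermat.Agent.S05.torsion_val_int`: for a Weierstrass curve `W` over a field `F` with a
`ℚ`-valued valuation `v`, and a centre `e` whose centred invariants are
`b₂' = u` (a unit), `b₄' = 2β` (`w β = N = p * n₀ > 0`), `b₆' = 0`, every point `(x, y)` killed by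
the odd number `p` satisfies `x ≠ e` and: either `w (x - e) ≤ 0`, or `w (x - e)` is an integer
strictly between `0` and `N`.
-/

set_option autoImplicit false
set_option linter.unusedSectionVars false

namespace Fermat.Agent.S05

namespace FoldCurve

open WeierstrassCurve WeierstrassCurve.Affine

variable {F : Type*} [Field F] [DecidableEq F] (W : WeierstrassCurve F)

/-- The centred `x`-coordinate `x - e` of a point (junk value `0` at the origin). -/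
def xc (e : F) : W.toAffine.Point → F
  | .zero => 0
  | .some x _ _ => x - e

theorem xc_some (e : F) {x y : F} (h : W.toAffine.Nonsingular x y) :
    xc W e (Point.some x y h) = x - e := rfl

theorem xc_neg (e : F) (P : W.toAffine.Point) : xc W e (-P) = xc W e P := by
  rcases P with _ | ⟨x, y, h⟩
  · rfl
  · rfl

theorem eq_or_eq_neg (e : F) (P Q : W.toAffine.Point) (hP : P ≠ 0) (hQ : Q ≠ 0)
    (h : xc W e P = xc W e Q) : Q = P ∨ Q = -P := by
  rcases P with _ | ⟨x₁, y₁, h₁⟩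
  · exact absurd rfl hP
  rcases Q with _ | ⟨x₂, y₂, h₂⟩
  · exact absurd rfl hQ
  have hx : x₁ = x₂ := by
    have : x₁ - e = x₂ - e := h
    linear_combination this
  rcases Point.X_eq_iff.mp hx with h' | h'
  · exact Or.inl h'.symm
  · right
    rw [h', neg_neg]

/-- `(2y + a₁x + a₃)² = 4x³ + b₂x² + 2b₄x + b₆` on the curve. -/
theorem Y_sq {x y : F} (h : W.toAffine.Equation x y) :
    (2 * y + W.a₁ * x + W.a₃) ^ 2 = 4 * x ^ 3 + W.b₂ * x ^ 2 + 2 * W.b₄ * x + W.b₆ := by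
  have h' := (W.toAffine.equation_iff x y).mp h
  simp only [WeierstrassCurve.b₂, WeierstrassCurve.b₄, WeierstrassCurve.b₆]
  linear_combination 4 * h'

section centred

variable {W} {e u β : F} (hb₂ : W.b₂ + 12 * e = u) (hb₄ : W.b₄ + e * W.b₂ + 6 * e ^ 2 = 2 * β)
  (hb₆ : W.b₆ + 2 * e * W.b₄ + e ^ 2 * W.b₂ + 4 * e ^ 3 = 0)

include hb₂ in
theorem b₂_eq : W.b₂ = u - 12 * e := by linear_combination hb₂

include hb₂ hb₄ in
theorem b₄_eq : W.b₄ = 2 * β - e * u + 6 * e ^ 2 := by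
  linear_combination hb₄ - e * hb₂

include hb₂ hb₄ hb₆ in
theorem b₆_eq : W.b₆ = -4 * e * β + e ^ 2 * u - 4 * e ^ 3 := by
  linear_combination hb₆ - 2 * e * hb₄ + e ^ 2 * hb₂

include hb₂ hb₄ hb₆ in
theorem b₈_eq : 4 * W.b₈ = (u - 12 * e) * (-4 * e * β + e ^ 2 * u - 4 * e ^ 3)
    - (2 * β - e * u + 6 * e ^ 2) ^ 2 := by
  rw [W.b_relation, b₂_eq hb₂, b₄_eq hb₂ hb₄, b₆_eq hb₂ hb₄ hb₆]

include hb₂ hb₄ hb₆ in
/-- `Y² = X (4X² + uX + 4β)` with `X = x - e`. -/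
theorem Y_sq_centred {x y : F} (h : W.toAffine.Equation x y) :
    (2 * y + W.a₁ * x + W.a₃) ^ 2
      = (x - e) * (4 * (x - e) ^ 2 + u * (x - e) + 4 * β) := by
  rw [Y_sq W h, b₂_eq hb₂, b₄_eq hb₂ hb₄, b₆_eq hb₂ hb₄ hb₆]
  ring

include hb₂ hb₄ hb₆ in
theorem hX1 (h4 : (4 : F) ≠ 0) (P Q : W.toAffine.Point) (hP : P ≠ 0) (hQ : Q ≠ 0)
    (hne : xc W e P ≠ xc W e Q) :
    xc W e (P + Q) * xc W e (P - Q) * (xc W e P - xc W e Q) ^ 2
      = (xc W e P * xc W e Q - β) ^ 2 := by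
  rcases P with _ | ⟨x₁, y₁, h₁⟩
  · exact absurd rfl hP
  rcases Q with _ | ⟨x₂, y₂, h₂⟩
  · exact absurd rfl hQ
  have hx : x₁ ≠ x₂ := by
    intro h
    exact hne (by rw [xc_some, xc_some, h])
  obtain ⟨x₃, y₃, x₄, y₄, h₃, h₄, hadd, hsub, hPr, hSm⟩ := XOnly.add_sub_x_formulas W h₁ h₂ hx
  rw [hadd, hsub, xc_some, xc_some, xc_some, xc_some]
  have hB8 := b₈_eq hb₂ hb₄ hb₆
  rw [b₄_eq hb₂ hb₄, b₆_eq hb₂ hb₄ hb₆] at hPr
  rw [b₂_eq hb₂, b₄_eq hb₂ hb₄, b₆_eq hb₂ hb₄ hb₆] at hSm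
  apply mul_left_cancel₀ h4
  linear_combination 4 * hPr - 4 * e * hSm - hB8

include hb₂ hb₄ hb₆ in
theorem hX2 (P Q : W.toAffine.Point) (hP : P ≠ 0) (hQ : Q ≠ 0)
    (hne : xc W e P ≠ xc W e Q) :
    (xc W e (P + Q) + xc W e (P - Q)) * (xc W e P - xc W e Q) ^ 2
      = 2 * (xc W e P + xc W e Q) * (xc W e P * xc W e Q + β) + u * xc W e P * xc W e Q := by
  rcases P with _ | ⟨x₁, y₁, h₁⟩
  · exact absurd rfl hP
  rcases Q with _ | ⟨x₂, y₂, h₂⟩
  · exact absurd rfl hQ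
  have hx : x₁ ≠ x₂ := by
    intro h
    exact hne (by rw [xc_some, xc_some, h])
  obtain ⟨x₃, y₃, x₄, y₄, h₃, h₄, hadd, hsub, hPr, hSm⟩ := XOnly.add_sub_x_formulas W h₁ h₂ hx
  rw [hadd, hsub, xc_some, xc_some, xc_some, xc_some]
  rw [b₂_eq hb₂, b₄_eq hb₂ hb₄, b₆_eq hb₂ hb₄ hb₆] at hSm
  linear_combination hSm

include hb₂ hb₄ hb₆ in
theorem hX3 (h4 : (4 : F) ≠ 0) (P : W.toAffine.Point) (hP : P ≠ 0) (hP2 : 2 • P ≠ 0) :
    xc W e (2 • P) * (xc W e P * (4 * xc W e P ^ 2 + u * xc W e P + 4 * β))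
      = (xc W e P ^ 2 - β) ^ 2 := by
  rcases P with _ | ⟨x, y, h⟩
  · exact absurd rfl hP
  have hy : y ≠ W.toAffine.negY x y := by
    intro hy
    apply hP2
    rw [two_nsmul]
    exact Point.add_self_of_Y_eq hy
  obtain ⟨x₃, y₃, h₃, hadd, hD⟩ := XOnly.two_nsmul_x_formula W h hy
  rw [two_nsmul, hadd, xc_some, xc_some]
  have hB8 := b₈_eq hb₂ hb₄ hb₆
  rw [b₂_eq hb₂, b₄_eq hb₂ hb₄, b₆_eq hb₂ hb₄ hb₆] at hD
  apply mul_left_cancel₀ h4
  linear_combination 4 * hD - hB8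

include hb₂ hb₄ hb₆ in
theorem hX0 (Q : W.toAffine.Point) (hQ : Q ≠ 0) (h0 : xc W e Q = 0) : 2 • Q = 0 := by
  rcases Q with _ | ⟨x, y, h⟩
  · exact absurd rfl hQ
  rw [xc_some] at h0
  have hY := Y_sq_centred hb₂ hb₄ hb₆ h.1
  rw [h0, zero_mul] at hY
  have hY0 : 2 * y + W.a₁ * x + W.a₃ = 0 := by
    exact pow_eq_zero_iff (two_ne_zero) |>.mp hY
  have hy : y = W.toAffine.negY x y := by
    simp only [Affine.negY]
    linear_combination hY0
  rw [two_nsmul]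
  exact Point.add_self_of_Y_eq hy

end centred

end FoldCurve

open FoldCurve in
/-- **Case M, integrality.**  Let `W` be a Weierstrass curve over a field `F` with a `ℚ`-valued
valuation `v`, and `e : F` a centre with centred invariants `b₂' = u`, `b₄' = 2β`, `b₆' = 0`,
where `w u = 0`, `w 2 = 0`, `w β = N = p * n₀ > 0` and `p` is odd.  If `p • (x, y) = 0` then
`x ≠ e` and either `w (x - e) ≤ 0` or `w (x - e)` is an integer strictly between `0` and `N`. -/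
theorem torsion_xval_int {F : Type*} [Field F] [DecidableEq F] (W : WeierstrassCurve F)
    (v : RatVal F) {N : ℚ} {e u β : F} (hN : 0 < N) (hβ : v.Is β N) (hu : v.Is u 0)
    (h2 : v.Is (2 : F) 0)
    (hb₂ : W.b₂ + 12 * e = u) (hb₄ : W.b₄ + e * W.b₂ + 6 * e ^ 2 = 2 * β)
    (hb₆ : W.b₆ + 2 * e * W.b₄ + e ^ 2 * W.b₂ + 4 * e ^ 3 = 0)
    (p n₀ : ℕ) (hp : Odd p) (hNp : N = p * n₀)
    {x y : F} (h : W.toAffine.Nonsingular x y)
    (hpP : p • WeierstrassCurve.Affine.Point.some x y h = 0) :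
    x - e ≠ 0 ∧
      (v.w (x - e) ≤ 0 ∨ ∃ m : ℤ, v.w (x - e) = m ∧ 0 < m ∧ (m : ℚ) < N) := by
  have h4 : (4 : F) ≠ 0 := by
    have := h2.1
    have h22 : (4 : F) = 2 * 2 := by norm_num
    rw [h22]
    exact mul_ne_zero this this
  have hP : WeierstrassCurve.Affine.Point.some x y h ≠ 0 :=
    WeierstrassCurve.Affine.Point.some_ne_zero h
  refine ⟨?_, ?_⟩
  · intro h0
    have h2P := hX0 hb₂ hb₄ hb₆ (WeierstrassCurve.Affine.Point.some x y h) hP h0
    obtain ⟨r, hr⟩ := hp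
    have : p • WeierstrassCurve.Affine.Point.some x y h
        = r • (2 • WeierstrassCurve.Affine.Point.some x y h)
          + WeierstrassCurve.Affine.Point.some x y h := by
      rw [hr, add_smul, mul_comm, mul_smul, one_smul]
    rw [hpP, h2P, smul_zero, zero_add] at this
    exact hP this.symm
  · exact torsion_val_int v (xc W e) hN hβ hu h2 (xc_neg W e)
      (hX1 hb₂ hb₄ hb₆ h4) (hX2 hb₂ hb₄ hb₆) (hX3 hb₂ hb₄ hb₆ h4)
      (fun P Q hP hQ hPQ => eq_or_eq_neg W e P Q hP hQ hPQ) (hX0 hb₂ hb₄ hb₆)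
      p n₀ hp hNp _ hP hpP

end Fermat.Agent.S05
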