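import Mathlib
import Fermat.Agent.S05.FoldCurve
import Fermat.Agent.S05.QVal

/-!
# S05, case M: the case distinction for torsion points

For a valuation subring `A` of an algebraic extension `L` of `ℚ` over an odd prime `q`, and a
Weierstrass curve `W` over `L` with centred invariants `b₂' = u` (a unit of `A`), `b₄' = 2β`,
`b₆' = 0`, where `wval A q β = p * n₀ > 0`: every point `(x, y)` killed by the odd number `p`
satisfies the hypothesis `hcase` of `Fermat.Agent.S05.inertia_fixed_of_torsion`.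
-/

set_option autoImplicit false

namespace Fermat.Agent.S05

variable {L : Type*} [Field L] [Algebra ℚ L] [Algebra.IsAlgebraic ℚ L]

/-- The valuation `wval A q` as a `RatVal`. -/
noncomputable def FoldCase.ratVal (A : ValuationSubring L) {q : ℕ} (hq : q.Prime)
    (hA : (q : L) ∈ A.nonunits) : RatVal L where
  w := wval A q
  map_mul := fun hx hy => wval_mul A hq hA hx hy
  map_add := fun hx hy hxy => wval_add_ge A hq hA hx hy hxy

/-- **Case M: the dichotomy for torsion points.** -/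
theorem torsion_hcase [DecidableEq L] (A : ValuationSubring L) {q : ℕ} (hq : q.Prime)
    (hA : (q : L) ∈ A.nonunits) (hq2 : q ≠ 2) (W : WeierstrassCurve L) {e u β : L}
    (hu : u ∈ A) (hu' : u ∉ A.nonunits) (hβ0 : β ≠ 0)
    (p n₀ : ℕ) (hp : Odd p) (hn₀ : 0 < n₀) (hwβ : wval A q β = p * n₀)
    (hb₂ : W.b₂ + 12 * e = u) (hb₄ : W.b₄ + e * W.b₂ + 6 * e ^ 2 = 2 * β)
    (hb₆ : W.b₆ + 2 * e * W.b₄ + e ^ 2 * W.b₂ + 4 * e ^ 3 = 0)
    {x y : L} (h : W.toAffine.Nonsingular x y)
    (hpP : p • WeierstrassCurve.Affine.Point.some x y h = 0) (σ : L ≃+* L) :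
    x - e ∉ A.nonunits ∨
      (x - e ∈ A.nonunits ∧ β / (x - e) ∈ A.nonunits ∧
        ∃ t η : L, σ t = t ∧ η ∈ A ∧ η ∉ A.nonunits ∧ x - e = t * η) := by
  set v := FoldCase.ratVal A hq hA with hv
  have hw : ∀ z : L, v.w z = wval A q z := fun _ => rfl
  have hp0 : 0 < p := hp.pos
  have hN : (0 : ℚ) < (p : ℚ) * n₀ := by positivity
  have hu0 : u ≠ 0 := by
    rintro rfl
    exact hu' (by rw [A.mem_nonunits_iff, map_zero]; exact zero_lt_one)
  have hwu : wval A q u = 0 := by
    have h1 := (wval_nonneg_iff A hq hA hu0).mpr hu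
    have h2 : ¬ 0 < wval A q u := fun h => hu' ((wval_pos_iff A hq hA hu0).mp h)
    linarith
  have h2ne : (2 : L) ≠ 0 := by
    have : CharZero L := algebraRat.charZero L
    exact two_ne_zero
  have hw2 : wval A q (2 : L) = 0 := by
    have hnd : ¬ q ∣ 2 := fun hd => hq2 ((Nat.prime_dvd_prime_iff_eq hq Nat.prime_two).mp hd)
    have := wval_natCast_of_not_dvd A hq hA hnd
    simpa using this
  obtain ⟨hx0, hcase⟩ := torsion_xval_int W v (N := (p : ℚ) * n₀) (e := e) (u := u) (β := β) hN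
    ⟨hβ0, by rw [hw, hwβ]⟩ ⟨hu0, by rw [hw, hwu]⟩ ⟨h2ne, by rw [hw, hw2]⟩ hb₂ hb₄ hb₆ p n₀ hp rfl
    h hpP
  rcases hcase with hle | ⟨m, hm, hm0, hmN⟩
  · left
    intro hmem
    have := (wval_pos_iff A hq hA hx0).mpr hmem
    rw [hw] at hle
    linarith
  · right
    rw [hw] at hm
    have hmpos : (0 : ℚ) < m := by exact_mod_cast hm0
    refine ⟨(wval_pos_iff A hq hA hx0).mp (by rw [hm]; exact hmpos), ?_, ?_⟩
    · have hne : β / (x - e) ≠ 0 := div_ne_zero hβ0 hx0
      apply (wval_pos_iff A hq hA hne).mp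
      rw [wval_div A hq hA hβ0 hx0, hwβ, hm]
      linarith
    · obtain ⟨η, hη, hη', hxe⟩ := exists_unit_of_wval_eq_int A hq hA hx0 m hm
      have hη0 : η ≠ 0 := by
        rintro rfl
        rw [mul_zero] at hxe
        exact hx0 hxe
      refine ⟨(q : L) ^ m, η, ?_, hη, ?_, hxe⟩
      · rw [map_zpow₀, map_natCast]
      · intro hmem
        have h1 := (wval_pos_iff A hq hA hη0).mpr hmem
        have h2 := (wval_eq_zero_iff A hq hA hη0).mpr ⟨hη, hη'⟩
        linarith

end Fermat.Agent.S05
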