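/-
S05 / M23 (helper22): the inertia step of the elementary treatment of the multiplicative case.

* `sub_x_notMem_of_slope`: if the chord through `P₁` and `-P₂` has a non-integral slope then
  either `P₁ = P₂` or `x(P₁ - P₂)` is not integral.
* `inertia_fixed_of_torsion`: a `p`-torsion point (`p` odd) on a Weierstrass curve with integral
  coefficients whose centred `x`-coordinate `X = x - e` is either not in the maximal ideal, or of
  the form `t * η` (`t` fixed by `σ`, `η` a unit) with `0 < v(X) < v(β)`, is fixed by every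
  automorphism `σ` acting trivially on the residue field; the only input on the kernel of
  reduction is the hypothesis `hG1`.
-/
import Mathlib

set_option autoImplicit false

open WeierstrassCurve

namespace Fermat.Agent.S05

namespace Inertia

variable {F : Type*} [Field F] (A : ValuationSubring F)

lemma val_eq_one {x : F} (h : x ∈ A) (h' : x ∉ A.nonunits) : A.valuation x = 1 :=
  le_antisymm ((A.valuation_le_one_iff x).2 h)
    (not_lt.1 fun hlt => h' (A.mem_nonunits_iff.2 hlt))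

lemma val_lt_one {x : F} (h : x ∈ A.nonunits) : A.valuation x < 1 :=
  A.mem_nonunits_iff.1 h

lemma val_le_one {x : F} (h : x ∈ A) : A.valuation x ≤ 1 :=
  (A.valuation_le_one_iff x).2 h

lemma val_unit_add {a b : F} (ha : A.valuation a = 1) (hb : A.valuation b < 1) :
    A.valuation (a + b) = 1 := by
  rw [A.valuation.map_add_eq_of_lt_left (by rw [ha]; exact hb), ha]

lemma valueGroup_eq_one_of_sq {Γ : Type*} [LinearOrderedCommGroupWithZero Γ] {a : Γ}
    (h : a * a = 1) : a = 1 := by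
  rcases lt_trichotomy a 1 with h1 | h1 | h1
  · exfalso
    have : a * a ≤ a * 1 := mul_le_mul_right h1.le a
    rw [h, mul_one] at this
    exact absurd h1 (not_lt.2 this)
  · exact h1
  · exfalso
    have : a * 1 ≤ a * a := mul_le_mul_right h1.le a
    rw [h, mul_one] at this
    exact absurd h1 (not_lt.2 this)

lemma eq_zero_of_odd_nsmul {G : Type*} [AddCommGroup G] {P : G} {p : ℕ} (hp : Odd p)
    (h2 : P + P = 0) (hpP : p • P = 0) : P = 0 := by
  obtain ⟨k, rfl⟩ := hp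
  rw [add_nsmul, mul_nsmul, two_nsmul, h2, smul_zero, zero_add, one_nsmul] at hpP
  exact hpP

/-- An element of the fraction field whose inverse lies in the maximal ideal is not integral. -/
lemma notMem_of_one_lt {x : F} (h : 1 < A.valuation x) : x ∉ A := fun hx =>
  absurd (val_le_one A hx) (not_le.2 h)

/-- Integrality of the `y`-coordinate of a point with integral `x`-coordinate. -/
lemma y_mem_of_x_mem (W : WeierstrassCurve F) (ha₁ : W.a₁ ∈ A) (ha₂ : W.a₂ ∈ A)
    (ha₃ : W.a₃ ∈ A) (ha₄ : W.a₄ ∈ A) (ha₆ : W.a₆ ∈ A) {x y : F}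
    (h : W.toAffine.Equation x y) (hx : x ∈ A) : y ∈ A := by
  by_contra hy
  have hy1 : 1 < A.valuation y := not_le.1 fun hle => hy ((A.valuation_le_one_iff y).1 hle)
  rw [Affine.equation_iff] at h
  have hc : A.valuation (x ^ 3 + W.a₂ * x ^ 2 + W.a₄ * x + W.a₆) ≤ 1 :=
    val_le_one A (A.add_mem _ _ (A.add_mem _ _ (A.add_mem _ _ (pow_mem hx 3)
      (A.mul_mem _ _ ha₂ (pow_mem hx 2))) (A.mul_mem _ _ ha₄ hx)) ha₆)
  have hb : A.valuation (W.a₁ * x + W.a₃) ≤ 1 :=
    val_le_one A (A.add_mem _ _ (A.mul_mem _ _ ha₁ hx) ha₃)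
  have hfac : y ^ 2 + W.a₁ * x * y + W.a₃ * y = y * (y + (W.a₁ * x + W.a₃)) := by ring
  have hv : A.valuation (y + (W.a₁ * x + W.a₃)) = A.valuation y :=
    A.valuation.map_add_eq_of_lt_left (lt_of_le_of_lt hb hy1)
  have hlhs : A.valuation (y ^ 2 + W.a₁ * x * y + W.a₃ * y) = A.valuation y * A.valuation y := by
    rw [hfac, map_mul, hv]
  have h1 : A.valuation y * A.valuation y ≤ 1 := by rw [← hlhs, h]; exact hc
  have h2 : A.valuation y * 1 ≤ A.valuation y * A.valuation y := mul_le_mul_right hy1.le _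
  rw [mul_one] at h2
  exact absurd (lt_of_lt_of_le hy1 h2) (not_lt.2 h1)

/-- The centred cubic: `Y² = X (4 X² + u X + 4 β)` for `Y = 2 y + a₁ x + a₃`, `X = x - e`. -/
lemma Y_sq_eq (W : WeierstrassCurve F) {e u β x y : F} (h : W.toAffine.Equation x y)
    (hb₂ : W.b₂ + 12 * e = u) (hb₄ : W.b₄ + e * W.b₂ + 6 * e ^ 2 = 2 * β)
    (hb₆ : W.b₆ + 2 * e * W.b₄ + e ^ 2 * W.b₂ + 4 * e ^ 3 = 0) :
    (2 * y + W.a₁ * x + W.a₃) ^ 2 = (x - e) * (4 * (x - e) ^ 2 + u * (x - e) + 4 * β) := by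
  rw [Affine.equation_iff] at h
  simp only [WeierstrassCurve.b₂, WeierstrassCurve.b₄, WeierstrassCurve.b₆] at hb₂ hb₄ hb₆
  subst hb₂
  linear_combination 4 * h + 2 * (x - e) * hb₄ + hb₆

/-- The centred duplication identity in polynomial form. -/
lemma dbl_identity (W : WeierstrassCurve F) (h2 : (2 : F) ≠ 0) {e β x y : F}
    (h : W.toAffine.Equation x y)
    (hb₄ : W.b₄ + e * W.b₂ + 6 * e ^ 2 = 2 * β)
    (hb₆ : W.b₆ + 2 * e * W.b₄ + e ^ 2 * W.b₂ + 4 * e ^ 3 = 0) :
    (3 * x ^ 2 + 2 * W.a₂ * x + W.a₄ - W.a₁ * y) ^ 2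
      + W.a₁ * (3 * x ^ 2 + 2 * W.a₂ * x + W.a₄ - W.a₁ * y) * (2 * y + W.a₁ * x + W.a₃)
      - (W.a₂ + 2 * x + e) * (2 * y + W.a₁ * x + W.a₃) ^ 2 = ((x - e) ^ 2 - β) ^ 2 := by
  rw [Affine.equation_iff] at h
  simp only [WeierstrassCurve.b₂, WeierstrassCurve.b₄, WeierstrassCurve.b₆] at hb₄ hb₆
  have h4 : (4 : F) ≠ 0 := by
    have : (4 : F) = 2 * 2 := by norm_num
    rw [this]; exact mul_ne_zero h2 h2
  apply mul_left_cancel₀ h4
  linear_combination (-4 * (W.a₁ ^ 2 + 4 * W.a₂ + 8 * x + 4 * e)) * h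
    + (-4 * (x - e) ^ 2 + (2 * W.a₄ + W.a₁ * W.a₃ + e * (W.a₁ ^ 2 + 4 * W.a₂) + 6 * e ^ 2) + 2 * β) * hb₄
    + (-8 * (x - e) - (W.a₁ ^ 2 + 4 * W.a₂ + 12 * e)) * hb₆

end Inertia

open Inertia

variable {F : Type*} [Field F] [DecidableEq F] (A : ValuationSubring F) (W : WeierstrassCurve F)

/-- **Unified chord lemma.** If the chord through `P₁` and `-P₂` has non-integral slope
(`(x₁ - x₂) / (y₁ - negY x₂ y₂)` lies in the maximal ideal), then `P₁ = P₂` or the
`x`-coordinate of `P₁ - P₂` is not integral. -/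
theorem sub_x_notMem_of_slope (ha₁ : W.a₁ ∈ A) (ha₂ : W.a₂ ∈ A) {x₁ y₁ x₂ y₂ : F}
    (h₁ : W.toAffine.Nonsingular x₁ y₁) (h₂ : W.toAffine.Nonsingular x₂ y₂)
    (hx₁ : x₁ ∈ A) (hx₂ : x₂ ∈ A) (hn : y₁ - W.toAffine.negY x₂ y₂ ≠ 0)
    (hd : (x₁ - x₂) / (y₁ - W.toAffine.negY x₂ y₂) ∈ A.nonunits) :
    Affine.Point.some x₁ y₁ h₁ = Affine.Point.some x₂ y₂ h₂ ∨
      ∃ x₃ y₃, ∃ h₃ : W.toAffine.Nonsingular x₃ y₃,
        Affine.Point.some x₁ y₁ h₁ - Affine.Point.some x₂ y₂ h₂ = Affine.Point.some x₃ y₃ h₃ ∧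
          x₃ ∉ A := by
  by_cases hx : x₁ = x₂
  · left
    rcases Affine.Y_eq_of_X_eq h₁.1 h₂.1 hx with hy | hy
    · subst hx; subst hy; rfl
    · exact absurd (sub_eq_zero.2 hy) hn
  · right
    have hneg : -(Affine.Point.some x₂ y₂ h₂) =
        Affine.Point.some x₂ (W.toAffine.negY x₂ y₂) ((Affine.nonsingular_neg ..).mpr h₂) :=
      Affine.Point.neg_some h₂
    rw [sub_eq_add_neg, hneg, Affine.Point.add_of_X_ne hx]
    refine ⟨_, _, _, rfl, ?_⟩
    rw [Affine.slope_of_X_ne hx, Affine.addX]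
    set n := y₁ - W.toAffine.negY x₂ y₂ with hn_def
    set d := x₁ - x₂ with hd_def
    have hd0 : d ≠ 0 := sub_ne_zero.2 hx
    have hvd : A.valuation (d / n) < 1 := val_lt_one A hd
    have hvn0 : A.valuation n ≠ 0 := (A.valuation.ne_zero_iff).2 hn
    have hvd0 : A.valuation d ≠ 0 := (A.valuation.ne_zero_iff).2 hd0
    -- valuation of the slope is > 1
    have hl : 1 < A.valuation (n / d) := by
      have : A.valuation (n / d) = (A.valuation (d / n))⁻¹ := by
        rw [← map_inv₀, inv_div]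
      rw [this]
      have h0 : A.valuation (d / n) ≠ 0 := (A.valuation.ne_zero_iff).2 (div_ne_zero hd0 hn)
      exact (one_lt_inv₀ (zero_lt_iff.2 h0)).2 hvd
    set l := n / d with hl_def
    apply notMem_of_one_lt
    have hla : A.valuation (l + W.a₁) = A.valuation l :=
      A.valuation.map_add_eq_of_lt_left (lt_of_le_of_lt (val_le_one A ha₁) hl)
    have hll : A.valuation (l * (l + W.a₁)) = A.valuation l * A.valuation l := by
      rw [map_mul, hla]
    have hll1 : 1 < A.valuation (l * (l + W.a₁)) := by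
      rw [hll]
      calc (1 : A.ValueGroup) < A.valuation l := hl
        _ = A.valuation l * 1 := (mul_one _).symm
        _ ≤ A.valuation l * A.valuation l := mul_le_mul_right hl.le _
    have hrest : A.valuation (W.a₂ + x₁ + x₂) ≤ 1 :=
      val_le_one A (A.add_mem _ _ (A.add_mem _ _ ha₂ hx₁) hx₂)
    have hform : l ^ 2 + W.toAffine.a₁ * l - W.toAffine.a₂ - x₁ - x₂ =
        l * (l + W.a₁) - (W.a₂ + x₁ + x₂) := by ring
    rw [hform, A.valuation.map_sub_eq_of_lt_left (lt_of_le_of_lt hrest hll1)]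
    exact hll1

/-- Duplication in centred form: `(x(2P) - e) * Y² = (X² - β)²`. -/
theorem Inertia.two_nsmul_x_centred (h2 : (2 : F) ≠ 0) {e β x y : F}
    (h : W.toAffine.Nonsingular x y)
    (hb₄ : W.b₄ + e * W.b₂ + 6 * e ^ 2 = 2 * β)
    (hb₆ : W.b₆ + 2 * e * W.b₄ + e ^ 2 * W.b₂ + 4 * e ^ 3 = 0)
    (hy : y ≠ W.toAffine.negY x y) :
    ∃ x₂ y₂, ∃ h₂ : W.toAffine.Nonsingular x₂ y₂,
      Affine.Point.some x y h + Affine.Point.some x y h = Affine.Point.some x₂ y₂ h₂ ∧
        (x₂ - e) * (2 * y + W.a₁ * x + W.a₃) ^ 2 = ((x - e) ^ 2 - β) ^ 2 := by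
  refine ⟨_, _, _, Affine.Point.add_self_of_Y_ne hy, ?_⟩
  rw [Affine.slope_of_Y_ne rfl hy, Affine.addX]
  have hY : y - W.toAffine.negY x y = 2 * y + W.a₁ * x + W.a₃ := by
    simp only [Affine.negY]; ring
  have hY0 : 2 * y + W.a₁ * x + W.a₃ ≠ 0 := by
    rw [← hY]; exact sub_ne_zero.2 hy
  rw [hY]
  have key := dbl_identity W h2 h.1 hb₄ hb₆
  rw [← key]
  have hl : (3 * x ^ 2 + 2 * W.toAffine.a₂ * x + W.toAffine.a₄ - W.toAffine.a₁ * y) /
      (2 * y + W.a₁ * x + W.a₃) * (2 * y + W.a₁ * x + W.a₃) =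
      3 * x ^ 2 + 2 * W.toAffine.a₂ * x + W.toAffine.a₄ - W.toAffine.a₁ * y :=
    div_mul_cancel₀ _ hY0
  generalize (3 * x ^ 2 + 2 * W.toAffine.a₂ * x + W.toAffine.a₄ - W.toAffine.a₁ * y) /
      (2 * y + W.a₁ * x + W.a₃) = l at hl ⊢
  linear_combination (l * (2 * y + W.a₁ * x + W.a₃)
    + (3 * x ^ 2 + 2 * W.a₂ * x + W.a₄ - W.a₁ * y)
    + W.a₁ * (2 * y + W.a₁ * x + W.a₃)) * hl

/-- **Inertia step (M2 + M3).**  Let `W` have integral coefficients, `2` a unit of `A`, and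
centre `e` such that `Y² = X (4 X² + u X + 4 β)` with `u` a unit and `β` in the maximal ideal.
Let `σ` act trivially on the residue field of `A`.  A `p`-torsion point `(x, y)` (`p` odd) with
`X = x - e` either outside the maximal ideal, or in the maximal ideal with `β / X` in the maximal
ideal and `X = t * η` (`σ t = t`, `η` a unit), is fixed by `σ`.  The kernel of reduction enters
only through `hG1`. -/
theorem inertia_fixed_of_torsion (ha₁ : W.a₁ ∈ A) (ha₂ : W.a₂ ∈ A) (ha₃ : W.a₃ ∈ A)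
    (ha₄ : W.a₄ ∈ A) (ha₆ : W.a₆ ∈ A) (h2 : (2 : F) ∉ A.nonunits)
    {e u β : F} (he : e ∈ A) (hu : u ∈ A) (hu' : u ∉ A.nonunits) (hβ : β ∈ A.nonunits)
    (hb₂ : W.b₂ + 12 * e = u) (hb₄ : W.b₄ + e * W.b₂ + 6 * e ^ 2 = 2 * β)
    (hb₆ : W.b₆ + 2 * e * W.b₄ + e ^ 2 * W.b₂ + 4 * e ^ 3 = 0)
    (σ : F ≃+* F) (hσA : ∀ z ∈ A, σ z - z ∈ A.nonunits)
    (hσ₁ : σ W.a₁ = W.a₁) (hσ₃ : σ W.a₃ = W.a₃) (hσe : σ e = e)
    {p : ℕ} (hp : Odd p)
    (hG1 : ∀ {x y : F} (h : W.toAffine.Nonsingular x y),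
      p • Affine.Point.some x y h = 0 → x ∈ A)
    {x y : F} (h : W.toAffine.Nonsingular x y) (h' : W.toAffine.Nonsingular (σ x) (σ y))
    (hP : p • Affine.Point.some x y h = 0) (hP' : p • Affine.Point.some (σ x) (σ y) h' = 0)
    (hcase : x - e ∉ A.nonunits ∨
      (x - e ∈ A.nonunits ∧ β / (x - e) ∈ A.nonunits ∧
        ∃ t η : F, σ t = t ∧ η ∈ A ∧ η ∉ A.nonunits ∧ x - e = t * η)) :
    σ x = x ∧ σ y = y := by
  have h2A : (2 : F) ∈ A := by
    have : ((2 : ℕ) : F) ∈ A := natCast_mem A 2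
    exact_mod_cast this
  have h4A : (4 : F) ∈ A := by
    have : ((4 : ℕ) : F) ∈ A := natCast_mem A 4
    exact_mod_cast this
  have hv2 : A.valuation 2 = 1 := val_eq_one A h2A h2
  have h20 : (2 : F) ≠ 0 := by
    intro h0
    rw [h0, map_zero] at hv2
    exact zero_ne_one hv2
  have hYdef : y - W.toAffine.negY x y = 2 * y + W.a₁ * x + W.a₃ := by
    simp only [Affine.negY]; ring
  -- `P` is not a 2-torsion point
  have hyne : y ≠ W.toAffine.negY x y := by
    intro hy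
    have h2P : Affine.Point.some x y h + Affine.Point.some x y h = 0 :=
      Affine.Point.add_self_of_Y_eq hy
    exact Affine.Point.some_ne_zero h (eq_zero_of_odd_nsmul hp h2P hP)
  have hY0 : 2 * y + W.a₁ * x + W.a₃ ≠ 0 := by
    rw [← hYdef]; exact sub_ne_zero.2 hyne
  have hYsq := Y_sq_eq W h.1 hb₂ hb₄ hb₆
  -- the final step, common to both cases
  have hfinal : σ x ∈ A → x ∈ A → σ y - W.toAffine.negY x y ≠ 0 →
      (σ x - x) / (σ y - W.toAffine.negY x y) ∈ A.nonunits → σ x = x ∧ σ y = y := by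
    intro hx₁ hx₂ hn hd
    rcases sub_x_notMem_of_slope A W ha₁ ha₂ h' h hx₁ hx₂ hn hd with
      heq | ⟨x₃, y₃, h₃, hsub, hx₃⟩
    · have := Affine.Point.some.inj heq
      exact ⟨this.1, this.2⟩
    · exfalso
      apply hx₃
      apply hG1 h₃
      rw [← hsub, smul_sub, hP, hP', sub_zero]
  rcases hcase with hX | ⟨hX, hβX, t, η, hσt, hηA, hηu, hXt⟩
  · -- the case `X` a unit (M3)
    have hxA : x ∈ A := hG1 h hP
    have hXA : x - e ∈ A := A.sub_mem hxA he
    have hvX : A.valuation (x - e) = 1 := val_eq_one A hXA hX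
    have hyA : y ∈ A := y_mem_of_x_mem A W ha₁ ha₂ ha₃ ha₄ ha₆ h.1 hxA
    have hYA : 2 * y + W.a₁ * x + W.a₃ ∈ A :=
      A.add_mem _ _ (A.add_mem _ _ (A.mul_mem _ _ h2A hyA) (A.mul_mem _ _ ha₁ hxA)) ha₃
    have hvY : A.valuation (2 * y + W.a₁ * x + W.a₃) = 1 := by
      by_contra hne
      have hlt : A.valuation (2 * y + W.a₁ * x + W.a₃) < 1 :=
        lt_of_le_of_ne (val_le_one A hYA) hne
      obtain ⟨x₂, y₂, h₂, hadd, hform⟩ := two_nsmul_x_centred W h20 h hb₄ hb₆ hyne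
      have hx₂A : x₂ ∈ A := hG1 h₂ (by rw [← hadd, smul_add, hP, add_zero])
      have hnum1 : A.valuation ((x - e) ^ 2 - β) = 1 := by
        have hX2 : A.valuation ((x - e) ^ 2) = 1 := by rw [map_pow, hvX, one_pow]
        rw [A.valuation.map_sub_eq_of_lt_left (by rw [hX2]; exact val_lt_one A hβ), hX2]
      have hnum : A.valuation (((x - e) ^ 2 - β) ^ 2) = 1 := by
        rw [map_pow, hnum1, one_pow]
      have hprod : A.valuation (x₂ - e) * A.valuation ((2 * y + W.a₁ * x + W.a₃) ^ 2) = 1 := by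
        rw [← map_mul, hform]; exact hnum
      have hle : A.valuation (x₂ - e) ≤ 1 := val_le_one A (A.sub_mem hx₂A he)
      have hden : A.valuation ((2 * y + W.a₁ * x + W.a₃) ^ 2) < 1 := by
        rw [map_pow, pow_two]
        calc A.valuation (2 * y + W.a₁ * x + W.a₃) * A.valuation (2 * y + W.a₁ * x + W.a₃)
            ≤ A.valuation (2 * y + W.a₁ * x + W.a₃) * 1 := mul_le_mul_right hlt.le _
          _ = A.valuation (2 * y + W.a₁ * x + W.a₃) := mul_one _
          _ < 1 := hlt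
      have hcontra : A.valuation (x₂ - e) * A.valuation ((2 * y + W.a₁ * x + W.a₃) ^ 2) < 1 :=
        calc A.valuation (x₂ - e) * A.valuation ((2 * y + W.a₁ * x + W.a₃) ^ 2)
            ≤ 1 * A.valuation ((2 * y + W.a₁ * x + W.a₃) ^ 2) := mul_le_mul_left hle _
          _ = A.valuation ((2 * y + W.a₁ * x + W.a₃) ^ 2) := one_mul _
          _ < 1 := hden
      rw [hprod] at hcontra
      exact lt_irrefl _ hcontra
    have hσy : A.valuation (σ y - y) < 1 := val_lt_one A (hσA y hyA)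
    have hσx : A.valuation (σ x - x) < 1 := val_lt_one A (hσA x hxA)
    have hn_eq : σ y - W.toAffine.negY x y = (2 * y + W.a₁ * x + W.a₃) + (σ y - y) := by
      simp only [Affine.negY]; ring
    have hvn : A.valuation (σ y - W.toAffine.negY x y) = 1 := by
      rw [hn_eq]; exact val_unit_add A hvY hσy
    apply hfinal
    · have : σ x = x + (σ x - x) := by ring
      rw [this]; exact A.add_mem _ _ hxA (A.nonunits_subset (hσA x hxA))
    · exact hxA
    · intro h0; rw [h0, map_zero] at hvn; exact zero_ne_one hvn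
    · rw [A.mem_nonunits_iff, map_div₀, hvn, div_one]; exact hσx
  · -- the case `0 < v(X) < v(β)`, `X = t * η` (M2)
    have hvXlt : A.valuation (x - e) < 1 := val_lt_one A hX
    have hXA : x - e ∈ A := A.nonunits_subset hX
    have hxA : x ∈ A := by
      have : x = (x - e) + e := by ring
      rw [this]; exact A.add_mem _ _ hXA he
    have hX0 : x - e ≠ 0 := by
      intro h0
      rw [h0, zero_mul] at hYsq
      exact hY0 (pow_eq_zero_iff two_ne_zero |>.1 hYsq)
    have hvX0 : A.valuation (x - e) ≠ 0 := (A.valuation.ne_zero_iff).2 hX0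
    have hvXpos : 0 < A.valuation (x - e) := zero_lt_iff.2 hvX0
    have hη0 : η ≠ 0 := by
      rintro rfl
      rw [mul_zero] at hXt
      exact hX0 hXt
    have hvη : A.valuation η = 1 := val_eq_one A hηA hηu
    -- `ρ = Y / X` is a unit
    obtain ⟨ρ, hρdef⟩ : ∃ ρ : F, ρ = (2 * y + W.a₁ * x + W.a₃) / (x - e) := ⟨_, rfl⟩
    have hYρ : 2 * y + W.a₁ * x + W.a₃ = ρ * (x - e) := by
      rw [hρdef, div_mul_cancel₀ _ hX0]
    have hρsq : ρ * ρ = u + (4 * (x - e) + 4 * (β / (x - e))) := by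
      rw [hρdef]
      field_simp
      linear_combination hYsq
    have hv4 : A.valuation 4 ≤ 1 := val_le_one A h4A
    have hvρρ : A.valuation (ρ * ρ) = 1 := by
      rw [hρsq]
      apply val_unit_add A (val_eq_one A hu hu')
      apply A.valuation.map_add_lt
      · rw [map_mul]
        calc A.valuation 4 * A.valuation (x - e) ≤ 1 * A.valuation (x - e) :=
              mul_le_mul_left hv4 _
          _ = A.valuation (x - e) := one_mul _
          _ < 1 := hvXlt
      · rw [map_mul]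
        calc A.valuation 4 * A.valuation (β / (x - e)) ≤ 1 * A.valuation (β / (x - e)) :=
              mul_le_mul_left hv4 _
          _ = A.valuation (β / (x - e)) := one_mul _
          _ < 1 := val_lt_one A hβX
    have hvρ : A.valuation ρ = 1 := valueGroup_eq_one_of_sq (by rw [← map_mul]; exact hvρρ)
    have hρA : ρ ∈ A := (A.valuation_le_one_iff ρ).1 hvρ.le
    have hσρ : A.valuation (σ ρ - ρ) < 1 := val_lt_one A (hσA ρ hρA)
    have hση : A.valuation (σ η - η) < 1 := val_lt_one A (hσA η hηA)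
    -- `d = σ x - x = X * ((σ η - η) / η)`
    have hσX : σ x - e = t * σ η := by
      have : σ (x - e) = t * σ η := by rw [hXt, map_mul, hσt]
      rw [map_sub, hσe] at this
      exact this
    have hd : σ x - x = (x - e) * ((σ η - η) / η) := by
      field_simp
      linear_combination η * hσX - σ η * hXt
    have hvd : A.valuation (σ x - x) < A.valuation (x - e) := by
      rw [hd, map_mul, map_div₀, hvη, div_one]
      calc A.valuation (x - e) * A.valuation (σ η - η) < A.valuation (x - e) * 1 :=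
            mul_lt_mul_of_pos_left hση hvXpos
        _ = A.valuation (x - e) := mul_one _
    -- `σ Y = σ ρ * σ X`
    have hσY : 2 * σ y + W.a₁ * σ x + W.a₃ = σ ρ * (σ x - e) := by
      have := congrArg σ hYρ
      simp only [map_add, map_mul, map_sub, hσ₁, hσ₃, hσe, map_ofNat] at this
      exact this
    have hσρA : σ ρ ∈ A := by
      have : σ ρ = ρ + (σ ρ - ρ) := by ring
      rw [this]; exact A.add_mem _ _ hρA (A.nonunits_subset (hσA ρ hρA))
    have h2n : 2 * (σ y - W.toAffine.negY x y) =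
        2 * ρ * (x - e) + ((σ ρ - ρ) * (x - e) + (σ ρ - W.a₁) * (σ x - x)) := by
      simp only [Affine.negY]
      linear_combination hσY + hYρ
    have hmain : A.valuation (2 * ρ * (x - e)) = A.valuation (x - e) := by
      rw [map_mul, map_mul, hv2, hvρ, one_mul, one_mul]
    have hrest : A.valuation ((σ ρ - ρ) * (x - e) + (σ ρ - W.a₁) * (σ x - x)) <
        A.valuation (x - e) := by
      apply A.valuation.map_add_lt
      · rw [map_mul]
        calc A.valuation (σ ρ - ρ) * A.valuation (x - e) < 1 * A.valuation (x - e) :=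
              mul_lt_mul_of_pos_right hσρ hvXpos
          _ = A.valuation (x - e) := one_mul _
      · rw [map_mul]
        calc A.valuation (σ ρ - W.a₁) * A.valuation (σ x - x) ≤ 1 * A.valuation (σ x - x) :=
              mul_le_mul_left (val_le_one A (A.sub_mem hσρA ha₁)) _
          _ = A.valuation (σ x - x) := one_mul _
          _ < A.valuation (x - e) := hvd
    have hv2n : A.valuation (2 * (σ y - W.toAffine.negY x y)) = A.valuation (x - e) := by
      rw [h2n, A.valuation.map_add_eq_of_lt_left (by rw [hmain]; exact hrest), hmain]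
    have hvn : A.valuation (σ y - W.toAffine.negY x y) = A.valuation (x - e) := by
      rw [map_mul, hv2, one_mul] at hv2n
      exact hv2n
    apply hfinal
    · have : σ x = x + (σ x - x) := by ring
      rw [this]
      exact A.add_mem _ _ hxA ((A.valuation_le_one_iff _).1 (hvd.trans hvXlt).le)
    · exact hxA
    · intro h0; rw [h0, map_zero] at hvn; exact hvX0 hvn.symm
    · rw [A.mem_nonunits_iff, map_div₀, hvn]
      exact (div_lt_one₀ hvXpos).2 hvd

/-- An odd-torsion point has `X = x - e ≠ 0` (otherwise it would be a `2`-torsion point). -/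
theorem Inertia.x_sub_ne_zero {e u β : F}
    (hb₂ : W.b₂ + 12 * e = u) (hb₄ : W.b₄ + e * W.b₂ + 6 * e ^ 2 = 2 * β)
    (hb₆ : W.b₆ + 2 * e * W.b₄ + e ^ 2 * W.b₂ + 4 * e ^ 3 = 0)
    {p : ℕ} (hp : Odd p) {x y : F} (h : W.toAffine.Nonsingular x y)
    (hP : p • Affine.Point.some x y h = 0) : x - e ≠ 0 := by
  intro h0
  have hYsq := Y_sq_eq W h.1 hb₂ hb₄ hb₆
  rw [h0, zero_mul] at hYsq
  have hY : 2 * y + W.a₁ * x + W.a₃ = 0 := pow_eq_zero_iff two_ne_zero |>.1 hYsq
  have hy : y = W.toAffine.negY x y := by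
    simp only [Affine.negY]; linear_combination hY
  have h2P : Affine.Point.some x y h + Affine.Point.some x y h = 0 :=
    Affine.Point.add_self_of_Y_eq hy
  exact Affine.Point.some_ne_zero h (eq_zero_of_odd_nsmul hp h2P hP)

omit [DecidableEq F] in
/-- A nonzero element whose inverse is integral is not in the maximal ideal. -/
theorem Inertia.notMem_nonunits_of_inv_mem {x : F} (hx : x ≠ 0) (h : x⁻¹ ∈ A) :
    x ∉ A.nonunits :=
  fun hn => (A.mem_nonunits_iff_or.1 hn).elim hx (fun h' => h' h)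

/-- Variant of `inertia_fixed_of_torsion` with units given in the form `z⁻¹ ∈ A`
(plus `2 ≠ 0`, `u ≠ 0`). -/
theorem inertia_fixed_of_torsion' (ha₁ : W.a₁ ∈ A) (ha₂ : W.a₂ ∈ A) (ha₃ : W.a₃ ∈ A)
    (ha₄ : W.a₄ ∈ A) (ha₆ : W.a₆ ∈ A) (h2 : (2 : F)⁻¹ ∈ A) (h20 : (2 : F) ≠ 0)
    {e u β : F} (he : e ∈ A) (hu : u ∈ A) (hu' : u⁻¹ ∈ A) (hu0 : u ≠ 0) (hβ : β ∈ A.nonunits)
    (hb₂ : W.b₂ + 12 * e = u) (hb₄ : W.b₄ + e * W.b₂ + 6 * e ^ 2 = 2 * β)
    (hb₆ : W.b₆ + 2 * e * W.b₄ + e ^ 2 * W.b₂ + 4 * e ^ 3 = 0)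
    (σ : F ≃+* F) (hσA : ∀ z ∈ A, σ z - z ∈ A.nonunits)
    (hσ₁ : σ W.a₁ = W.a₁) (hσ₃ : σ W.a₃ = W.a₃) (hσe : σ e = e)
    {p : ℕ} (hp : Odd p)
    (hG1 : ∀ {x y : F} (h : W.toAffine.Nonsingular x y),
      p • Affine.Point.some x y h = 0 → x ∈ A)
    {x y : F} (h : W.toAffine.Nonsingular x y) (h' : W.toAffine.Nonsingular (σ x) (σ y))
    (hP : p • Affine.Point.some x y h = 0) (hP' : p • Affine.Point.some (σ x) (σ y) h' = 0)
    (hcase : (x - e)⁻¹ ∈ A ∨
      (x - e ∈ A.nonunits ∧ β / (x - e) ∈ A.nonunits ∧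
        ∃ t η : F, σ t = t ∧ η ∈ A ∧ η⁻¹ ∈ A ∧ x - e = t * η)) :
    σ x = x ∧ σ y = y := by
  have hX0 : x - e ≠ 0 := Inertia.x_sub_ne_zero W hb₂ hb₄ hb₆ hp h hP
  refine inertia_fixed_of_torsion A W ha₁ ha₂ ha₃ ha₄ ha₆
    (Inertia.notMem_nonunits_of_inv_mem A h20 h2) he hu
    (Inertia.notMem_nonunits_of_inv_mem A hu0 hu') hβ hb₂ hb₄ hb₆ σ hσA hσ₁ hσ₃ hσe hp hG1 h h'
    hP hP' ?_
  rcases hcase with hX | ⟨hX, hβX, t, η, hσt, hηA, hηu, hXt⟩
  · exact Or.inl (Inertia.notMem_nonunits_of_inv_mem A hX0 hX)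
  · refine Or.inr ⟨hX, hβX, t, η, hσt, hηA, ?_, hXt⟩
    refine Inertia.notMem_nonunits_of_inv_mem A ?_ hηu
    rintro rfl
    rw [mul_zero] at hXt
    exact hX0 hXt

end Fermat.Agent.S05
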