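import Mathlib
import Fermat.Prelude.Def_FLTPrelim_Ramification
import Fermat.Agent.S05.FoldCase
import Fermat.Agent.S05.QValGal
import Fermat.Agent.S05.Inertia
import Fermat.Agent.S05.KerRedX
import Fermat.Agent.S05.FreyArith
import Fermat.Agent.S05.CaseG

/-!
# S05, case M (multiplicative reduction): final wiring

For an odd prime `q ≠ p` dividing `abc`, the mod-`p` representation of the Frey curve is
unramified at `q`.  Inputs: `frey_caseM` (centred invariants of the Frey curve),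
`torsion_hcase` (the fold rule: the valuation of `x - e` at a `p`-torsion point),
`inertia_fixed_of_torsion` (inertia fixes such points), `KerRedX.x_mem_of_nsmul_eq_zero`
(the kernel of reduction has no `p`-torsion).
-/

set_option autoImplicit false

namespace Fermat.Agent.S05

namespace CaseM

open WeierstrassCurve WeierstrassCurve.Affine

local notation "K" => AlgebraicClosure ℚ

/-- **Case M of S05**: if the odd prime `q ≠ p` divides `abc`, the mod-`p` representation of the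
Frey curve is unramified at `q`. -/
theorem unramified_of_dvd (P : FreyPackage) {q : ℕ} (hq : q.Prime) (hq2 : q ≠ 2)
    (hqp : q ≠ P.p) (hqabc : (q : ℤ) ∣ P.a * P.b * P.c) : P.GaloisRepUnramifiedAt q := by
  have := QVal.isAlgebraic_Qbar
  intro A hA σ hσ T
  obtain ⟨e, u, β, n₀, hn₀, hβ0, hβv, hu0, huv, he, hb2, hb4, hb6⟩ := frey_caseM P hq hq2 hqabc
  obtain ⟨ha₁, ha₂, ha₃, ha₄, ha₆⟩ := CaseG.freyCurve_coeff_mem P hq hq2 A hA
  set φ := algebraMap ℚ K with hφ
  set W : WeierstrassCurve K := P.freyCurve.baseChange K with hW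
  -- coefficients
  have hWa₁ : W.a₁ = φ P.freyCurve.a₁ := rfl
  have hWa₃ : W.a₃ = φ P.freyCurve.a₃ := rfl
  have hWb₂ : W.b₂ = φ P.freyCurve.b₂ := WeierstrassCurve.map_b₂ _ _
  have hWb₄ : W.b₄ = φ P.freyCurve.b₄ := WeierstrassCurve.map_b₄ _ _
  have hWb₆ : W.b₆ = φ P.freyCurve.b₆ := WeierstrassCurve.map_b₆ _ _
  have h2 : (2 : K) ∉ A.nonunits := by
    have hnd : ¬ q ∣ 2 := fun hd => hq2 ((Nat.prime_dvd_prime_iff_eq hq Nat.prime_two).mp hd)
    have := CaseG.natCast_notMem_nonunits A hq hA hnd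
    simpa using this
  have hpK : ((P.p : ℕ) : K) ∉ A.nonunits :=
    CaseG.natCast_notMem_nonunits A hq hA
      (fun hd => hqp ((Nat.prime_dvd_prime_iff_eq hq P.pp).mp hd))
  have heA : φ e ∈ A := by
    rcases he with rfl | he
    · rw [map_zero]; exact A.zero_mem
    · exact CaseG.algebraMap_mem A hq hA he.ge
  have huA : φ u ∈ A := CaseG.algebraMap_mem A hq hA huv.ge
  have huA' : φ u ∉ A.nonunits := CaseG.algebraMap_notMem_nonunits A hq hA hu0 huv
  have hβK0 : φ β ≠ 0 := (map_ne_zero _).mpr hβ0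
  have hwβ : wval A q (φ β) = (P.p : ℚ) * n₀ := by
    rw [wval_algebraMap_rat A hq hA hβ0, hβv]
    push_cast
    ring
  have hβA : φ β ∈ A.nonunits := by
    apply (wval_pos_iff A hq hA hβK0).mp
    rw [hwβ]
    have h1 : (0 : ℚ) < P.p := by exact_mod_cast P.hppos
    have h2 : (0 : ℚ) < n₀ := by exact_mod_cast hn₀
    positivity
  have hb₂ : W.b₂ + 12 * φ e = φ u := by
    rw [hWb₂, ← hb2]; simp
  have hb₄ : W.b₄ + φ e * W.b₂ + 6 * φ e ^ 2 = 2 * φ β := by
    have := congrArg φ hb4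
    rw [hWb₂, hWb₄]
    simpa using this
  have hb₆ : W.b₆ + 2 * φ e * W.b₄ + φ e ^ 2 * W.b₂ + 4 * φ e ^ 3 = 0 := by
    have := congrArg φ hb6
    rw [hWb₂, hWb₄, hWb₆]
    simpa using this
  -- the automorphism
  have hσA : ∀ z ∈ A, σ.toRingEquiv z - z ∈ A.nonunits :=
    fun z hz => QVal.sub_mem_nonunits_of_mem_inertia A hσ hz
  have hσφ : ∀ r : ℚ, σ.toRingEquiv (φ r) = φ r := fun r => σ.commutes r
  have hG1 : ∀ {x y : K} (h : W.toAffine.Nonsingular x y),
      P.p • Point.some x y h = 0 → x ∈ A :=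
    fun h h0 => KerRedX.x_mem_of_nsmul_eq_zero A W ha₁ ha₂ ha₃ ha₄ ha₆ P.p hpK h h0
  -- the point
  apply Subtype.ext
  have hT := T.2
  rw [Submodule.mem_torsionBy_iff] at hT
  show Point.map σ.toAlgHom T.1 = T.1
  generalize T.1 = T₀ at hT ⊢
  rcases T₀ with _ | ⟨x, y, h⟩
  · rfl
  · have hP : P.p • Point.some x y h = 0 := by
      rwa [natCast_zsmul] at hT
    have h' : (P.freyCurve⁄K).Nonsingular (σ x) (σ y) :=
      (WeierstrassCurve.Affine.baseChange_nonsingular P.freyCurve σ.toAlgHom.injective ..).mpr h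
    have hmap : Point.map σ.toAlgHom (Point.some x y h) = Point.some (σ x) (σ y) h' := rfl
    have hP' : P.p • Point.some (σ x) (σ y) h' = 0 := by
      rw [← hmap, ← map_nsmul, hP, map_zero]
    have hcase := torsion_hcase A hq hA hq2 W huA huA' hβK0 P.p n₀ P.hp_odd hn₀ hwβ hb₂ hb₄ hb₆
      h hP σ.toRingEquiv
    obtain ⟨h1, h2'⟩ := inertia_fixed_of_torsion A W ha₁ ha₂ ha₃ ha₄ ha₆ h2 heA huA huA' hβA
      hb₂ hb₄ hb₆ σ.toRingEquiv hσA (by rw [hWa₁]; exact hσφ _) (by rw [hWa₃]; exact hσφ _)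
      (hσφ e) P.hp_odd hG1 h h' hP hP' hcase
    rw [hmap]
    have h1' : σ x = x := h1
    have h2'' : σ y = y := h2'
    congr

end CaseM

end Fermat.Agent.S05
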