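/-
S05 package V: the valued completion of `AlgebraicClosure ℚ` at a valuation subring `A` over a
prime `q`, with the action of the decomposition and inertia groups.

* `exists_completion`: a complete, algebraically closed, ultrametric normed field `Kh` with a
  dense embedding of `AlgebraicClosure ℚ` whose unit ball is `A`; every element of the
  decomposition group of `A` extends to an isometric automorphism of `Kh`, and elements of the
  inertia group move points of the unit ball by less than `1`.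
* `fixed_of_pow_fixed`, `fixed_of_pow_eq_one`: such "inertial" automorphisms fix `n`-th roots
  (of fixed units) for `n` prime to the residue characteristic.

Owner: helper11.
-/
import Mathlib
import Fermat.Prelude.Def_FLTPrelim_Ramification

set_option autoImplicit false

noncomputable section

namespace Fermat.Agent.S05

section Abstract

variable {Kh : Type*} [NormedField Kh] [IsUltrametricDist Kh]

namespace Completion

theorem norm_pow_sub_pow_le {t r : Kh} (ht : ‖t‖ ≤ 1) (hr : ‖r‖ ≤ 1) (i : ℕ) :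
    ‖t ^ i - r ^ i‖ ≤ ‖t - r‖ := by
  rw [← geom_sum₂_mul, norm_mul]
  have h1 : ‖∑ j ∈ Finset.range i, t ^ j * r ^ (i - 1 - j)‖ ≤ 1 :=
    IsUltrametricDist.norm_sum_le_of_forall_le_of_nonneg zero_le_one (fun j _ => by
      rw [norm_mul, norm_pow, norm_pow]
      exact mul_le_one₀ (pow_le_one₀ (norm_nonneg _) ht) (pow_nonneg (norm_nonneg _) _)
        (pow_le_one₀ (norm_nonneg _) hr))
  calc ‖∑ j ∈ Finset.range i, t ^ j * r ^ (i - 1 - j)‖ * ‖t - r‖
      ≤ 1 * ‖t - r‖ := mul_le_mul_of_nonneg_right h1 (norm_nonneg _)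
    _ = ‖t - r‖ := one_mul _

end Completion

/-- An "inertial" ring endomorphism fixes a norm-one element as soon as it fixes its `n`-th power,
for `n` prime to the residue characteristic. -/
theorem fixed_of_pow_fixed (s : Kh →+* Kh) (hs : ∀ x : Kh, ‖x‖ ≤ 1 → ‖s x - x‖ < 1)
    {n : ℕ} (hn : 0 < n) (hnn : ‖(n : Kh)‖ = 1) {r : Kh} (hr : ‖r‖ = 1)
    (h : s (r ^ n) = r ^ n) : s r = r := by
  have htr : ‖s r - r‖ < 1 := hs r hr.le
  have ht : ‖s r‖ ≤ 1 := by
    have h1 : ‖r + (s r - r)‖ ≤ max ‖r‖ ‖s r - r‖ := IsUltrametricDist.norm_add_le_max _ _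
    rw [add_sub_cancel] at h1
    exact h1.trans (max_le hr.le htr.le)
  by_contra hne
  have hpow : s r ^ n = r ^ n := by rw [← map_pow, h]
  have hsum : (∑ i ∈ Finset.range n, s r ^ i * r ^ (n - 1 - i)) = 0 := by
    have h1 := geom_sum₂_mul (s r) r n
    rw [hpow, sub_self] at h1
    exact (mul_eq_zero.mp h1).resolve_right (sub_ne_zero.mpr hne)
  have hdiff : ‖(∑ i ∈ Finset.range n, s r ^ i * r ^ (n - 1 - i)) - (n : Kh) * r ^ (n - 1)‖
      ≤ ‖s r - r‖ := by
    have h2 : (∑ i ∈ Finset.range n, s r ^ i * r ^ (n - 1 - i)) - (n : Kh) * r ^ (n - 1)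
        = ∑ i ∈ Finset.range n, (s r ^ i - r ^ i) * r ^ (n - 1 - i) := by
      have h3 : ∀ i ∈ Finset.range n, (s r ^ i - r ^ i) * r ^ (n - 1 - i)
          = s r ^ i * r ^ (n - 1 - i) - r ^ (n - 1) := by
        intro i hi
        have hi' : i < n := Finset.mem_range.mp hi
        have : r ^ i * r ^ (n - 1 - i) = r ^ (n - 1) := by
          rw [← pow_add]
          congr 1
          omega
        rw [sub_mul, this]
      rw [Finset.sum_congr rfl h3, Finset.sum_sub_distrib, Finset.sum_const, Finset.card_range,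
        nsmul_eq_mul]
    rw [h2]
    exact IsUltrametricDist.norm_sum_le_of_forall_le_of_nonneg (norm_nonneg _) (fun i _ => by
      rw [norm_mul, norm_pow, hr, one_pow, mul_one]
      exact Completion.norm_pow_sub_pow_le ht hr.le i)
  rw [hsum, zero_sub, norm_neg, norm_mul, hnn, norm_pow, hr, one_pow, one_mul] at hdiff
  linarith

/-- An inertial ring endomorphism fixes the `n`-th roots of unity, `n` prime to the residue
characteristic. -/
theorem fixed_of_pow_eq_one (s : Kh →+* Kh) (hs : ∀ x : Kh, ‖x‖ ≤ 1 → ‖s x - x‖ < 1)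
    {n : ℕ} (hn : 0 < n) (hnn : ‖(n : Kh)‖ = 1) {z : Kh} (hz : z ^ n = 1) : s z = z := by
  have hz1 : ‖z‖ = 1 := by
    have h1 : ‖z‖ ^ n = 1 := by rw [← norm_pow, hz, norm_one]
    exact (pow_eq_one_iff_of_nonneg (norm_nonneg z) hn.ne').mp h1
  exact fixed_of_pow_fixed s hs hn hnn hz1 (by rw [hz, map_one])

end Abstract

namespace Completion

open Polynomial

variable (A : ValuationSubring (AlgebraicClosure ℚ)) {q : ℕ}

theorem isIntegral_rat (x : AlgebraicClosure ℚ) : IsIntegral ℚ x := by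
  have h : (DivisionRing.toRatAlgebra : Algebra ℚ (AlgebraicClosure ℚ))
      = AlgebraicClosure.instAlgebra ℚ := Subsingleton.elim _ _
  have h2 : @IsIntegral ℚ (AlgebraicClosure ℚ) _ _ (AlgebraicClosure.instAlgebra ℚ) x :=
    (AlgebraicClosure.isAlgebraic ℚ).isAlgebraic x |>.isIntegral
  convert h2

theorem valuation_q_lt_one (hA : A.LiesOverPrime q) :
    A.valuation (q : AlgebraicClosure ℚ) < 1 :=
  A.mem_nonunits_iff.mp hA

theorem valuation_q_ne_zero (hq : q.Prime) : A.valuation (q : AlgebraicClosure ℚ) ≠ 0 := by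
  rw [Valuation.ne_zero_iff]
  exact_mod_cast hq.ne_zero

/-- Integers prime to `q` are units of `A`. -/
theorem valuation_natCast_eq_one (hq : q.Prime) (hA : A.LiesOverPrime q) {n : ℕ}
    (hn : ¬ q ∣ n) : A.valuation (n : AlgebraicClosure ℚ) = 1 := by
  have hle : A.valuation (n : AlgebraicClosure ℚ) ≤ 1 :=
    (A.valuation_le_one_iff _).mpr (natCast_mem A n)
  rcases hle.lt_or_eq with hlt | heq
  · exfalso
    have hcop : IsCoprime (n : ℤ) (q : ℤ) :=
      Nat.isCoprime_iff_coprime.mpr ((Nat.Prime.coprime_iff_not_dvd hq).mpr hn).symm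
    obtain ⟨a, b, hab⟩ := hcop
    have hq' := valuation_q_lt_one A hA
    have ha : A.valuation (a : AlgebraicClosure ℚ) ≤ 1 :=
      (A.valuation_le_one_iff _).mpr (intCast_mem A a)
    have hb : A.valuation (b : AlgebraicClosure ℚ) ≤ 1 :=
      (A.valuation_le_one_iff _).mpr (intCast_mem A b)
    have h1 : A.valuation ((a : AlgebraicClosure ℚ) * n + b * q) < 1 := by
      refine lt_of_le_of_lt (A.valuation.map_add _ _) (max_lt ?_ ?_)
      · rw [map_mul]
        calc A.valuation (a : AlgebraicClosure ℚ) * A.valuation (n : AlgebraicClosure ℚ)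
            ≤ 1 * A.valuation (n : AlgebraicClosure ℚ) := mul_le_mul_left ha _
          _ = A.valuation (n : AlgebraicClosure ℚ) := one_mul _
          _ < 1 := hlt
      · rw [map_mul]
        calc A.valuation (b : AlgebraicClosure ℚ) * A.valuation (q : AlgebraicClosure ℚ)
            ≤ 1 * A.valuation (q : AlgebraicClosure ℚ) := mul_le_mul_left hb _
          _ = A.valuation (q : AlgebraicClosure ℚ) := one_mul _
          _ < 1 := hq'
    have h2 : ((a : AlgebraicClosure ℚ) * n + b * q) = 1 := by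
      have := congrArg (Int.cast : ℤ → AlgebraicClosure ℚ) hab
      push_cast at this
      exact this
    rw [h2, map_one] at h1
    exact lt_irrefl _ h1
  · exact heq

theorem exists_valuation_natCast (hq : q.Prime) (hA : A.LiesOverPrime q) {n : ℕ} (hn : n ≠ 0) :
    ∃ e : ℕ, A.valuation (n : AlgebraicClosure ℚ) = A.valuation (q : AlgebraicClosure ℚ) ^ e := by
  obtain ⟨e, n', hn', rfl⟩ := Nat.exists_eq_pow_mul_and_not_dvd hn q hq.ne_one
  refine ⟨e, ?_⟩
  rw [Nat.cast_mul, Nat.cast_pow, map_mul, map_pow, valuation_natCast_eq_one A hq hA hn', mul_one]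

theorem exists_valuation_rat (hq : q.Prime) (hA : A.LiesOverPrime q) {r : ℚ} (hr : r ≠ 0) :
    ∃ k : ℤ, A.valuation (algebraMap ℚ (AlgebraicClosure ℚ) r)
      = A.valuation (q : AlgebraicClosure ℚ) ^ k := by
  obtain ⟨e1, h1⟩ := exists_valuation_natCast A hq hA (n := r.num.natAbs)
    (by simpa using hr)
  obtain ⟨e2, h2⟩ := exists_valuation_natCast A hq hA (n := r.den) r.den_ne_zero
  refine ⟨e1 - e2, ?_⟩
  have hr' : algebraMap ℚ (AlgebraicClosure ℚ) r
      = (r.num : AlgebraicClosure ℚ) / (r.den : AlgebraicClosure ℚ) := by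
    conv_lhs => rw [← Rat.num_div_den r]
    simp
  have hnum : A.valuation (r.num : AlgebraicClosure ℚ)
      = A.valuation ((r.num.natAbs : ℕ) : AlgebraicClosure ℚ) := by
    rcases Int.natAbs_eq r.num with h | h
    · conv_lhs => rw [h]
      simp
    · conv_lhs => rw [h]
      simp [Valuation.map_neg]
  rw [hr', map_div₀, hnum, h1, h2, zpow_sub₀ (valuation_q_ne_zero A hq), zpow_natCast,
    zpow_natCast]

theorem pow_sub_eq_of_mul_eq {Γ : Type*} [LinearOrderedCommGroupWithZero Γ] {a b c g : Γ}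
    {ka kb : ℤ} (hc : c ≠ 0) (hg : g ≠ 0) (ha : a = c ^ ka) (hb : b = c ^ kb) {i j : ℕ}
    (hij : i < j) (h : a * g ^ i = b * g ^ j) : g ^ (j - i) = c ^ (ka - kb) := by
  have hj : g ^ j = g ^ (j - i) * g ^ i := by
    rw [← pow_add]
    congr 1
    omega
  rw [hj, ← mul_assoc] at h
  have h2 : a = b * g ^ (j - i) := mul_right_cancel₀ (pow_ne_zero i hg) h
  have hb0 : b ≠ 0 := by
    rw [hb]
    exact zpow_ne_zero _ hc
  rw [zpow_sub₀ hc, ← ha, ← hb, h2, mul_div_cancel_left₀ _ hb0]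

/-- Key lemma: the value group of `A` is torsion over the subgroup generated by `v(q)`. -/
theorem exists_pow_valuation_eq (hq : q.Prime) (hA : A.LiesOverPrime q) {x : AlgebraicClosure ℚ}
    (hx : x ≠ 0) :
    ∃ (m : ℕ) (k : ℤ), 0 < m ∧
      A.valuation x ^ m = A.valuation (q : AlgebraicClosure ℚ) ^ k := by
  classical
  have hint := isIntegral_rat x
  set P := minpoly ℚ x with hP
  have hP0 : P.coeff 0 ≠ 0 := minpoly.coeff_zero_ne_zero hint hx
  have hsum : ∑ i ∈ P.support, algebraMap ℚ (AlgebraicClosure ℚ) (P.coeff i) * x ^ i = 0 := by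
    have h := minpoly.aeval ℚ x
    rw [← hP, aeval_def, eval₂_eq_sum, Polynomial.sum] at h
    exact h
  set t : ℕ → AlgebraicClosure ℚ := fun i => algebraMap ℚ (AlgebraicClosure ℚ) (P.coeff i) * x ^ i
    with ht
  have hxv : A.valuation x ≠ 0 := (Valuation.ne_zero_iff _).mpr hx
  have htne : ∀ i ∈ P.support, A.valuation (t i) ≠ 0 := by
    intro i hi
    rw [Valuation.ne_zero_iff]
    exact mul_ne_zero ((_root_.map_ne_zero _).mpr (mem_support_iff.mp hi)) (pow_ne_zero _ hx)
  have hne : P.support.Nonempty := ⟨0, mem_support_iff.mpr hP0⟩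
  obtain ⟨i₀, hi₀, hmax⟩ := Finset.exists_max_image P.support (fun i => A.valuation (t i)) hne
  -- some other index has the same valuation
  have hex : ∃ j ∈ P.support, j ≠ i₀ ∧ A.valuation (t j) = A.valuation (t i₀) := by
    by_contra hcon
    have hlt : ∀ j ∈ P.support.erase i₀, A.valuation (t j) < A.valuation (t i₀) := by
      intro j hj
      have hj' := Finset.mem_erase.mp hj
      refine lt_of_le_of_ne (hmax j hj'.2) ?_
      intro heq
      exact hcon ⟨j, hj'.2, hj'.1, heq⟩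
    have h1 : A.valuation (∑ j ∈ P.support.erase i₀, t j) < A.valuation (t i₀) :=
      Valuation.map_sum_lt _ (htne i₀ hi₀) hlt
    have h2 : ∑ j ∈ P.support.erase i₀, t j = -t i₀ := by
      have := Finset.add_sum_erase P.support t hi₀
      rw [hsum] at this
      exact eq_neg_of_add_eq_zero_right this
    rw [h2, Valuation.map_neg] at h1
    exact lt_irrefl _ h1
  obtain ⟨j, hj, hji, hval⟩ := hex
  obtain ⟨ki, hki⟩ := exists_valuation_rat A hq hA (mem_support_iff.mp hi₀)
  obtain ⟨kj, hkj⟩ := exists_valuation_rat A hq hA (mem_support_iff.mp hj)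
  have hval' : A.valuation (algebraMap ℚ (AlgebraicClosure ℚ) (P.coeff j)) * A.valuation x ^ j
      = A.valuation (algebraMap ℚ (AlgebraicClosure ℚ) (P.coeff i₀)) * A.valuation x ^ i₀ := by
    simpa [ht, map_mul, map_pow] using hval
  rcases lt_or_gt_of_ne hji with hlt | hgt
  · exact ⟨i₀ - j, kj - ki, by omega,
      pow_sub_eq_of_mul_eq (valuation_q_ne_zero A hq) hxv hkj hki hlt hval'⟩
  · exact ⟨j - i₀, ki - kj, by omega,
      pow_sub_eq_of_mul_eq (valuation_q_ne_zero A hq) hxv hki hkj hgt hval'.symm⟩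

/-- The value group of `A` is archimedean. -/
theorem mulArchimedean (hq : q.Prime) (hA : A.LiesOverPrime q) : MulArchimedean A.ValueGroup := by
  constructor
  intro x y hy
  obtain ⟨a, rfl⟩ := A.valuation_surjective x
  obtain ⟨b, rfl⟩ := A.valuation_surjective y
  rcases eq_or_ne a 0 with rfl | ha
  · exact ⟨0, by simp⟩
  have hb : b ≠ 0 := by
    rintro rfl
    simp at hy
  obtain ⟨m, k, hm, hk⟩ := exists_pow_valuation_eq A hq hA ha
  obtain ⟨m', k', hm', hk'⟩ := exists_pow_valuation_eq A hq hA hb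
  have hq0 := valuation_q_ne_zero A hq
  have hq0' : 0 < A.valuation (q : AlgebraicClosure ℚ) := zero_lt_iff.mpr hq0
  have hq1 := valuation_q_lt_one A hA
  -- `k' < 0`
  have hk'neg : k' < 0 := by
    by_contra hnn
    have h1 : (1 : A.ValueGroup) < A.valuation b ^ m' := one_lt_pow₀ hy hm'.ne'
    rw [hk'] at h1
    have h2 : A.valuation (q : AlgebraicClosure ℚ) ^ k' ≤ 1 :=
      zpow_le_one₀ hq0' hq1.le (not_lt.mp hnn)
    exact absurd h1 (not_lt.mpr h2)
  refine ⟨k.natAbs * m', ?_⟩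
  -- compare the `m * m'`-th powers
  have hmm : m * m' ≠ 0 := Nat.mul_ne_zero hm.ne' hm'.ne'
  rw [← pow_le_pow_iff_left₀ zero_le zero_le hmm]
  have e1 : A.valuation a ^ (m * m') = A.valuation (q : AlgebraicClosure ℚ) ^ (k * m') := by
    rw [pow_mul, hk, ← zpow_natCast, ← zpow_mul]
  have e2 : (A.valuation b ^ (k.natAbs * m')) ^ (m * m')
      = A.valuation (q : AlgebraicClosure ℚ) ^ (k' * (k.natAbs * m' * m)) := by
    rw [← pow_mul, show k.natAbs * m' * (m * m') = m' * (k.natAbs * m' * m) by ring, pow_mul, hk',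
      ← zpow_natCast, ← zpow_mul]
    push_cast
    rfl
  rw [e1, e2]
  apply zpow_le_zpow_right_of_le_one₀ hq0' hq1.le
  have h3 : (k.natAbs : ℤ) = |k| := Int.natCast_natAbs k
  have h4 : -|k| ≤ k := neg_abs_le k
  have hm'1 : (1 : ℤ) ≤ m' := by exact_mod_cast hm'
  have hm1 : (1 : ℤ) ≤ m := by exact_mod_cast hm
  rw [h3]
  have h5 : (0 : ℤ) ≤ |k| := abs_nonneg k
  nlinarith [mul_nonneg h5 (by linarith : (0 : ℤ) ≤ (m' : ℤ)),
    mul_nonneg (mul_nonneg h5 (by linarith : (0 : ℤ) ≤ (m' : ℤ))) (by linarith : (0 : ℤ) ≤ (m : ℤ) - 1),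
    mul_nonneg (mul_nonneg (mul_nonneg h5 (by linarith : (0 : ℤ) ≤ (m' : ℤ))) (by linarith : (0 : ℤ) ≤ (m : ℤ))) (by linarith : (0 : ℤ) ≤ -k' - 1)]

variable (q)

/-- `AlgebraicClosure ℚ` equipped with the norm attached to the valuation subring `A`. -/
def Qv (A : ValuationSubring (AlgebraicClosure ℚ)) (q : ℕ) (_hq : q.Prime)
    (_hA : A.LiesOverPrime q) : Type := AlgebraicClosure ℚ

variable (hq : q.Prime) (hA : A.LiesOverPrime q)

instance : Field (Qv A q hq hA) := inferInstanceAs (Field (AlgebraicClosure ℚ))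

instance : Valued (Qv A q hq hA) A.ValueGroup := Valued.mk' A.valuation

/-- The identity map, as a ring isomorphism onto the synonym. -/
def toQv : AlgebraicClosure ℚ ≃+* Qv A q hq hA := RingEquiv.refl _

theorem valued_v_toQv (x : AlgebraicClosure ℚ) :
    (Valued.v : Valuation (Qv A q hq hA) A.ValueGroup) (toQv A q hq hA x) = A.valuation x :=
  rfl

instance : Valuation.IsNontrivial (Valued.v : Valuation (Qv A q hq hA) A.ValueGroup) :=
  ⟨⟨toQv A q hq hA (q : AlgebraicClosure ℚ), valuation_q_ne_zero A hq,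
    (valuation_q_lt_one A hA).ne⟩⟩

instance rankOne : Valuation.RankOne (Valued.v : Valuation (Qv A q hq hA) A.ValueGroup) := by
  haveI := mulArchimedean A hq hA
  exact (Valuation.nonempty_rankOne_iff_mulArchimedean.mpr
    (MulArchimedean.comap (MonoidWithZeroHom.ValueGroup₀.embedding).toMonoidHom
      MonoidWithZeroHom.ValueGroup₀.embedding_strictMono)).some

instance : NormedField (Qv A q hq hA) := Valued.toNormedField (Qv A q hq hA) A.ValueGroup

instance : IsUltrametricDist (Qv A q hq hA) := inferInstance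

theorem norm_toQv_le_iff (x y : AlgebraicClosure ℚ) :
    ‖toQv A q hq hA x‖ ≤ ‖toQv A q hq hA y‖ ↔ A.valuation x ≤ A.valuation y := by
  rw [Valued.toNormedField.norm_le_iff, valued_v_toQv, valued_v_toQv]

theorem norm_toQv_le_one_iff (x : AlgebraicClosure ℚ) : ‖toQv A q hq hA x‖ ≤ 1 ↔ x ∈ A := by
  rw [Valued.toNormedField.norm_le_one_iff, valued_v_toQv, A.valuation_le_one_iff]

theorem norm_toQv_lt_one_iff (x : AlgebraicClosure ℚ) :
    ‖toQv A q hq hA x‖ < 1 ↔ x ∈ A.nonunits := by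
  rw [Valued.toNormedField.norm_lt_one_iff, valued_v_toQv, A.mem_nonunits_iff]

theorem norm_toQv_eq_iff (x y : AlgebraicClosure ℚ) :
    ‖toQv A q hq hA x‖ = ‖toQv A q hq hA y‖ ↔ A.valuation x = A.valuation y := by
  rw [le_antisymm_iff, le_antisymm_iff, norm_toQv_le_iff, norm_toQv_le_iff]

/-! ### The completion -/

/-- The completion of `AlgebraicClosure ℚ` at `A`. -/
abbrev Khat : Type := UniformSpace.Completion (Qv A q hq hA)

/-- The canonical embedding of `AlgebraicClosure ℚ` into its completion at `A`. -/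
def iota : AlgebraicClosure ℚ →+* Khat A q hq hA :=
  (UniformSpace.Completion.coeRingHom).comp (toQv A q hq hA).toRingHom

theorem iota_apply (x : AlgebraicClosure ℚ) :
    iota A q hq hA x = ((toQv A q hq hA x : Qv A q hq hA) : Khat A q hq hA) := rfl

theorem norm_iota (x : AlgebraicClosure ℚ) : ‖iota A q hq hA x‖ = ‖toQv A q hq hA x‖ :=
  UniformSpace.Completion.norm_coe _

theorem denseRange_iota : DenseRange (iota A q hq hA) := by
  have h := UniformSpace.Completion.denseRange_coe (α := Qv A q hq hA)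
  exact h.comp (toQv A q hq hA).surjective.denseRange
    (UniformSpace.Completion.continuous_coe _)

instance : IsUltrametricDist (Khat A q hq hA) := by
  apply IsUltrametricDist.isUltrametricDist_of_forall_norm_add_le_max_norm
  intro x y
  refine UniformSpace.Completion.induction_on₂ x y ?_ ?_
  · exact isClosed_le (by fun_prop) (by fun_prop)
  · intro a b
    rw [← UniformSpace.Completion.coe_add, UniformSpace.Completion.norm_coe,
      UniformSpace.Completion.norm_coe, UniformSpace.Completion.norm_coe]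
    exact IsUltrametricDist.norm_add_le_max a b

theorem norm_iota_q_lt_one : ‖iota A q hq hA (q : AlgebraicClosure ℚ)‖ < 1 := by
  rw [norm_iota, norm_toQv_lt_one_iff]
  exact hA

theorem iota_q_ne_zero : iota A q hq hA (q : AlgebraicClosure ℚ) ≠ 0 := by
  rw [Ne, map_eq_zero]
  exact_mod_cast hq.ne_zero

theorem exists_one_lt_norm : ∃ x : Khat A q hq hA, 1 < ‖x‖ :=
  ⟨(iota A q hq hA (q : AlgebraicClosure ℚ))⁻¹, by
    rw [norm_inv]
    exact (one_lt_inv₀ (norm_pos_iff.mpr (iota_q_ne_zero A q hq hA))).mpr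
      (norm_iota_q_lt_one A q hq hA)⟩

theorem charZero_khat : CharZero (Khat A q hq hA) :=
  charZero_of_injective_ringHom (iota A q hq hA).injective

theorem isAlgClosed_khat : IsAlgClosed (Khat A q hq hA) := by
  let _ : NontriviallyNormedField (Khat A q hq hA) :=
    { (inferInstance : NormedField (Khat A q hq hA)) with
      non_trivial := exists_one_lt_norm A q hq hA }
  have : CharZero (Khat A q hq hA) := charZero_khat A q hq hA
  have : IsAlgClosed (Qv A q hq hA) := inferInstanceAs (IsAlgClosed (AlgebraicClosure ℚ))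
  let _ : Algebra (Qv A q hq hA) (Khat A q hq hA) :=
    (UniformSpace.Completion.coeRingHom : Qv A q hq hA →+* Khat A q hq hA).toAlgebra
  have hd : DenseRange (algebraMap (Qv A q hq hA) (Khat A q hq hA)) :=
    UniformSpace.Completion.denseRange_coe
  exact IsAlgClosed.of_denseRange (K := Qv A q hq hA) (L := Khat A q hq hA) hd

/-! ### The Galois action -/

open scoped Pointwise in
theorem map_mem_iff {σ : AlgebraicClosure ℚ ≃ₐ[ℚ] AlgebraicClosure ℚ}
    (hσ : σ ∈ A.decompositionSubgroup ℚ) (x : AlgebraicClosure ℚ) : σ x ∈ A ↔ x ∈ A := by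
  have h : σ • A = A := MulAction.mem_stabilizer_iff.mp hσ
  have h2 := ValuationSubring.smul_mem_pointwise_smul_iff (g := σ) (S := A) (x := x)
  rw [h] at h2
  exact h2

theorem valuation_eq_one_iff_mem {u : AlgebraicClosure ℚ} (hu : u ≠ 0) :
    A.valuation u = 1 ↔ u ∈ A ∧ u⁻¹ ∈ A := by
  rw [← A.valuation_le_one_iff, ← A.valuation_le_one_iff, map_inv₀,
    inv_le_one₀ (zero_lt_iff.mpr ((Valuation.ne_zero_iff _).mpr hu))]
  exact le_antisymm_iff

omit hq hA in
/-- Elements of the decomposition group preserve the valuation. -/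
theorem valuation_map_eq (hq : q.Prime) (hA : A.LiesOverPrime q)
    {σ : AlgebraicClosure ℚ ≃ₐ[ℚ] AlgebraicClosure ℚ}
    (hσ : σ ∈ A.decompositionSubgroup ℚ) (x : AlgebraicClosure ℚ) :
    A.valuation (σ x) = A.valuation x := by
  rcases eq_or_ne x 0 with rfl | hx
  · simp
  obtain ⟨m, k, hm, hk⟩ := exists_pow_valuation_eq A hq hA hx
  have hq0 : (q : AlgebraicClosure ℚ) ≠ 0 := by exact_mod_cast hq.ne_zero
  have hvq := valuation_q_ne_zero A hq
  set u := x ^ m * ((q : AlgebraicClosure ℚ) ^ k)⁻¹ with hu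
  have hu0 : u ≠ 0 := mul_ne_zero (pow_ne_zero _ hx) (inv_ne_zero (zpow_ne_zero _ hq0))
  have hvu : A.valuation u = 1 := by
    rw [hu, map_mul, map_pow, map_inv₀, map_zpow₀, hk]
    exact mul_inv_cancel₀ (zpow_ne_zero _ hvq)
  obtain ⟨h1, h2⟩ := (valuation_eq_one_iff_mem A hu0).mp hvu
  have hσu : σ u = σ x ^ m * ((q : AlgebraicClosure ℚ) ^ k)⁻¹ := by
    rw [hu, map_mul, map_pow, map_inv₀, map_zpow₀, map_natCast]
  have hσu0 : σ u ≠ 0 := (EmbeddingLike.map_ne_zero_iff).mpr hu0
  have hvσu : A.valuation (σ u) = 1 := by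
    rw [valuation_eq_one_iff_mem A hσu0, ← map_inv₀, map_mem_iff A hσ, map_mem_iff A hσ]
    exact ⟨h1, h2⟩
  rw [hσu, map_mul, map_pow, map_inv₀, map_zpow₀] at hvσu
  have h3 : A.valuation (σ x) ^ m = A.valuation (q : AlgebraicClosure ℚ) ^ k :=
    (mul_inv_eq_one₀ (zpow_ne_zero _ hvq)).mp hvσu
  exact (pow_left_inj₀ zero_le zero_le hm.ne').mp (h3.trans hk.symm)

omit hq hA in
theorem mem_decomposition_of_mem_inertia {σ : AlgebraicClosure ℚ ≃ₐ[ℚ] AlgebraicClosure ℚ}
    (hσ : σ ∈ A.inertiaSubgroupIn ℚ) : σ ∈ A.decompositionSubgroup ℚ := by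
  obtain ⟨τ, -, rfl⟩ := Subgroup.mem_map.mp hσ
  exact τ.2

omit hq hA in
/-- Elements of the inertia group act trivially modulo the maximal ideal. -/
theorem sub_mem_nonunits_of_mem_inertia {σ : AlgebraicClosure ℚ ≃ₐ[ℚ] AlgebraicClosure ℚ}
    (hσ : σ ∈ A.inertiaSubgroupIn ℚ) {a : AlgebraicClosure ℚ} (ha : a ∈ A) :
    σ a - a ∈ A.nonunits := by
  obtain ⟨τ, hτ, rfl⟩ := Subgroup.mem_map.mp hσ
  have h1 : MulSemiringAction.toRingAut (A.decompositionSubgroup ℚ) (IsLocalRing.ResidueField A) τ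
      = 1 := MonoidHom.mem_ker.mp hτ
  have h2 : τ • IsLocalRing.residue A ⟨a, ha⟩ = IsLocalRing.residue A ⟨a, ha⟩ := by
    have := congrArg (fun f : RingAut (IsLocalRing.ResidueField A) =>
      f (IsLocalRing.residue A ⟨a, ha⟩)) h1
    simpa using this
  rw [← IsLocalRing.ResidueField.residue_smul] at h2
  have h3 : τ • (⟨a, ha⟩ : A) - ⟨a, ha⟩ ∈ IsLocalRing.maximalIdeal A := by
    rw [← IsLocalRing.residue_eq_zero_iff, map_sub, h2, sub_self]
  rw [ValuationSubring.mem_nonunits_iff_exists_mem_maximalIdeal]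
  exact ⟨_, h3⟩

/-- An automorphism of `AlgebraicClosure ℚ`, transported to the synonym. -/
def sigmaQv (σ : AlgebraicClosure ℚ ≃ₐ[ℚ] AlgebraicClosure ℚ) : Qv A q hq hA ≃+* Qv A q hq hA :=
  ((toQv A q hq hA).symm.trans σ.toRingEquiv).trans (toQv A q hq hA)

theorem sigmaQv_toQv (σ : AlgebraicClosure ℚ ≃ₐ[ℚ] AlgebraicClosure ℚ) (x : AlgebraicClosure ℚ) :
    sigmaQv A q hq hA σ (toQv A q hq hA x) = toQv A q hq hA (σ x) := rfl

theorem norm_sigmaQv {σ : AlgebraicClosure ℚ ≃ₐ[ℚ] AlgebraicClosure ℚ}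
    (hσ : σ ∈ A.decompositionSubgroup ℚ) (y : Qv A q hq hA) :
    ‖sigmaQv A q hq hA σ y‖ = ‖y‖ := by
  obtain ⟨x, rfl⟩ := (toQv A q hq hA).surjective y
  rw [sigmaQv_toQv, norm_toQv_eq_iff]
  exact valuation_map_eq A q hq hA hσ x

theorem isometry_sigmaQv {σ : AlgebraicClosure ℚ ≃ₐ[ℚ] AlgebraicClosure ℚ}
    (hσ : σ ∈ A.decompositionSubgroup ℚ) : Isometry (sigmaQv A q hq hA σ) :=
  AddMonoidHomClass.isometry_of_norm _ (norm_sigmaQv A q hq hA hσ)

theorem isometry_sigmaQv_symm {σ : AlgebraicClosure ℚ ≃ₐ[ℚ] AlgebraicClosure ℚ}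
    (hσ : σ ∈ A.decompositionSubgroup ℚ) : Isometry (sigmaQv A q hq hA σ).symm :=
  (isometry_sigmaQv A q hq hA hσ).right_inv (sigmaQv A q hq hA σ).right_inv

/-- The extension of an element of the decomposition group to the completion. -/
def sigmaHat {σ : AlgebraicClosure ℚ ≃ₐ[ℚ] AlgebraicClosure ℚ}
    (hσ : σ ∈ A.decompositionSubgroup ℚ) : Khat A q hq hA ≃+* Khat A q hq hA :=
  UniformSpace.Completion.mapRingEquiv (sigmaQv A q hq hA σ)
    (isometry_sigmaQv A q hq hA hσ).continuous (isometry_sigmaQv_symm A q hq hA hσ).continuous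

theorem sigmaHat_apply {σ : AlgebraicClosure ℚ ≃ₐ[ℚ] AlgebraicClosure ℚ}
    (hσ : σ ∈ A.decompositionSubgroup ℚ) (x : Khat A q hq hA) :
    sigmaHat A q hq hA hσ x = UniformSpace.Completion.map (sigmaQv A q hq hA σ) x := rfl

theorem sigmaHat_iota {σ : AlgebraicClosure ℚ ≃ₐ[ℚ] AlgebraicClosure ℚ}
    (hσ : σ ∈ A.decompositionSubgroup ℚ) (x : AlgebraicClosure ℚ) :
    sigmaHat A q hq hA hσ (iota A q hq hA x) = iota A q hq hA (σ x) := by
  rw [sigmaHat_apply, iota_apply,
    UniformSpace.Completion.map_coe (isometry_sigmaQv A q hq hA hσ).uniformContinuous]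
  rfl

theorem norm_sigmaHat {σ : AlgebraicClosure ℚ ≃ₐ[ℚ] AlgebraicClosure ℚ}
    (hσ : σ ∈ A.decompositionSubgroup ℚ) (x : Khat A q hq hA) :
    ‖sigmaHat A q hq hA hσ x‖ = ‖x‖ := by
  have hiso : Isometry (sigmaHat A q hq hA hσ) :=
    (isometry_sigmaQv A q hq hA hσ).completion_map
  exact hiso.norm_map_of_map_zero (map_zero _) x

theorem norm_sigmaHat_sub_lt {σ : AlgebraicClosure ℚ ≃ₐ[ℚ] AlgebraicClosure ℚ}
    (hσ : σ ∈ A.decompositionSubgroup ℚ) (hσI : σ ∈ A.inertiaSubgroupIn ℚ)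
    (x : Khat A q hq hA) (hx : ‖x‖ ≤ 1) : ‖sigmaHat A q hq hA hσ x - x‖ < 1 := by
  obtain ⟨a, ha⟩ := (denseRange_iota A q hq hA).exists_dist_lt x zero_lt_one
  rw [dist_eq_norm] at ha
  have hιa : ‖iota A q hq hA a‖ ≤ 1 := by
    have h1 : ‖x - (x - iota A q hq hA a)‖ ≤ max ‖x‖ ‖x - iota A q hq hA a‖ := by
      rw [sub_eq_add_neg x (x - iota A q hq hA a)]
      refine (IsUltrametricDist.norm_add_le_max _ _).trans ?_
      rw [norm_neg]
    rw [sub_sub_cancel] at h1
    exact h1.trans (max_le hx ha.le)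
  have haA : a ∈ A := by
    rwa [norm_iota, norm_toQv_le_one_iff] at hιa
  have h2 : ‖iota A q hq hA (σ a - a)‖ < 1 := by
    rw [norm_iota, norm_toQv_lt_one_iff]
    exact sub_mem_nonunits_of_mem_inertia A hσI haA
  have h3 : ‖sigmaHat A q hq hA hσ (x - iota A q hq hA a)‖ < 1 := by
    rw [norm_sigmaHat]
    exact ha
  have heq : sigmaHat A q hq hA hσ x - x
      = sigmaHat A q hq hA hσ (x - iota A q hq hA a) + iota A q hq hA (σ a - a)
        - (x - iota A q hq hA a) := by
    rw [map_sub, sigmaHat_iota, map_sub]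
    ring
  rw [heq, sub_eq_add_neg]
  refine lt_of_le_of_lt (IsUltrametricDist.norm_add_le_max _ _) (max_lt ?_ ?_)
  · exact lt_of_le_of_lt (IsUltrametricDist.norm_add_le_max _ _) (max_lt h3 h2)
  · rw [norm_neg]
    exact ha

end Completion

/-- **Package V.** The completion `Kh` of `AlgebraicClosure ℚ` at a valuation subring `A` over
`q`: a complete, algebraically closed, ultrametric normed field with unit ball `A`, on which the
decomposition group acts by isometries, the inertia group moving integral elements by less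
than `1`. -/
theorem exists_completion (A : ValuationSubring (AlgebraicClosure ℚ)) {q : ℕ} (hq : q.Prime)
    (hA : A.LiesOverPrime q) :
    ∃ (Kh : Type) (_ : NormedField Kh) (_ : CompleteSpace Kh) (_ : IsUltrametricDist Kh)
      (_ : IsAlgClosed Kh) (ι : AlgebraicClosure ℚ →+* Kh),
      DenseRange ι ∧
      (∀ x, ‖ι x‖ ≤ 1 ↔ x ∈ A) ∧
      (∀ x, ‖ι x‖ < 1 ↔ x ∈ A.nonunits) ∧
      ‖(q : Kh)‖ < 1 ∧ (q : Kh) ≠ 0 ∧
      (∀ n : ℕ, ¬ q ∣ n → ‖(n : Kh)‖ = 1) ∧
      ∀ σ : AlgebraicClosure ℚ ≃ₐ[ℚ] AlgebraicClosure ℚ, σ ∈ A.decompositionSubgroup ℚ →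
        ∃ s : Kh ≃+* Kh, (∀ x, ‖s x‖ = ‖x‖) ∧ (∀ x, s (ι x) = ι (σ x)) ∧
          (σ ∈ A.inertiaSubgroupIn ℚ → ∀ x : Kh, ‖x‖ ≤ 1 → ‖s x - x‖ < 1) := by
  refine ⟨Completion.Khat A q hq hA, inferInstance, inferInstance, inferInstance,
    Completion.isAlgClosed_khat A q hq hA, Completion.iota A q hq hA,
    Completion.denseRange_iota A q hq hA, ?_, ?_, ?_, ?_, ?_, ?_⟩
  · intro x
    rw [Completion.norm_iota, Completion.norm_toQv_le_one_iff]
  · intro x
    rw [Completion.norm_iota, Completion.norm_toQv_lt_one_iff]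
  · have h := Completion.norm_iota_q_lt_one A q hq hA
    rwa [map_natCast] at h
  · have h := Completion.iota_q_ne_zero A q hq hA
    rwa [map_natCast] at h
  · intro n hn
    have h1 : ‖Completion.toQv A q hq hA (n : AlgebraicClosure ℚ)‖
        = ‖Completion.toQv A q hq hA (1 : AlgebraicClosure ℚ)‖ := by
      rw [Completion.norm_toQv_eq_iff, map_one]
      exact Completion.valuation_natCast_eq_one A hq hA hn
    rw [← map_natCast (Completion.iota A q hq hA) n, Completion.norm_iota, h1, map_one, norm_one]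
  · intro σ hσ
    exact ⟨Completion.sigmaHat A q hq hA hσ, Completion.norm_sigmaHat A q hq hA hσ,
      Completion.sigmaHat_iota A q hq hA hσ,
      fun hσI x hx => Completion.norm_sigmaHat_sub_lt A q hq hA hσ hσI x hx⟩

end Fermat.Agent.S05

end
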