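/-
S05 / J1: an admissible change of variables `(x, y) ↦ (u² x + r, u³ y + u² s x + t)` induces an
additive bijection between the points of `C • W` and the points of `W`.
-/
import Mathlib

set_option autoImplicit false

noncomputable section

namespace Fermat.Agent.S05

open WeierstrassCurve

namespace VarChange

variable {F : Type*} [Field F] (W : WeierstrassCurve F) (C : WeierstrassCurve.VariableChange F)

/-- The `x`-coordinate of the image point. -/
def vcX (x : F) : F := (C.u : F) ^ 2 * x + C.r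

/-- The `y`-coordinate of the image point. -/
def vcY (x y : F) : F := (C.u : F) ^ 3 * y + (C.u : F) ^ 2 * C.s * x + C.t

theorem vcX_injective : Function.Injective (vcX C) := by
  intro x x' h
  have hu : (C.u : F) ^ 2 ≠ 0 := pow_ne_zero _ C.u.ne_zero
  unfold vcX at h
  exact mul_left_cancel₀ hu (add_right_cancel h)

theorem vcY_injective (x : F) : Function.Injective (vcY C x) := by
  intro y y' h
  have hu : (C.u : F) ^ 3 ≠ 0 := pow_ne_zero _ C.u.ne_zero
  unfold vcY at h
  exact mul_left_cancel₀ hu (add_right_cancel (add_right_cancel h))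

theorem eqn_eq (x y : F) :
    y ^ 2 + (C • W).a₁ * x * y + (C • W).a₃ * y
        - (x ^ 3 + (C • W).a₂ * x ^ 2 + (C • W).a₄ * x + (C • W).a₆)
      = ((C.u : F)⁻¹) ^ 6 * ((vcY C x y) ^ 2 + W.a₁ * vcX C x * vcY C x y + W.a₃ * vcY C x y
        - ((vcX C x) ^ 3 + W.a₂ * (vcX C x) ^ 2 + W.a₄ * vcX C x + W.a₆)) := by
  have hu : (C.u : F) ≠ 0 := C.u.ne_zero
  simp only [variableChange_a₁, variableChange_a₂, variableChange_a₃, variableChange_a₄,
    variableChange_a₆, Units.val_inv_eq_inv_val, vcX, vcY]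
  field_simp
  ring

theorem polyY_eq (x y : F) :
    2 * y + (C • W).a₁ * x + (C • W).a₃
      = ((C.u : F)⁻¹) ^ 3 * (2 * vcY C x y + W.a₁ * vcX C x + W.a₃) := by
  have hu : (C.u : F) ≠ 0 := C.u.ne_zero
  simp only [variableChange_a₁, variableChange_a₃, Units.val_inv_eq_inv_val, vcX, vcY]
  field_simp
  ring

theorem polyX_eq (x y : F) :
    (C • W).a₁ * y - (3 * x ^ 2 + 2 * (C • W).a₂ * x + (C • W).a₄)
      = ((C.u : F)⁻¹) ^ 4 * ((W.a₁ * vcY C x y
          - (3 * (vcX C x) ^ 2 + 2 * W.a₂ * vcX C x + W.a₄))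
        + C.s * (2 * vcY C x y + W.a₁ * vcX C x + W.a₃)) := by
  have hu : (C.u : F) ≠ 0 := C.u.ne_zero
  simp only [variableChange_a₁, variableChange_a₂, variableChange_a₄, Units.val_inv_eq_inv_val,
    vcX, vcY]
  field_simp
  ring

theorem equation_iff (x y : F) :
    (C • W).toAffine.Equation x y ↔ W.toAffine.Equation (vcX C x) (vcY C x y) := by
  have hu : ((C.u : F)⁻¹) ^ 6 ≠ 0 := pow_ne_zero _ (inv_ne_zero C.u.ne_zero)
  rw [Affine.equation_iff', Affine.equation_iff', eqn_eq, mul_eq_zero, or_iff_right hu]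

theorem nonsingular_iff (x y : F) :
    (C • W).toAffine.Nonsingular x y ↔ W.toAffine.Nonsingular (vcX C x) (vcY C x y) := by
  have hu3 : ((C.u : F)⁻¹) ^ 3 ≠ 0 := pow_ne_zero _ (inv_ne_zero C.u.ne_zero)
  have hu4 : ((C.u : F)⁻¹) ^ 4 ≠ 0 := pow_ne_zero _ (inv_ne_zero C.u.ne_zero)
  rw [Affine.nonsingular_iff', Affine.nonsingular_iff', equation_iff, polyX_eq, polyY_eq]
  refine and_congr_right fun _ => ?_
  rw [mul_ne_zero_iff, mul_ne_zero_iff]
  constructor
  · rintro (⟨-, h⟩ | ⟨-, h⟩)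
    · by_cases hY : 2 * vcY C x y + W.a₁ * vcX C x + W.a₃ = 0
      · left
        rwa [hY, mul_zero, add_zero] at h
      · exact Or.inr hY
    · exact Or.inr h
  · rintro (h | h)
    · by_cases hY : 2 * vcY C x y + W.a₁ * vcX C x + W.a₃ = 0
      · left
        refine ⟨hu4, ?_⟩
        rwa [hY, mul_zero, add_zero]
      · exact Or.inr ⟨hu3, hY⟩
    · exact Or.inr ⟨hu3, h⟩

theorem negY_eq (x y : F) :
    vcY C x ((C • W).toAffine.negY x y) = W.toAffine.negY (vcX C x) (vcY C x y) := by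
  have hu : (C.u : F) ≠ 0 := C.u.ne_zero
  simp only [Affine.negY, variableChange_a₁, variableChange_a₃, Units.val_inv_eq_inv_val,
    vcX, vcY]
  field_simp
  ring

theorem addX_eq (x₁ x₂ ℓ : F) :
    W.toAffine.addX (vcX C x₁) (vcX C x₂) ((C.u : F) * ℓ + C.s)
      = vcX C ((C • W).toAffine.addX x₁ x₂ ℓ) := by
  have hu : (C.u : F) ≠ 0 := C.u.ne_zero
  simp only [Affine.addX, variableChange_a₁, variableChange_a₂, Units.val_inv_eq_inv_val, vcX]
  field_simp
  ring

theorem addY_eq (x₁ x₂ y₁ ℓ : F) :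
    W.toAffine.addY (vcX C x₁) (vcX C x₂) (vcY C x₁ y₁) ((C.u : F) * ℓ + C.s)
      = vcY C ((C • W).toAffine.addX x₁ x₂ ℓ) ((C • W).toAffine.addY x₁ x₂ y₁ ℓ) := by
  have hu : (C.u : F) ≠ 0 := C.u.ne_zero
  simp only [Affine.addY, Affine.negAddY, Affine.negY, Affine.addX, variableChange_a₁,
    variableChange_a₂, variableChange_a₃, Units.val_inv_eq_inv_val, vcX, vcY]
  field_simp
  ring

variable [DecidableEq F]

theorem slope_eq {x₁ x₂ y₁ y₂ : F} (h₁ : (C • W).toAffine.Equation x₁ y₁)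
    (h₂ : (C • W).toAffine.Equation x₂ y₂)
    (hxy : ¬(x₁ = x₂ ∧ y₁ = (C • W).toAffine.negY x₂ y₂)) :
    W.toAffine.slope (vcX C x₁) (vcX C x₂) (vcY C x₁ y₁) (vcY C x₂ y₂)
      = (C.u : F) * (C • W).toAffine.slope x₁ x₂ y₁ y₂ + C.s := by
  have hu : (C.u : F) ≠ 0 := C.u.ne_zero
  by_cases hx : x₁ = x₂
  · subst hx
    have hy : y₁ ≠ (C • W).toAffine.negY x₁ y₂ := fun h => hxy ⟨rfl, h⟩
    have hyy : y₁ = y₂ := Affine.Y_eq_of_Y_ne h₁ h₂ rfl hy
    subst hyy
    have hy' : vcY C x₁ y₁ ≠ W.toAffine.negY (vcX C x₁) (vcY C x₁ y₁) := by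
      rw [← negY_eq]
      exact fun h => hy (vcY_injective C x₁ h)
    rw [Affine.slope_of_Y_ne rfl hy, Affine.slope_of_Y_ne rfl hy']
    have hd : y₁ - (C • W).toAffine.negY x₁ y₁ ≠ 0 := sub_ne_zero.mpr hy
    have hd' : vcY C x₁ y₁ - W.toAffine.negY (vcX C x₁) (vcY C x₁ y₁) ≠ 0 :=
      sub_ne_zero.mpr hy'
    have e1 : vcY C x₁ y₁ - W.toAffine.negY (vcX C x₁) (vcY C x₁ y₁)
        = (C.u : F) ^ 3 * (y₁ - (C • W).toAffine.negY x₁ y₁) := by
      simp only [Affine.negY, variableChange_a₁, variableChange_a₃, Units.val_inv_eq_inv_val,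
        vcX, vcY]
      field_simp
      ring
    have e2 : 3 * (vcX C x₁) ^ 2 + 2 * W.a₂ * vcX C x₁ + W.a₄ - W.a₁ * vcY C x₁ y₁
        = (C.u : F) ^ 4 * (3 * x₁ ^ 2 + 2 * (C • W).a₂ * x₁ + (C • W).a₄ - (C • W).a₁ * y₁)
          + C.s * ((C.u : F) ^ 3 * (y₁ - (C • W).toAffine.negY x₁ y₁)) := by
      simp only [Affine.negY, variableChange_a₁, variableChange_a₂, variableChange_a₃,
        variableChange_a₄, Units.val_inv_eq_inv_val, vcX, vcY]
      field_simp
      ring
    rw [e1, e2]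
    field_simp
  · have hx' : vcX C x₁ ≠ vcX C x₂ := fun h => hx (vcX_injective C h)
    rw [Affine.slope_of_X_ne hx, Affine.slope_of_X_ne hx']
    have h12 : x₁ - x₂ ≠ 0 := sub_ne_zero.mpr hx
    have h12' : vcX C x₁ - vcX C x₂ ≠ 0 := sub_ne_zero.mpr hx'
    rw [div_eq_iff h12']
    simp only [vcX, vcY]
    field_simp
    ring

/-- The map on points induced by the variable change. -/
def toFun : (C • W).toAffine.Point → W.toAffine.Point
  | .zero => .zero
  | .some x y h => .some (vcX C x) (vcY C x y) ((nonsingular_iff W C x y).mp h)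

theorem toFun_add (P Q : (C • W).toAffine.Point) :
    toFun W C (P + Q) = toFun W C P + toFun W C Q := by
  rcases P with _ | ⟨x₁, y₁, h₁⟩
  · show toFun W C (0 + Q) = 0 + toFun W C Q
    rw [zero_add, zero_add]
  rcases Q with _ | ⟨x₂, y₂, h₂⟩
  · show toFun W C (Affine.Point.some x₁ y₁ h₁ + 0) = toFun W C (Affine.Point.some x₁ y₁ h₁) + 0
    rw [add_zero, add_zero]
  by_cases hxy : x₁ = x₂ ∧ y₁ = (C • W).toAffine.negY x₂ y₂
  · rw [Affine.Point.add_of_Y_eq hxy.1 hxy.2]
    show (0 : W.toAffine.Point) = Affine.Point.some _ _ _ + Affine.Point.some _ _ _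
    rw [Affine.Point.add_of_Y_eq (congrArg (vcX C) hxy.1)
      (by rw [← negY_eq, hxy.2, hxy.1])]
  · have hxy' : ¬(vcX C x₁ = vcX C x₂ ∧ vcY C x₁ y₁ = W.toAffine.negY (vcX C x₂) (vcY C x₂ y₂)) := by
      rintro ⟨hx, hy⟩
      have hx0 := vcX_injective C hx
      subst hx0
      rw [← negY_eq] at hy
      exact hxy ⟨rfl, vcY_injective C x₁ hy⟩
    rw [Affine.Point.add_some hxy]
    show Affine.Point.some _ _ _ = Affine.Point.some _ _ _ + Affine.Point.some _ _ _
    rw [Affine.Point.add_some hxy']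
    have hs := slope_eq W C h₁.1 h₂.1 hxy
    congr 1
    · rw [hs, addX_eq]
    · rw [hs, addY_eq]

/-- The inverse map. -/
def invFun : W.toAffine.Point → (C • W).toAffine.Point
  | .zero => .zero
  | .some x y h => .some (((C.u : F)⁻¹) ^ 2 * (x - C.r))
      (((C.u : F)⁻¹) ^ 3 * (y - C.s * (x - C.r) - C.t))
      ((nonsingular_iff W C _ _).mpr (by
        have hu : (C.u : F) ≠ 0 := C.u.ne_zero
        have hX : vcX C (((C.u : F)⁻¹) ^ 2 * (x - C.r)) = x := by
          unfold vcX
          field_simp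
          ring
        have hY : vcY C (((C.u : F)⁻¹) ^ 2 * (x - C.r))
            (((C.u : F)⁻¹) ^ 3 * (y - C.s * (x - C.r) - C.t)) = y := by
          unfold vcY
          field_simp
          ring
        rw [hX, hY]
        exact h))

end VarChange

open VarChange in
/-- **(J1)** The additive bijection on points induced by a change of variables `C`:
`(x, y) ↦ (u² x + r, u³ y + u² s x + t)`. -/
def vcEquiv {F : Type*} [Field F] [DecidableEq F] (W : WeierstrassCurve F)
    (C : WeierstrassCurve.VariableChange F) : (C • W).toAffine.Point ≃+ W.toAffine.Point where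
  toFun := VarChange.toFun W C
  invFun := VarChange.invFun W C
  left_inv := by
    have hu : (C.u : F) ≠ 0 := C.u.ne_zero
    rintro (_ | ⟨x, y, h⟩)
    · rfl
    · show Affine.Point.some _ _ _ = Affine.Point.some _ _ _
      congr 1
      · unfold vcX
        field_simp
        ring
      · unfold vcX vcY
        field_simp
        ring
  right_inv := by
    have hu : (C.u : F) ≠ 0 := C.u.ne_zero
    rintro (_ | ⟨x, y, h⟩)
    · rfl
    · show Affine.Point.some _ _ _ = Affine.Point.some _ _ _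
      congr 1
      · unfold vcX
        field_simp
        ring
      · unfold vcY
        field_simp
        ring
  map_add' := VarChange.toFun_add W C

theorem vcEquiv_zero {F : Type*} [Field F] [DecidableEq F] (W : WeierstrassCurve F)
    (C : WeierstrassCurve.VariableChange F) : vcEquiv W C 0 = 0 := rfl

theorem vcEquiv_some {F : Type*} [Field F] [DecidableEq F] (W : WeierstrassCurve F)
    (C : WeierstrassCurve.VariableChange F) {x y : F} (h : (C • W).toAffine.Nonsingular x y) :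
    vcEquiv W C (Affine.Point.some x y h)
      = Affine.Point.some ((C.u : F) ^ 2 * x + C.r)
          ((C.u : F) ^ 3 * y + (C.u : F) ^ 2 * C.s * x + C.t)
          ((VarChange.nonsingular_iff W C x y).mp h) := rfl

end Fermat.Agent.S05
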