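import Mathlib
import Fermat.Agent.S05.VarChange
import Fermat.Agent.S24.JAnalytic

/-!
# S05 / S13, package J2: the torsion count over `ℂ` depends only on the `j`-invariant

* `natCard_torsion_variableChange`: a variable change preserves the number of points killed by `n`.
* `natCard_torsion_eq_of_j_eq`: over a separably closed field, two elliptic curves with the same
  `j`-invariant have the same number of points killed by `n`.
* `natCard_torsion_complex_of`: if for every `τ` in the upper half plane some Weierstrass curve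
  over `ℂ` with `c₄³ = j(τ) Δ`, `Δ ≠ 0`, has `N` points killed by `n`, then so does every
  Weierstrass curve over `ℂ` with `Δ ≠ 0` (surjectivity of the analytic `j`-function).
-/

set_option autoImplicit false

namespace Fermat.Agent.S05

open WeierstrassCurve UpperHalfPlane

/-- A variable change preserves the number of points killed by `n`. -/
theorem natCard_torsion_variableChange {F : Type*} [Field F] [DecidableEq F]
    (W : WeierstrassCurve F) (C : WeierstrassCurve.VariableChange F) (n : ℕ) :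
    Nat.card {P : (C • W).toAffine.Point // n • P = 0} =
      Nat.card {P : W.toAffine.Point // n • P = 0} := by
  refine Nat.card_congr (Equiv.subtypeEquiv (vcEquiv W C).toEquiv fun P => ?_)
  show n • P = 0 ↔ n • (vcEquiv W C) P = 0
  rw [← map_nsmul, AddEquiv.map_eq_zero_iff]

/-- `j Δ = c₄³` for an elliptic curve. -/
theorem j_mul_Δ {F : Type*} [Field F] (W : WeierstrassCurve F) [W.IsElliptic] :
    W.j * W.Δ = W.c₄ ^ 3 := by
  have h : (W.Δ' : F) = W.Δ := W.coe_Δ'
  rw [WeierstrassCurve.j, ← h, mul_comm, ← mul_assoc, Units.mul_inv, one_mul]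

/-- Over a separably closed field, two elliptic curves with the same `j`-invariant have the same
number of points killed by `n`. -/
theorem natCard_torsion_eq_of_j_eq {F : Type*} [Field F] [IsSepClosed F] [DecidableEq F]
    (W₀ W : WeierstrassCurve F) [W₀.IsElliptic] [W.IsElliptic] (hj : W₀.j = W.j) (n : ℕ) :
    Nat.card {P : W.toAffine.Point // n • P = 0} =
      Nat.card {P : W₀.toAffine.Point // n • P = 0} := by
  obtain ⟨C, hC⟩ := WeierstrassCurve.exists_variableChange_of_j_eq W₀ W hj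
  subst hC
  exact natCard_torsion_variableChange W₀ C n

/-- Same statement with the `j`-invariants written as `c₄³ = j Δ`, `Δ ≠ 0`. -/
theorem natCard_torsion_eq_of_c₄_cube {F : Type*} [Field F] [IsSepClosed F] [DecidableEq F]
    (W₀ W : WeierstrassCurve F) (hΔ₀ : W₀.Δ ≠ 0) (hΔ : W.Δ ≠ 0) (j : F)
    (h₀ : W₀.c₄ ^ 3 = j * W₀.Δ) (h : W.c₄ ^ 3 = j * W.Δ) (n : ℕ) :
    Nat.card {P : W.toAffine.Point // n • P = 0} =
      Nat.card {P : W₀.toAffine.Point // n • P = 0} := by
  haveI : W₀.IsElliptic := ⟨isUnit_iff_ne_zero.mpr hΔ₀⟩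
  haveI : W.IsElliptic := ⟨isUnit_iff_ne_zero.mpr hΔ⟩
  refine natCard_torsion_eq_of_j_eq W₀ W ?_ n
  have e₀ : W₀.j = j := mul_right_cancel₀ hΔ₀ ((j_mul_Δ W₀).trans h₀)
  have e : W.j = j := mul_right_cancel₀ hΔ ((j_mul_Δ W).trans h)
  rw [e₀, e]

/-- If for every `τ` some Weierstrass curve over `ℂ` with `Δ ≠ 0` and `c₄³ = j(τ) Δ` has `N`
points killed by `n`, then every Weierstrass curve over `ℂ` with `Δ ≠ 0` has `N` points killed by
`n`. -/
theorem natCard_torsion_complex_of [DecidableEq ℂ] (n N : ℕ)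
    (hL : ∀ τ : ℍ, ∃ W₀ : WeierstrassCurve ℂ, W₀.Δ ≠ 0 ∧
      W₀.c₄ ^ 3 = Fermat.Agent.S24.jFun τ * W₀.Δ ∧
      Nat.card {P : W₀.toAffine.Point // n • P = 0} = N)
    (W : WeierstrassCurve ℂ) (hΔ : W.Δ ≠ 0) :
    Nat.card {P : W.toAffine.Point // n • P = 0} = N := by
  obtain ⟨τ, hτ⟩ := Fermat.Agent.S24.jFun_surjective (W.c₄ ^ 3 / W.Δ)
  obtain ⟨W₀, hΔ₀, hj₀, hcard⟩ := hL τ
  rw [← hcard]
  refine natCard_torsion_eq_of_c₄_cube W₀ W hΔ₀ hΔ (Fermat.Agent.S24.jFun τ) hj₀ ?_ n
  rw [hτ, div_mul_cancel₀ _ hΔ]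

/-- The short Weierstrass curve `y² = x³ - (g₂/4) x - g₃/4` has `Δ = g₂³ - 27 g₃²`. -/
theorem short_Δ {F : Type*} [Field F] (g₂ g₃ : F) (h2 : (2 : F) ≠ 0) :
    (⟨0, 0, 0, -g₂ / 4, -g₃ / 4⟩ : WeierstrassCurve F).Δ = g₂ ^ 3 - 27 * g₃ ^ 2 := by
  have h4 : (4 : F) ≠ 0 := by
    have : (4 : F) = 2 * 2 := by norm_num
    rw [this]; exact mul_ne_zero h2 h2
  simp only [WeierstrassCurve.Δ, WeierstrassCurve.b₂, WeierstrassCurve.b₄, WeierstrassCurve.b₆,
    WeierstrassCurve.b₈]
  field_simp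
  ring

/-- The short Weierstrass curve `y² = x³ - (g₂/4) x - g₃/4` has `c₄ = 12 g₂`. -/
theorem short_c₄ {F : Type*} [Field F] (g₂ g₃ : F) (h2 : (2 : F) ≠ 0) :
    (⟨0, 0, 0, -g₂ / 4, -g₃ / 4⟩ : WeierstrassCurve F).c₄ = 12 * g₂ := by
  have h4 : (4 : F) ≠ 0 := by
    have : (4 : F) = 2 * 2 := by norm_num
    rw [this]; exact mul_ne_zero h2 h2
  simp only [WeierstrassCurve.c₄, WeierstrassCurve.b₂, WeierstrassCurve.b₄]
  field_simp
  ring

end Fermat.Agent.S05
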