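import Mathlib

/-!
# S05, package C (addition theorem): the Weierstrass `℘`-function

* `deriv_derivWeierstrassP` : `℘'' = 6 ℘² - g₂ / 2`;
* `weierstrassP_eq_iff`     : `℘ z = ℘ w ↔ z - w ∈ L ∨ z + w ∈ L`;
* `weierstrassP_add`, `derivWeierstrassP_add` : the addition theorem (generic case).

No Liouville argument is used: everything follows from the differential equation and a
uniqueness lemma for second order analytic differential equations.
-/

set_option autoImplicit false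

open Complex Filter Topology PeriodPair

namespace Fermat.Agent.S05

namespace WPAdd

variable (L : PeriodPair)

theorem isOpen_compl_lattice : IsOpen ((L.lattice : Set ℂ)ᶜ) := L.isClosed_lattice.isOpen_compl

theorem countable_lattice : (L.lattice : Set ℂ).Countable := by
  have : Countable L.lattice := L.latticeEquivProd.toEquiv.injective.countable
  exact Set.to_countable _

theorem isPreconnected_compl_of_countable {s : Set ℂ} (hs : s.Countable) : IsPreconnected sᶜ := by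
  have h : 1 < Module.rank ℝ ℂ := by
    rw [Complex.rank_real_complex]
    norm_num
  exact (hs.isPathConnected_compl_of_one_lt_rank h).isConnected.isPreconnected

theorem hasDerivAt_weierstrassP {z : ℂ} (hz : z ∉ L.lattice) :
    HasDerivAt ℘[L] (℘'[L] z) z := by
  have h := (L.differentiableOn_weierstrassP z hz).differentiableAt
    ((isOpen_compl_lattice L).mem_nhds hz)
  have h2 := h.hasDerivAt
  rwa [L.deriv_weierstrassP] at h2

theorem hasDerivAt_derivWeierstrassP {z : ℂ} (hz : z ∉ L.lattice) :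
    HasDerivAt ℘'[L] (deriv ℘'[L] z) z :=
  ((L.differentiableOn_derivWeierstrassP z hz).differentiableAt
    ((isOpen_compl_lattice L).mem_nhds hz)).hasDerivAt

/-- `℘` tends to infinity at the lattice points. -/
theorem tendsto_weierstrassP_cobounded {l : ℂ} (hl : l ∈ L.lattice) :
    Tendsto ℘[L] (𝓝[≠] l) (Bornology.cobounded ℂ) := by
  apply tendsto_cobounded_of_meromorphicOrderAt_neg
  rw [L.order_weierstrassP l hl]
  decide

theorem compl_lattice_mem_nhdsNE (x : ℂ) : ((L.lattice : Set ℂ)ᶜ) ∈ 𝓝[≠] x := by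
  have h1 : ((L.lattice : Set ℂ) \ {x})ᶜ ∈ 𝓝[≠] x :=
    mem_nhdsWithin_of_mem_nhds (L.compl_lattice_sdiff_singleton_mem_nhds x)
  have h2 : ({x}ᶜ : Set ℂ) ∈ 𝓝[≠] x := self_mem_nhdsWithin
  filter_upwards [h1, h2] with y hy1 hy2 hy
  exact hy1 ⟨hy, hy2⟩

theorem isPreconnected_compl_lattice : IsPreconnected ((L.lattice : Set ℂ)ᶜ) :=
  isPreconnected_compl_of_countable (countable_lattice L)

/-- `℘` is not constant off the lattice. -/
theorem weierstrassP_not_const (c : ℂ) : ¬ ∀ z ∉ L.lattice, ℘[L] z = c := by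
  intro h
  have h1 : Tendsto ℘[L] (𝓝[≠] (0 : ℂ)) (𝓝 c) := by
    refine (tendsto_const_nhds (x := c)).congr' ?_
    filter_upwards [compl_lattice_mem_nhdsNE L 0] with z hz using (h z hz).symm
  have h2 := tendsto_weierstrassP_cobounded L (zero_mem L.lattice)
  have h3 := (Metric.disjoint_nhds_cobounded c) h1 h2
  have h4 : (map ℘[L] (𝓝[≠] (0 : ℂ))).NeBot := inferInstance
  exact h4.ne (le_bot_iff.mp h3)

theorem analyticAt_weierstrassP {z : ℂ} (hz : z ∉ L.lattice) : AnalyticAt ℂ ℘[L] z :=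
  L.analyticOnNhd_weierstrassP z hz

theorem analyticAt_derivWeierstrassP {z : ℂ} (hz : z ∉ L.lattice) : AnalyticAt ℂ ℘'[L] z :=
  L.analyticOnNhd_derivWeierstrassP z hz

/-- The differentiated differential equation, before division by `℘'`. -/
theorem derivWeierstrassP_mul_aux {z : ℂ} (hz : z ∉ L.lattice) :
    ℘'[L] z * (2 * deriv ℘'[L] z - 12 * ℘[L] z ^ 2 + L.g₂) = 0 := by
  have hU := (isOpen_compl_lattice L).mem_nhds hz
  have h1 : HasDerivAt (fun w => ℘'[L] w ^ 2)
      (((2 : ℕ) : ℂ) * ℘'[L] z ^ (2 - 1) * deriv ℘'[L] z) z :=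
    (hasDerivAt_derivWeierstrassP L hz).fun_pow 2
  have hP := hasDerivAt_weierstrassP L hz
  have h2 : HasDerivAt (fun w => 4 * ℘[L] w ^ 3 - L.g₂ * ℘[L] w - L.g₃)
      (4 * (((3 : ℕ) : ℂ) * ℘[L] z ^ (3 - 1) * ℘'[L] z) - L.g₂ * ℘'[L] z) z :=
    (((hP.fun_pow 3).const_mul 4).sub (hP.const_mul L.g₂)).sub_const L.g₃
  have h3 : (fun w => ℘'[L] w ^ 2) =ᶠ[𝓝 z] fun w => 4 * ℘[L] w ^ 3 - L.g₂ * ℘[L] w - L.g₃ := by
    filter_upwards [hU] with w hw using L.derivWeierstrassP_sq w hw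
  have h4 := h1.unique (h2.congr_of_eventuallyEq h3)
  norm_num at h4
  linear_combination h4

/-- `℘'' = 6 ℘² - g₂ / 2`. -/
theorem deriv_derivWeierstrassP {z : ℂ} (hz : z ∉ L.lattice) :
    deriv ℘'[L] z = 6 * ℘[L] z ^ 2 - L.g₂ / 2 := by
  set U : Set ℂ := (L.lattice : Set ℂ)ᶜ with hUdef
  have hUo : IsOpen U := isOpen_compl_lattice L
  have hUc : IsPreconnected U := isPreconnected_compl_lattice L
  set A : ℂ → ℂ := fun w => 2 * deriv ℘'[L] w - 12 * ℘[L] w ^ 2 + L.g₂ with hA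
  have hAan : AnalyticOnNhd ℂ A U := by
    intro w hw
    have h1 : AnalyticAt ℂ (deriv ℘'[L]) w := (analyticAt_derivWeierstrassP L hw).deriv
    have h2 : AnalyticAt ℂ ℘[L] w := analyticAt_weierstrassP L hw
    fun_prop
  suffices h : A z = 0 by
    simp only [hA] at h
    linear_combination h / 2
  by_contra hne
  -- `A ≠ 0` near `z`, hence `℘' = 0` near `z`
  have h1 : ∀ᶠ w in 𝓝 z, A w ≠ 0 := (hAan z hz).continuousAt.eventually_ne hne
  have h2 : ℘'[L] =ᶠ[𝓝 z] 0 := by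
    filter_upwards [h1, hUo.mem_nhds hz] with w hw hwU
    have := derivWeierstrassP_mul_aux L hwU
    rcases mul_eq_zero.mp this with h | h
    · exact h
    · exact absurd h hw
  have h3 : Set.EqOn ℘'[L] 0 U :=
    L.analyticOnNhd_derivWeierstrassP.eqOn_zero_of_preconnected_of_eventuallyEq_zero hUc hz h2
  have h4 : Set.EqOn (deriv ℘[L]) 0 U := by
    rw [L.deriv_weierstrassP]
    exact h3
  obtain ⟨c, hc⟩ := hUo.exists_is_const_of_deriv_eq_zero hUc L.differentiableOn_weierstrassP h4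
  exact weierstrassP_not_const L c hc

/-! ### Uniqueness for second order analytic differential equations -/

/-- Uniqueness for the linear equation `d'' = a d`: a solution vanishing to second order
vanishes identically. -/
theorem eventuallyEq_zero_of_deriv_deriv_eq_mul {d a : ℂ → ℂ} {z₀ : ℂ} (hd : AnalyticAt ℂ d z₀)
    (ha : AnalyticAt ℂ a z₀) (h : ∀ᶠ z in 𝓝 z₀, deriv (deriv d) z = a z * d z)
    (h0 : d z₀ = 0) (h1 : deriv d z₀ = 0) : d =ᶠ[𝓝 z₀] 0 := by
  have key : analyticOrderAt d z₀ = ⊤ := by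
    by_contra htop
    obtain ⟨n, hn⟩ := ENat.ne_top_iff_exists.mp htop
    have hd' : AnalyticAt ℂ (deriv d) z₀ := hd.deriv
    have hn0 : n ≠ 0 := by
      rintro rfl
      have := hd.analyticOrderAt_eq_zero.mp hn.symm
      exact this h0
    obtain ⟨m, rfl⟩ := Nat.exists_eq_succ_of_ne_zero hn0
    have hm : analyticOrderAt (deriv d) z₀ = m := by
      rw [← analyticOrderAt_deriv_eq_iff hd h0, ← hn]
      push_cast
      rfl
    have hm0 : m ≠ 0 := by
      rintro rfl
      have := hd'.analyticOrderAt_eq_zero.mp hm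
      exact this h1
    obtain ⟨k, rfl⟩ := Nat.exists_eq_succ_of_ne_zero hm0
    have hk : analyticOrderAt (deriv (deriv d)) z₀ = k := by
      rw [← analyticOrderAt_deriv_eq_iff hd' h1, hm]
      push_cast
      rfl
    have h2 : analyticOrderAt (deriv (deriv d)) z₀ = analyticOrderAt (a * d) z₀ :=
      analyticOrderAt_congr h
    rw [analyticOrderAt_mul ha hd, hk, ← hn] at h2
    have h3 : ((k + 1 + 1 : ℕ) : ℕ∞) ≤ (k : ℕ∞) := by
      rw [h2]
      exact le_add_self
    have h4 : k + 1 + 1 ≤ k := by exact_mod_cast h3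
    omega
  exact analyticOrderAt_eq_top.mp key

/-- Uniqueness for the equation `f'' = 6 f² - c`. -/
theorem eventuallyEq_of_deriv_deriv_eq {f g : ℂ → ℂ} {z₀ c : ℂ} (hf : AnalyticAt ℂ f z₀)
    (hg : AnalyticAt ℂ g z₀) (hf2 : ∀ᶠ z in 𝓝 z₀, deriv (deriv f) z = 6 * f z ^ 2 - c)
    (hg2 : ∀ᶠ z in 𝓝 z₀, deriv (deriv g) z = 6 * g z ^ 2 - c)
    (h0 : f z₀ = g z₀) (h1 : deriv f z₀ = deriv g z₀) : f =ᶠ[𝓝 z₀] g := by
  set d : ℂ → ℂ := fun z => f z - g z with hd
  have hdan : AnalyticAt ℂ d z₀ := hf.fun_sub hg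
  have hev : ∀ᶠ z in 𝓝 z₀, AnalyticAt ℂ f z ∧ AnalyticAt ℂ g z :=
    hf.eventually_analyticAt.and hg.eventually_analyticAt
  have hderiv : ∀ᶠ z in 𝓝 z₀, deriv d z = deriv f z - deriv g z := by
    filter_upwards [hev] with z hz
    exact deriv_fun_sub hz.1.differentiableAt hz.2.differentiableAt
  have hderiv2 : ∀ᶠ z in 𝓝 z₀, deriv (deriv d) z = deriv (deriv f) z - deriv (deriv g) z := by
    filter_upwards [hderiv.eventually_nhds, hev] with z hz hz2
    have e : deriv d =ᶠ[𝓝 z] fun w => deriv f w - deriv g w := hz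
    rw [e.deriv_eq]
    exact deriv_fun_sub hz2.1.deriv.differentiableAt hz2.2.deriv.differentiableAt
  have han : AnalyticAt ℂ (fun z => 6 * (f z + g z)) z₀ := by fun_prop
  have hd0 : d z₀ = 0 := by simp [hd, h0]
  have hd1 : deriv d z₀ = 0 := by rw [hderiv.self_of_nhds, h1, sub_self]
  have key := eventuallyEq_zero_of_deriv_deriv_eq_mul hdan han ?_ hd0 hd1
  · filter_upwards [key] with z hz
    exact sub_eq_zero.mp hz
  · filter_upwards [hderiv2, hf2, hg2] with z e1 e2 e3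
    rw [e1, e2, e3]
    ring

/-! ### Translates of `℘` -/

theorem analyticAt_weierstrassP_const_add (z : ℂ) {t : ℂ} (h : z + t ∉ L.lattice) :
    AnalyticAt ℂ (fun s => ℘[L] (z + s)) t := by
  have h1 : AnalyticAt ℂ ℘[L] (z + t) := analyticAt_weierstrassP L h
  have h2 : AnalyticAt ℂ (fun s : ℂ => z + s) t := by fun_prop
  exact h1.fun_comp h2

theorem deriv_weierstrassP_const_add (z : ℂ) {t : ℂ} (h : z + t ∉ L.lattice) :
    deriv (fun s => ℘[L] (z + s)) t = ℘'[L] (z + t) :=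
  ((hasDerivAt_weierstrassP L h).comp_const_add z t).deriv

theorem eventually_notMem_lattice_add (z : ℂ) {t : ℂ} (h : z + t ∉ L.lattice) :
    ∀ᶠ s in 𝓝 t, z + s ∉ L.lattice := by
  have hc : ContinuousAt (fun s : ℂ => z + s) t := by fun_prop
  exact hc.eventually ((isOpen_compl_lattice L).mem_nhds h)

theorem deriv_deriv_weierstrassP_const_add (z : ℂ) {t : ℂ} (h : z + t ∉ L.lattice) :
    deriv (deriv (fun s => ℘[L] (z + s))) t = 6 * ℘[L] (z + t) ^ 2 - L.g₂ / 2 := by
  have e : deriv (fun s => ℘[L] (z + s)) =ᶠ[𝓝 t] fun s => ℘'[L] (z + s) := by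
    filter_upwards [eventually_notMem_lattice_add L z h] with s hs
      using deriv_weierstrassP_const_add L z hs
  rw [e.deriv_eq, ((hasDerivAt_derivWeierstrassP L h).comp_const_add z t).deriv,
    deriv_derivWeierstrassP L h]

theorem tendsto_const_add_nhdsNE (w : ℂ) :
    Tendsto (fun s : ℂ => w + s) (𝓝[≠] (-w)) (𝓝[≠] (0 : ℂ)) := by
  rw [tendsto_nhdsWithin_iff]
  constructor
  · have hc : ContinuousAt (fun s : ℂ => w + s) (-w) := by fun_prop
    have := hc.tendsto
    rw [add_neg_cancel] at this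
    exact this.mono_left nhdsWithin_le_nhds
  · filter_upwards [self_mem_nhdsWithin] with s hs
    intro h
    apply hs
    rw [Set.mem_singleton_iff] at h ⊢
    linear_combination h

/-- If `℘` and `℘'` agree at `z` and `w` then `z - w` is a period. -/
theorem sub_mem_lattice_of_eq {z w : ℂ} (hz : z ∉ L.lattice) (hw : w ∉ L.lattice)
    (h0 : ℘[L] z = ℘[L] w) (h1 : ℘'[L] z = ℘'[L] w) : z - w ∈ L.lattice := by
  set f : ℂ → ℂ := fun s => ℘[L] (z + s) with hf
  set g : ℂ → ℂ := fun s => ℘[L] (w + s) with hg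
  have hz0 : z + 0 ∉ L.lattice := by simpa using hz
  have hw0 : w + 0 ∉ L.lattice := by simpa using hw
  have hfg : f =ᶠ[𝓝 0] g := by
    apply eventuallyEq_of_deriv_deriv_eq (c := L.g₂ / 2)
      (analyticAt_weierstrassP_const_add L z hz0) (analyticAt_weierstrassP_const_add L w hw0)
    · filter_upwards [eventually_notMem_lattice_add L z hz0] with s hs
        using deriv_deriv_weierstrassP_const_add L z hs
    · filter_upwards [eventually_notMem_lattice_add L w hw0] with s hs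
        using deriv_deriv_weierstrassP_const_add L w hs
    · simpa [hf, hg] using h0
    · rw [deriv_weierstrassP_const_add L z hz0, deriv_weierstrassP_const_add L w hw0]
      simpa using h1
  by_contra hzw
  set U : Set ℂ :=
    ((fun s : ℂ => z + s) ⁻¹' (L.lattice : Set ℂ) ∪ (fun s : ℂ => w + s) ⁻¹' (L.lattice : Set ℂ))ᶜ
    with hU
  have hUc : IsPreconnected U :=
    isPreconnected_compl_of_countable
      (((countable_lattice L).preimage (add_right_injective z)).union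
        ((countable_lattice L).preimage (add_right_injective w)))
  have hmemU : ∀ t : ℂ, t ∈ U ↔ z + t ∉ L.lattice ∧ w + t ∉ L.lattice := by
    intro t
    simp [hU]
  have h0U : (0 : ℂ) ∈ U := (hmemU 0).mpr ⟨hz0, hw0⟩
  have hfU : AnalyticOnNhd ℂ f U := fun t ht =>
    analyticAt_weierstrassP_const_add L z ((hmemU t).mp ht).1
  have hgU : AnalyticOnNhd ℂ g U := fun t ht =>
    analyticAt_weierstrassP_const_add L w ((hmemU t).mp ht).2
  have heq : Set.EqOn f g U := hfU.eqOn_of_preconnected_of_eventuallyEq hgU hUc h0U hfg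
  have hzw' : z + -w ∉ L.lattice := by rwa [← sub_eq_add_neg]
  have hlim1 : Tendsto f (𝓝[≠] (-w)) (𝓝 (℘[L] (z + -w))) :=
    ((analyticAt_weierstrassP_const_add L z hzw').continuousAt.tendsto).mono_left
      nhdsWithin_le_nhds
  have hshift := tendsto_const_add_nhdsNE w
  have hlim2 : Tendsto g (𝓝[≠] (-w)) (Bornology.cobounded ℂ) :=
    (tendsto_weierstrassP_cobounded L (zero_mem L.lattice)).comp hshift
  have hev : f =ᶠ[𝓝[≠] (-w)] g := by
    have e1 : ∀ᶠ s in 𝓝[≠] (-w), z + s ∉ L.lattice :=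
      (eventually_notMem_lattice_add L z hzw').filter_mono nhdsWithin_le_nhds
    have e2 : ∀ᶠ s in 𝓝[≠] (-w), w + s ∉ L.lattice :=
      hshift.eventually (compl_lattice_mem_nhdsNE L 0)
    filter_upwards [e1, e2] with s hs1 hs2
    exact heq ((hmemU s).mpr ⟨hs1, hs2⟩)
  have hlim3 : Tendsto g (𝓝[≠] (-w)) (𝓝 (℘[L] (z + -w))) := hlim1.congr' hev
  have h3 := (Metric.disjoint_nhds_cobounded (℘[L] (z + -w))) hlim3 hlim2
  have h4 : (map g (𝓝[≠] (-w))).NeBot := inferInstance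
  exact h4.ne (le_bot_iff.mp h3)

/-- **`℘` is two-to-one**: `℘ z = ℘ w` iff `z ≡ ± w` modulo the lattice. -/
theorem weierstrassP_eq_iff {z w : ℂ} (hz : z ∉ L.lattice) (hw : w ∉ L.lattice) :
    ℘[L] z = ℘[L] w ↔ z - w ∈ L.lattice ∨ z + w ∈ L.lattice := by
  constructor
  · intro h
    have hsq : ℘'[L] z ^ 2 = ℘'[L] w ^ 2 := by
      rw [L.derivWeierstrassP_sq z hz, L.derivWeierstrassP_sq w hw, h]
    rcases sq_eq_sq_iff_eq_or_eq_neg.mp hsq with h1 | h1
    · exact Or.inl (sub_mem_lattice_of_eq L hz hw h h1)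
    · right
      have hw' : -w ∉ L.lattice := by simpa using hw
      have := sub_mem_lattice_of_eq L hz hw' (by rw [h, L.weierstrassP_neg])
        (by rw [h1, L.derivWeierstrassP_neg])
      simpa using this
  · rintro (h | h)
    · have e : z = w + ((⟨z - w, h⟩ : L.lattice) : ℂ) := by simp
      rw [e, L.weierstrassP_add_coe]
    · have e : z = -w + ((⟨z + w, h⟩ : L.lattice) : ℂ) := by simp
      rw [e, L.weierstrassP_add_coe, L.weierstrassP_neg]

/-! ### Algebra on the cubic -/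

/-- Riccati: the derivative of the slope of the chord. -/
theorem alg_slope (x y xw yw g2 g3 : ℂ) (hx : y ^ 2 = 4 * x ^ 3 - g2 * x - g3)
    (hw : yw ^ 2 = 4 * xw ^ 3 - g2 * xw - g3) (hne : x ≠ xw) :
    ((6 * x ^ 2 - g2 / 2) * (x - xw) - (y - yw) * y) / (x - xw) ^ 2
      = 4 * x + 2 * xw - ((y - yw) / (x - xw)) ^ 2 / 2 := by
  have hd : x - xw ≠ 0 := sub_ne_zero.mpr hne
  field_simp
  linear_combination (-1 : ℂ) * hx + hw

/-- The third intersection point satisfies the second order equation. -/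
theorem alg_S2 (x y xw yw g2 g3 m S : ℂ) (hx : y ^ 2 = 4 * x ^ 3 - g2 * x - g3)
    (hw : yw ^ 2 = 4 * xw ^ 3 - g2 * xw - g3) (hne : x ≠ xw)
    (hm : m = (y - yw) / (x - xw)) (hS : S = m ^ 2 / 4 - x - xw) :
    -(6 * x ^ 2 - g2 / 2) - (4 * x + 2 * xw - m ^ 2 / 2) * (S - x) - m * ((-y - m * (S - x)) - y)
      = 6 * S ^ 2 - g2 / 2 := by
  have hd : x - xw ≠ 0 := sub_ne_zero.mpr hne
  have hg2 : g2 = (4 * (x ^ 3 - xw ^ 3) - (y ^ 2 - yw ^ 2)) / (x - xw) := by
    field_simp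
    linear_combination hx - hw
  subst hS hm
  rw [hg2]
  field_simp
  ring

/-- The expression of the chord construction near the origin. -/
theorem alg_ext (z P P' pw pw' : ℂ) (hz : z ≠ 0) (hne : P ≠ pw) :
    -2 * ((z * ((P' + 2 / z ^ 3) - pw') + 2 * ((P - 1 / z ^ 2) - pw)) /
          (2 * (1 + z ^ 2 * ((P - 1 / z ^ 2) - pw))))
      + z ^ 2 * ((z * ((P' + 2 / z ^ 3) - pw') + 2 * ((P - 1 / z ^ 2) - pw)) /
          (2 * (1 + z ^ 2 * ((P - 1 / z ^ 2) - pw)))) ^ 2
      - (P - 1 / z ^ 2) - pw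
      = ((P' - pw') / (P - pw)) ^ 2 / 4 - P - pw := by
  have hd : P - pw ≠ 0 := sub_ne_zero.mpr hne
  have e1 : 1 + z ^ 2 * ((P - 1 / z ^ 2) - pw) = z ^ 2 * (P - pw) := by
    field_simp
    ring
  rw [e1]
  field_simp
  ring

/-! ### The chord construction as a function of `z` -/

/-- The slope of the chord through the points with parameters `z` and `w`. -/
noncomputable def slope (w z : ℂ) : ℂ := (℘'[L] z - ℘'[L] w) / (℘[L] z - ℘[L] w)

/-- The `x`-coordinate of the third intersection point of the chord. -/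
noncomputable def addX (w z : ℂ) : ℂ := slope L w z ^ 2 / 4 - ℘[L] z - ℘[L] w

/-- The domain on which the chord construction is defined. -/
def dom (w : ℂ) : Set ℂ := {z | z ∉ L.lattice ∧ z - w ∉ L.lattice ∧ z + w ∉ L.lattice}

theorem mem_dom {w z : ℂ} :
    z ∈ dom L w ↔ z ∉ L.lattice ∧ z - w ∉ L.lattice ∧ z + w ∉ L.lattice := Iff.rfl

theorem dom_eq (w : ℂ) : dom L w = ((L.lattice : Set ℂ) ∪ (fun z : ℂ => z - w) ⁻¹' (L.lattice : Set ℂ)
    ∪ (fun z : ℂ => z + w) ⁻¹' (L.lattice : Set ℂ))ᶜ := by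
  ext z
  simp [dom, and_assoc]

theorem isOpen_dom (w : ℂ) : IsOpen (dom L w) := by
  rw [dom_eq]
  have h1 : IsClosed ((fun z : ℂ => z - w) ⁻¹' (L.lattice : Set ℂ)) :=
    L.isClosed_lattice.preimage (by fun_prop)
  have h2 : IsClosed ((fun z : ℂ => z + w) ⁻¹' (L.lattice : Set ℂ)) :=
    L.isClosed_lattice.preimage (by fun_prop)
  exact ((L.isClosed_lattice.union h1).union h2).isOpen_compl

theorem isPreconnected_dom (w : ℂ) : IsPreconnected (dom L w) := by
  rw [dom_eq]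
  refine isPreconnected_compl_of_countable (((countable_lattice L).union ?_).union ?_)
  · exact (countable_lattice L).preimage sub_left_injective
  · exact (countable_lattice L).preimage (add_left_injective w)

theorem dom_mem_nhdsNE_zero {w : ℂ} (hw : w ∉ L.lattice) : dom L w ∈ 𝓝[≠] (0 : ℂ) := by
  have h1 : ∀ᶠ z in 𝓝 (0 : ℂ), z - w ∉ L.lattice := by
    have hc : ContinuousAt (fun z : ℂ => z - w) 0 := by fun_prop
    refine hc.eventually ((isOpen_compl_lattice L).mem_nhds ?_)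
    simpa using hw
  have h2 : ∀ᶠ z in 𝓝 (0 : ℂ), z + w ∉ L.lattice := by
    have hc : ContinuousAt (fun z : ℂ => z + w) 0 := by fun_prop
    refine hc.eventually ((isOpen_compl_lattice L).mem_nhds ?_)
    simpa using hw
  filter_upwards [compl_lattice_mem_nhdsNE L 0, h1.filter_mono nhdsWithin_le_nhds,
    h2.filter_mono nhdsWithin_le_nhds] with z hz1 hz2 hz3
  exact ⟨hz1, hz2, hz3⟩

theorem weierstrassP_ne_of_mem_dom {w z : ℂ} (hw : w ∉ L.lattice) (hz : z ∈ dom L w) :
    ℘[L] z ≠ ℘[L] w := by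
  intro h
  rcases (weierstrassP_eq_iff L hz.1 hw).mp h with h1 | h1
  · exact hz.2.1 h1
  · exact hz.2.2 h1

theorem hasDerivAt_slope {w z : ℂ} (hw : w ∉ L.lattice) (hz : z ∈ dom L w) :
    HasDerivAt (slope L w) (4 * ℘[L] z + 2 * ℘[L] w - slope L w z ^ 2 / 2) z := by
  have hne := weierstrassP_ne_of_mem_dom L hw hz
  have hd : ℘[L] z - ℘[L] w ≠ 0 := sub_ne_zero.mpr hne
  have h1 : HasDerivAt (fun z => ℘'[L] z - ℘'[L] w) (deriv ℘'[L] z) z :=
    (hasDerivAt_derivWeierstrassP L hz.1).sub_const _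
  have h2 : HasDerivAt (fun z => ℘[L] z - ℘[L] w) (℘'[L] z) z :=
    (hasDerivAt_weierstrassP L hz.1).sub_const _
  have h3 := h1.div h2 hd
  rw [deriv_derivWeierstrassP L hz.1] at h3
  have e := alg_slope (℘[L] z) (℘'[L] z) (℘[L] w) (℘'[L] w) L.g₂ L.g₃
    (L.derivWeierstrassP_sq z hz.1) (L.derivWeierstrassP_sq w hw) hne
  have e2 : ((6 * ℘[L] z ^ 2 - L.g₂ / 2) * (℘[L] z - ℘[L] w) - (℘'[L] z - ℘'[L] w) * ℘'[L] z) /
      (℘[L] z - ℘[L] w) ^ 2 = 4 * ℘[L] z + 2 * ℘[L] w - slope L w z ^ 2 / 2 := by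
    rw [e, slope]
  rw [e2] at h3
  exact h3

theorem hasDerivAt_addX {w z : ℂ} (hw : w ∉ L.lattice) (hz : z ∈ dom L w) :
    HasDerivAt (addX L w) (-℘'[L] z - slope L w z * (addX L w z - ℘[L] z)) z := by
  have h1 := hasDerivAt_slope L hw hz
  have h2 := (((h1.fun_pow 2).div_const 4).sub (hasDerivAt_weierstrassP L hz.1)).sub_const (℘[L] w)
  refine h2.congr_deriv ?_
  simp only [addX]
  push_cast
  ring

theorem deriv_deriv_addX {w z : ℂ} (hw : w ∉ L.lattice) (hz : z ∈ dom L w) :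
    deriv (deriv (addX L w)) z = 6 * addX L w z ^ 2 - L.g₂ / 2 := by
  have e : deriv (addX L w) =ᶠ[𝓝 z]
      fun z => -℘'[L] z - slope L w z * (addX L w z - ℘[L] z) := by
    filter_upwards [(isOpen_dom L w).mem_nhds hz] with u hu using (hasDerivAt_addX L hw hu).deriv
  rw [e.deriv_eq]
  have h1 := hasDerivAt_slope L hw hz
  have h2 := hasDerivAt_addX L hw hz
  have h3 := hasDerivAt_weierstrassP L hz.1
  have h4 := hasDerivAt_derivWeierstrassP L hz.1
  have h5 := h4.fun_neg.fun_sub (h1.fun_mul (h2.fun_sub h3))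
  rw [h5.deriv, deriv_derivWeierstrassP L hz.1]
  have := alg_S2 (℘[L] z) (℘'[L] z) (℘[L] w) (℘'[L] w) L.g₂ L.g₃ (slope L w z) (addX L w z)
    (L.derivWeierstrassP_sq z hz.1) (L.derivWeierstrassP_sq w hw)
    (weierstrassP_ne_of_mem_dom L hw hz) rfl rfl
  linear_combination this

theorem analyticOnNhd_addX {w : ℂ} (hw : w ∉ L.lattice) : AnalyticOnNhd ℂ (addX L w) (dom L w) := by
  apply DifferentiableOn.analyticOnNhd _ (isOpen_dom L w)
  intro z hz
  exact (hasDerivAt_addX L hw hz).differentiableAt.differentiableWithinAt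

/-! ### The chord construction near the origin -/

theorem weierstrassPExcept_zero_eq (z : ℂ) : ℘[L - (0 : ℂ)] z = ℘[L] z - 1 / z ^ 2 := by
  have h := L.weierstrassPExcept_def (0 : L.lattice) z
  simp only [ZeroMemClass.coe_zero, sub_zero] at h
  have h0 : (1 : ℂ) / 0 ^ 2 = 0 := by norm_num
  rw [h, h0]
  ring

theorem derivWeierstrassPExcept_zero_eq (z : ℂ) : ℘'[L - (0 : ℂ)] z = ℘'[L] z + 2 / z ^ 3 := by
  have h := L.derivWeierstrassPExcept_def (0 : L.lattice) z
  simpa only [ZeroMemClass.coe_zero, sub_zero] using h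

/-- The function `b` with `slope / 2 = -1 / z + z b`. -/
noncomputable def auxB (w z : ℂ) : ℂ :=
  (z * (℘'[L - (0 : ℂ)] z - ℘'[L] w) + 2 * (℘[L - (0 : ℂ)] z - ℘[L] w)) /
    (2 * (1 + z ^ 2 * (℘[L - (0 : ℂ)] z - ℘[L] w)))

/-- The analytic continuation of `addX` to the origin. -/
noncomputable def addXExt (w z : ℂ) : ℂ :=
  -2 * auxB L w z + z ^ 2 * auxB L w z ^ 2 - ℘[L - (0 : ℂ)] z - ℘[L] w

theorem addXExt_eq {w z : ℂ} (hw : w ∉ L.lattice) (hz : z ∈ dom L w) :
    addXExt L w z = addX L w z := by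
  have hz0 : z ≠ 0 := by
    rintro rfl
    exact hz.1 (zero_mem _)
  have hne := weierstrassP_ne_of_mem_dom L hw hz
  simp only [addXExt, auxB, addX, slope, weierstrassPExcept_zero_eq, derivWeierstrassPExcept_zero_eq]
  exact alg_ext z (℘[L] z) (℘'[L] z) (℘[L] w) (℘'[L] w) hz0 hne

theorem addXExt_zero (w : ℂ) : addXExt L w 0 = ℘[L] w := by
  simp only [addXExt, auxB, L.weierstrassPExcept_zero, L.derivWeierstrassPExcept_zero_zero]
  norm_num
  ring

theorem hasDerivAt_weierstrassPExcept_zero : HasDerivAt ℘[L - (0 : ℂ)] 0 0 := by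
  have h := (L.analyticAt_weierstrassPExcept 0).differentiableAt.hasDerivAt
  rwa [L.deriv_weierstrassPExcept_same, L.derivWeierstrassPExcept_zero_zero] at h

theorem hasDerivAt_auxB_zero (w : ℂ) : HasDerivAt (auxB L w) (-℘'[L] w / 2) 0 := by
  have he := hasDerivAt_weierstrassPExcept_zero L
  have he' := (L.analyticAt_derivWeierstrassPExcept 0).differentiableAt.hasDerivAt
  have hid : HasDerivAt (fun z : ℂ => z) 1 0 := hasDerivAt_id 0
  have hNum := (hid.fun_mul (he'.sub_const (℘'[L] w))).fun_add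
    ((he.sub_const (℘[L] w)).const_mul 2)
  have hDen := (((hid.fun_pow 2).fun_mul (he.sub_const (℘[L] w))).const_add 1).const_mul 2
  have hDen0 : (2 * (1 + (0 : ℂ) ^ 2 * (℘[L - (0 : ℂ)] 0 - ℘[L] w))) ≠ 0 := by norm_num
  have hB := hNum.fun_div hDen hDen0
  refine hB.congr_deriv ?_
  simp only [L.weierstrassPExcept_zero, L.derivWeierstrassPExcept_zero_zero]
  norm_num
  ring

theorem hasDerivAt_addXExt_zero (w : ℂ) : HasDerivAt (addXExt L w) (℘'[L] w) 0 := by
  have he := hasDerivAt_weierstrassPExcept_zero L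
  have hB := hasDerivAt_auxB_zero L w
  have hid : HasDerivAt (fun z : ℂ => z) 1 0 := hasDerivAt_id 0
  have hS := ((((hB.const_mul (-2)).fun_add ((hid.fun_pow 2).fun_mul (hB.fun_pow 2))).fun_sub he).sub_const
    (℘[L] w))
  refine hS.congr_deriv ?_
  norm_num
  ring

theorem analyticAt_auxB_zero (w : ℂ) : AnalyticAt ℂ (auxB L w) 0 := by
  have he := L.analyticAt_weierstrassPExcept 0
  have he' := L.analyticAt_derivWeierstrassPExcept 0
  have hNum : AnalyticAt ℂ (fun z : ℂ => z * (℘'[L - (0 : ℂ)] z - ℘'[L] w) +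
      2 * (℘[L - (0 : ℂ)] z - ℘[L] w)) 0 := by fun_prop
  have hDen : AnalyticAt ℂ (fun z : ℂ => 2 * (1 + z ^ 2 * (℘[L - (0 : ℂ)] z - ℘[L] w))) 0 := by
    fun_prop
  have hDen0 : (2 * (1 + (0 : ℂ) ^ 2 * (℘[L - (0 : ℂ)] 0 - ℘[L] w))) ≠ 0 := by norm_num
  exact hNum.fun_div hDen hDen0

theorem analyticAt_addXExt_zero (w : ℂ) : AnalyticAt ℂ (addXExt L w) 0 := by
  have he := L.analyticAt_weierstrassPExcept 0
  have hB := analyticAt_auxB_zero L w
  unfold addXExt
  fun_prop

/-! ### The addition theorem -/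

/-- The chord construction computes `℘ (w + z)`. -/
theorem addX_eq {w z : ℂ} (hw : w ∉ L.lattice) (hz : z ∈ dom L w) :
    addX L w z = ℘[L] (w + z) := by
  have hdom := dom_mem_nhdsNE_zero L hw
  set f : ℂ → ℂ := addXExt L w with hf
  set g : ℂ → ℂ := fun s => ℘[L] (w + s) with hg
  have hw0 : w + 0 ∉ L.lattice := by simpa using hw
  have hf_an : AnalyticAt ℂ f 0 := analyticAt_addXExt_zero L w
  have hg_an : AnalyticAt ℂ g 0 := analyticAt_weierstrassP_const_add L w hw0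
  have hfeq : ∀ u ∈ dom L w, f u = addX L w u := fun u hu => addXExt_eq L hw hu
  -- the differential equation for `f` on a punctured neighbourhood of `0`
  have hode_ne : ∀ᶠ u in 𝓝[≠] (0 : ℂ), deriv (deriv f) u = 6 * f u ^ 2 - L.g₂ / 2 := by
    filter_upwards [hdom] with u hu
    have e1 : f =ᶠ[𝓝 u] addX L w := by
      filter_upwards [(isOpen_dom L w).mem_nhds hu] with v hv using hfeq v hv
    rw [e1.deriv.deriv_eq, e1.eq_of_nhds, deriv_deriv_addX L hw hu]
  -- and at `0` by continuity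
  have hT_an : AnalyticAt ℂ (fun u => deriv (deriv f) u - (6 * f u ^ 2 - L.g₂ / 2)) 0 := by
    have := hf_an.deriv.deriv
    fun_prop
  have hT0 : deriv (deriv f) 0 - (6 * f 0 ^ 2 - L.g₂ / 2) = 0 := by
    have hc := hT_an.continuousAt.tendsto.mono_left (nhdsWithin_le_nhds (s := {(0 : ℂ)}ᶜ))
    have h0 : Tendsto (fun u => deriv (deriv f) u - (6 * f u ^ 2 - L.g₂ / 2)) (𝓝[≠] (0 : ℂ))
        (𝓝 0) := by
      refine tendsto_const_nhds.congr' ?_
      filter_upwards [hode_ne] with u hu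
      rw [hu, sub_self]
    exact tendsto_nhds_unique hc h0
  have hode : ∀ᶠ u in 𝓝 (0 : ℂ), deriv (deriv f) u = 6 * f u ^ 2 - L.g₂ / 2 := by
    rw [eventually_nhdsWithin_iff] at hode_ne
    filter_upwards [hode_ne] with u hu
    by_cases h : u = 0
    · subst h
      exact sub_eq_zero.mp hT0
    · exact hu h
  have hgode : ∀ᶠ u in 𝓝 (0 : ℂ), deriv (deriv g) u = 6 * g u ^ 2 - L.g₂ / 2 := by
    filter_upwards [eventually_notMem_lattice_add L w hw0] with s hs
      using deriv_deriv_weierstrassP_const_add L w hs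
  have h0 : f 0 = g 0 := by
    simp only [hf, hg, addXExt_zero, add_zero]
  have h1 : deriv f 0 = deriv g 0 := by
    rw [(hasDerivAt_addXExt_zero L w).deriv, deriv_weierstrassP_const_add L w hw0, add_zero]
  have hfg : f =ᶠ[𝓝 0] g := eventuallyEq_of_deriv_deriv_eq hf_an hg_an hode hgode h0 h1
  -- a point of the domain near which `addX = g`
  obtain ⟨z₀, hz₀, hz₀dom⟩ :=
    ((hfg.eventually_nhds.filter_mono nhdsWithin_le_nhds).and hdom).exists
  have key : addX L w =ᶠ[𝓝 z₀] g := by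
    have hz₀' : f =ᶠ[𝓝 z₀] g := hz₀
    filter_upwards [hz₀', (isOpen_dom L w).mem_nhds hz₀dom] with u hu1 hu2
    rw [← hfeq u hu2, hu1]
  have hg_on : AnalyticOnNhd ℂ g (dom L w) := fun u hu =>
    analyticAt_weierstrassP_const_add L w (by rw [add_comm]; exact hu.2.2)
  exact (analyticOnNhd_addX L hw).eqOn_of_preconnected_of_eventuallyEq hg_on
    (isPreconnected_dom L w) hz₀dom key hz

theorem mem_dom_of_ne {z w : ℂ} (hz : z ∉ L.lattice) (hw : w ∉ L.lattice)
    (hzw : z + w ∉ L.lattice) (hne : ℘[L] z ≠ ℘[L] w) : z ∈ dom L w :=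
  ⟨hz, fun h => hne ((weierstrassP_eq_iff L hz hw).mpr (Or.inl h)), hzw⟩

end WPAdd

open WPAdd in
/-- `℘'' = 6 ℘² - g₂ / 2`. -/
theorem deriv_derivWeierstrassP (L : PeriodPair) {z : ℂ} (hz : z ∉ L.lattice) :
    deriv ℘'[L] z = 6 * ℘[L] z ^ 2 - L.g₂ / 2 :=
  WPAdd.deriv_derivWeierstrassP L hz

/-- **`℘` is two-to-one**: `℘ z = ℘ w` iff `z ≡ ± w` modulo the lattice. -/
theorem weierstrassP_eq_iff (L : PeriodPair) {z w : ℂ} (hz : z ∉ L.lattice)
    (hw : w ∉ L.lattice) : ℘[L] z = ℘[L] w ↔ z - w ∈ L.lattice ∨ z + w ∈ L.lattice :=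
  WPAdd.weierstrassP_eq_iff L hz hw

/-- The parametrisation `z ↦ (℘ z, ℘' z)` is injective modulo the lattice. -/
theorem sub_mem_lattice_of_weierstrassP_eq (L : PeriodPair) {z w : ℂ} (hz : z ∉ L.lattice)
    (hw : w ∉ L.lattice) (h0 : ℘[L] z = ℘[L] w) (h1 : ℘'[L] z = ℘'[L] w) : z - w ∈ L.lattice :=
  WPAdd.sub_mem_lattice_of_eq L hz hw h0 h1

/-- **Addition theorem** for the Weierstrass `℘`-function (generic case, `x`-coordinate). -/
theorem weierstrassP_add (L : PeriodPair) {z w : ℂ} (hz : z ∉ L.lattice) (hw : w ∉ L.lattice)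
    (hzw : z + w ∉ L.lattice) (hne : ℘[L] z ≠ ℘[L] w) :
    ℘[L] (z + w) = ((℘'[L] z - ℘'[L] w) / (℘[L] z - ℘[L] w)) ^ 2 / 4 - ℘[L] z - ℘[L] w := by
  have h := WPAdd.addX_eq L hw (WPAdd.mem_dom_of_ne L hz hw hzw hne)
  rw [add_comm w z] at h
  rw [← h]
  rfl

/-- **Addition theorem** for the Weierstrass `℘`-function (generic case, `y`-coordinate). -/
theorem derivWeierstrassP_add (L : PeriodPair) {z w : ℂ} (hz : z ∉ L.lattice)
    (hw : w ∉ L.lattice) (hzw : z + w ∉ L.lattice) (hne : ℘[L] z ≠ ℘[L] w) :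
    ℘'[L] (z + w) = -℘'[L] z -
      (℘'[L] z - ℘'[L] w) / (℘[L] z - ℘[L] w) * (℘[L] (z + w) - ℘[L] z) := by
  have hzd := WPAdd.mem_dom_of_ne L hz hw hzw hne
  have e : WPAdd.addX L w =ᶠ[𝓝 z] fun s => ℘[L] (w + s) := by
    filter_upwards [(WPAdd.isOpen_dom L w).mem_nhds hzd] with u hu using WPAdd.addX_eq L hw hu
  have hwz : w + z ∉ L.lattice := by rwa [add_comm]
  have h1 := (WPAdd.hasDerivAt_addX L hw hzd).deriv
  rw [e.deriv_eq, WPAdd.deriv_weierstrassP_const_add L w hwz, WPAdd.addX_eq L hw hzd] at h1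
  rw [add_comm z w, h1]
  rfl

end Fermat.Agent.S05
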