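/-
S05 / S13, package C (complex uniformisation), first part: the period pair `(1, τ)`, its lattice
invariants `g₂`, `g₃` in terms of the Eisenstein series `E₄`, `E₆`, the non-vanishing of the
discriminant of the lattice `ℤ + ℤτ`, and the Weierstrass curve `y² = x³ - (g₂/4) x - g₃/4`
attached to a period pair, with its discriminant and `j`-invariant.
-/
import Mathlib

set_option autoImplicit false

open Complex ModularForm EisensteinSeries
open UpperHalfPlane hiding I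
open scoped Real Nat PeriodPair

namespace Fermat.Agent.S05

/-- The period pair `(1, τ)` for `τ` in the upper half plane. -/
noncomputable def tauPair (τ : ℍ) : PeriodPair where
  ω₁ := 1
  ω₂ := (τ : ℂ)
  indep := by
    rw [LinearIndependent.pair_iff]
    intro s t h
    have him := congrArg Complex.im h
    have hre := congrArg Complex.re h
    simp only [real_smul, add_im, mul_im, ofReal_re, ofReal_im,
      mul_one, add_zero, coe_im, coe_re, zero_add, zero_im, add_re, mul_re, sub_zero,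
      zero_mul, zero_re] at him hre
    have ht : t = 0 := by
      rcases mul_eq_zero.mp him with h | h
      · exact h
      · exact absurd h τ.im_ne_zero
    subst ht
    simp only [zero_mul, add_zero] at hre
    exact ⟨hre, rfl⟩

@[simp] theorem tauPair_ω₁ (τ : ℍ) : (tauPair τ).ω₁ = 1 := rfl

@[simp] theorem tauPair_ω₂ (τ : ℍ) : (tauPair τ).ω₂ = (τ : ℂ) := rfl

theorem mem_lattice_tauPair {τ : ℍ} {z : ℂ} :
    z ∈ (tauPair τ).lattice ↔ ∃ m n : ℤ, z = m + n * (τ : ℂ) := by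
  rw [PeriodPair.mem_lattice]
  simp only [tauPair_ω₁, tauPair_ω₂, mul_one]
  constructor
  · rintro ⟨m, n, h⟩; exact ⟨m, n, h.symm⟩
  · rintro ⟨m, n, h⟩; exact ⟨m, n, h.symm⟩

namespace TauPair

/-- A lattice sum over `ℤ + ℤτ` as a sum over `ℤ × ℤ`. -/
theorem tsum_lattice_tauPair (τ : ℍ) (f : ℂ → ℂ) :
    ∑' l : (tauPair τ).lattice, f l = ∑' x : ℤ × ℤ, f ((x.1 : ℂ) + x.2 * (τ : ℂ)) := by
  rw [← (tauPair τ).latticeEquivProd.symm.toEquiv.tsum_eq]
  refine tsum_congr fun x => ?_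
  simp [PeriodPair.latticeEquiv_symm_apply]

theorem hasSum_lattice_tauPair_iff (τ : ℍ) (f : ℂ → ℂ) (a : ℂ) :
    HasSum (fun l : (tauPair τ).lattice => f l) a ↔
      HasSum (fun x : ℤ × ℤ => f ((x.1 : ℂ) + x.2 * (τ : ℂ))) a := by
  rw [← (tauPair τ).latticeEquivProd.symm.toEquiv.hasSum_iff]
  refine Iff.of_eq (congrArg (HasSum · a) (funext fun x => ?_))
  simp [PeriodPair.latticeEquiv_symm_apply]

theorem G_tauPair (τ : ℍ) {k : ℕ} (hk : 3 ≤ k) :
    (tauPair τ).G k = 2 * riemannZeta k * E hk τ := by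
  have h1 : (tauPair τ).G k = ∑' v : Fin 2 → ℤ, eisSummand k v τ := by
    rw [PeriodPair.G, tsum_lattice_tauPair τ (fun l => (l ^ k)⁻¹),
      ← (Equiv.prodComm ℤ ℤ).tsum_eq, ← (finTwoArrowEquiv ℤ).tsum_eq]
    refine tsum_congr fun v => ?_
    simp only [eisSummand, Equiv.prodComm_apply, Prod.fst_swap, Prod.snd_swap,
      zpow_neg, zpow_natCast]
    congr 2
    change ((v 1 : ℤ) : ℂ) + (v 0 : ℤ) * (τ : ℂ) = _
    ring
  rw [h1, tsum_eisSummand_eq_riemannZeta_mul_eisensteinSeries hk τ]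
  rw [show E hk τ = (1 / 2 : ℂ) • eisensteinSeriesSIF (N := 1) 0 k τ from rfl,
    eisensteinSeriesSIF_apply 0 k τ]
  simp only [smul_eq_mul]
  ring

theorem riemannZeta_six : riemannZeta 6 = (π : ℂ) ^ 6 / 945 := by
  have h := riemannZeta_two_mul_nat (k := 3) (by norm_num)
  have hb : bernoulli 6 = 1 / 42 := by decide +kernel
  rw [show (2 * ((3 : ℕ) : ℂ)) = 6 by norm_num] at h
  rw [h, hb]
  norm_num [Nat.factorial]
  ring

end TauPair

open TauPair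

/-- `g₂(ℤ + ℤτ) = (2πi)⁴ / 12 · E₄(τ)`. -/
theorem g₂_tauPair (τ : ℍ) : (tauPair τ).g₂ = (2 * π * I) ^ 4 / 12 * E₄ τ := by
  rw [PeriodPair.g₂, G_tauPair τ (by norm_num : 3 ≤ 4)]
  have h4 : riemannZeta ((4 : ℕ) : ℂ) = (π : ℂ) ^ 4 / 90 := by
    simpa using riemannZeta_four
  rw [h4]
  have hI : (I : ℂ) ^ 4 = 1 := by simp [Complex.I_pow_four]
  rw [mul_pow, mul_pow, hI]
  ring

/-- `g₃(ℤ + ℤτ) = -(2πi)⁶ / 216 · E₆(τ)`. -/
theorem g₃_tauPair (τ : ℍ) : (tauPair τ).g₃ = -(2 * π * I) ^ 6 / 216 * E₆ τ := by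
  rw [PeriodPair.g₃, G_tauPair τ (by norm_num : 3 ≤ 6)]
  have h6 : riemannZeta ((6 : ℕ) : ℂ) = (π : ℂ) ^ 6 / 945 := by
    simpa using riemannZeta_six
  rw [h6]
  have hI : (I : ℂ) ^ 6 = -1 := by
    rw [show (6 : ℕ) = 2 * 3 by norm_num, pow_mul, I_sq]; norm_num
  rw [mul_pow, mul_pow, hI]
  ring

/-- The discriminant of the lattice `ℤ + ℤτ` is `(2πi)¹² Δ(τ)`. -/
theorem g₂_cube_sub_tauPair (τ : ℍ) :
    (tauPair τ).g₂ ^ 3 - 27 * (tauPair τ).g₃ ^ 2 = (2 * π * I) ^ 12 * discriminant τ := by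
  rw [g₂_tauPair, g₃_tauPair, discriminant_eq_E₄_cube_sub_E₆_sq]
  ring

theorem g₂_cube_sub_tauPair_ne_zero (τ : ℍ) :
    (tauPair τ).g₂ ^ 3 - 27 * (tauPair τ).g₃ ^ 2 ≠ 0 := by
  rw [g₂_cube_sub_tauPair]
  refine mul_ne_zero (pow_ne_zero _ ?_) (discriminant_ne_zero τ)
  simp [Real.pi_ne_zero]

/-- The Weierstrass curve `y² = x³ - (g₂/4) x - g₃/4` attached to a period pair; the point
`(℘(z), ℘'(z)/2)` lies on it for every `z` outside the lattice. -/
noncomputable def wpCurve (L : PeriodPair) : WeierstrassCurve ℂ :=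
  ⟨0, 0, 0, -L.g₂ / 4, -L.g₃ / 4⟩

@[simp] theorem wpCurve_a₁ (L : PeriodPair) : (wpCurve L).a₁ = 0 := rfl
@[simp] theorem wpCurve_a₂ (L : PeriodPair) : (wpCurve L).a₂ = 0 := rfl
@[simp] theorem wpCurve_a₃ (L : PeriodPair) : (wpCurve L).a₃ = 0 := rfl
@[simp] theorem wpCurve_a₄ (L : PeriodPair) : (wpCurve L).a₄ = -L.g₂ / 4 := rfl
@[simp] theorem wpCurve_a₆ (L : PeriodPair) : (wpCurve L).a₆ = -L.g₃ / 4 := rfl

theorem wpCurve_Δ (L : PeriodPair) : (wpCurve L).Δ = L.g₂ ^ 3 - 27 * L.g₃ ^ 2 := by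
  simp only [WeierstrassCurve.Δ, WeierstrassCurve.b₂, WeierstrassCurve.b₄, WeierstrassCurve.b₆,
    WeierstrassCurve.b₈, wpCurve_a₁, wpCurve_a₂, wpCurve_a₃, wpCurve_a₄, wpCurve_a₆]
  ring

theorem wpCurve_c₄ (L : PeriodPair) : (wpCurve L).c₄ = 12 * L.g₂ := by
  simp only [WeierstrassCurve.c₄, WeierstrassCurve.b₂, WeierstrassCurve.b₄, wpCurve_a₁,
    wpCurve_a₂, wpCurve_a₃, wpCurve_a₄]
  ring

theorem wpCurve_c₆ (L : PeriodPair) : (wpCurve L).c₆ = 216 * L.g₃ := by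
  simp only [WeierstrassCurve.c₆, WeierstrassCurve.b₂, WeierstrassCurve.b₄, WeierstrassCurve.b₆,
    wpCurve_a₁, wpCurve_a₂, wpCurve_a₃, wpCurve_a₄, wpCurve_a₆]
  ring

/-- `(x, y)` lies on `wpCurve L` iff `(2y)² = 4x³ - g₂ x - g₃`. -/
theorem wpCurve_equation_iff (L : PeriodPair) (x y : ℂ) :
    (wpCurve L).toAffine.Equation x y ↔ (2 * y) ^ 2 = 4 * x ^ 3 - L.g₂ * x - L.g₃ := by
  rw [WeierstrassCurve.Affine.equation_iff]
  simp only [wpCurve_a₁, wpCurve_a₂, wpCurve_a₃, wpCurve_a₄, wpCurve_a₆]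
  constructor
  · intro h; linear_combination 4 * h
  · intro h; linear_combination (1 / 4 : ℂ) * h

/-- The point `(℘(z), ℘'(z)/2)` lies on `wpCurve L`. -/
theorem wpCurve_equation (L : PeriodPair) (z : ℂ) (hz : z ∉ L.lattice) :
    (wpCurve L).toAffine.Equation (℘[L] z) (℘'[L] z / 2) := by
  rw [wpCurve_equation_iff, ← L.derivWeierstrassP_sq z hz]
  ring

theorem wpCurve_tauPair_Δ (τ : ℍ) :
    (wpCurve (tauPair τ)).Δ = (2 * π * I) ^ 12 * discriminant τ := by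
  rw [wpCurve_Δ, g₂_cube_sub_tauPair]

theorem wpCurve_tauPair_Δ_ne_zero (τ : ℍ) : (wpCurve (tauPair τ)).Δ ≠ 0 := by
  rw [wpCurve_Δ]
  exact g₂_cube_sub_tauPair_ne_zero τ

instance wpCurve_tauPair_isElliptic (τ : ℍ) : (wpCurve (tauPair τ)).IsElliptic :=
  ⟨isUnit_iff_ne_zero.mpr (wpCurve_tauPair_Δ_ne_zero τ)⟩

/-- The `j`-invariant of the curve of the lattice `ℤ + ℤτ` is `E₄(τ)³ / Δ(τ)`
(`= Fermat.Agent.S24.jFun τ`). -/
theorem wpCurve_tauPair_j (τ : ℍ) :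
    (wpCurve (tauPair τ)).j = E₄ τ ^ 3 / discriminant τ := by
  have h2 : (2 * (π : ℂ) * I) ≠ 0 := by simp [Real.pi_ne_zero]
  have hΔ := discriminant_ne_zero τ
  rw [WeierstrassCurve.j, Units.val_inv_eq_inv_val, WeierstrassCurve.coe_Δ', wpCurve_tauPair_Δ,
    wpCurve_c₄, g₂_tauPair]
  field_simp

/-- Every point of `wpCurve (tauPair τ)` satisfying the equation is nonsingular. -/
theorem wpCurve_tauPair_nonsingular (τ : ℍ) {x y : ℂ}
    (h : (wpCurve (tauPair τ)).toAffine.Equation x y) :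
    (wpCurve (tauPair τ)).toAffine.Nonsingular x y :=
  ((wpCurve (tauPair τ)).toAffine.equation_iff_nonsingular_of_Δ_ne_zero
    (wpCurve_tauPair_Δ_ne_zero τ)).mp h

end Fermat.Agent.S05
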