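import Mathlib

set_option autoImplicit false

namespace Fermat.Agent.S05

namespace TorsCount

variable (L : PeriodPair)

/-- The division points `(i ω₁ + j ω₂) / n`. -/
noncomputable def divPt (n : ℕ) (i j : ℤ) : ℂ := ((i : ℂ) * L.ω₁ + (j : ℂ) * L.ω₂) / n

lemma nsmul_divPt_mem {n : ℕ} (hn : 0 < n) (i j : ℤ) : (n : ℂ) * divPt L n i j ∈ L.lattice := by
  have hn' : (n : ℂ) ≠ 0 := Nat.cast_ne_zero.2 hn.ne'
  rw [divPt, mul_div_cancel₀ _ hn']
  exact PeriodPair.mem_lattice.2 ⟨i, j, rfl⟩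

lemma divPt_sub_mem_iff {n : ℕ} (hn : 0 < n) (i j i' j' : ℤ) :
    divPt L n i j - divPt L n i' j' ∈ L.lattice ↔ (n : ℤ) ∣ i - i' ∧ (n : ℤ) ∣ j - j' := by
  have hn' : (n : ℂ) ≠ 0 := Nat.cast_ne_zero.2 hn.ne'
  have hnQ : (n : ℚ) ≠ 0 := Nat.cast_ne_zero.2 hn.ne'
  have hrw : divPt L n i j - divPt L n i' j' =
      (((i - i' : ℤ) / (n : ℚ) : ℚ) : ℂ) * L.ω₁ + (((j - j' : ℤ) / (n : ℚ) : ℚ) : ℂ) * L.ω₂ := by
    simp only [divPt]
    push_cast
    field_simp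
    ring
  rw [hrw, PeriodPair.mul_ω₁_add_mul_ω₂_mem_lattice]
  have key : ∀ k : ℤ, ((k : ℚ) / (n : ℚ)).den = 1 ↔ (n : ℤ) ∣ k := by
    intro k
    constructor
    · intro h
      have h2 : (((k : ℚ) / (n : ℚ)).num : ℚ) = (k : ℚ) / (n : ℚ) := by
        have := Rat.num_div_den ((k : ℚ) / (n : ℚ))
        rw [h] at this
        simpa using this
      refine ⟨((k : ℚ) / (n : ℚ)).num, ?_⟩
      have h3 : (k : ℚ) = (n : ℚ) * (((k : ℚ) / (n : ℚ)).num : ℚ) := by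
        rw [h2]; field_simp
      exact_mod_cast h3
    · rintro ⟨m, rfl⟩
      have : (((n : ℤ) * m : ℤ) : ℚ) / (n : ℚ) = (m : ℚ) := by
        push_cast; field_simp
      rw [this]
      exact Rat.den_intCast m
  rw [key, key]

end TorsCount

open TorsCount in
/-- If `φ : ℂ →+ G` is a surjective homomorphism with kernel the period lattice, then `G` has
exactly `n ^ 2` elements killed by `n`. -/
theorem card_torsion_of_hom (L : PeriodPair) {G : Type*} [AddCommGroup G] (φ : ℂ →+ G)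
    (hφ : Function.Surjective φ) (hker : ∀ z, φ z = 0 ↔ z ∈ L.lattice) (n : ℕ) (hn : 0 < n) :
    Nat.card {P : G // n • P = 0} = n ^ 2 := by
  have hn' : (n : ℂ) ≠ 0 := Nat.cast_ne_zero.2 hn.ne'
  have hnZ : (0 : ℤ) < n := by exact_mod_cast hn
  have hmem : ∀ i j : ℤ, n • φ (divPt L n i j) = 0 := by
    intro i j
    rw [← map_nsmul, hker, nsmul_eq_mul]
    exact nsmul_divPt_mem L hn i j
  let f : Fin n × Fin n → {P : G // n • P = 0} :=
    fun ij => ⟨φ (divPt L n (ij.1 : ℕ) (ij.2 : ℕ)), hmem _ _⟩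
  have hinj : Function.Injective f := by
    rintro ⟨i, j⟩ ⟨i', j'⟩ h
    have h1 : φ (divPt L n ((i : ℕ) : ℤ) ((j : ℕ) : ℤ)) = φ (divPt L n ((i' : ℕ) : ℤ) ((j' : ℕ) : ℤ)) :=
      congrArg Subtype.val h
    have h2 : divPt L n ((i : ℕ) : ℤ) ((j : ℕ) : ℤ) - divPt L n ((i' : ℕ) : ℤ) ((j' : ℕ) : ℤ) ∈ L.lattice := by
      rw [← hker, map_sub, h1, sub_self]
    obtain ⟨hi, hj⟩ := (divPt_sub_mem_iff L hn _ _ _ _).1 h2
    have hi' : (i : ℕ) = (i' : ℕ) := by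
      have := Int.eq_zero_of_abs_lt_dvd hi (by
        rw [abs_lt]; constructor <;> [skip; skip] <;> omega)
      omega
    have hj' : (j : ℕ) = (j' : ℕ) := by
      have := Int.eq_zero_of_abs_lt_dvd hj (by
        rw [abs_lt]; constructor <;> [skip; skip] <;> omega)
      omega
    exact Prod.ext (Fin.ext hi') (Fin.ext hj')
  have hsurj : Function.Surjective f := by
    rintro ⟨P, hP⟩
    obtain ⟨z, rfl⟩ := hφ P
    have hz : (n : ℂ) * z ∈ L.lattice := by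
      rw [← hker, ← nsmul_eq_mul, map_nsmul]; exact hP
    obtain ⟨a, b, hab⟩ := PeriodPair.mem_lattice.1 hz
    have hz' : z = divPt L n a b := by
      rw [divPt, hab, mul_div_cancel_left₀ _ hn']
    have ha : (a % (n : ℤ)).toNat < n := by
      have := Int.emod_lt_of_pos a hnZ
      have := Int.emod_nonneg a hnZ.ne'
      omega
    have hb : (b % (n : ℤ)).toNat < n := by
      have := Int.emod_lt_of_pos b hnZ
      have := Int.emod_nonneg b hnZ.ne'
      omega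
    refine ⟨(⟨(a % (n : ℤ)).toNat, ha⟩, ⟨(b % (n : ℤ)).toNat, hb⟩), ?_⟩
    apply Subtype.ext
    show φ (divPt L n (((a % (n : ℤ)).toNat : ℕ) : ℤ) (((b % (n : ℤ)).toNat : ℕ) : ℤ)) = φ z
    have h3 : z - divPt L n (((a % (n : ℤ)).toNat : ℕ) : ℤ) (((b % (n : ℤ)).toNat : ℕ) : ℤ) ∈ L.lattice := by
      rw [hz', divPt_sub_mem_iff L hn]
      rw [Int.toNat_of_nonneg (Int.emod_nonneg a hnZ.ne'), Int.toNat_of_nonneg (Int.emod_nonneg b hnZ.ne')]
      exact ⟨Int.dvd_self_sub_emod, Int.dvd_self_sub_emod⟩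
    rw [← hker, map_sub, sub_eq_zero] at h3
    exact h3.symm
  rw [Nat.card_congr (Equiv.ofBijective f ⟨hinj, hsurj⟩).symm, Nat.card_prod, Nat.card_fin, sq]

end Fermat.Agent.S05
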