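import Mathlib

set_option autoImplicit false

open Filter Topology

namespace Fermat.Agent.S05

namespace WPSurj

open PeriodPair

variable (L : PeriodPair)

open Classical in
/-- The function `1 / (℘ - c)`, extended by `0` at the lattice points. -/
noncomputable def recip (c : ℂ) (z : ℂ) : ℂ :=
  if z ∈ L.lattice then 0 else (L.weierstrassP z - c)⁻¹

lemma recip_of_mem (c : ℂ) {z : ℂ} (hz : z ∈ L.lattice) : recip L c z = 0 := by
  simp [recip, hz]

lemma recip_of_notMem (c : ℂ) {z : ℂ} (hz : z ∉ L.lattice) :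
    recip L c z = (L.weierstrassP z - c)⁻¹ := by
  simp [recip, hz]

lemma recip_add_mem (c : ℂ) (z w : ℂ) (hw : w ∈ L.lattice) :
    recip L c (z + w) = recip L c z := by
  have hiff : z + w ∈ L.lattice ↔ z ∈ L.lattice :=
    ⟨fun h => by simpa using L.lattice.sub_mem h hw, fun h => L.lattice.add_mem h hw⟩
  by_cases hz : z ∈ L.lattice
  · rw [recip_of_mem L c hz, recip_of_mem L c (hiff.2 hz)]
  · rw [recip_of_notMem L c hz, recip_of_notMem L c (fun h => hz (hiff.1 h))]
    have := L.weierstrassP_add_coe z ⟨w, hw⟩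
    rw [this]

lemma meromorphicOrderAt_sub_const (c : ℂ) {l : ℂ} (hl : l ∈ L.lattice) :
    meromorphicOrderAt (fun z => L.weierstrassP z - c) l = -2 := by
  have h1 : meromorphicOrderAt L.weierstrassP l = -2 := L.order_weierstrassP l hl
  have h2 : MeromorphicAt (fun _ : ℂ => -c) l := MeromorphicAt.const _ _
  have h3 : meromorphicOrderAt L.weierstrassP l < meromorphicOrderAt (fun _ : ℂ => -c) l := by
    classical
    rw [h1, meromorphicOrderAt_const]
    split_ifs
    · exact WithTop.coe_lt_top _
    · decide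
  have h4 := meromorphicOrderAt_add_eq_left_of_lt h2 h3
  rw [h1] at h4
  rw [← h4]
  congr 1

lemma analyticAt_recip (c : ℂ) (hc : ∀ z, z ∉ L.lattice → L.weierstrassP z ≠ c) (z : ℂ) :
    AnalyticAt ℂ (recip L c) z := by
  by_cases hz : z ∈ L.lattice
  · refine AnalyticAt.of_meromorphicOrderAt_pos ?_ (recip_of_mem L c hz)
    have hcongr : recip L c =ᶠ[𝓝[≠] z] (fun w => L.weierstrassP w - c)⁻¹ := by
      filter_upwards [self_mem_nhdsWithin, mem_nhdsWithin_of_mem_nhds
        (L.compl_lattice_sdiff_singleton_mem_nhds z)] with w hw hw'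
      have hwL : w ∉ L.lattice := fun h => hw' ⟨h, hw⟩
      rw [recip_of_notMem L c hwL]
      rfl
    rw [meromorphicOrderAt_congr hcongr, meromorphicOrderAt_inv, meromorphicOrderAt_sub_const L c hz]
    norm_num
  · have h1 : AnalyticAt ℂ L.weierstrassP z := L.analyticOnNhd_weierstrassP z hz
    have h2 : AnalyticAt ℂ (fun w => (L.weierstrassP w - c)⁻¹) z :=
      (h1.sub analyticAt_const).inv (sub_ne_zero.2 (hc z hz))
    refine h2.congr ?_
    filter_upwards [L.isClosed_lattice.isOpen_compl.mem_nhds hz] with w hw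
    exact (recip_of_notMem L c hw).symm

end WPSurj

open WPSurj in
/-- The Weierstrass `℘`-function takes every complex value (outside the lattice). -/
theorem exists_weierstrassP_eq (L : PeriodPair) (c : ℂ) :
    ∃ z : ℂ, z ∉ L.lattice ∧ L.weierstrassP z = c := by
  by_contra hcon
  have hc : ∀ z, z ∉ L.lattice → L.weierstrassP z ≠ c := fun z hz h => hcon ⟨z, hz, h⟩
  have hd : Differentiable ℂ (recip L c) := fun z => (analyticAt_recip L c hc z).differentiableAt
  have hb : Bornology.IsBounded (Set.range (recip L c)) :=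
    (IsZLattice.isCompact_range_of_periodic L.lattice _ hd.continuous
      (fun z w hw => recip_add_mem L c z w hw)).isBounded
  have h0 := hd.apply_eq_apply_of_bounded hb (L.ω₁ / 2) 0
  rw [recip_of_mem L c (L.lattice.zero_mem), recip_of_notMem L c L.ω₁_div_two_notMem_lattice] at h0
  exact inv_ne_zero (sub_ne_zero.2 (hc _ L.ω₁_div_two_notMem_lattice)) h0

end Fermat.Agent.S05
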