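import Mathlib
import Fermat.Agent.S05.WPSurj
import Fermat.Agent.S05.TorsCount
import Fermat.Agent.S05.TauPair

set_option autoImplicit false

open Filter Topology PeriodPair

namespace Fermat.Agent.S05

/-- The analytic input of the uniformisation: the "two-to-one" core lemma, the second
derivative, and the generic addition theorem of the Weierstrass `℘`-function. -/
structure WPAddFacts (L : PeriodPair) : Prop where
  core : ∀ z w : ℂ, z ∉ L.lattice → w ∉ L.lattice → ℘[L] z = ℘[L] w → ℘'[L] z = ℘'[L] w →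
    z - w ∈ L.lattice
  deriv2 : ∀ z : ℂ, z ∉ L.lattice → HasDerivAt ℘'[L] (6 * ℘[L] z ^ 2 - L.g₂ / 2) z
  add_x : ∀ z w : ℂ, z ∉ L.lattice → w ∉ L.lattice → z + w ∉ L.lattice → ℘[L] z ≠ ℘[L] w →
    ℘[L] (z + w) = ((℘'[L] z - ℘'[L] w) / (℘[L] z - ℘[L] w)) ^ 2 / 4 - ℘[L] z - ℘[L] w
  add_y : ∀ z w : ℂ, z ∉ L.lattice → w ∉ L.lattice → z + w ∉ L.lattice → ℘[L] z ≠ ℘[L] w →
    ℘'[L] (z + w) = -((℘'[L] z - ℘'[L] w) / (℘[L] z - ℘[L] w)) * (℘[L] (z + w) - ℘[L] z)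
      - ℘'[L] z

namespace WPIso

variable {L : PeriodPair}

lemma neg_notMem {z : ℂ} (hz : z ∉ L.lattice) : -z ∉ L.lattice :=
  fun h => hz (by simpa using L.lattice.neg_mem h)

lemma add_mem_iff_left {z l : ℂ} (hl : l ∈ L.lattice) : z + l ∈ L.lattice ↔ z ∈ L.lattice :=
  ⟨fun h => by simpa using L.lattice.sub_mem h hl, fun h => L.lattice.add_mem h hl⟩

lemma weierstrassP_add_mem (z : ℂ) {l : ℂ} (hl : l ∈ L.lattice) : ℘[L] (z + l) = ℘[L] z :=
  L.weierstrassP_add_coe z ⟨l, hl⟩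

lemma derivWeierstrassP_add_mem (z : ℂ) {l : ℂ} (hl : l ∈ L.lattice) : ℘'[L] (z + l) = ℘'[L] z :=
  L.derivWeierstrassP_add_coe z ⟨l, hl⟩

lemma two_mul_mem_of_deriv_eq_zero (hA : WPAddFacts L) {z : ℂ} (hz : z ∉ L.lattice)
    (h : ℘'[L] z = 0) : 2 * z ∈ L.lattice := by
  have := hA.core z (-z) hz (neg_notMem hz) (by simp) (by simp [h])
  rwa [sub_neg_eq_add, ← two_mul] at this

lemma deriv_eq_zero_of_two_mul_mem {z : ℂ} (h2 : 2 * z ∈ L.lattice) : ℘'[L] z = 0 := by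
  have h1 : ℘'[L] (-z) = ℘'[L] z := by
    have := derivWeierstrassP_add_mem (L := L) (-z) h2
    rw [← this]; congr 1; ring
  rw [L.derivWeierstrassP_neg] at h1
  have h3 : (2 : ℂ) * ℘'[L] z = 0 := by linear_combination -h1
  simpa using h3

lemma two_to_one (hA : WPAddFacts L) {z w : ℂ} (hz : z ∉ L.lattice) (hw : w ∉ L.lattice)
    (h : ℘[L] z = ℘[L] w) : z - w ∈ L.lattice ∨ z + w ∈ L.lattice := by
  have h1 := L.derivWeierstrassP_sq z hz
  have h2 := L.derivWeierstrassP_sq w hw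
  have h3 : (℘'[L] z - ℘'[L] w) * (℘'[L] z + ℘'[L] w) = 0 := by
    rw [h] at h1; linear_combination h1 - h2
  rcases mul_eq_zero.1 h3 with h4 | h4
  · exact Or.inl (hA.core z w hz hw h (sub_eq_zero.1 h4))
  · right
    have := hA.core z (-w) hz (neg_notMem hw) (by simpa using h)
      (by rw [L.derivWeierstrassP_neg]; linear_combination h4)
    rwa [sub_neg_eq_add] at this

/-- Half-lattice points are not lattice points. -/
lemma half_notMem {a b : ℤ} (h : ¬ ((2 : ℤ) ∣ a ∧ (2 : ℤ) ∣ b)) :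
    ((a : ℂ) * L.ω₁ + (b : ℂ) * L.ω₂) / 2 ∉ L.lattice := by
  intro hmem
  apply h
  have := (TorsCount.divPt_sub_mem_iff L (n := 2) (by norm_num) a b 0 0).1 (by
    simpa [TorsCount.divPt] using hmem)
  simpa using this

lemma half_two_mul_mem (a b : ℤ) :
    2 * (((a : ℂ) * L.ω₁ + (b : ℂ) * L.ω₂) / 2) ∈ L.lattice := by
  rw [mul_div_cancel₀ _ (two_ne_zero)]
  exact PeriodPair.mem_lattice.2 ⟨a, b, rfl⟩

/-- The value of `℘` at a half-lattice point is a root of the cubic. -/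
lemma cubic_half {a b : ℤ} (h : ¬ ((2 : ℤ) ∣ a ∧ (2 : ℤ) ∣ b)) :
    4 * ℘[L] (((a : ℂ) * L.ω₁ + (b : ℂ) * L.ω₂) / 2) ^ 3
      - L.g₂ * ℘[L] (((a : ℂ) * L.ω₁ + (b : ℂ) * L.ω₂) / 2) - L.g₃ = 0 := by
  have h1 := L.derivWeierstrassP_sq _ (half_notMem (L := L) h)
  rw [deriv_eq_zero_of_two_mul_mem (half_two_mul_mem a b)] at h1
  linear_combination -h1

lemma half_ne (hA : WPAddFacts L) {a b a' b' : ℤ} (h : ¬ ((2 : ℤ) ∣ a ∧ (2 : ℤ) ∣ b))
    (h' : ¬ ((2 : ℤ) ∣ a' ∧ (2 : ℤ) ∣ b'))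
    (hd : ¬ ((2 : ℤ) ∣ a - a' ∧ (2 : ℤ) ∣ b - b')) :
    ℘[L] (((a : ℂ) * L.ω₁ + (b : ℂ) * L.ω₂) / 2) ≠ ℘[L] (((a' : ℂ) * L.ω₁ + (b' : ℂ) * L.ω₂) / 2) := by
  intro heq
  rcases two_to_one hA (half_notMem (L := L) h) (half_notMem (L := L) h') heq with h1 | h1
  · apply half_notMem (L := L) hd
    convert h1 using 1
    push_cast; ring
  · have hs : ¬ ((2 : ℤ) ∣ a + a' ∧ (2 : ℤ) ∣ b + b') := by
      rintro ⟨h2, h3⟩
      exact hd ⟨by omega, by omega⟩
    apply half_notMem (L := L) hs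
    convert h1 using 1
    push_cast; ring

/-- The discriminant `g₂³ - 27 g₃²` does not vanish. -/
theorem g₂_cube_sub_ne_zero (hA : WPAddFacts L) : L.g₂ ^ 3 - 27 * L.g₃ ^ 2 ≠ 0 := by
  have c1 := cubic_half (L := L) (a := 1) (b := 0) (by norm_num)
  have c2 := cubic_half (L := L) (a := 0) (b := 1) (by norm_num)
  have c3 := cubic_half (L := L) (a := 1) (b := 1) (by norm_num)
  have n12 := half_ne hA (L := L) (a := 1) (b := 0) (a' := 0) (b' := 1) (by norm_num) (by norm_num)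
    (by norm_num)
  have n13 := half_ne hA (L := L) (a := 1) (b := 0) (a' := 1) (b' := 1) (by norm_num) (by norm_num)
    (by norm_num)
  have n23 := half_ne hA (L := L) (a := 0) (b := 1) (a' := 1) (b' := 1) (by norm_num) (by norm_num)
    (by norm_num)
  set e₁ := ℘[L] ((((1 : ℤ) : ℂ) * L.ω₁ + ((0 : ℤ) : ℂ) * L.ω₂) / 2) with he₁
  set e₂ := ℘[L] ((((0 : ℤ) : ℂ) * L.ω₁ + ((1 : ℤ) : ℂ) * L.ω₂) / 2) with he₂
  set e₃ := ℘[L] ((((1 : ℤ) : ℂ) * L.ω₁ + ((1 : ℤ) : ℂ) * L.ω₂) / 2) with he₃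
  -- g₂ = 4 (e₁² + e₁ e₂ + e₂²) etc.
  have d12 : e₁ - e₂ ≠ 0 := sub_ne_zero.2 n12
  have d13 : e₁ - e₃ ≠ 0 := sub_ne_zero.2 n13
  have d23 : e₂ - e₃ ≠ 0 := sub_ne_zero.2 n23
  have g12 : L.g₂ = 4 * (e₁ ^ 2 + e₁ * e₂ + e₂ ^ 2) := by
    apply mul_left_cancel₀ d12
    linear_combination -(c1 - c2)
  have g13 : L.g₂ = 4 * (e₁ ^ 2 + e₁ * e₃ + e₃ ^ 2) := by
    apply mul_left_cancel₀ d13
    linear_combination -(c1 - c3)
  have hsum : e₁ + e₂ + e₃ = 0 := by
    apply mul_left_cancel₀ d23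
    linear_combination (g13 - g12) / 4
  have he3 : e₃ = -e₁ - e₂ := by linear_combination hsum
  have hg3 : L.g₃ = 4 * e₁ ^ 3 - L.g₂ * e₁ := by linear_combination -c1
  have key : L.g₂ ^ 3 - 27 * L.g₃ ^ 2 = 16 * ((e₁ - e₂) * (e₁ - e₃) * (e₂ - e₃)) ^ 2 := by
    rw [hg3, g12, he3]; ring
  rw [key]
  exact mul_ne_zero (by norm_num) (pow_ne_zero _ (mul_ne_zero (mul_ne_zero d12 d13) d23))

theorem wpCurve_Δ_ne_zero (hA : WPAddFacts L) : (wpCurve L).Δ ≠ 0 := by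
  rw [wpCurve_Δ]; exact g₂_cube_sub_ne_zero hA

lemma equation_wp {z : ℂ} (hz : z ∉ L.lattice) :
    (wpCurve L).toAffine.Equation (℘[L] z) (℘'[L] z / 2) := by
  rw [WeierstrassCurve.Affine.equation_iff]
  have h1 := L.derivWeierstrassP_sq z hz
  simp only [wpCurve]
  linear_combination h1 / 4

lemma nonsingular_wp (hA : WPAddFacts L) {z : ℂ} (hz : z ∉ L.lattice) :
    (wpCurve L).toAffine.Nonsingular (℘[L] z) (℘'[L] z / 2) :=
  ((wpCurve L).toAffine.equation_iff_nonsingular_of_Δ_ne_zero (wpCurve_Δ_ne_zero hA)).1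
    (equation_wp hz)

/-! ### Formulas on the curve `wpCurve L` -/

open WeierstrassCurve.Affine in
lemma negY_wp (x y : ℂ) : (wpCurve L).toAffine.negY x y = -y := by
  simp [negY, wpCurve]

open WeierstrassCurve.Affine in
lemma addX_wp (x₁ x₂ ℓ : ℂ) : (wpCurve L).toAffine.addX x₁ x₂ ℓ = ℓ ^ 2 - x₁ - x₂ := by
  simp [addX, wpCurve]

open WeierstrassCurve.Affine in
lemma addY_wp (x₁ x₂ y₁ ℓ : ℂ) :
    (wpCurve L).toAffine.addY x₁ x₂ y₁ ℓ = -(ℓ * (ℓ ^ 2 - x₁ - x₂ - x₁) + y₁) := by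
  simp [addY, negAddY, negY, addX, wpCurve]

open WeierstrassCurve.Affine in
lemma slope_wp_of_ne [DecidableEq ℂ] {x₁ x₂ : ℂ} (y₁ y₂ : ℂ) (hx : x₁ ≠ x₂) :
    (wpCurve L).toAffine.slope x₁ x₂ y₁ y₂ = (y₁ - y₂) / (x₁ - x₂) :=
  slope_of_X_ne hx

open WeierstrassCurve.Affine in
lemma slope_wp_self [DecidableEq ℂ] (x : ℂ) {y : ℂ} (hy : y ≠ 0) :
    (wpCurve L).toAffine.slope x x y y = (3 * x ^ 2 - L.g₂ / 4) / (2 * y) := by
  have hy' : y ≠ (wpCurve L).toAffine.negY x y := by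
    rw [negY_wp]
    intro h
    apply hy
    have : 2 * y = 0 := by linear_combination h
    simpa using this
  rw [slope_of_Y_ne rfl hy', negY_wp]
  simp only [wpCurve]
  congr 1 <;> ring

lemma some_congr {W : WeierstrassCurve.Affine ℂ} {x y x' y' : ℂ} (h : W.Nonsingular x y)
    (h' : W.Nonsingular x' y') (hx : x = x') (hy : y = y') :
    WeierstrassCurve.Affine.Point.some x y h = WeierstrassCurve.Affine.Point.some x' y' h' := by
  subst hx; subst hy; rfl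

/-! ### Duplication by a limit argument -/

lemma hasDerivAt_wp {z : ℂ} (hz : z ∉ L.lattice) : HasDerivAt ℘[L] (℘'[L] z) z := by
  have h := (L.differentiableOn_weierstrassP.differentiableAt
    (L.isClosed_lattice.isOpen_compl.mem_nhds hz)).hasDerivAt
  rwa [L.deriv_weierstrassP] at h

lemma continuousAt_wp {z : ℂ} (hz : z ∉ L.lattice) : ContinuousAt ℘[L] z :=
  (hasDerivAt_wp hz).continuousAt

lemma continuousAt_derivWp {z : ℂ} (hz : z ∉ L.lattice) : ContinuousAt ℘'[L] z :=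
  (L.differentiableOn_derivWeierstrassP.differentiableAt
    (L.isClosed_lattice.isOpen_compl.mem_nhds hz)).continuousAt

lemma tendsto_slope_ratio (hA : WPAddFacts L) {z : ℂ} (hz : z ∉ L.lattice) (hd : ℘'[L] z ≠ 0) :
    Tendsto (fun w => (℘'[L] z - ℘'[L] w) / (℘[L] z - ℘[L] w)) (𝓝[≠] z)
      (𝓝 ((6 * ℘[L] z ^ 2 - L.g₂ / 2) / ℘'[L] z)) := by
  have t1 := hasDerivAt_iff_tendsto_slope.1 (hasDerivAt_wp hz)
  have t2 := hasDerivAt_iff_tendsto_slope.1 (hA.deriv2 z hz)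
  refine (t2.div t1 hd).congr' ?_
  filter_upwards [self_mem_nhdsWithin] with w hw
  have hwz : (w - z)⁻¹ ≠ 0 := inv_ne_zero (sub_ne_zero.2 hw)
  simp only [slope, vsub_eq_sub, smul_eq_mul, Pi.div_apply]
  rw [mul_div_mul_left _ _ hwz, ← neg_sub (℘'[L] z), ← neg_sub (℘[L] z), neg_div_neg_eq]

lemma dup (hA : WPAddFacts L) {z : ℂ} (hz : z ∉ L.lattice) (h2 : z + z ∉ L.lattice)
    (hd : ℘'[L] z ≠ 0) :
    ℘[L] (z + z) = ((6 * ℘[L] z ^ 2 - L.g₂ / 2) / ℘'[L] z) ^ 2 / 4 - ℘[L] z - ℘[L] z ∧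
    ℘'[L] (z + z) = -((6 * ℘[L] z ^ 2 - L.g₂ / 2) / ℘'[L] z) * (℘[L] (z + z) - ℘[L] z)
      - ℘'[L] z := by
  have tm := tendsto_slope_ratio hA hz hd
  have tadd : Tendsto (fun w : ℂ => z + w) (𝓝[≠] z) (𝓝 (z + z)) :=
    ((continuous_const.add continuous_id).continuousAt (x := z)).tendsto.mono_left
      nhdsWithin_le_nhds
  have tid : Tendsto (fun w : ℂ => w) (𝓝[≠] z) (𝓝 z) := tendsto_id.mono_left nhdsWithin_le_nhds
  have tP : Tendsto (fun w => ℘[L] w) (𝓝[≠] z) (𝓝 (℘[L] z)) := (continuousAt_wp hz).tendsto.comp tid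
  have tP2 : Tendsto (fun w => ℘[L] (z + w)) (𝓝[≠] z) (𝓝 (℘[L] (z + z))) :=
    (continuousAt_wp h2).tendsto.comp tadd
  have tP2' : Tendsto (fun w => ℘'[L] (z + w)) (𝓝[≠] z) (𝓝 (℘'[L] (z + z))) :=
    (continuousAt_derivWp h2).tendsto.comp tadd
  have hev : ∀ᶠ w in 𝓝[≠] z, w ∉ L.lattice ∧ z + w ∉ L.lattice ∧ ℘[L] z ≠ ℘[L] w := by
    have e1 : ∀ᶠ w in 𝓝[≠] z, w ∉ L.lattice :=
      tid.eventually (L.isClosed_lattice.isOpen_compl.mem_nhds hz)
    have e2 : ∀ᶠ w in 𝓝[≠] z, z + w ∉ L.lattice :=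
      tadd.eventually (L.isClosed_lattice.isOpen_compl.mem_nhds h2)
    have e3 : ∀ᶠ w in 𝓝[≠] z, ℘[L] w ≠ ℘[L] z := (hasDerivAt_wp hz).eventually_ne hd
    filter_upwards [e1, e2, e3] with w h1 h2 h3 using ⟨h1, h2, fun h => h3 h.symm⟩
  have hx : ℘[L] (z + z) = ((6 * ℘[L] z ^ 2 - L.g₂ / 2) / ℘'[L] z) ^ 2 / 4 - ℘[L] z - ℘[L] z := by
    refine tendsto_nhds_unique tP2 ?_
    have tR : Tendsto (fun w => ((℘'[L] z - ℘'[L] w) / (℘[L] z - ℘[L] w)) ^ 2 / 4 - ℘[L] z - ℘[L] w)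
        (𝓝[≠] z) (𝓝 (((6 * ℘[L] z ^ 2 - L.g₂ / 2) / ℘'[L] z) ^ 2 / 4 - ℘[L] z - ℘[L] z)) :=
      (((tm.pow 2).div_const 4).sub tendsto_const_nhds).sub tP
    refine tR.congr' ?_
    filter_upwards [hev] with w hw
    exact (hA.add_x z w hz hw.1 hw.2.1 hw.2.2).symm
  refine ⟨hx, ?_⟩
  refine tendsto_nhds_unique tP2' ?_
  have tR : Tendsto (fun w => -((℘'[L] z - ℘'[L] w) / (℘[L] z - ℘[L] w)) * (℘[L] (z + w) - ℘[L] z)
      - ℘'[L] z) (𝓝[≠] z) (𝓝 (-((6 * ℘[L] z ^ 2 - L.g₂ / 2) / ℘'[L] z) * (℘[L] (z + z) - ℘[L] z)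
      - ℘'[L] z)) :=
    ((tm.neg).mul (tP2.sub tendsto_const_nhds)).sub tendsto_const_nhds
  refine tR.congr' ?_
  filter_upwards [hev] with w hw
  exact (hA.add_y z w hz hw.1 hw.2.1 hw.2.2).symm

/-! ### The uniformisation map -/

open Classical in
/-- The map `z ↦ (℘ z, ℘' z / 2)` from `ℂ` to the points of `wpCurve L`, sending the lattice
to the point at infinity. -/
noncomputable def wpPoint (hA : WPAddFacts L) (z : ℂ) : (wpCurve L).toAffine.Point :=
  if h : z ∈ L.lattice then 0 else .some _ _ (nonsingular_wp hA h)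

lemma wpPoint_of_mem (hA : WPAddFacts L) {z : ℂ} (hz : z ∈ L.lattice) : wpPoint hA z = 0 := by
  simp [wpPoint, hz]

lemma wpPoint_of_notMem (hA : WPAddFacts L) {z : ℂ} (hz : z ∉ L.lattice) :
    wpPoint hA z = .some _ _ (nonsingular_wp hA hz) := by
  simp [wpPoint, hz]

lemma wpPoint_eq_zero_iff (hA : WPAddFacts L) (z : ℂ) : wpPoint hA z = 0 ↔ z ∈ L.lattice := by
  constructor
  · intro h
    by_contra hz
    rw [wpPoint_of_notMem hA hz] at h
    exact WeierstrassCurve.Affine.Point.some_ne_zero _ h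
  · exact wpPoint_of_mem hA

lemma wpPoint_add_mem (hA : WPAddFacts L) (z : ℂ) {l : ℂ} (hl : l ∈ L.lattice) :
    wpPoint hA (z + l) = wpPoint hA z := by
  by_cases hz : z ∈ L.lattice
  · rw [wpPoint_of_mem hA hz, wpPoint_of_mem hA ((add_mem_iff_left hl).2 hz)]
  · rw [wpPoint_of_notMem hA hz, wpPoint_of_notMem hA (fun h => hz ((add_mem_iff_left hl).1 h))]
    exact some_congr _ _ (weierstrassP_add_mem z hl) (by rw [derivWeierstrassP_add_mem z hl])

lemma wpPoint_neg (hA : WPAddFacts L) (z : ℂ) : wpPoint hA (-z) = -wpPoint hA z := by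
  by_cases hz : z ∈ L.lattice
  · rw [wpPoint_of_mem hA hz, wpPoint_of_mem hA (L.lattice.neg_mem hz)]
    rfl
  · rw [wpPoint_of_notMem hA hz, wpPoint_of_notMem hA (neg_notMem hz),
      WeierstrassCurve.Affine.Point.neg_some]
    refine some_congr _ _ (L.weierstrassP_neg z) ?_
    rw [negY_wp, L.derivWeierstrassP_neg]
    ring

theorem wpPoint_add [DecidableEq ℂ] (hA : WPAddFacts L) (z w : ℂ) :
    wpPoint hA (z + w) = wpPoint hA z + wpPoint hA w := by
  by_cases hz : z ∈ L.lattice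
  · rw [wpPoint_of_mem hA hz, zero_add, add_comm z w, wpPoint_add_mem hA w hz]
  by_cases hw : w ∈ L.lattice
  · rw [wpPoint_of_mem hA hw, add_zero, wpPoint_add_mem hA z hw]
  by_cases hzw : z + w ∈ L.lattice
  · have hw' : wpPoint hA w = -wpPoint hA z := by
      rw [← wpPoint_neg, ← wpPoint_add_mem hA (-z) hzw]
      congr 1; ring
    rw [wpPoint_of_mem hA hzw, hw', add_neg_cancel]
  by_cases hx : ℘[L] z = ℘[L] w
  · -- duplication
    rcases two_to_one hA hz hw hx with h1 | h1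
    swap
    · exact absurd h1 hzw
    have hl : w - z ∈ L.lattice := by simpa using L.lattice.neg_mem h1
    have hw' : wpPoint hA w = wpPoint hA z := by
      rw [← wpPoint_add_mem hA z hl]; congr 1; ring
    have h2z : z + z ∉ L.lattice := by
      intro h
      apply hzw
      have := L.lattice.add_mem h hl
      convert this using 1; ring
    have hzw' : wpPoint hA (z + w) = wpPoint hA (z + z) := by
      rw [← wpPoint_add_mem hA (z + z) hl]; congr 1; ring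
    have hd : ℘'[L] z ≠ 0 := by
      intro h
      apply h2z
      have := two_mul_mem_of_deriv_eq_zero hA hz h
      rwa [two_mul] at this
    have hd2 : ℘'[L] z / 2 ≠ 0 := div_ne_zero hd two_ne_zero
    have hy : ℘'[L] z / 2 ≠ (wpCurve L).toAffine.negY (℘[L] z) (℘'[L] z / 2) := by
      rw [negY_wp]
      intro h
      apply hd
      linear_combination h
    obtain ⟨dx, dy⟩ := dup hA hz h2z hd
    rw [hzw', hw', wpPoint_of_notMem hA hz, wpPoint_of_notMem hA h2z,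
      WeierstrassCurve.Affine.Point.add_self_of_Y_ne hy]
    refine some_congr _ _ ?_ ?_
    · rw [addX_wp, slope_wp_self _ hd2, dx]
      field_simp
      ring
    · rw [addY_wp, slope_wp_self _ hd2, dy, dx]
      field_simp
      ring
  · -- generic case
    rw [wpPoint_of_notMem hA hz, wpPoint_of_notMem hA hw, wpPoint_of_notMem hA hzw,
      WeierstrassCurve.Affine.Point.add_of_X_ne hx]
    have hx' : ℘[L] z - ℘[L] w ≠ 0 := sub_ne_zero.2 hx
    refine some_congr _ _ ?_ ?_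
    · rw [addX_wp, slope_wp_of_ne _ _ hx, hA.add_x z w hz hw hzw hx]
      field_simp
      ring
    · rw [addY_wp, slope_wp_of_ne _ _ hx, hA.add_y z w hz hw hzw hx, hA.add_x z w hz hw hzw hx]
      field_simp
      ring

/-- The uniformisation `ℂ → E_L(ℂ)` as a group homomorphism. -/
noncomputable def wpHom [DecidableEq ℂ] (hA : WPAddFacts L) : ℂ →+ (wpCurve L).toAffine.Point where
  toFun := wpPoint hA
  map_zero' := wpPoint_of_mem hA L.lattice.zero_mem
  map_add' := wpPoint_add hA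

lemma wpHom_apply [DecidableEq ℂ] (hA : WPAddFacts L) (z : ℂ) : wpHom hA z = wpPoint hA z := rfl

theorem wpHom_eq_zero_iff [DecidableEq ℂ] (hA : WPAddFacts L) (z : ℂ) :
    wpHom hA z = 0 ↔ z ∈ L.lattice :=
  wpPoint_eq_zero_iff hA z

theorem wpHom_surjective [DecidableEq ℂ] (hA : WPAddFacts L) : Function.Surjective (wpHom hA) := by
  rintro (_ | ⟨x, y, h⟩)
  · exact ⟨0, map_zero _⟩
  · obtain ⟨z, hz, hzx⟩ := exists_weierstrassP_eq L x
    have he := (WeierstrassCurve.Affine.equation_iff _ _).1 h.1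
    have he' := (WeierstrassCurve.Affine.equation_iff _ _).1 (equation_wp hz)
    rw [hzx] at he'
    have hprod : (y - ℘'[L] z / 2) * (y + ℘'[L] z / 2) = 0 := by
      simp only [wpCurve] at he he'
      linear_combination he - he'
    rcases mul_eq_zero.1 hprod with h1 | h1
    · refine ⟨z, ?_⟩
      rw [wpHom_apply, wpPoint_of_notMem hA hz]
      exact some_congr _ _ hzx (by linear_combination -h1)
    · refine ⟨-z, ?_⟩
      rw [wpHom_apply, wpPoint_of_notMem hA (neg_notMem hz)]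
      refine some_congr _ _ (by rw [L.weierstrassP_neg, hzx]) ?_
      rw [L.derivWeierstrassP_neg]
      linear_combination -h1

/-- The curve attached to a lattice is an elliptic curve. -/
theorem isElliptic (hA : WPAddFacts L) : (wpCurve L).IsElliptic :=
  ⟨isUnit_iff_ne_zero.2 (wpCurve_Δ_ne_zero hA)⟩

/-- The `j`-invariant of the curve attached to a lattice. -/
theorem j_eq (hA : WPAddFacts L) :
    @WeierstrassCurve.j ℂ _ (wpCurve L) (isElliptic hA) =
      1728 * L.g₂ ^ 3 / (L.g₂ ^ 3 - 27 * L.g₃ ^ 2) := by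
  have := isElliptic hA
  rw [WeierstrassCurve.j, Units.val_inv_eq_inv_val, WeierstrassCurve.coe_Δ', wpCurve_Δ,
    wpCurve_c₄]
  ring

/-- Exactly `n ^ 2` points of the curve of a lattice are killed by `n`. -/
theorem card_torsion [DecidableEq ℂ] (hA : WPAddFacts L) (n : ℕ) (hn : 0 < n) :
    Nat.card {P : (wpCurve L).toAffine.Point // n • P = 0} = n ^ 2 :=
  card_torsion_of_hom L (wpHom hA) (wpHom_surjective hA) (wpHom_eq_zero_iff hA) n hn

/-- Finset form of the upper bound in `card_torsion`. -/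
theorem card_le_of_torsion [DecidableEq ℂ] (hA : WPAddFacts L) (n : ℕ) (hn : 0 < n)
    (T : Finset (wpCurve L).toAffine.Point) (hT : ∀ P ∈ T, n • P = 0) : T.card ≤ n ^ 2 := by
  have hc := card_torsion hA n hn
  have hfin : Finite {P : (wpCurve L).toAffine.Point // n • P = 0} :=
    Nat.finite_of_card_ne_zero (by rw [hc]; positivity)
  have hfin' : {P : (wpCurve L).toAffine.Point | n • P = 0}.Finite := Set.finite_coe_iff.1 hfin
  have h1 : (T : Set (wpCurve L).toAffine.Point).ncard ≤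
      {P : (wpCurve L).toAffine.Point | n • P = 0}.ncard :=
    Set.ncard_le_ncard (fun P hP => hT P hP) hfin'
  rw [Set.ncard_coe_finset] at h1
  calc T.card ≤ {P : (wpCurve L).toAffine.Point | n • P = 0}.ncard := h1
    _ = Nat.card {P : (wpCurve L).toAffine.Point // n • P = 0} := rfl
    _ = n ^ 2 := hc

end WPIso

end Fermat.Agent.S05
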