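import Mathlib
import Fermat.Agent.S05.WPAdd
import Fermat.Agent.S05.WPIso

/-!
# Complex uniformisation of the elliptic curve of a lattice

For a period pair `L`, the map `z ↦ (℘ z, ℘' z / 2)` (lattice points going to the point at
infinity) is a surjective group homomorphism from `ℂ` onto the points of the Weierstrass curve
`wpCurve L : y² = x³ - (g₂/4) x - g₃/4`, with kernel the lattice. Consequently this curve is
elliptic and has exactly `n ^ 2` points killed by `n`.
-/

set_option autoImplicit false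

open PeriodPair

namespace Fermat.Agent.S05

/-- The analytic facts about `℘` needed for the uniformisation hold for every lattice. -/
theorem wpAddFacts (L : PeriodPair) : WPAddFacts L where
  core := fun _ _ hz hw h0 h1 => sub_mem_lattice_of_weierstrassP_eq L hz hw h0 h1
  deriv2 := fun _ hz => by
    have h := WPAdd.hasDerivAt_derivWeierstrassP L hz
    rwa [deriv_derivWeierstrassP L hz] at h
  add_x := fun _ _ hz hw hzw hne => weierstrassP_add L hz hw hzw hne
  add_y := fun _ _ hz hw hzw hne => by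
    rw [derivWeierstrassP_add L hz hw hzw hne]; ring

/-- The discriminant of a lattice does not vanish. -/
theorem g₂_cube_sub_ne_zero (L : PeriodPair) : L.g₂ ^ 3 - 27 * L.g₃ ^ 2 ≠ 0 :=
  WPIso.g₂_cube_sub_ne_zero (wpAddFacts L)

theorem wpCurve_Δ_ne_zero (L : PeriodPair) : (wpCurve L).Δ ≠ 0 :=
  WPIso.wpCurve_Δ_ne_zero (wpAddFacts L)

instance wpCurve_isElliptic (L : PeriodPair) : (wpCurve L).IsElliptic :=
  WPIso.isElliptic (wpAddFacts L)

theorem wpCurve_j (L : PeriodPair) :
    (wpCurve L).j = 1728 * L.g₂ ^ 3 / (L.g₂ ^ 3 - 27 * L.g₃ ^ 2) :=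
  WPIso.j_eq (wpAddFacts L)

/-- `℘' z = 0` exactly at the half-lattice points. -/
theorem derivWeierstrassP_eq_zero_iff_two_mul (L : PeriodPair) {z : ℂ} (hz : z ∉ L.lattice) :
    ℘'[L] z = 0 ↔ 2 * z ∈ L.lattice :=
  ⟨WPIso.two_mul_mem_of_deriv_eq_zero (wpAddFacts L) hz, WPIso.deriv_eq_zero_of_two_mul_mem⟩

/-- Every point `(℘ z, ℘' z / 2)` is a nonsingular point of `wpCurve L`. -/
theorem wpCurve_nonsingular (L : PeriodPair) {z : ℂ} (hz : z ∉ L.lattice) :
    (wpCurve L).toAffine.Nonsingular (℘[L] z) (℘'[L] z / 2) :=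
  WPIso.nonsingular_wp (wpAddFacts L) hz

/-- The complex uniformisation `ℂ →+ E_L(ℂ)`, `z ↦ (℘ z, ℘' z / 2)`. -/
noncomputable def wpUnif [DecidableEq ℂ] (L : PeriodPair) : ℂ →+ (wpCurve L).toAffine.Point :=
  WPIso.wpHom (wpAddFacts L)

theorem wpUnif_of_mem [DecidableEq ℂ] (L : PeriodPair) {z : ℂ} (hz : z ∈ L.lattice) :
    wpUnif L z = 0 :=
  WPIso.wpPoint_of_mem (wpAddFacts L) hz

theorem wpUnif_of_notMem [DecidableEq ℂ] (L : PeriodPair) {z : ℂ} (hz : z ∉ L.lattice) :
    wpUnif L z = .some (℘[L] z) (℘'[L] z / 2) (wpCurve_nonsingular L hz) :=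
  WPIso.wpPoint_of_notMem (wpAddFacts L) hz

theorem wpUnif_eq_zero_iff [DecidableEq ℂ] (L : PeriodPair) (z : ℂ) :
    wpUnif L z = 0 ↔ z ∈ L.lattice :=
  WPIso.wpHom_eq_zero_iff (wpAddFacts L) z

theorem wpUnif_surjective [DecidableEq ℂ] (L : PeriodPair) : Function.Surjective (wpUnif L) :=
  WPIso.wpHom_surjective (wpAddFacts L)

/-- **Torsion count for the complex elliptic curve of a lattice**: exactly `n ^ 2` points are
killed by `n`. -/
theorem card_torsion_wpCurve [DecidableEq ℂ] (L : PeriodPair) (n : ℕ) (hn : 0 < n) :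
    Nat.card {P : (wpCurve L).toAffine.Point // n • P = 0} = n ^ 2 :=
  WPIso.card_torsion (wpAddFacts L) n hn

/-- Finset form of the upper bound in `card_torsion_wpCurve`. -/
theorem card_le_of_torsion_wpCurve [DecidableEq ℂ] (L : PeriodPair) (n : ℕ) (hn : 0 < n)
    (T : Finset (wpCurve L).toAffine.Point) (hT : ∀ P ∈ T, n • P = 0) : T.card ≤ n ^ 2 :=
  WPIso.card_le_of_torsion (wpAddFacts L) n hn T hT

end Fermat.Agent.S05
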