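import Mathlib
import Fermat.Agent.S05.CountC
import Fermat.Agent.S05.WPUnif
import Fermat.Agent.S13.AlgDescent
import Fermat.Agent.S05.FreyArith

/-!
# S13(a): the exact torsion count

* `natCard_torsion_complex`: every Weierstrass curve over `ℂ` with `Δ ≠ 0` has exactly `n ^ 2`
  points killed by `n` (`n > 0`).
* `natCard_torsionBy_of_algHom`: for a Weierstrass curve over a field `k ⊆ ℂ` with `Δ ≠ 0` and an
  algebraically closed field `K` with a `k`-embedding into `ℂ`, the `n`-torsion of `E(K)` has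
  exactly `n ^ 2` elements.
* `natCard_torsionBy_Qbar`, `natCard_torsionBy_freyCurve`: the case `K = AlgebraicClosure ℚ`
  (the shape of the prelude), and the Frey curve.
-/

set_option autoImplicit false

namespace Fermat.Agent.S05

open WeierstrassCurve WeierstrassCurve.Affine UpperHalfPlane

/-- Every Weierstrass curve over `ℂ` with `Δ ≠ 0` has exactly `n ^ 2` points killed by `n`. -/
theorem natCard_torsion_complex [DecidableEq ℂ] (W : WeierstrassCurve ℂ) (hΔ : W.Δ ≠ 0) (n : ℕ)
    (hn : 0 < n) : Nat.card {P : W.toAffine.Point // n • P = 0} = n ^ 2 := by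
  refine natCard_torsion_complex_of n (n ^ 2) (fun τ => ⟨wpCurve (tauPair τ),
    wpCurve_tauPair_Δ_ne_zero τ, ?_, card_torsion_wpCurve (tauPair τ) n hn⟩) W hΔ
  rw [← j_mul_Δ, wpCurve_tauPair_j]
  rfl

/-- The `n`-torsion of a Weierstrass curve over `ℂ` with `Δ ≠ 0` is finite (`n > 0`). -/
theorem finite_torsion_complex [DecidableEq ℂ] (W : WeierstrassCurve ℂ) (hΔ : W.Δ ≠ 0) (n : ℕ)
    (hn : 0 < n) : Finite {P : W.toAffine.Point // n • P = 0} :=
  Nat.finite_of_card_ne_zero (by
    rw [natCard_torsion_complex W hΔ n hn]; exact pow_ne_zero 2 hn.ne')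

/-- The torsion submodule version of `natCard_torsion_complex`, for a base change to `ℂ`. -/
theorem natCard_torsionBy_complex {k : Type*} [Field k] [Algebra k ℂ] [DecidableEq ℂ]
    (W : WeierstrassCurve k) (hΔ : W.Δ ≠ 0) (n : ℕ) (hn : 0 < n) :
    Nat.card (Submodule.torsionBy ℤ (W⁄ℂ).Point n) = n ^ 2 := by
  have hΔ' : (W.baseChange ℂ).Δ ≠ 0 := by
    simp only [WeierstrassCurve.baseChange, WeierstrassCurve.map_Δ]
    exact (map_ne_zero_iff _ (algebraMap k ℂ).injective).mpr hΔ
  rw [← natCard_torsion_complex (W.baseChange ℂ) hΔ' n hn]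
  refine Nat.card_congr (Equiv.subtypeEquivRight fun Q => ?_)
  exact Fermat.Agent.S13.AlgDescent.mem_torsionBy_iff_nsmul W n Q

/-- **Exact torsion count over an algebraically closed subfield of `ℂ`.** -/
theorem natCard_torsionBy_of_algHom {k K : Type*} [Field k] [Field K] [DecidableEq K]
    [Algebra k K] [Algebra k ℂ] [IsAlgClosed K] [DecidableEq ℂ] (ι : K →ₐ[k] ℂ)
    (W : WeierstrassCurve k) (hΔ : W.Δ ≠ 0) (n : ℕ) (hn : 0 < n) :
    Nat.card (Submodule.torsionBy ℤ (W⁄K).Point n) = n ^ 2 := by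
  have hcard := natCard_torsionBy_complex W hΔ n hn
  have hfin : Finite (Submodule.torsionBy ℤ (W⁄ℂ).Point n) :=
    Nat.finite_of_card_ne_zero (by rw [hcard]; exact pow_ne_zero 2 hn.ne')
  rw [Fermat.Agent.S13.natCard_torsionBy_eq_of_finite ι W n hfin, hcard]

/-- **Exact torsion count over `AlgebraicClosure ℚ`** (for any decidable-equality instance). -/
theorem natCard_torsionBy_Qbar [DecidableEq (AlgebraicClosure ℚ)] (W : WeierstrassCurve ℚ)
    (hΔ : W.Δ ≠ 0) (n : ℕ) (hn : 0 < n) :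
    Nat.card (Submodule.torsionBy ℤ (W⁄(AlgebraicClosure ℚ)).Point n) = n ^ 2 := by
  classical
  haveI : Algebra.IsAlgebraic ℚ (AlgebraicClosure ℚ) := by
    have h : @Algebra.IsAlgebraic ℚ (AlgebraicClosure ℚ) _ _ (AlgebraicClosure.instAlgebra ℚ) :=
      AlgebraicClosure.isAlgebraic ℚ
    convert h
    exact Subsingleton.elim _ _
  exact natCard_torsionBy_of_algHom (IsAlgClosed.lift : AlgebraicClosure ℚ →ₐ[ℚ] ℂ) W hΔ n hn

/-- The `p`-torsion of the Frey curve over `AlgebraicClosure ℚ` has exactly `p ^ 2` elements. -/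
theorem natCard_torsionBy_freyCurve [DecidableEq (AlgebraicClosure ℚ)] (P : FreyPackage) :
    Nat.card (Submodule.torsionBy ℤ (P.freyCurve⁄(AlgebraicClosure ℚ)).Point P.p) = P.p ^ 2 :=
  natCard_torsionBy_Qbar P.freyCurve (FreyArith.freyCurve_Δ_ne_zero P) P.p
    (lt_of_lt_of_le (by norm_num) P.hp5)

end Fermat.Agent.S05
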