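/-
S05 / G1 (helper22, race-backup): the kernel of reduction of a Weierstrass curve with integral
coefficients has no `n`-torsion for `n` a unit of the valuation ring.

Method (x-only, any residue characteristic): for `T = (x, y)` with `x ∉ A` put `u = 1/x` and
`f(P) = 1/x(P)` (`f(O) = 0`).  The product/sum formulas for `x(P ± T)` give the two-step linear
recurrence `f(P + T) + f(P - T) - 2 f(P) - 2 u ∈ u·𝔪` for every `P` in the kernel of reduction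
with `P - T` in the kernel of reduction, hence `f(kT) ≡ k² u (mod u·𝔪)` for all `k`.
-/
import Mathlib
import Fermat.Agent.S05.XOnly

set_option autoImplicit false

open WeierstrassCurve

namespace Fermat.Agent.S05

namespace KerRedLin

section field

variable {F : Type*} [Field F] (A : ValuationSubring F)

lemma vle {x : F} (h : x ∈ A) : A.valuation x ≤ 1 := (A.valuation_le_one_iff x).2 h

lemma one_lt_of_notMem {x : F} (h : x ∉ A) : 1 < A.valuation x :=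
  not_le.1 fun hle => h ((A.valuation_le_one_iff x).1 hle)

lemma ne_zero_of_notMem {x : F} (h : x ∉ A) : x ≠ 0 := fun h0 => h (h0 ▸ A.zero_mem)

lemma vinv_lt_one {x : F} (h : x ∉ A) : A.valuation x⁻¹ < 1 := by
  rw [map_inv₀]
  exact inv_lt_one_of_one_lt₀ (one_lt_of_notMem A h)

lemma notMem_of_vinv_lt_one {x : F} (hx : x ≠ 0) (h : A.valuation x⁻¹ < 1) : x ∉ A := by
  intro hxA
  have h1 : A.valuation x ≤ 1 := vle A hxA
  have hv0 : A.valuation x ≠ 0 := (A.valuation.ne_zero_iff).2 hx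
  rw [map_inv₀] at h
  have : 1 < A.valuation x := (inv_lt_one₀ (zero_lt_iff.2 hv0)).1 h
  exact absurd h1 (not_le.2 this)

/-- `v (u * a) < v u` when `u ≠ 0` and `v a < 1`. -/
lemma vmul_lt {u a : F} (hu0 : u ≠ 0) (ha : A.valuation a < 1) :
    A.valuation (u * a) < A.valuation u := by
  have hv0 : 0 < A.valuation u := zero_lt_iff.2 ((A.valuation.ne_zero_iff).2 hu0)
  rw [map_mul]
  calc A.valuation u * A.valuation a < A.valuation u * 1 := mul_lt_mul_of_pos_left ha hv0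
    _ = A.valuation u := mul_one _

/-- `v (u * a) ≤ v u` when `v a ≤ 1`. -/
lemma vmul_le {u a : F} (ha : A.valuation a ≤ 1) :
    A.valuation (u * a) ≤ A.valuation u := by
  rw [map_mul]
  calc A.valuation u * A.valuation a ≤ A.valuation u * 1 := mul_le_mul_right ha _
    _ = A.valuation u := mul_one _

/-- Elements of the maximal ideal times integral elements. -/
lemma vlt_mul {m a : F} (hm : A.valuation m < 1) (ha : A.valuation a ≤ 1) :
    A.valuation (m * a) < 1 :=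
  lt_of_le_of_lt (vmul_le A ha) hm

/-- The doubling congruence in `u`-form. -/
lemma dbl_core {b₂ b₄ b₆ b₈ u x₂ : F} (hb₂ : b₂ ∈ A) (hb₄ : b₄ ∈ A) (hb₆ : b₆ ∈ A)
    (hb₈ : b₈ ∈ A) (hu0 : u ≠ 0) (hvu : A.valuation u < 1)
    (hD : x₂ * u * (4 + b₂ * u + 2 * b₄ * u ^ 2 + b₆ * u ^ 3) =
      1 - b₄ * u ^ 2 - 2 * b₆ * u ^ 3 - b₈ * u ^ 4) :
    x₂ ∉ A ∧ A.valuation (x₂⁻¹ - 4 * u) < A.valuation u := by
  have huA : u ∈ A := (A.valuation_le_one_iff u).1 hvu.le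
  have h2A : (2 : F) ∈ A := by
    have : ((2 : ℕ) : F) ∈ A := natCast_mem A 2
    exact_mod_cast this
  have h4A : (4 : F) ∈ A := by
    have : ((4 : ℕ) : F) ∈ A := natCast_mem A 4
    exact_mod_cast this
  -- the denominator is a unit
  have hDn : A.valuation (1 - b₄ * u ^ 2 - 2 * b₆ * u ^ 3 - b₈ * u ^ 4) = 1 := by
    have : 1 - b₄ * u ^ 2 - 2 * b₆ * u ^ 3 - b₈ * u ^ 4 =
        1 - u * (b₄ * u + 2 * b₆ * u ^ 2 + b₈ * u ^ 3) := by ring
    rw [this]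
    apply A.valuation.map_one_sub_of_lt
    exact vlt_mul A hvu (vle A (A.add_mem _ _ (A.add_mem _ _ (A.mul_mem _ _ hb₄ huA)
      (A.mul_mem _ _ (A.mul_mem _ _ h2A hb₆) (pow_mem huA 2))) (A.mul_mem _ _ hb₈ (pow_mem huA 3))))
  have hDn0 : 1 - b₄ * u ^ 2 - 2 * b₆ * u ^ 3 - b₈ * u ^ 4 ≠ 0 := by
    intro h0; rw [h0, map_zero] at hDn; exact zero_ne_one hDn
  have hx₂0 : x₂ ≠ 0 := by
    rintro rfl
    rw [zero_mul, zero_mul] at hD
    exact hDn0 hD.symm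
  have hNA : 4 + b₂ * u + 2 * b₄ * u ^ 2 + b₆ * u ^ 3 ∈ A :=
    A.add_mem _ _ (A.add_mem _ _ (A.add_mem _ _ h4A (A.mul_mem _ _ hb₂ huA))
      (A.mul_mem _ _ (A.mul_mem _ _ h2A hb₄) (pow_mem huA 2))) (A.mul_mem _ _ hb₆ (pow_mem huA 3))
  -- `x₂⁻¹ * Dn = u * N`
  have hinv : x₂⁻¹ * (1 - b₄ * u ^ 2 - 2 * b₆ * u ^ 3 - b₈ * u ^ 4) =
      u * (4 + b₂ * u + 2 * b₄ * u ^ 2 + b₆ * u ^ 3) := by
    rw [← hD]; field_simp
  have hEA : b₂ + 2 * b₄ * u + b₆ * u ^ 2 + 4 * b₄ * u + 8 * b₆ * u ^ 2 + 4 * b₈ * u ^ 3 ∈ A := by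
    have h8A : (8 : F) ∈ A := by
      have : ((8 : ℕ) : F) ∈ A := natCast_mem A 8
      exact_mod_cast this
    exact A.add_mem _ _ (A.add_mem _ _ (A.add_mem _ _ (A.add_mem _ _ (A.add_mem _ _ hb₂
      (A.mul_mem _ _ (A.mul_mem _ _ h2A hb₄) huA)) (A.mul_mem _ _ hb₆ (pow_mem huA 2)))
      (A.mul_mem _ _ (A.mul_mem _ _ h4A hb₄) huA)) (A.mul_mem _ _ (A.mul_mem _ _ h8A hb₆)
      (pow_mem huA 2))) (A.mul_mem _ _ (A.mul_mem _ _ h4A hb₈) (pow_mem huA 3))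
  have hdiff : (x₂⁻¹ - 4 * u) * (1 - b₄ * u ^ 2 - 2 * b₆ * u ^ 3 - b₈ * u ^ 4) =
      u * (u * (b₂ + 2 * b₄ * u + b₆ * u ^ 2 + 4 * b₄ * u + 8 * b₆ * u ^ 2 + 4 * b₈ * u ^ 3)) := by
    linear_combination hinv
  constructor
  · apply notMem_of_vinv_lt_one A hx₂0
    have h1 := congrArg A.valuation hinv
    rw [map_mul, hDn, mul_one] at h1
    rw [h1]
    exact lt_of_le_of_lt (vmul_le A (vle A hNA)) hvu
  · have h1 := congrArg A.valuation hdiff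
    rw [map_mul, hDn, mul_one] at h1
    rw [h1]
    exact vmul_lt A hu0 (vlt_mul A hvu (vle A hEA))

/-- The sum/product congruence in `u`-form. -/
lemma add_core {b₂ b₄ b₆ b₈ u uk x₃ x₄ : F} (hb₂ : b₂ ∈ A) (hb₄ : b₄ ∈ A) (hb₆ : b₆ ∈ A)
    (hb₈ : b₈ ∈ A) (hu0 : u ≠ 0) (hvu : A.valuation u < 1) (hvuk : A.valuation uk < 1)
    (hx₄ : x₄ ∉ A)
    (hprod : x₃ * x₄ * (u - uk) ^ 2 =
      1 - b₄ * uk * u - b₆ * uk * u * (uk + u) - b₈ * uk ^ 2 * u ^ 2)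
    (hsum : (x₃ + x₄) * (u - uk) ^ 2 =
      2 * (uk + u) + b₂ * uk * u + b₄ * uk * u * (uk + u) + b₆ * uk ^ 2 * u ^ 2) :
    x₃ ∉ A ∧ A.valuation (x₃⁻¹ + x₄⁻¹ - 2 * uk - 2 * u) < A.valuation u := by
  have huA : u ∈ A := (A.valuation_le_one_iff u).1 hvu.le
  have hukA : uk ∈ A := (A.valuation_le_one_iff uk).1 hvuk.le
  have h2A : (2 : F) ∈ A := by
    have : ((2 : ℕ) : F) ∈ A := natCast_mem A 2
    exact_mod_cast this
  have hx₄0 : x₄ ≠ 0 := ne_zero_of_notMem A hx₄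
  -- `U` is a unit
  have hU : A.valuation (1 - b₄ * uk * u - b₆ * uk * u * (uk + u) - b₈ * uk ^ 2 * u ^ 2) = 1 := by
    have : 1 - b₄ * uk * u - b₆ * uk * u * (uk + u) - b₈ * uk ^ 2 * u ^ 2 =
        1 - u * (uk * (b₄ + b₆ * (uk + u) + b₈ * uk * u)) := by ring
    rw [this]
    apply A.valuation.map_one_sub_of_lt
    exact vlt_mul A hvu (vle A (A.mul_mem _ _ hukA (A.add_mem _ _ (A.add_mem _ _ hb₄
      (A.mul_mem _ _ hb₆ (A.add_mem _ _ hukA huA))) (A.mul_mem _ _ (A.mul_mem _ _ hb₈ hukA) huA))))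
  have hU0 : 1 - b₄ * uk * u - b₆ * uk * u * (uk + u) - b₈ * uk ^ 2 * u ^ 2 ≠ 0 := by
    intro h0; rw [h0, map_zero] at hU; exact zero_ne_one hU
  have hx₃0 : x₃ ≠ 0 := by
    rintro rfl
    rw [zero_mul, zero_mul] at hprod
    exact hU0 hprod.symm
  have hδ0 : (u - uk) ^ 2 ≠ 0 := by
    intro h0
    rw [h0, mul_zero] at hprod
    exact hU0 hprod.symm
  -- `(x₃⁻¹ + x₄⁻¹) * U = S`
  have hinv : (x₃⁻¹ + x₄⁻¹) *
      (1 - b₄ * uk * u - b₆ * uk * u * (uk + u) - b₈ * uk ^ 2 * u ^ 2) =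
      2 * (uk + u) + b₂ * uk * u + b₄ * uk * u * (uk + u) + b₆ * uk ^ 2 * u ^ 2 := by
    rw [← hprod, ← hsum]; field_simp; ring
  have hEA : b₂ + b₄ * (uk + u) + b₆ * uk * u +
      2 * (uk + u) * (b₄ + b₆ * (uk + u) + b₈ * uk * u) ∈ A :=
    A.add_mem _ _ (A.add_mem _ _ (A.add_mem _ _ hb₂ (A.mul_mem _ _ hb₄ (A.add_mem _ _ hukA huA)))
      (A.mul_mem _ _ (A.mul_mem _ _ hb₆ hukA) huA))
      (A.mul_mem _ _ (A.mul_mem _ _ h2A (A.add_mem _ _ hukA huA)) (A.add_mem _ _ (A.add_mem _ _ hb₄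
        (A.mul_mem _ _ hb₆ (A.add_mem _ _ hukA huA))) (A.mul_mem _ _ (A.mul_mem _ _ hb₈ hukA) huA)))
  have hdiff : (x₃⁻¹ + x₄⁻¹ - 2 * uk - 2 * u) *
      (1 - b₄ * uk * u - b₆ * uk * u * (uk + u) - b₈ * uk ^ 2 * u ^ 2) =
      u * (uk * (b₂ + b₄ * (uk + u) + b₆ * uk * u +
        2 * (uk + u) * (b₄ + b₆ * (uk + u) + b₈ * uk * u))) := by
    linear_combination hinv
  have hmain : A.valuation (x₃⁻¹ + x₄⁻¹ - 2 * uk - 2 * u) < A.valuation u := by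
    have h1 := congrArg A.valuation hdiff
    rw [map_mul, hU, mul_one] at h1
    rw [h1]
    exact vmul_lt A hu0 (vlt_mul A hvuk (vle A hEA))
  refine ⟨?_, hmain⟩
  apply notMem_of_vinv_lt_one A hx₃0
  have hform : x₃⁻¹ = (x₃⁻¹ + x₄⁻¹ - 2 * uk - 2 * u) - x₄⁻¹ + 2 * uk + 2 * u := by ring
  rw [hform]
  apply A.valuation.map_add_lt
  · apply A.valuation.map_add_lt
    · apply A.valuation.map_sub_lt (lt_trans hmain hvu) (vinv_lt_one A hx₄)
    · rw [mul_comm]; exact vlt_mul A hvuk (vle A h2A)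
  · rw [mul_comm]; exact vlt_mul A hvu (vle A h2A)

end field

section point

variable {F : Type*} [Field F] [DecidableEq F] (A : ValuationSubring F) (W : WeierstrassCurve F)

/-- The inverse of the `x`-coordinate (`0` at the point at infinity). -/
noncomputable def invX : W.toAffine.Point → F
  | .zero => 0
  | .some x _ _ => x⁻¹

/-- Membership in the kernel of reduction. -/
def InE1 : W.toAffine.Point → Prop
  | .zero => True
  | .some x _ _ => x ∉ A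

omit [DecidableEq F] in
lemma invX_zero : invX W 0 = 0 := rfl

omit [DecidableEq F] in
lemma invX_some {x y : F} (h : W.toAffine.Nonsingular x y) :
    invX W (Affine.Point.some x y h) = x⁻¹ := rfl

omit [DecidableEq F] in
lemma invX_neg (P : W.toAffine.Point) : invX W (-P) = invX W P := by
  cases P <;> rfl

omit [DecidableEq F] in
lemma b_mem (ha₁ : W.a₁ ∈ A) (ha₂ : W.a₂ ∈ A) (ha₃ : W.a₃ ∈ A) (ha₄ : W.a₄ ∈ A)
    (ha₆ : W.a₆ ∈ A) : W.b₂ ∈ A ∧ W.b₄ ∈ A ∧ W.b₆ ∈ A ∧ W.b₈ ∈ A := by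
  have h2A : (2 : F) ∈ A := by
    have : ((2 : ℕ) : F) ∈ A := natCast_mem A 2
    exact_mod_cast this
  have h4A : (4 : F) ∈ A := by
    have : ((4 : ℕ) : F) ∈ A := natCast_mem A 4
    exact_mod_cast this
  refine ⟨?_, ?_, ?_, ?_⟩
  · rw [WeierstrassCurve.b₂]
    exact A.add_mem _ _ (pow_mem ha₁ 2) (A.mul_mem _ _ h4A ha₂)
  · rw [WeierstrassCurve.b₄]
    exact A.add_mem _ _ (A.mul_mem _ _ h2A ha₄) (A.mul_mem _ _ ha₁ ha₃)
  · rw [WeierstrassCurve.b₆]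
    exact A.add_mem _ _ (pow_mem ha₃ 2) (A.mul_mem _ _ h4A ha₆)
  · rw [WeierstrassCurve.b₈]
    exact sub_mem (A.add_mem _ _ (sub_mem (A.add_mem _ _ (A.mul_mem _ _ (pow_mem ha₁ 2) ha₆)
      (A.mul_mem _ _ (A.mul_mem _ _ h4A ha₂) ha₆)) (A.mul_mem _ _ (A.mul_mem _ _ ha₁ ha₃) ha₄))
      (A.mul_mem _ _ ha₂ (pow_mem ha₃ 2))) (pow_mem ha₄ 2)

/-- Doubling: `2T` is in the kernel of reduction and `f(2T) ≡ 4u`. -/
lemma dbl (hb₂ : W.b₂ ∈ A) (hb₄ : W.b₄ ∈ A) (hb₆ : W.b₆ ∈ A) (hb₈ : W.b₈ ∈ A) {x y : F}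
    (h : W.toAffine.Nonsingular x y) (hx : x ∉ A) :
    InE1 A W (Affine.Point.some x y h + Affine.Point.some x y h) ∧
      A.valuation (invX W (Affine.Point.some x y h + Affine.Point.some x y h) - 4 * x⁻¹) <
        A.valuation x⁻¹ := by
  have hx0 := ne_zero_of_notMem A hx
  have hu0 : x⁻¹ ≠ 0 := inv_ne_zero hx0
  have hvu := vinv_lt_one A hx
  have huA : x⁻¹ ∈ A := (A.valuation_le_one_iff _).1 hvu.le
  have h2A : (2 : F) ∈ A := by
    have : ((2 : ℕ) : F) ∈ A := natCast_mem A 2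
    exact_mod_cast this
  by_cases hy : y = W.toAffine.negY x y
  · rw [Affine.Point.add_self_of_Y_eq hy]
    refine ⟨trivial, ?_⟩
    have hη : 2 * y + W.a₁ * x + W.a₃ = 0 := (XOnly.y_eq_negY_iff W).1 hy
    have hsq := XOnly.eta_sq W h
    rw [hη] at hsq
    have hN : (4 : F) = -(x⁻¹ * (W.b₂ + 2 * W.b₄ * x⁻¹ + W.b₆ * x⁻¹ ^ 2)) := by
      field_simp
      linear_combination -hsq
    rw [invX_zero, zero_sub, Valuation.map_neg, mul_comm]
    apply vmul_lt A hu0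
    rw [hN, Valuation.map_neg]
    exact vlt_mul A hvu (vle A (A.add_mem _ _ (A.add_mem _ _ hb₂
      (A.mul_mem _ _ (A.mul_mem _ _ h2A hb₄) huA)) (A.mul_mem _ _ hb₆ (pow_mem huA 2))))
  · obtain ⟨x₂, y₂, h₂, hdbl, hform⟩ := XOnly.two_nsmul_x_formula W h hy
    rw [hdbl]
    have hD : x₂ * x⁻¹ * (4 + W.b₂ * x⁻¹ + 2 * W.b₄ * x⁻¹ ^ 2 + W.b₆ * x⁻¹ ^ 3) =
        1 - W.b₄ * x⁻¹ ^ 2 - 2 * W.b₆ * x⁻¹ ^ 3 - W.b₈ * x⁻¹ ^ 4 := by
      field_simp
      linear_combination hform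
    exact dbl_core A hb₂ hb₄ hb₆ hb₈ hu0 hvu hD

/-- The two-step recurrence: if `P` and `P - T` are in the kernel of reduction then so is
`P + T`, and `f(P + T) + f(P - T) - 2 f(P) - 2 u ∈ u·𝔪`. -/
lemma recur (hb₂ : W.b₂ ∈ A) (hb₄ : W.b₄ ∈ A) (hb₆ : W.b₆ ∈ A) (hb₈ : W.b₈ ∈ A) {x y : F}
    (h : W.toAffine.Nonsingular x y) (hx : x ∉ A) (P : W.toAffine.Point) (hP : InE1 A W P)
    (hPm : InE1 A W (P - Affine.Point.some x y h)) :
    InE1 A W (P + Affine.Point.some x y h) ∧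
      A.valuation (invX W (P + Affine.Point.some x y h) + invX W (P - Affine.Point.some x y h)
        - 2 * invX W P - 2 * x⁻¹) < A.valuation x⁻¹ := by
  have hx0 := ne_zero_of_notMem A hx
  have hu0 : x⁻¹ ≠ 0 := inv_ne_zero hx0
  have hvu := vinv_lt_one A hx
  have hvu0 : 0 < A.valuation x⁻¹ := zero_lt_iff.2 ((A.valuation.ne_zero_iff).2 hu0)
  rcases P with _ | ⟨xk, yk, hk⟩
  · have h0 : (Affine.Point.zero : W.toAffine.Point) = 0 := rfl
    rw [h0, zero_add, zero_sub, invX_neg, invX_zero, invX_some]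
    refine ⟨hx, ?_⟩
    have : x⁻¹ + x⁻¹ - 2 * 0 - 2 * x⁻¹ = 0 := by ring
    rw [this, map_zero]; exact hvu0
  · have hxk : xk ∉ A := hP
    by_cases hxx : xk = x
    · obtain ⟨h1, h2⟩ := dbl A W hb₂ hb₄ hb₆ hb₈ h hx
      rcases XOnly.some_eq_or_eq_neg_of_x_eq W h hk hxx.symm with hPT | hPT
      · rw [hPT, sub_self, invX_zero, invX_some]
        refine ⟨h1, ?_⟩
        have : invX W (Affine.Point.some x y h + Affine.Point.some x y h) + 0 - 2 * x⁻¹ - 2 * x⁻¹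
            = invX W (Affine.Point.some x y h + Affine.Point.some x y h) - 4 * x⁻¹ := by ring
        rw [this]; exact h2
      · have hsub : -Affine.Point.some x y h - Affine.Point.some x y h =
            -(Affine.Point.some x y h + Affine.Point.some x y h) := by abel
        rw [hPT, neg_add_cancel, invX_zero, invX_neg, invX_some, hsub, invX_neg]
        refine ⟨trivial, ?_⟩
        have : 0 + invX W (Affine.Point.some x y h + Affine.Point.some x y h) - 2 * x⁻¹ - 2 * x⁻¹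
            = invX W (Affine.Point.some x y h + Affine.Point.some x y h) - 4 * x⁻¹ := by ring
        rw [this]; exact h2
    · obtain ⟨x₃, y₃, x₄, y₄, h₃, h₄, hadd, hsub, hprod, hsum⟩ :=
        XOnly.add_sub_x_formulas W hk h hxx
      rw [hsub] at hPm
      rw [hadd, hsub]
      have hx₄ : x₄ ∉ A := hPm
      have hxk0 := ne_zero_of_notMem A hxk
      have hprod' : x₃ * x₄ * (x⁻¹ - xk⁻¹) ^ 2 =
          1 - W.b₄ * xk⁻¹ * x⁻¹ - W.b₆ * xk⁻¹ * x⁻¹ * (xk⁻¹ + x⁻¹)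
            - W.b₈ * xk⁻¹ ^ 2 * x⁻¹ ^ 2 := by
        field_simp
        linear_combination hprod
      have hsum' : (x₃ + x₄) * (x⁻¹ - xk⁻¹) ^ 2 =
          2 * (xk⁻¹ + x⁻¹) + W.b₂ * xk⁻¹ * x⁻¹ + W.b₄ * xk⁻¹ * x⁻¹ * (xk⁻¹ + x⁻¹)
            + W.b₆ * xk⁻¹ ^ 2 * x⁻¹ ^ 2 := by
        field_simp
        linear_combination hsum
      exact add_core A hb₂ hb₄ hb₆ hb₈ hu0 hvu (vinv_lt_one A hxk) hx₄ hprod' hsum'

/-- `kT` is in the kernel of reduction and `f(kT) ≡ k² u (mod u·𝔪)`, for all `k`. -/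
theorem invX_nsmul (hb₂ : W.b₂ ∈ A) (hb₄ : W.b₄ ∈ A) (hb₆ : W.b₆ ∈ A) (hb₈ : W.b₈ ∈ A)
    {x y : F} (h : W.toAffine.Nonsingular x y) (hx : x ∉ A) (k : ℕ) :
    (InE1 A W (k • Affine.Point.some x y h) ∧
      A.valuation (invX W (k • Affine.Point.some x y h) - (k : F) ^ 2 * x⁻¹) < A.valuation x⁻¹) ∧
    (InE1 A W ((k + 1) • Affine.Point.some x y h) ∧
      A.valuation (invX W ((k + 1) • Affine.Point.some x y h) - ((k + 1 : ℕ) : F) ^ 2 * x⁻¹) <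
        A.valuation x⁻¹) := by
  have hx0 := ne_zero_of_notMem A hx
  have hu0 : x⁻¹ ≠ 0 := inv_ne_zero hx0
  have hvu0 : 0 < A.valuation x⁻¹ := zero_lt_iff.2 ((A.valuation.ne_zero_iff).2 hu0)
  have h2A : (2 : F) ∈ A := by
    have : ((2 : ℕ) : F) ∈ A := natCast_mem A 2
    exact_mod_cast this
  induction k with
  | zero =>
    refine ⟨⟨?_, ?_⟩, ⟨?_, ?_⟩⟩
    · rw [zero_nsmul]; trivial
    · rw [zero_nsmul, invX_zero]
      have : (0 : F) - ((0 : ℕ) : F) ^ 2 * x⁻¹ = 0 := by push_cast; ring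
      rw [this, map_zero]; exact hvu0
    · rw [zero_add, one_nsmul]; exact hx
    · rw [zero_add, one_nsmul, invX_some]
      have : x⁻¹ - ((1 : ℕ) : F) ^ 2 * x⁻¹ = 0 := by push_cast; ring
      rw [this, map_zero]; exact hvu0
  | succ k ih =>
    obtain ⟨⟨hE0, hC0⟩, ⟨hE1, hC1⟩⟩ := ih
    refine ⟨⟨hE1, hC1⟩, ?_⟩
    have hsub : (k + 1) • Affine.Point.some x y h - Affine.Point.some x y h =
        k • Affine.Point.some x y h := by
      rw [succ_nsmul, add_sub_cancel_right]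
    have hadd : (k + 1 + 1) • Affine.Point.some x y h =
        (k + 1) • Affine.Point.some x y h + Affine.Point.some x y h := succ_nsmul _ (k + 1)
    obtain ⟨hE2, hR⟩ := recur A W hb₂ hb₄ hb₆ hb₈ h hx ((k + 1) • Affine.Point.some x y h) hE1
      (by rw [hsub]; exact hE0)
    rw [hsub] at hR
    rw [hadd]
    refine ⟨hE2, ?_⟩
    have hform : invX W ((k + 1) • Affine.Point.some x y h + Affine.Point.some x y h)
          - ((k + 1 + 1 : ℕ) : F) ^ 2 * x⁻¹ =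
        (invX W ((k + 1) • Affine.Point.some x y h + Affine.Point.some x y h)
            + invX W (k • Affine.Point.some x y h)
            - 2 * invX W ((k + 1) • Affine.Point.some x y h) - 2 * x⁻¹)
          - (invX W (k • Affine.Point.some x y h) - (k : F) ^ 2 * x⁻¹)
          + (invX W ((k + 1) • Affine.Point.some x y h) - ((k + 1 : ℕ) : F) ^ 2 * x⁻¹) * 2 := by
      push_cast; ring
    rw [hform]
    apply A.valuation.map_add_lt
    · exact A.valuation.map_sub_lt hR hC0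
    · exact lt_of_le_of_lt (vmul_le A (vle A h2A)) hC1

/-- **G1.** The kernel of reduction has no `n`-torsion when `n` is a unit of `A`. -/
theorem nsmul_ne_zero_of_x_notMem' (ha₁ : W.a₁ ∈ A) (ha₂ : W.a₂ ∈ A) (ha₃ : W.a₃ ∈ A)
    (ha₄ : W.a₄ ∈ A) (ha₆ : W.a₆ ∈ A) (n : ℕ) (hn : (n : F) ∉ A.nonunits) {x y : F}
    (h : W.toAffine.Nonsingular x y) (hx : x ∉ A) : n • Affine.Point.some x y h ≠ 0 := by
  intro h0
  obtain ⟨hb₂, hb₄, hb₆, hb₈⟩ := b_mem A W ha₁ ha₂ ha₃ ha₄ ha₆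
  obtain ⟨⟨_, hC⟩, _⟩ := invX_nsmul A W hb₂ hb₄ hb₆ hb₈ h hx n
  have hvn : A.valuation (n : F) = 1 :=
    le_antisymm (vle A (natCast_mem A n)) (not_lt.1 fun hlt => hn (A.mem_nonunits_iff.2 hlt))
  rw [h0, invX_zero, zero_sub, Valuation.map_neg, map_mul, map_pow, hvn, one_pow, one_mul] at hC
  exact lt_irrefl _ hC

/-- **G1**, with the unit hypothesis in the form `(n : F)⁻¹ ∈ A`, `(n : F) ≠ 0`. -/
theorem nsmul_ne_zero_of_x_notMem (ha₁ : W.a₁ ∈ A) (ha₂ : W.a₂ ∈ A) (ha₃ : W.a₃ ∈ A)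
    (ha₄ : W.a₄ ∈ A) (ha₆ : W.a₆ ∈ A) (n : ℕ) (hn : (n : F)⁻¹ ∈ A) (hn0 : (n : F) ≠ 0)
    {x y : F} (h : W.toAffine.Nonsingular x y) (hx : x ∉ A) :
    n • Affine.Point.some x y h ≠ 0 :=
  nsmul_ne_zero_of_x_notMem' A W ha₁ ha₂ ha₃ ha₄ ha₆ n
    (fun hnu => (A.mem_nonunits_iff_or.1 hnu).elim hn0 (fun h' => h' hn)) h hx

/-- Contrapositive form, as consumed by `inertia_fixed_of_torsion`. -/
theorem x_mem_of_nsmul_eq_zero (ha₁ : W.a₁ ∈ A) (ha₂ : W.a₂ ∈ A) (ha₃ : W.a₃ ∈ A)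
    (ha₄ : W.a₄ ∈ A) (ha₆ : W.a₆ ∈ A) (n : ℕ) (hn : (n : F) ∉ A.nonunits) {x y : F}
    (h : W.toAffine.Nonsingular x y) (hP : n • Affine.Point.some x y h = 0) : x ∈ A := by
  by_contra hx
  exact nsmul_ne_zero_of_x_notMem' A W ha₁ ha₂ ha₃ ha₄ ha₆ n hn h hx hP

end point

end KerRedLin

end Fermat.Agent.S05
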