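/-
S13 / InertiaPre (helper22): the inertia step of `Inertia.lean` in its pre-G1 form
(`σ P = P` or `x(σ P - P)` is not integral), valid at every odd residue characteristic,
together with the closure of the kernel of reduction `E₁` under addition.
-/
import Mathlib
import Fermat.Agent.S05.Inertia
import Fermat.Agent.S05.KerRedLin

set_option autoImplicit false

open WeierstrassCurve

namespace Fermat.Agent.S05

namespace KerRedLin

section field

variable {F : Type*} [Field F] (A : ValuationSubring F)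

/-- Both `x(P + Q)` and `x(P - Q)` are non-integral when `x(P)`, `x(Q)` are (`u`-form). -/
lemma add_core' {b₂ b₄ b₆ b₈ u uk x₃ x₄ : F} (hb₂ : b₂ ∈ A) (hb₄ : b₄ ∈ A) (hb₆ : b₆ ∈ A)
    (hb₈ : b₈ ∈ A) (hvu : A.valuation u < 1) (hvuk : A.valuation uk < 1)
    (hprod : x₃ * x₄ * (u - uk) ^ 2 =
      1 - b₄ * uk * u - b₆ * uk * u * (uk + u) - b₈ * uk ^ 2 * u ^ 2)
    (hsum : (x₃ + x₄) * (u - uk) ^ 2 =
      2 * (uk + u) + b₂ * uk * u + b₄ * uk * u * (uk + u) + b₆ * uk ^ 2 * u ^ 2) :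
    x₃ ∉ A ∧ x₄ ∉ A := by
  have huA : u ∈ A := (A.valuation_le_one_iff u).1 hvu.le
  have hukA : uk ∈ A := (A.valuation_le_one_iff uk).1 hvuk.le
  have h2A : (2 : F) ∈ A := by
    have : ((2 : ℕ) : F) ∈ A := natCast_mem A 2
    exact_mod_cast this
  have hU : A.valuation (1 - b₄ * uk * u - b₆ * uk * u * (uk + u) - b₈ * uk ^ 2 * u ^ 2) = 1 := by
    have : 1 - b₄ * uk * u - b₆ * uk * u * (uk + u) - b₈ * uk ^ 2 * u ^ 2 =
        1 - u * (uk * (b₄ + b₆ * (uk + u) + b₈ * uk * u)) := by ring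
    rw [this]
    apply A.valuation.map_one_sub_of_lt
    exact vlt_mul A hvu (vle A (A.mul_mem _ _ hukA (A.add_mem _ _ (A.add_mem _ _ hb₄
      (A.mul_mem _ _ hb₆ (A.add_mem _ _ hukA huA))) (A.mul_mem _ _ (A.mul_mem _ _ hb₈ hukA) huA))))
  have hU0 : 1 - b₄ * uk * u - b₆ * uk * u * (uk + u) - b₈ * uk ^ 2 * u ^ 2 ≠ 0 := by
    intro h0; rw [h0, map_zero] at hU; exact zero_ne_one hU
  have hx₃0 : x₃ ≠ 0 := by
    rintro rfl
    rw [zero_mul, zero_mul] at hprod
    exact hU0 hprod.symm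
  have hx₄0 : x₄ ≠ 0 := by
    rintro rfl
    rw [mul_zero, zero_mul] at hprod
    exact hU0 hprod.symm
  -- `(x₃⁻¹ + x₄⁻¹) * U = S` and `x₃⁻¹ * x₄⁻¹ * U = (u - uk)²`
  have hinv : (x₃⁻¹ + x₄⁻¹) *
      (1 - b₄ * uk * u - b₆ * uk * u * (uk + u) - b₈ * uk ^ 2 * u ^ 2) =
      2 * (uk + u) + b₂ * uk * u + b₄ * uk * u * (uk + u) + b₆ * uk ^ 2 * u ^ 2 := by
    rw [← hprod, ← hsum]; field_simp; ring
  have hinv' : x₃⁻¹ * x₄⁻¹ *
      (1 - b₄ * uk * u - b₆ * uk * u * (uk + u) - b₈ * uk ^ 2 * u ^ 2) = (u - uk) ^ 2 := by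
    rw [← hprod]; field_simp
  have hvsum : A.valuation (x₃⁻¹ + x₄⁻¹) < 1 := by
    have h1 := congrArg A.valuation hinv
    rw [map_mul, hU, mul_one] at h1
    rw [h1]
    have hS : 2 * (uk + u) + b₂ * uk * u + b₄ * uk * u * (uk + u) + b₆ * uk ^ 2 * u ^ 2 =
        uk * (2 + b₂ * u + b₄ * u * (uk + u) + b₆ * uk * u ^ 2) + u * 2 := by ring
    rw [hS]
    apply A.valuation.map_add_lt
    · exact vlt_mul A hvuk (vle A (A.add_mem _ _ (A.add_mem _ _ (A.add_mem _ _ h2A
        (A.mul_mem _ _ hb₂ huA)) (A.mul_mem _ _ (A.mul_mem _ _ hb₄ huA) (A.add_mem _ _ hukA huA)))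
        (A.mul_mem _ _ (A.mul_mem _ _ hb₆ hukA) (pow_mem huA 2))))
    · exact vlt_mul A hvu (vle A h2A)
  have hvprod : A.valuation x₃⁻¹ * A.valuation x₄⁻¹ < 1 := by
    have h1 := congrArg A.valuation hinv'
    rw [map_mul, hU, mul_one, map_mul] at h1
    rw [h1, map_pow]
    have hd : A.valuation (u - uk) < 1 := A.valuation.map_sub_lt hvu hvuk
    calc A.valuation (u - uk) ^ 2 = A.valuation (u - uk) * A.valuation (u - uk) := pow_two _
      _ ≤ A.valuation (u - uk) * 1 := mul_le_mul_right hd.le _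
      _ = A.valuation (u - uk) := mul_one _
      _ < 1 := hd
  -- general fact: `v a * v b < 1` and `v (a + b) < 1` imply `v a < 1`
  have key : ∀ a b : F, A.valuation a * A.valuation b < 1 → A.valuation (a + b) < 1 →
      A.valuation a < 1 := by
    intro a b hab hs
    by_contra hcon
    have ha1 : 1 ≤ A.valuation a := not_lt.1 hcon
    have hb1 : A.valuation b < 1 :=
      calc A.valuation b = 1 * A.valuation b := (one_mul _).symm
        _ ≤ A.valuation a * A.valuation b := mul_le_mul_left ha1 _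
        _ < 1 := hab
    have : A.valuation (a + b) = A.valuation a :=
      A.valuation.map_add_eq_of_lt_left (lt_of_lt_of_le hb1 ha1)
    rw [this] at hs
    exact hcon hs
  refine ⟨notMem_of_vinv_lt_one A hx₃0 (key x₃⁻¹ x₄⁻¹ hvprod hvsum),
    notMem_of_vinv_lt_one A hx₄0 (key x₄⁻¹ x₃⁻¹ ?_ ?_)⟩
  · rw [mul_comm]; exact hvprod
  · rw [add_comm]; exact hvsum

end field

section point

variable {F : Type*} [Field F] [DecidableEq F] (A : ValuationSubring F) (W : WeierstrassCurve F)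

omit [DecidableEq F] in
lemma inE1_neg {P : W.toAffine.Point} (hP : InE1 A W P) : InE1 A W (-P) := by
  cases P with
  | zero => exact hP
  | some x y h => exact hP

/-- The kernel of reduction is closed under addition. -/
theorem inE1_add (hb₂ : W.b₂ ∈ A) (hb₄ : W.b₄ ∈ A) (hb₆ : W.b₆ ∈ A) (hb₈ : W.b₈ ∈ A)
    {P Q : W.toAffine.Point} (hP : InE1 A W P) (hQ : InE1 A W Q) : InE1 A W (P + Q) := by
  rcases P with _ | ⟨x₁, y₁, h₁⟩
  · have h0 : (Affine.Point.zero : W.toAffine.Point) = 0 := rfl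
    rw [h0, zero_add]; exact hQ
  rcases Q with _ | ⟨x₂, y₂, h₂⟩
  · have h0 : (Affine.Point.zero : W.toAffine.Point) = 0 := rfl
    rw [h0, add_zero]; exact hP
  have hx₁ : x₁ ∉ A := hP
  have hx₂ : x₂ ∉ A := hQ
  by_cases hxx : x₁ = x₂
  · rcases XOnly.some_eq_or_eq_neg_of_x_eq W h₁ h₂ hxx with hQP | hQP
    · rw [hQP]; exact (dbl A W hb₂ hb₄ hb₆ hb₈ h₁ hx₁).1
    · rw [hQP, add_neg_cancel]; trivial
  · obtain ⟨x₃, y₃, x₄, y₄, h₃, h₄, hadd, hsub, hprod, hsum⟩ :=
      XOnly.add_sub_x_formulas W h₁ h₂ hxx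
    rw [hadd]
    have hx₁0 := ne_zero_of_notMem A hx₁
    have hx₂0 := ne_zero_of_notMem A hx₂
    have hprod' : x₃ * x₄ * (x₂⁻¹ - x₁⁻¹) ^ 2 =
        1 - W.b₄ * x₁⁻¹ * x₂⁻¹ - W.b₆ * x₁⁻¹ * x₂⁻¹ * (x₁⁻¹ + x₂⁻¹)
          - W.b₈ * x₁⁻¹ ^ 2 * x₂⁻¹ ^ 2 := by
      field_simp
      linear_combination hprod
    have hsum' : (x₃ + x₄) * (x₂⁻¹ - x₁⁻¹) ^ 2 =
        2 * (x₁⁻¹ + x₂⁻¹) + W.b₂ * x₁⁻¹ * x₂⁻¹ + W.b₄ * x₁⁻¹ * x₂⁻¹ * (x₁⁻¹ + x₂⁻¹)
          + W.b₆ * x₁⁻¹ ^ 2 * x₂⁻¹ ^ 2 := by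
      field_simp
      linear_combination hsum
    exact (add_core' A hb₂ hb₄ hb₆ hb₈ (vinv_lt_one A hx₂) (vinv_lt_one A hx₁) hprod' hsum').1

theorem inE1_sub (hb₂ : W.b₂ ∈ A) (hb₄ : W.b₄ ∈ A) (hb₆ : W.b₆ ∈ A) (hb₈ : W.b₈ ∈ A)
    {P Q : W.toAffine.Point} (hP : InE1 A W P) (hQ : InE1 A W Q) : InE1 A W (P - Q) := by
  rw [sub_eq_add_neg]
  exact inE1_add A W hb₂ hb₄ hb₆ hb₈ hP (inE1_neg A W hQ)

theorem inE1_nsmul (hb₂ : W.b₂ ∈ A) (hb₄ : W.b₄ ∈ A) (hb₆ : W.b₆ ∈ A) (hb₈ : W.b₈ ∈ A)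
    {P : W.toAffine.Point} (hP : InE1 A W P) (k : ℕ) : InE1 A W (k • P) := by
  induction k with
  | zero => rw [zero_nsmul]; trivial
  | succ k ih => rw [succ_nsmul]; exact inE1_add A W hb₂ hb₄ hb₆ hb₈ ih hP

end point

end KerRedLin

open Inertia

variable {F : Type*} [Field F] [DecidableEq F] (A : ValuationSubring F) (W : WeierstrassCurve F)

/-- **Inertia step, pre-G1 form.**  Same setting as `inertia_fixed_of_torsion`, but without any
torsion hypothesis and without the kernel-of-reduction input: for an integral point `P = (x, y)`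
which is not a `2`-torsion point and such that `2P` is integral, either `σ P = P` or the
`x`-coordinate of `σ P - P` is not integral. -/
theorem inertia_fixed_or_sub_x_notMem (ha₁ : W.a₁ ∈ A) (ha₂ : W.a₂ ∈ A) (ha₃ : W.a₃ ∈ A)
    (ha₄ : W.a₄ ∈ A) (ha₆ : W.a₆ ∈ A) (h2 : (2 : F) ∉ A.nonunits)
    {e u β : F} (he : e ∈ A) (hu : u ∈ A) (hu' : u ∉ A.nonunits) (hβ : β ∈ A.nonunits)
    (hb₂ : W.b₂ + 12 * e = u) (hb₄ : W.b₄ + e * W.b₂ + 6 * e ^ 2 = 2 * β)
    (hb₆ : W.b₆ + 2 * e * W.b₄ + e ^ 2 * W.b₂ + 4 * e ^ 3 = 0)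
    (σ : F ≃+* F) (hσA : ∀ z ∈ A, σ z - z ∈ A.nonunits)
    (hσ₁ : σ W.a₁ = W.a₁) (hσ₃ : σ W.a₃ = W.a₃) (hσe : σ e = e)
    {x y : F} (h : W.toAffine.Nonsingular x y) (h' : W.toAffine.Nonsingular (σ x) (σ y))
    (h2ne : Affine.Point.some x y h + Affine.Point.some x y h ≠ 0) (hx : x ∈ A)
    (h2P : ∀ {x₂ y₂ : F} (h₂ : W.toAffine.Nonsingular x₂ y₂),
      Affine.Point.some x y h + Affine.Point.some x y h = Affine.Point.some x₂ y₂ h₂ → x₂ ∈ A)
    (hcase : x - e ∉ A.nonunits ∨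
      (x - e ∈ A.nonunits ∧ β / (x - e) ∈ A.nonunits ∧
        ∃ t η : F, σ t = t ∧ η ∈ A ∧ η ∉ A.nonunits ∧ x - e = t * η)) :
    (σ x = x ∧ σ y = y) ∨ ∃ x₃ y₃, ∃ h₃ : W.toAffine.Nonsingular x₃ y₃,
      Affine.Point.some (σ x) (σ y) h' - Affine.Point.some x y h =
        Affine.Point.some x₃ y₃ h₃ ∧ x₃ ∉ A := by
  have h2A : (2 : F) ∈ A := by
    have : ((2 : ℕ) : F) ∈ A := natCast_mem A 2
    exact_mod_cast this
  have h4A : (4 : F) ∈ A := by
    have : ((4 : ℕ) : F) ∈ A := natCast_mem A 4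
    exact_mod_cast this
  have hv2 : A.valuation 2 = 1 := val_eq_one A h2A h2
  have h20 : (2 : F) ≠ 0 := by
    intro h0
    rw [h0, map_zero] at hv2
    exact zero_ne_one hv2
  have hYdef : y - W.toAffine.negY x y = 2 * y + W.a₁ * x + W.a₃ := by
    simp only [Affine.negY]; ring
  -- `P` is not a 2-torsion point
  have hyne : y ≠ W.toAffine.negY x y := fun hy =>
    h2ne (Affine.Point.add_self_of_Y_eq hy)
  have hY0 : 2 * y + W.a₁ * x + W.a₃ ≠ 0 := by
    rw [← hYdef]; exact sub_ne_zero.2 hyne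
  have hYsq := Y_sq_eq W h.1 hb₂ hb₄ hb₆
  -- the final step, common to both cases
  have hfinal : σ x ∈ A → x ∈ A → σ y - W.toAffine.negY x y ≠ 0 →
      (σ x - x) / (σ y - W.toAffine.negY x y) ∈ A.nonunits →
      (σ x = x ∧ σ y = y) ∨ ∃ x₃ y₃, ∃ h₃ : W.toAffine.Nonsingular x₃ y₃,
        Affine.Point.some (σ x) (σ y) h' - Affine.Point.some x y h =
          Affine.Point.some x₃ y₃ h₃ ∧ x₃ ∉ A := by
    intro hx₁ hx₂ hn hd
    rcases sub_x_notMem_of_slope A W ha₁ ha₂ h' h hx₁ hx₂ hn hd with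
      heq | ⟨x₃, y₃, h₃, hsub, hx₃⟩
    · have := Affine.Point.some.inj heq
      exact Or.inl ⟨this.1, this.2⟩
    · exact Or.inr ⟨x₃, y₃, h₃, hsub, hx₃⟩
  rcases hcase with hX | ⟨hX, hβX, t, η, hσt, hηA, hηu, hXt⟩
  · -- the case `X` a unit (M3)
    have hxA : x ∈ A := hx
    have hXA : x - e ∈ A := A.sub_mem hxA he
    have hvX : A.valuation (x - e) = 1 := val_eq_one A hXA hX
    have hyA : y ∈ A := y_mem_of_x_mem A W ha₁ ha₂ ha₃ ha₄ ha₆ h.1 hxA
    have hYA : 2 * y + W.a₁ * x + W.a₃ ∈ A :=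
      A.add_mem _ _ (A.add_mem _ _ (A.mul_mem _ _ h2A hyA) (A.mul_mem _ _ ha₁ hxA)) ha₃
    have hvY : A.valuation (2 * y + W.a₁ * x + W.a₃) = 1 := by
      by_contra hne
      have hlt : A.valuation (2 * y + W.a₁ * x + W.a₃) < 1 :=
        lt_of_le_of_ne (val_le_one A hYA) hne
      obtain ⟨x₂, y₂, h₂, hadd, hform⟩ := two_nsmul_x_centred W h20 h hb₄ hb₆ hyne
      have hx₂A : x₂ ∈ A := h2P h₂ hadd
      have hnum1 : A.valuation ((x - e) ^ 2 - β) = 1 := by
        have hX2 : A.valuation ((x - e) ^ 2) = 1 := by rw [map_pow, hvX, one_pow]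
        rw [A.valuation.map_sub_eq_of_lt_left (by rw [hX2]; exact val_lt_one A hβ), hX2]
      have hnum : A.valuation (((x - e) ^ 2 - β) ^ 2) = 1 := by
        rw [map_pow, hnum1, one_pow]
      have hprod : A.valuation (x₂ - e) * A.valuation ((2 * y + W.a₁ * x + W.a₃) ^ 2) = 1 := by
        rw [← map_mul, hform]; exact hnum
      have hle : A.valuation (x₂ - e) ≤ 1 := val_le_one A (A.sub_mem hx₂A he)
      have hden : A.valuation ((2 * y + W.a₁ * x + W.a₃) ^ 2) < 1 := by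
        rw [map_pow, pow_two]
        calc A.valuation (2 * y + W.a₁ * x + W.a₃) * A.valuation (2 * y + W.a₁ * x + W.a₃)
            ≤ A.valuation (2 * y + W.a₁ * x + W.a₃) * 1 := mul_le_mul_right hlt.le _
          _ = A.valuation (2 * y + W.a₁ * x + W.a₃) := mul_one _
          _ < 1 := hlt
      have hcontra : A.valuation (x₂ - e) * A.valuation ((2 * y + W.a₁ * x + W.a₃) ^ 2) < 1 :=
        calc A.valuation (x₂ - e) * A.valuation ((2 * y + W.a₁ * x + W.a₃) ^ 2)
            ≤ 1 * A.valuation ((2 * y + W.a₁ * x + W.a₃) ^ 2) := mul_le_mul_left hle _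
          _ = A.valuation ((2 * y + W.a₁ * x + W.a₃) ^ 2) := one_mul _
          _ < 1 := hden
      rw [hprod] at hcontra
      exact lt_irrefl _ hcontra
    have hσy : A.valuation (σ y - y) < 1 := val_lt_one A (hσA y hyA)
    have hσx : A.valuation (σ x - x) < 1 := val_lt_one A (hσA x hxA)
    have hn_eq : σ y - W.toAffine.negY x y = (2 * y + W.a₁ * x + W.a₃) + (σ y - y) := by
      simp only [Affine.negY]; ring
    have hvn : A.valuation (σ y - W.toAffine.negY x y) = 1 := by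
      rw [hn_eq]; exact val_unit_add A hvY hσy
    apply hfinal
    · have : σ x = x + (σ x - x) := by ring
      rw [this]; exact A.add_mem _ _ hxA (A.nonunits_subset (hσA x hxA))
    · exact hxA
    · intro h0; rw [h0, map_zero] at hvn; exact zero_ne_one hvn
    · rw [A.mem_nonunits_iff, map_div₀, hvn, div_one]; exact hσx
  · -- the case `0 < v(X) < v(β)`, `X = t * η` (M2)
    have hvXlt : A.valuation (x - e) < 1 := val_lt_one A hX
    have hXA : x - e ∈ A := A.nonunits_subset hX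
    have hxA : x ∈ A := by
      have : x = (x - e) + e := by ring
      rw [this]; exact A.add_mem _ _ hXA he
    have hX0 : x - e ≠ 0 := by
      intro h0
      rw [h0, zero_mul] at hYsq
      exact hY0 (pow_eq_zero_iff two_ne_zero |>.1 hYsq)
    have hvX0 : A.valuation (x - e) ≠ 0 := (A.valuation.ne_zero_iff).2 hX0
    have hvXpos : 0 < A.valuation (x - e) := zero_lt_iff.2 hvX0
    have hη0 : η ≠ 0 := by
      rintro rfl
      rw [mul_zero] at hXt
      exact hX0 hXt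
    have hvη : A.valuation η = 1 := val_eq_one A hηA hηu
    -- `ρ = Y / X` is a unit
    obtain ⟨ρ, hρdef⟩ : ∃ ρ : F, ρ = (2 * y + W.a₁ * x + W.a₃) / (x - e) := ⟨_, rfl⟩
    have hYρ : 2 * y + W.a₁ * x + W.a₃ = ρ * (x - e) := by
      rw [hρdef, div_mul_cancel₀ _ hX0]
    have hρsq : ρ * ρ = u + (4 * (x - e) + 4 * (β / (x - e))) := by
      rw [hρdef]
      field_simp
      linear_combination hYsq
    have hv4 : A.valuation 4 ≤ 1 := val_le_one A h4A
    have hvρρ : A.valuation (ρ * ρ) = 1 := by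
      rw [hρsq]
      apply val_unit_add A (val_eq_one A hu hu')
      apply A.valuation.map_add_lt
      · rw [map_mul]
        calc A.valuation 4 * A.valuation (x - e) ≤ 1 * A.valuation (x - e) :=
              mul_le_mul_left hv4 _
          _ = A.valuation (x - e) := one_mul _
          _ < 1 := hvXlt
      · rw [map_mul]
        calc A.valuation 4 * A.valuation (β / (x - e)) ≤ 1 * A.valuation (β / (x - e)) :=
              mul_le_mul_left hv4 _
          _ = A.valuation (β / (x - e)) := one_mul _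
          _ < 1 := val_lt_one A hβX
    have hvρ : A.valuation ρ = 1 := valueGroup_eq_one_of_sq (by rw [← map_mul]; exact hvρρ)
    have hρA : ρ ∈ A := (A.valuation_le_one_iff ρ).1 hvρ.le
    have hσρ : A.valuation (σ ρ - ρ) < 1 := val_lt_one A (hσA ρ hρA)
    have hση : A.valuation (σ η - η) < 1 := val_lt_one A (hσA η hηA)
    -- `d = σ x - x = X * ((σ η - η) / η)`
    have hσX : σ x - e = t * σ η := by
      have : σ (x - e) = t * σ η := by rw [hXt, map_mul, hσt]
      rw [map_sub, hσe] at this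
      exact this
    have hd : σ x - x = (x - e) * ((σ η - η) / η) := by
      field_simp
      linear_combination η * hσX - σ η * hXt
    have hvd : A.valuation (σ x - x) < A.valuation (x - e) := by
      rw [hd, map_mul, map_div₀, hvη, div_one]
      calc A.valuation (x - e) * A.valuation (σ η - η) < A.valuation (x - e) * 1 :=
            mul_lt_mul_of_pos_left hση hvXpos
        _ = A.valuation (x - e) := mul_one _
    -- `σ Y = σ ρ * σ X`
    have hσY : 2 * σ y + W.a₁ * σ x + W.a₃ = σ ρ * (σ x - e) := by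
      have := congrArg σ hYρ
      simp only [map_add, map_mul, map_sub, hσ₁, hσ₃, hσe, map_ofNat] at this
      exact this
    have hσρA : σ ρ ∈ A := by
      have : σ ρ = ρ + (σ ρ - ρ) := by ring
      rw [this]; exact A.add_mem _ _ hρA (A.nonunits_subset (hσA ρ hρA))
    have h2n : 2 * (σ y - W.toAffine.negY x y) =
        2 * ρ * (x - e) + ((σ ρ - ρ) * (x - e) + (σ ρ - W.a₁) * (σ x - x)) := by
      simp only [Affine.negY]
      linear_combination hσY + hYρ
    have hmain : A.valuation (2 * ρ * (x - e)) = A.valuation (x - e) := by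
      rw [map_mul, map_mul, hv2, hvρ, one_mul, one_mul]
    have hrest : A.valuation ((σ ρ - ρ) * (x - e) + (σ ρ - W.a₁) * (σ x - x)) <
        A.valuation (x - e) := by
      apply A.valuation.map_add_lt
      · rw [map_mul]
        calc A.valuation (σ ρ - ρ) * A.valuation (x - e) < 1 * A.valuation (x - e) :=
              mul_lt_mul_of_pos_right hσρ hvXpos
          _ = A.valuation (x - e) := one_mul _
      · rw [map_mul]
        calc A.valuation (σ ρ - W.a₁) * A.valuation (σ x - x) ≤ 1 * A.valuation (σ x - x) :=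
              mul_le_mul_left (val_le_one A (A.sub_mem hσρA ha₁)) _
          _ = A.valuation (σ x - x) := one_mul _
          _ < A.valuation (x - e) := hvd
    have hv2n : A.valuation (2 * (σ y - W.toAffine.negY x y)) = A.valuation (x - e) := by
      rw [h2n, A.valuation.map_add_eq_of_lt_left (by rw [hmain]; exact hrest), hmain]
    have hvn : A.valuation (σ y - W.toAffine.negY x y) = A.valuation (x - e) := by
      rw [map_mul, hv2, one_mul] at hv2n
      exact hv2n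
    apply hfinal
    · have : σ x = x + (σ x - x) := by ring
      rw [this]
      exact A.add_mem _ _ hxA ((A.valuation_le_one_iff _).1 (hvd.trans hvXlt).le)
    · exact hxA
    · intro h0; rw [h0, map_zero] at hvn; exact hvX0 hvn.symm
    · rw [A.mem_nonunits_iff, map_div₀, hvn]
      exact (div_lt_one₀ hvXpos).2 hvd

/-- **`σ T - T` lies in the kernel of reduction, for every odd-torsion point `T`.**
Multiplicative case at any odd residue characteristic (including the characteristic dividing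
the order `p` of `T`): either `σ T = T`, or the `x`-coordinate of `σ T - T` is not integral.
The hypothesis `hcase` (needed only for integral `T`) is the output of the fold rule. -/
theorem inertia_sub_mem_ker_of_torsion (ha₁ : W.a₁ ∈ A) (ha₂ : W.a₂ ∈ A) (ha₃ : W.a₃ ∈ A)
    (ha₄ : W.a₄ ∈ A) (ha₆ : W.a₆ ∈ A) (h2 : (2 : F) ∉ A.nonunits)
    {e u β : F} (he : e ∈ A) (hu : u ∈ A) (hu' : u ∉ A.nonunits) (hβ : β ∈ A.nonunits)
    (hb₂ : W.b₂ + 12 * e = u) (hb₄ : W.b₄ + e * W.b₂ + 6 * e ^ 2 = 2 * β)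
    (hb₆ : W.b₆ + 2 * e * W.b₄ + e ^ 2 * W.b₂ + 4 * e ^ 3 = 0)
    (σ : F ≃+* F) (hσA : ∀ z ∈ A, σ z - z ∈ A.nonunits)
    (hσ₁ : σ W.a₁ = W.a₁) (hσ₃ : σ W.a₃ = W.a₃) (hσe : σ e = e)
    (hσmem : ∀ z, σ z ∈ A → z ∈ A)
    {p : ℕ} (hp : Odd p)
    {x y : F} (h : W.toAffine.Nonsingular x y) (h' : W.toAffine.Nonsingular (σ x) (σ y))
    (hP : p • Affine.Point.some x y h = 0)
    (hcase : x ∈ A → (x - e ∉ A.nonunits ∨
      (x - e ∈ A.nonunits ∧ β / (x - e) ∈ A.nonunits ∧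
        ∃ t η : F, σ t = t ∧ η ∈ A ∧ η ∉ A.nonunits ∧ x - e = t * η))) :
    (σ x = x ∧ σ y = y) ∨ ∃ x₃ y₃, ∃ h₃ : W.toAffine.Nonsingular x₃ y₃,
      Affine.Point.some (σ x) (σ y) h' - Affine.Point.some x y h =
        Affine.Point.some x₃ y₃ h₃ ∧ x₃ ∉ A := by
  obtain ⟨hb₂A, hb₄A, hb₆A, hb₈A⟩ := KerRedLin.b_mem A W ha₁ ha₂ ha₃ ha₄ ha₆
  by_cases hxA : x ∈ A
  · -- integral point: `P` is not 2-torsion and `2P` is integral
    have h2ne : Affine.Point.some x y h + Affine.Point.some x y h ≠ 0 := fun h0 =>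
      Affine.Point.some_ne_zero h (eq_zero_of_odd_nsmul hp h0 hP)
    refine inertia_fixed_or_sub_x_notMem A W ha₁ ha₂ ha₃ ha₄ ha₆ h2 he hu hu' hβ hb₂ hb₄ hb₆ σ hσA
      hσ₁ hσ₃ hσe h h' h2ne hxA ?_ (hcase hxA)
    intro x₂ y₂ h₂ hadd
    by_contra hx₂
    obtain ⟨j, hj⟩ := hp
    have hE : KerRedLin.InE1 A W ((j + 1) • Affine.Point.some x₂ y₂ h₂) :=
      KerRedLin.inE1_nsmul A W hb₂A hb₄A hb₆A hb₈A (P := Affine.Point.some x₂ y₂ h₂) hx₂ (j + 1)
    have hmul : (j + 1) • Affine.Point.some x₂ y₂ h₂ = Affine.Point.some x y h := by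
      rw [← hadd, ← two_nsmul, ← mul_nsmul']
      have : (j + 1) * 2 = p + 1 := by omega
      rw [this, add_nsmul, hP, zero_add, one_nsmul]
    rw [hmul] at hE
    exact hE hxA
  · -- `P` in the kernel of reduction: so is `σ P`, hence `σ P - P`
    have hσx : σ x ∉ A := fun hmem => hxA (hσmem x hmem)
    have hE : KerRedLin.InE1 A W (Affine.Point.some (σ x) (σ y) h' - Affine.Point.some x y h) :=
      KerRedLin.inE1_sub A W hb₂A hb₄A hb₆A hb₈A (P := Affine.Point.some (σ x) (σ y) h')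
        (Q := Affine.Point.some x y h) hσx hxA
    by_cases heq : Affine.Point.some (σ x) (σ y) h' = Affine.Point.some x y h
    · have := Affine.Point.some.inj heq
      exact Or.inl ⟨this.1, this.2⟩
    · right
      have hne : Affine.Point.some (σ x) (σ y) h' - Affine.Point.some x y h ≠ 0 :=
        sub_ne_zero.2 heq
      generalize Affine.Point.some (σ x) (σ y) h' - Affine.Point.some x y h = D at hE hne
      rcases D with _ | ⟨x₃, y₃, h₃⟩
      · exact absurd rfl hne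
      · exact ⟨x₃, y₃, h₃, rfl, hE⟩

end Fermat.Agent.S05
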