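import Mathlib

/-!
# S05, package G1: the kernel of reduction has no torsion prime to the residue characteristic

Let `A` be a valuation subring of a field `F` and `W` a Weierstrass curve over `F` with
coefficients in `A`.  The points `(x, y)` of `W` with `x ∉ A`, together with `0`, form the
"kernel of reduction".  In the chart `t = -x / y`, `w = -1 / y` the group law is given by the
chord and tangent construction on `w = t³ + a₁tw + a₂t²w + a₃w² + a₄tw² + a₆w³`, and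
`t (P + Q) ≡ t P + t Q` modulo the square of any ideal containing `t P` and `t Q`.  Hence
`t (n • P) ≡ n * t P` modulo `(t P)²`, and `n • P ≠ 0` for `n` a unit of `A`.
-/

set_option autoImplicit false

namespace Fermat.Agent.S05

open WeierstrassCurve WeierstrassCurve.Affine

namespace KerRed

variable {F : Type*} [Field F] (A : ValuationSubring F)

/-- The filtration `{x | v x ≤ γ ^ k}` by `A`-submodules. -/
def Fil (γ : A.ValueGroup) (k : ℕ) : AddSubgroup F where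
  carrier := {x | A.valuation x ≤ γ ^ k}
  zero_mem' := by simp
  add_mem' := fun ha hb => A.valuation.map_add_le ha hb
  neg_mem' := by
    intro x hx
    simpa using hx

variable {A}

theorem mem_Fil {γ : A.ValueGroup} {k : ℕ} {x : F} : x ∈ Fil A γ k ↔ A.valuation x ≤ γ ^ k :=
  Iff.rfl

theorem mem_Fil_zero {γ : A.ValueGroup} {x : F} : x ∈ Fil A γ 0 ↔ x ∈ A := by
  rw [mem_Fil, pow_zero, A.valuation_le_one_iff]

theorem Fil_mul {γ : A.ValueGroup} {j k : ℕ} {x y : F} (hx : x ∈ Fil A γ j) (hy : y ∈ Fil A γ k) :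
    x * y ∈ Fil A γ (j + k) := by
  rw [mem_Fil] at *
  rw [map_mul, pow_add]
  exact mul_le_mul' hx hy

theorem Fil_pow {γ : A.ValueGroup} {j : ℕ} {x : F} (hx : x ∈ Fil A γ j) (n : ℕ) :
    x ^ n ∈ Fil A γ (n * j) := by
  rw [mem_Fil] at *
  rw [map_pow, mul_comm, pow_mul]
  exact pow_le_pow_left' hx n

theorem Fil_mono {γ : A.ValueGroup} (hγ : γ ≤ 1) {j k : ℕ} (hjk : j ≤ k) {x : F}
    (hx : x ∈ Fil A γ k) : x ∈ Fil A γ j := by
  rw [mem_Fil] at *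
  exact hx.trans (pow_le_pow_right_of_le_one' hγ hjk)

theorem Fil_natCast {γ : A.ValueGroup} (n : ℕ) : (n : F) ∈ Fil A γ 0 :=
  mem_Fil_zero.2 (natCast_mem A n)

theorem Fil_ofNat {γ : A.ValueGroup} (n : ℕ) [n.AtLeastTwo] : (OfNat.ofNat n : F) ∈ Fil A γ 0 :=
  mem_Fil_zero.2 (ofNat_mem A n)

theorem Fil_one {γ : A.ValueGroup} : (1 : F) ∈ Fil A γ 0 :=
  mem_Fil_zero.2 (one_mem A)

/-- `1 - x` is a unit when `x` lies in the first step of the filtration. -/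
theorem valuation_one_sub {γ : A.ValueGroup} (hγ : γ < 1) {x : F} (hx : x ∈ Fil A γ 1) :
    A.valuation (1 - x) = 1 := by
  rw [mem_Fil, pow_one] at hx
  exact A.valuation.map_one_sub_of_lt (lt_of_le_of_lt hx hγ)

theorem one_sub_ne_zero {γ : A.ValueGroup} (hγ : γ < 1) {x : F} (hx : x ∈ Fil A γ 1) :
    1 - x ≠ 0 := by
  intro h
  have := valuation_one_sub hγ hx
  rw [h, map_zero] at this
  exact zero_ne_one this

theorem inv_one_sub_mem {γ : A.ValueGroup} (hγ : γ < 1) {x : F} (hx : x ∈ Fil A γ 1) :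
    (1 - x)⁻¹ ∈ Fil A γ 0 := by
  rw [mem_Fil, pow_zero, map_inv₀, valuation_one_sub hγ hx, inv_one]

/-! ### The chart `t = -x / y`, `w = -1 / y` -/

variable (A) in
/-- The coefficients of `W` lie in `A`. -/
structure IntCoeff (W : WeierstrassCurve.Affine F) : Prop where
  a₁ : W.a₁ ∈ A
  a₂ : W.a₂ ∈ A
  a₃ : W.a₃ ∈ A
  a₄ : W.a₄ ∈ A
  a₆ : W.a₆ ∈ A

variable (W : WeierstrassCurve.Affine F)

/-- The Weierstrass equation in the chart `t = -x / y`, `w = -1 / y`. -/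
def ChartEq (t w : F) : Prop :=
  w = t ^ 3 + W.a₁ * t * w + W.a₂ * t ^ 2 * w + W.a₃ * w ^ 2 + W.a₄ * t * w ^ 2 + W.a₆ * w ^ 3

variable {W}

theorem chartEq_of_equation {x y : F} (h : W.Equation x y) (hy : y ≠ 0) :
    ChartEq W (-x / y) (-1 / y) := by
  rw [equation_iff] at h
  unfold ChartEq
  field_simp
  linear_combination -h

theorem equation_of_chartEq {t w : F} (h : ChartEq W t w) (hw : w ≠ 0) :
    W.Equation (t / w) (-1 / w) := by
  rw [equation_iff]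
  unfold ChartEq at h
  field_simp
  linear_combination h

theorem valuation_of_notMem (hW : IntCoeff A W) {x y : F} (h : W.Equation x y) (hx : x ∉ A) :
    A.valuation x < A.valuation y ∧ A.valuation y ^ 2 = A.valuation x ^ 3 := by
  rw [equation_iff] at h
  rw [← A.valuation_le_one_iff, not_le] at hx
  have h1 := (A.valuation_le_one_iff _).2 hW.a₁
  have h2 := (A.valuation_le_one_iff _).2 hW.a₂
  have h3 := (A.valuation_le_one_iff _).2 hW.a₃
  have h4 := (A.valuation_le_one_iff _).2 hW.a₄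
  have h6 := (A.valuation_le_one_iff _).2 hW.a₆
  set v := A.valuation with hv
  have hx0 : 0 < v x := lt_trans zero_lt_one hx
  have hx2 : v x < v x ^ 2 := by
    calc v x = v x * 1 := (mul_one _).symm
      _ < v x * v x := by gcongr
      _ = v x ^ 2 := (sq _).symm
  have hx3 : v x ^ 2 < v x ^ 3 := by
    calc v x ^ 2 = v x ^ 2 * 1 := (mul_one _).symm
      _ < v x ^ 2 * v x := by
        have : 0 < v x ^ 2 := pow_pos hx0 2
        gcongr
      _ = v x ^ 3 := (pow_succ _ 2).symm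
  -- the right hand side has valuation `v x ^ 3`
  have hR : v (x ^ 3 + W.a₂ * x ^ 2 + W.a₄ * x + W.a₆) = v x ^ 3 := by
    have : v (W.a₂ * x ^ 2 + W.a₄ * x + W.a₆) < v (x ^ 3) := by
      rw [map_pow]
      refine lt_of_le_of_lt (v.map_add_le (v.map_add_le ?_ ?_) ?_) hx3
      · rw [map_mul, map_pow]
        exact mul_le_of_le_one_left' h2
      · rw [map_mul]
        exact (mul_le_of_le_one_left' h4).trans hx2.le
      · exact h6.trans (hx.le.trans hx2.le)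
    have h' := v.map_add_eq_of_lt_left this
    rw [map_pow] at h'
    rw [← h']
    congr 1
    ring
  have hxy : v x < v y := by
    by_contra hle
    rw [not_lt] at hle
    have hL : v (y ^ 2 + W.a₁ * x * y + W.a₃ * y) ≤ v x ^ 2 := by
      refine v.map_add_le (v.map_add_le ?_ ?_) ?_
      · rw [map_pow]
        exact pow_le_pow_left' hle 2
      · rw [map_mul, map_mul, sq]
        exact mul_le_mul' (mul_le_of_le_one_left' h1) hle
      · rw [map_mul]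
        exact (mul_le_of_le_one_left' h3).trans (hle.trans hx2.le)
    rw [h, hR] at hL
    exact absurd hL (not_le.2 hx3)
  refine ⟨hxy, ?_⟩
  have hL : v (y ^ 2 + W.a₁ * x * y + W.a₃ * y) = v y ^ 2 := by
    have hy1 : 1 < v y := hx.trans hxy
    have hy0 : 0 < v y := lt_trans zero_lt_one hy1
    have : v (W.a₁ * x * y + W.a₃ * y) < v (y ^ 2) := by
      rw [map_pow, sq]
      refine lt_of_le_of_lt (v.map_add_le (g := v x * v y) ?_ ?_) ?_
      · rw [map_mul, map_mul]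
        exact mul_le_mul' (mul_le_of_le_one_left' h1) le_rfl
      · rw [map_mul]
        exact mul_le_mul' (h3.trans hx.le) le_rfl
      · gcongr
    have h' := v.map_add_eq_of_lt_left this
    rw [map_pow] at h'
    rw [← h']
    congr 1
    ring
  rw [← hL, h, hR]

theorem Fil_mono' {γ : A.ValueGroup} (hγ : γ ≤ 1) {j k : ℕ} {x : F}
    (hx : x ∈ Fil A γ k) (hjk : j ≤ k) : x ∈ Fil A γ j :=
  Fil_mono hγ hjk hx

variable (W) in
/-- The non-unit part of the denominator of the chord slope in the chart. -/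
def chartZ (t₁ w₁ w₂ : F) : F :=
  W.a₁ * t₁ + W.a₂ * t₁ ^ 2 + W.a₃ * (w₁ + w₂) + W.a₄ * t₁ * (w₁ + w₂) +
    W.a₆ * (w₁ ^ 2 + w₁ * w₂ + w₂ ^ 2)

variable (W) in
/-- The numerator of the chord slope in the chart. -/
def chartV (t₁ t₂ w₂ : F) : F :=
  t₂ ^ 2 + t₁ * t₂ + t₁ ^ 2 + W.a₁ * w₂ + W.a₂ * (t₁ + t₂) * w₂ + W.a₄ * w₂ ^ 2

variable (W) in
/-- The slope of the chord (or tangent) in the chart. -/
def chartSlope (t₁ w₁ t₂ w₂ : F) : F :=
  chartV W t₁ t₂ w₂ / (1 - chartZ W t₁ w₁ w₂)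

theorem chart_diff {t₁ w₁ t₂ w₂ : F} (h₁ : ChartEq W t₁ w₁) (h₂ : ChartEq W t₂ w₂) :
    (w₂ - w₁) * (1 - chartZ W t₁ w₁ w₂) = (t₂ - t₁) * chartV W t₁ t₂ w₂ := by
  unfold ChartEq at h₁ h₂
  unfold chartZ chartV
  linear_combination h₂ - h₁

section Level

variable (hW : IntCoeff A W) {γ : A.ValueGroup} (hγ : γ < 1)

include hW hγ

theorem chartZ_mem {t₁ w₁ w₂ : F} (ht₁ : t₁ ∈ Fil A γ 1) (hw₁ : w₁ ∈ Fil A γ 3)
    (hw₂ : w₂ ∈ Fil A γ 3) : chartZ W t₁ w₁ w₂ ∈ Fil A γ 1 := by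
  have ha₁ : W.a₁ ∈ Fil A γ 0 := mem_Fil_zero.2 hW.a₁
  have ha₂ : W.a₂ ∈ Fil A γ 0 := mem_Fil_zero.2 hW.a₂
  have ha₃ : W.a₃ ∈ Fil A γ 0 := mem_Fil_zero.2 hW.a₃
  have ha₄ : W.a₄ ∈ Fil A γ 0 := mem_Fil_zero.2 hW.a₄
  have ha₆ : W.a₆ ∈ Fil A γ 0 := mem_Fil_zero.2 hW.a₆
  unfold chartZ
  simp only [mul_add]
  repeat' apply add_mem
  all_goals exact Fil_mono' hγ.le (by repeat' (first | assumption | exact Fil_ofNat _ | apply Fil_mul | apply Fil_pow)) (by norm_num)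

theorem chartV_mem {t₁ t₂ w₂ : F} (ht₁ : t₁ ∈ Fil A γ 1) (ht₂ : t₂ ∈ Fil A γ 1)
    (hw₂ : w₂ ∈ Fil A γ 3) : chartV W t₁ t₂ w₂ ∈ Fil A γ 2 := by
  have ha₁ : W.a₁ ∈ Fil A γ 0 := mem_Fil_zero.2 hW.a₁
  have ha₂ : W.a₂ ∈ Fil A γ 0 := mem_Fil_zero.2 hW.a₂
  have ha₄ : W.a₄ ∈ Fil A γ 0 := mem_Fil_zero.2 hW.a₄
  unfold chartV
  simp only [mul_add, add_mul]
  repeat' apply add_mem
  all_goals exact Fil_mono' hγ.le (by repeat' (first | assumption | exact Fil_ofNat _ | apply Fil_mul | apply Fil_pow)) (by norm_num)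

theorem chartSlope_mem {t₁ w₁ t₂ w₂ : F} (ht₁ : t₁ ∈ Fil A γ 1) (ht₂ : t₂ ∈ Fil A γ 1)
    (hw₁ : w₁ ∈ Fil A γ 3) (hw₂ : w₂ ∈ Fil A γ 3) : chartSlope W t₁ w₁ t₂ w₂ ∈ Fil A γ 2 := by
  unfold chartSlope
  rw [div_eq_mul_inv]
  exact Fil_mul (chartV_mem hW hγ ht₁ ht₂ hw₂) (inv_one_sub_mem hγ (chartZ_mem hW hγ ht₁ hw₁ hw₂))

theorem chartSlope_spec {t₁ w₁ t₂ w₂ : F} (h₁ : ChartEq W t₁ w₁) (h₂ : ChartEq W t₂ w₂)
    (ht₁ : t₁ ∈ Fil A γ 1) (hw₁ : w₁ ∈ Fil A γ 3) (hw₂ : w₂ ∈ Fil A γ 3) :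
    w₂ - w₁ = chartSlope W t₁ w₁ t₂ w₂ * (t₂ - t₁) := by
  have hU := one_sub_ne_zero hγ (chartZ_mem hW hγ ht₁ hw₁ hw₂)
  unfold chartSlope
  field_simp
  linear_combination chart_diff h₁ h₂

variable [DecidableEq F]

/-- The Mathlib slope of two points of the kernel of reduction, in terms of the chart. -/
theorem slope_eq_chart {t₁ w₁ t₂ w₂ : F} (h₁ : ChartEq W t₁ w₁) (h₂ : ChartEq W t₂ w₂)
    (ht₁ : t₁ ∈ Fil A γ 1) (hw₁ : w₁ ∈ Fil A γ 3) (hw₂ : w₂ ∈ Fil A γ 3)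
    (hw₁' : w₁ ≠ 0) (hw₂' : w₂ ≠ 0)
    (hxy : ¬(t₁ / w₁ = t₂ / w₂ ∧ -1 / w₁ = W.negY (t₂ / w₂) (-1 / w₂))) :
    w₁ - chartSlope W t₁ w₁ t₂ w₂ * t₁ ≠ 0 ∧
      W.slope (t₁ / w₁) (t₂ / w₂) (-1 / w₁) (-1 / w₂) =
        chartSlope W t₁ w₁ t₂ w₂ / (w₁ - chartSlope W t₁ w₁ t₂ w₂ * t₁) := by
  have hspec := chartSlope_spec hW hγ h₁ h₂ ht₁ hw₁ hw₂
  set lam := chartSlope W t₁ w₁ t₂ w₂ with hlam
  by_cases hx : t₁ / w₁ = t₂ / w₂
  · -- tangent case
    have hy : -1 / w₁ ≠ W.negY (t₂ / w₂) (-1 / w₂) := fun h => hxy ⟨hx, h⟩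
    have hyy := Y_eq_of_Y_ne (equation_of_chartEq h₁ hw₁') (equation_of_chartEq h₂ hw₂') hx hy
    have hww : w₁ = w₂ := by
      field_simp at hyy
      exact neg_injective hyy.symm
    subst hww
    have htt : t₁ = t₂ := by
      field_simp at hx
      exact hx
    subst htt
    have hU := one_sub_ne_zero hγ (chartZ_mem hW hγ ht₁ hw₁ hw₁)
    have key : w₁ * (1 - chartZ W t₁ w₁ w₁) - t₁ * chartV W t₁ t₁ w₁ =
        w₁ * (-2 + W.a₁ * t₁ + W.a₃ * w₁) := by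
      unfold chartZ chartV
      unfold ChartEq at h₁
      linear_combination 3 * h₁
    have hD : -1 / w₁ - W.negY (t₁ / w₁) (-1 / w₁) ≠ 0 := sub_ne_zero.2 hy
    have hc : -2 + W.a₁ * t₁ + W.a₃ * w₁ ≠ 0 := by
      intro h0
      apply hD
      rw [negY]
      field_simp
      linear_combination h0
    have hnu : w₁ - lam * t₁ =
        w₁ * (-2 + W.a₁ * t₁ + W.a₃ * w₁) / (1 - chartZ W t₁ w₁ w₁) := by
      rw [hlam]
      unfold chartSlope
      field_simp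
      linear_combination key
    have hne : w₁ - lam * t₁ ≠ 0 := by
      rw [hnu]
      exact div_ne_zero (mul_ne_zero hw₁' hc) hU
    refine ⟨hne, ?_⟩
    rw [slope_of_Y_ne rfl hy, div_eq_div_iff hD hne, hnu, hlam]
    unfold chartSlope
    set U := 1 - chartZ W t₁ w₁ w₁ with hUdef
    unfold chartV
    rw [negY]
    field_simp
    ring
  · -- chord case
    have hne : w₁ - lam * t₁ ≠ 0 := by
      intro h0
      have e1 : w₁ = lam * t₁ := by linear_combination h0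
      have e2 : w₂ = lam * t₂ := by linear_combination hspec + h0
      have hl : lam ≠ 0 := by
        rintro h
        rw [h, zero_mul] at e1
        exact hw₁' e1
      have ht1 : t₁ ≠ 0 := by
        rintro h
        rw [h, mul_zero] at e1
        exact hw₁' e1
      have ht2 : t₂ ≠ 0 := by
        rintro h
        rw [h, mul_zero] at e2
        exact hw₂' e2
      apply hx
      rw [e1, e2]
      field_simp
    refine ⟨hne, ?_⟩
    rw [slope_of_X_ne hx, div_eq_div_iff (sub_ne_zero.2 hx) hne]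
    field_simp
    linear_combination (-w₁) * hspec

omit hW hγ [DecidableEq F] in
/-- Vieta's formulas for the cubic cut out by a line, transported to the chart. -/
theorem vieta_chart {a₁ a₂ a₃ a₄ a₆ x₁ x₂ x₃ l m lam nu : F} (hnu : nu ≠ 0)
    (hl : l = lam / nu) (hm : m = -1 / nu)
    (e₁ : x₁ + x₂ + x₃ = l ^ 2 + a₁ * l - a₂)
    (e₂ : x₁ * x₂ + x₁ * x₃ + x₂ * x₃ = a₄ - a₃ * l - 2 * l * m - a₁ * m)
    (e₃ : x₁ * x₂ * x₃ = -a₆ + m ^ 2 + a₃ * m) :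
    (1 - lam * x₁) * (1 - lam * x₂) * (1 - lam * x₃) =
        1 + a₂ * lam + a₄ * lam ^ 2 + a₆ * lam ^ 3 ∧
      -nu * (x₁ * (1 - lam * x₂) * (1 - lam * x₃) + x₂ * (1 - lam * x₁) * (1 - lam * x₃) +
          x₃ * (1 - lam * x₁) * (1 - lam * x₂)) =
        a₁ * lam + a₂ * nu + a₃ * lam ^ 2 + 2 * a₄ * lam * nu + 3 * a₆ * lam ^ 2 * nu := by
  subst hl hm
  constructor
  · linear_combination (norm := (field_simp; ring)) (-lam) * e₁ + lam ^ 2 * e₂ - lam ^ 3 * e₃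
  · linear_combination (norm := (field_simp; ring))
      (-nu) * e₁ + (2 * nu * lam) * e₂ - (3 * nu * lam ^ 2) * e₃

omit hW hγ in
/-- The coefficient identities of the cubic cut out by the chord or tangent line. -/
theorem vieta_slope {x₁ x₂ y₁ y₂ : F} (h₁ : W.Equation x₁ y₁) (h₂ : W.Equation x₂ y₂)
    (hxy : ¬(x₁ = x₂ ∧ y₁ = W.negY x₂ y₂)) :
    x₁ * x₂ + x₁ * W.addX x₁ x₂ (W.slope x₁ x₂ y₁ y₂) + x₂ * W.addX x₁ x₂ (W.slope x₁ x₂ y₁ y₂) =
        W.a₄ - W.a₃ * W.slope x₁ x₂ y₁ y₂ -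
          2 * W.slope x₁ x₂ y₁ y₂ * (y₁ - W.slope x₁ x₂ y₁ y₂ * x₁) -
          W.a₁ * (y₁ - W.slope x₁ x₂ y₁ y₂ * x₁) ∧
      x₁ * x₂ * W.addX x₁ x₂ (W.slope x₁ x₂ y₁ y₂) =
        -W.a₆ + (y₁ - W.slope x₁ x₂ y₁ y₂ * x₁) ^ 2 +
          W.a₃ * (y₁ - W.slope x₁ x₂ y₁ y₂ * x₁) := by
  have h := addPolynomial_slope h₁ h₂ hxy
  rw [addPolynomial_eq, neg_inj, Cubic.prod_X_sub_C_eq, Cubic.toPoly_injective] at h
  have hc := congrArg Cubic.c h
  have hd := congrArg Cubic.d h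
  simp only at hc hd
  constructor
  · linear_combination -hc
  · linear_combination hd

omit hγ [DecidableEq F] in
/-- Chart coordinates of a point of the kernel of reduction. -/
theorem exists_chart {x y : F} (h : W.Equation x y) (hx : x ∉ A) (ht : -x / y ∈ Fil A γ 1) :
    ∃ t w : F, x = t / w ∧ y = -1 / w ∧ ChartEq W t w ∧ t ∈ Fil A γ 1 ∧ w ∈ Fil A γ 3 ∧
      w ≠ 0 := by
  obtain ⟨hxy, hyx⟩ := valuation_of_notMem hW h hx
  have hx1 : 1 < A.valuation x := by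
    rw [← A.valuation_le_one_iff, not_le] at hx
    exact hx
  have hy0 : y ≠ 0 := by
    rintro rfl
    rw [map_zero] at hxy
    exact not_lt_zero hxy
  have hx0 : x ≠ 0 := by
    rintro rfl
    rw [map_zero] at hx1
    exact not_lt_zero hx1
  refine ⟨-x / y, -1 / y, by field_simp, by field_simp, chartEq_of_equation h hy0, ht, ?_, ?_⟩
  · rw [mem_Fil] at ht ⊢
    have : A.valuation (-1 / y) = A.valuation (-x / y) ^ 3 := by
      rw [neg_div, neg_div, Valuation.map_neg, Valuation.map_neg, map_div₀, map_div₀, map_one,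
        div_pow, ← hyx]
      have hvy : A.valuation y ≠ 0 := (A.valuation.ne_zero_iff).2 hy0
      field_simp
    rw [this]
    rw [pow_one] at ht
    exact pow_le_pow_left' ht 3
  · exact div_ne_zero (neg_ne_zero.2 one_ne_zero) hy0

omit [DecidableEq F] in
/-- A point of the chart close to the origin has non-integral `x`-coordinate. -/
theorem notMem_of_chart {t w : F} (h : ChartEq W t w) (ht : t ∈ Fil A γ 1) (hw : w ∈ Fil A γ 3)
    (hw' : w ≠ 0) : t / w ∉ A := by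
  have ha₁ : W.a₁ ∈ Fil A γ 0 := mem_Fil_zero.2 hW.a₁
  have ha₂ : W.a₂ ∈ Fil A γ 0 := mem_Fil_zero.2 hW.a₂
  have ha₃ : W.a₃ ∈ Fil A γ 0 := mem_Fil_zero.2 hW.a₃
  have ha₄ : W.a₄ ∈ Fil A γ 0 := mem_Fil_zero.2 hW.a₄
  have ha₆ : W.a₆ ∈ Fil A γ 0 := mem_Fil_zero.2 hW.a₆
  have hZ : W.a₁ * t + W.a₂ * t ^ 2 + W.a₃ * w + W.a₄ * t * w + W.a₆ * w ^ 2 ∈ Fil A γ 1 := by
    repeat' apply add_mem
    all_goals exact Fil_mono' hγ.le (by repeat' (first | assumption | exact Fil_ofNat _ | apply Fil_mul | apply Fil_pow)) (by norm_num)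
  have hU := valuation_one_sub hγ hZ
  have hwt : w * (1 - (W.a₁ * t + W.a₂ * t ^ 2 + W.a₃ * w + W.a₄ * t * w + W.a₆ * w ^ 2)) =
      t ^ 3 := by
    unfold ChartEq at h
    linear_combination h
  have hv : A.valuation w = A.valuation t ^ 3 := by
    have := congrArg A.valuation hwt
    rw [map_mul, hU, mul_one, map_pow] at this
    exact this
  have hvw : A.valuation w ≠ 0 := (A.valuation.ne_zero_iff).2 hw'
  have hvt : A.valuation t ≠ 0 := by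
    intro h0
    rw [h0] at hv
    exact hvw (by simpa using hv)
  have hvt1 : A.valuation t < 1 := by
    rw [mem_Fil, pow_one] at ht
    exact lt_of_le_of_lt ht hγ
  rw [← A.valuation_le_one_iff, not_le, map_div₀, hv]
  rw [one_lt_div₀ (pow_pos (zero_lt_iff.2 hvt) 3)]
  calc A.valuation t ^ 3 = A.valuation t ^ 2 * A.valuation t := pow_succ _ 2
    _ < 1 * A.valuation t := by
        have : A.valuation t ^ 2 < 1 := pow_lt_one₀ zero_le hvt1 two_ne_zero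
        have h0 : 0 < A.valuation t := zero_lt_iff.2 hvt
        gcongr
    _ = A.valuation t := one_mul _

/-- The third intersection point of the chord or tangent line, in the chart. -/
theorem third_point {t₁ w₁ t₂ w₂ : F} (c₁ : ChartEq W t₁ w₁) (c₂ : ChartEq W t₂ w₂)
    (ht₁ : t₁ ∈ Fil A γ 1) (ht₂ : t₂ ∈ Fil A γ 1) (hw₁ : w₁ ∈ Fil A γ 3) (hw₂ : w₂ ∈ Fil A γ 3)
    (hw₁' : w₁ ≠ 0) (hw₂' : w₂ ≠ 0)
    (hxy : ¬(t₁ / w₁ = t₂ / w₂ ∧ -1 / w₁ = W.negY (t₂ / w₂) (-1 / w₂))) :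
    ∃ t₃ w₃ : F,
      W.addX (t₁ / w₁) (t₂ / w₂) (W.slope (t₁ / w₁) (t₂ / w₂) (-1 / w₁) (-1 / w₂)) = t₃ / w₃ ∧
      W.negAddY (t₁ / w₁) (t₂ / w₂) (-1 / w₁) (W.slope (t₁ / w₁) (t₂ / w₂) (-1 / w₁) (-1 / w₂)) =
        -1 / w₃ ∧
      ChartEq W t₃ w₃ ∧ t₃ ∈ Fil A γ 1 ∧ w₃ ∈ Fil A γ 3 ∧ w₃ ≠ 0 ∧ t₁ + t₂ + t₃ ∈ Fil A γ 2 := by
  have ha₁ : W.a₁ ∈ Fil A γ 0 := mem_Fil_zero.2 hW.a₁
  have ha₂ : W.a₂ ∈ Fil A γ 0 := mem_Fil_zero.2 hW.a₂
  have ha₃ : W.a₃ ∈ Fil A γ 0 := mem_Fil_zero.2 hW.a₃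
  have ha₄ : W.a₄ ∈ Fil A γ 0 := mem_Fil_zero.2 hW.a₄
  have ha₆ : W.a₆ ∈ Fil A γ 0 := mem_Fil_zero.2 hW.a₆
  have h₁ := equation_of_chartEq c₁ hw₁'
  have h₂ := equation_of_chartEq c₂ hw₂'
  obtain ⟨hnu, hsl⟩ := slope_eq_chart hW hγ c₁ c₂ ht₁ hw₁ hw₂ hw₁' hw₂' hxy
  have hspec := chartSlope_spec hW hγ c₁ c₂ ht₁ hw₁ hw₂
  have hlam := chartSlope_mem hW hγ ht₁ ht₂ hw₁ hw₂
  obtain ⟨e₂, e₃⟩ := vieta_slope h₁ h₂ hxy
  have heq3 := equation_negAdd h₁ h₂ hxy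
  rw [hsl] at e₂ e₃ heq3 ⊢
  set lam := chartSlope W t₁ w₁ t₂ w₂ with hlamdef
  have hnu_mem : w₁ - lam * t₁ ∈ Fil A γ 3 := sub_mem hw₁ (Fil_mul hlam ht₁)
  generalize hnudef : w₁ - lam * t₁ = nu at *
  have hw₂nu : w₂ = lam * t₂ + nu := by linear_combination hspec + hnudef
  have hw₁nu : w₁ = lam * t₁ + nu := by linear_combination hnudef
  have hm : -1 / w₁ - lam / nu * (t₁ / w₁) = -1 / nu := by
    field_simp
    linear_combination hw₁nu
  have e₁ : t₁ / w₁ + t₂ / w₂ + W.addX (t₁ / w₁) (t₂ / w₂) (lam / nu) =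
      (lam / nu) ^ 2 + W.a₁ * (lam / nu) - W.a₂ := by
    simp only [addX]
    ring
  have hy₃ : W.negAddY (t₁ / w₁) (t₂ / w₂) (-1 / w₁) (lam / nu) =
      -(1 - lam * W.addX (t₁ / w₁) (t₂ / w₂) (lam / nu)) / nu := by
    simp only [negAddY]
    field_simp
    linear_combination hw₁nu
  generalize W.addX (t₁ / w₁) (t₂ / w₂) (lam / nu) = x₃ at *
  obtain ⟨I3, I2⟩ := vieta_chart hnu rfl hm e₁ e₂ e₃
  -- the leading coefficient is a unit
  have hg : -(W.a₂ * lam + W.a₄ * lam ^ 2 + W.a₆ * lam ^ 3) ∈ Fil A γ 1 := by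
    apply neg_mem
    repeat' apply add_mem
    all_goals exact Fil_mono' hγ.le (by repeat' (first | assumption | exact Fil_ofNat _ | apply Fil_mul | apply Fil_pow)) (by norm_num)
  have hG3 : 1 + W.a₂ * lam + W.a₄ * lam ^ 2 + W.a₆ * lam ^ 3 =
      1 - -(W.a₂ * lam + W.a₄ * lam ^ 2 + W.a₆ * lam ^ 3) := by ring
  have hG3ne := one_sub_ne_zero hγ hg
  have hG3inv := inv_one_sub_mem hγ hg
  rw [← hG3] at hG3ne hG3inv
  have hG2 : W.a₁ * lam + W.a₂ * nu + W.a₃ * lam ^ 2 + 2 * W.a₄ * lam * nu +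
      3 * W.a₆ * lam ^ 2 * nu ∈ Fil A γ 2 := by
    repeat' apply add_mem
    all_goals exact Fil_mono' hγ.le (by repeat' (first | assumption | exact Fil_ofNat _ | apply Fil_mul | apply Fil_pow)) (by norm_num)
  -- the three factors
  have hd₁ : 1 - lam * (t₁ / w₁) = nu / w₁ := by
    field_simp
    linear_combination hw₁nu
  have hd₂ : 1 - lam * (t₂ / w₂) = nu / w₂ := by
    field_simp
    linear_combination hw₂nu
  have hd₃ : 1 - lam * x₃ ≠ 0 := by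
    intro h0
    rw [h0, mul_zero] at I3
    exact hG3ne I3.symm
  have hd₃' : 1 - x₃ * lam ≠ 0 := by rwa [mul_comm]
  have hy₃ne : -(1 - lam * x₃) / nu ≠ 0 := div_ne_zero (neg_ne_zero.2 hd₃) hnu
  rw [hy₃] at heq3 ⊢
  have c₃ := chartEq_of_equation heq3 hy₃ne
  have ht₃eq : -x₃ / (-(1 - lam * x₃) / nu) = nu * x₃ / (1 - lam * x₃) := by
    field_simp
  have hw₃eq : -1 / (-(1 - lam * x₃) / nu) = nu / (1 - lam * x₃) := by
    field_simp
  rw [ht₃eq, hw₃eq] at c₃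
  have hsum : (t₁ + t₂ + nu * x₃ / (1 - lam * x₃)) *
      (1 + W.a₂ * lam + W.a₄ * lam ^ 2 + W.a₆ * lam ^ 3) =
      -(W.a₁ * lam + W.a₂ * nu + W.a₃ * lam ^ 2 + 2 * W.a₄ * lam * nu +
        3 * W.a₆ * lam ^ 2 * nu) := by
    rw [← I3, ← I2, hd₁, hd₂]
    field_simp
  have hsum_mem : t₁ + t₂ + nu * x₃ / (1 - lam * x₃) ∈ Fil A γ 2 := by
    have : t₁ + t₂ + nu * x₃ / (1 - lam * x₃) =
        -(W.a₁ * lam + W.a₂ * nu + W.a₃ * lam ^ 2 + 2 * W.a₄ * lam * nu +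
          3 * W.a₆ * lam ^ 2 * nu) *
        (1 + W.a₂ * lam + W.a₄ * lam ^ 2 + W.a₆ * lam ^ 3)⁻¹ := by
      rw [← hsum, mul_assoc, mul_inv_cancel₀ hG3ne, mul_one]
    rw [this]
    exact Fil_mul (neg_mem hG2) hG3inv
  have ht₃ : nu * x₃ / (1 - lam * x₃) ∈ Fil A γ 1 := by
    have : nu * x₃ / (1 - lam * x₃) = (t₁ + t₂ + nu * x₃ / (1 - lam * x₃)) - t₁ - t₂ := by ring
    rw [this]
    exact sub_mem (sub_mem (Fil_mono' hγ.le hsum_mem (by norm_num)) ht₁) ht₂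
  have hw₃ : nu / (1 - lam * x₃) ∈ Fil A γ 3 := by
    have : nu / (1 - lam * x₃) = lam * (nu * x₃ / (1 - lam * x₃)) + nu := by
      field_simp
      ring
    rw [this]
    exact add_mem (Fil_mul hlam ht₃) hnu_mem
  refine ⟨nu * x₃ / (1 - lam * x₃), nu / (1 - lam * x₃), ?_, ?_, c₃, ht₃, hw₃,
    div_ne_zero hnu hd₃, hsum_mem⟩
  · field_simp
  · field_simp

omit hW hγ [DecidableEq F] in
theorem tCoord_neg_chart {t w : F} (hw : w ≠ 0) (hz : 1 - (W.a₁ * t + W.a₃ * w) ≠ 0) :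
    -(t / w) / W.negY (t / w) (-1 / w) = -t * (1 - (W.a₁ * t + W.a₃ * w))⁻¹ := by
  have hz' : 1 - (t * W.a₁ + w * W.a₃) ≠ 0 := by
    intro h
    apply hz
    linear_combination h
  have hz'' : 1 - t * W.a₁ - w * W.a₃ ≠ 0 := by
    intro h
    apply hz
    linear_combination h
  rw [negY]
  have hD : -(-1 / w) - W.a₁ * (t / w) - W.a₃ = (1 - (W.a₁ * t + W.a₃ * w)) / w := by
    field_simp
    ring
  rw [hD]
  field_simp

/-- Addition of two points of the kernel of reduction: the generic case. -/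
theorem add_xy {x₁ y₁ x₂ y₂ : F} (h₁ : W.Equation x₁ y₁) (h₂ : W.Equation x₂ y₂)
    (hx₁ : x₁ ∉ A) (hx₂ : x₂ ∉ A) (ht₁ : -x₁ / y₁ ∈ Fil A γ 1) (ht₂ : -x₂ / y₂ ∈ Fil A γ 1)
    (hxy : ¬(x₁ = x₂ ∧ y₁ = W.negY x₂ y₂)) :
    W.addX x₁ x₂ (W.slope x₁ x₂ y₁ y₂) ∉ A ∧
      -W.addX x₁ x₂ (W.slope x₁ x₂ y₁ y₂) / W.addY x₁ x₂ y₁ (W.slope x₁ x₂ y₁ y₂) ∈ Fil A γ 1 ∧
      -W.addX x₁ x₂ (W.slope x₁ x₂ y₁ y₂) / W.addY x₁ x₂ y₁ (W.slope x₁ x₂ y₁ y₂) -
        -x₁ / y₁ - -x₂ / y₂ ∈ Fil A γ 2 := by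
  have ha₁ : W.a₁ ∈ Fil A γ 0 := mem_Fil_zero.2 hW.a₁
  have ha₃ : W.a₃ ∈ Fil A γ 0 := mem_Fil_zero.2 hW.a₃
  obtain ⟨t₁, w₁, rfl, rfl, c₁, ht₁', hw₁, hw₁'⟩ := exists_chart hW h₁ hx₁ ht₁
  obtain ⟨t₂, w₂, rfl, rfl, c₂, ht₂', hw₂, hw₂'⟩ := exists_chart hW h₂ hx₂ ht₂
  obtain ⟨t₃, w₃, hx₃, hy₃, c₃, ht₃, hw₃, hw₃', hsum⟩ :=
    third_point hW hγ c₁ c₂ ht₁' ht₂' hw₁ hw₂ hw₁' hw₂' hxy
  rw [addY, hy₃, hx₃]
  have e1 : -(t₁ / w₁) / (-1 / w₁) = t₁ := by field_simp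
  have e2 : -(t₂ / w₂) / (-1 / w₂) = t₂ := by field_simp
  have hz : W.a₁ * t₃ + W.a₃ * w₃ ∈ Fil A γ 1 := by
    repeat' apply add_mem
    all_goals exact Fil_mono' hγ.le (by repeat' (first | assumption | exact Fil_ofNat _ | apply Fil_mul | apply Fil_pow)) (by norm_num)
  have hzne := one_sub_ne_zero hγ hz
  have hzinv := inv_one_sub_mem hγ hz
  rw [e1, e2, tCoord_neg_chart hw₃' hzne]
  refine ⟨notMem_of_chart hW hγ c₃ ht₃ hw₃ hw₃', ?_, ?_⟩
  · exact Fil_mul (neg_mem ht₃) hzinv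
  · have : -t₃ * (1 - (W.a₁ * t₃ + W.a₃ * w₃))⁻¹ - t₁ - t₂ =
        -(t₁ + t₂ + t₃) - t₃ * (W.a₁ * t₃ + W.a₃ * w₃) * (1 - (W.a₁ * t₃ + W.a₃ * w₃))⁻¹ := by
      linear_combination (-t₃) * mul_inv_cancel₀ hzne
    rw [this]
    exact sub_mem (neg_mem hsum) (Fil_mul (Fil_mul ht₃ hz) hzinv)

omit [DecidableEq F] in
/-- Addition of two opposite points of the kernel of reduction. -/
theorem add_xy_neg {x y : F} (h : W.Equation x y) (hx : x ∉ A) (ht : -x / y ∈ Fil A γ 1) :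
    -x / W.negY x y + -x / y ∈ Fil A γ 2 := by
  have ha₁ : W.a₁ ∈ Fil A γ 0 := mem_Fil_zero.2 hW.a₁
  have ha₃ : W.a₃ ∈ Fil A γ 0 := mem_Fil_zero.2 hW.a₃
  obtain ⟨t, w, rfl, rfl, c, ht', hw, hw'⟩ := exists_chart hW h hx ht
  have e1 : -(t / w) / (-1 / w) = t := by field_simp
  have hz : W.a₁ * t + W.a₃ * w ∈ Fil A γ 1 := by
    repeat' apply add_mem
    all_goals exact Fil_mono' hγ.le (by repeat' (first | assumption | exact Fil_ofNat _ | apply Fil_mul | apply Fil_pow)) (by norm_num)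
  have hzne := one_sub_ne_zero hγ hz
  have hzinv := inv_one_sub_mem hγ hz
  rw [e1, tCoord_neg_chart hw' hzne]
  have : -t * (1 - (W.a₁ * t + W.a₃ * w))⁻¹ + t =
      -(t * (W.a₁ * t + W.a₃ * w) * (1 - (W.a₁ * t + W.a₃ * w))⁻¹) := by
    linear_combination (-t) * mul_inv_cancel₀ hzne
  rw [this]
  exact neg_mem (Fil_mul (Fil_mul ht' hz) hzinv)

end Level

/-! ### The kernel of reduction as a set of points -/

/-- The chart coordinate `t = -x / y` of a point (`0` at the origin). -/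
def tCoord : W.Point → F
  | .zero => 0
  | .some x y _ => -x / y

variable (A) in
/-- Membership in the kernel of reduction at level `γ`. -/
def InKer (γ : A.ValueGroup) : W.Point → Prop
  | .zero => True
  | .some x y _ => x ∉ A ∧ -x / y ∈ Fil A γ 1

variable [DecidableEq F]

theorem add_mem_ker (hW : IntCoeff A W) {γ : A.ValueGroup} (hγ : γ < 1) {P Q : W.Point}
    (hP : InKer A γ P) (hQ : InKer A γ Q) :
    InKer A γ (P + Q) ∧ tCoord (P + Q) - tCoord P - tCoord Q ∈ Fil A γ 2 := by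
  rcases P with _ | ⟨x₁, y₁, h₁⟩
  · change InKer A γ (0 + Q) ∧ tCoord (0 + Q) - 0 - tCoord Q ∈ Fil A γ 2
    rw [zero_add]
    exact ⟨hQ, by simp⟩
  rcases Q with _ | ⟨x₂, y₂, h₂⟩
  · change InKer A γ (Point.some x₁ y₁ h₁ + 0) ∧
      tCoord (Point.some x₁ y₁ h₁ + 0) - tCoord (Point.some x₁ y₁ h₁) - 0 ∈ Fil A γ 2
    rw [add_zero]
    exact ⟨hP, by simp⟩
  by_cases hxy : x₁ = x₂ ∧ y₁ = W.negY x₂ y₂
  · rw [Point.add_of_Y_eq hxy.1 hxy.2]
    refine ⟨trivial, ?_⟩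
    obtain ⟨rfl, rfl⟩ := hxy
    have := add_xy_neg hW hγ h₂.1 hQ.1 hQ.2
    change (0 : F) - -x₁ / W.negY x₁ y₂ - -x₁ / y₂ ∈ Fil A γ 2
    have e : (0 : F) - -x₁ / W.negY x₁ y₂ - -x₁ / y₂ = -(-x₁ / W.negY x₁ y₂ + -x₁ / y₂) := by
      ring
    rw [e]
    exact neg_mem this
  · rw [Point.add_some hxy]
    obtain ⟨a, b, c⟩ := add_xy hW hγ h₁.1 h₂.1 hP.1 hQ.1 hP.2 hQ.2 hxy
    exact ⟨⟨a, b⟩, c⟩

theorem nsmul_mem_ker (hW : IntCoeff A W) {γ : A.ValueGroup} (hγ : γ < 1) {P : W.Point}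
    (hP : InKer A γ P) (n : ℕ) :
    InKer A γ (n • P) ∧ tCoord (n • P) - n * tCoord P ∈ Fil A γ 2 := by
  induction n with
  | zero =>
    rw [zero_smul]
    refine ⟨trivial, ?_⟩
    change (0 : F) - (0 : ℕ) * tCoord P ∈ Fil A γ 2
    simp
  | succ n ih =>
    rw [succ_nsmul]
    obtain ⟨h1, h2⟩ := add_mem_ker hW hγ ih.1 hP
    refine ⟨h1, ?_⟩
    have : tCoord (n • P + P) - ((n + 1 : ℕ) : F) * tCoord P =
        (tCoord (n • P + P) - tCoord (n • P) - tCoord P) + (tCoord (n • P) - n * tCoord P) := by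
      push_cast
      ring
    rw [this]
    exact add_mem h2 ih.2

/-- **G1.** The kernel of reduction of an integral Weierstrass curve has no `n`-torsion for `n`
a unit of the valuation ring: if `x ∉ A` then `n • (x, y) ≠ 0`. -/
theorem nsmul_ne_zero_of_x_notMem (hW : IntCoeff A W) (n : ℕ) (hn : A.valuation (n : F) = 1)
    {x y : F} (h : W.Nonsingular x y) (hx : x ∉ A) : n • Point.some x y h ≠ 0 := by
  obtain ⟨hxy, -⟩ := valuation_of_notMem hW h.1 hx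
  have hx1 : 1 < A.valuation x := by
    rw [← A.valuation_le_one_iff, not_le] at hx
    exact hx
  have hx0 : 0 < A.valuation x := lt_trans zero_lt_one hx1
  have hy0 : 0 < A.valuation y := lt_trans hx0 hxy
  have hγeq : A.valuation (-x / y) = A.valuation x / A.valuation y := by
    rw [neg_div, Valuation.map_neg, map_div₀]
  have hγ : A.valuation (-x / y) < 1 := by
    rw [hγeq]
    exact (div_lt_one₀ hy0).2 hxy
  have hγ0 : 0 < A.valuation (-x / y) := by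
    rw [hγeq]
    exact div_pos hx0 hy0
  have hP : InKer A (A.valuation (-x / y)) (Point.some x y h) :=
    ⟨hx, by rw [mem_Fil, pow_one]⟩
  obtain ⟨-, h2⟩ := nsmul_mem_ker hW hγ hP n
  intro h0
  rw [h0] at h2
  change (0 : F) - (n : F) * (-x / y) ∈ Fil A (A.valuation (-x / y)) 2 at h2
  rw [mem_Fil, zero_sub, Valuation.map_neg, map_mul, hn, one_mul, sq] at h2
  have : A.valuation (-x / y) * A.valuation (-x / y) < A.valuation (-x / y) * 1 := by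
    gcongr
  rw [mul_one] at this
  exact absurd h2 (not_le.2 this)

end KerRed

end Fermat.Agent.S05
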