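import Mathlib

set_option autoImplicit false

open Cardinal

universe u

namespace Fermat.Agent.S05

namespace Lefschetz

/-- A field of characteristic zero of cardinality at most the continuum embeds into `ℂ`. -/
theorem exists_ringHom_complex (F0 : Type u) [Field F0] [CharZero F0]
    (hcard : #F0 ≤ 𝔠) : Nonempty (F0 →+* ℂ) := by
  let R := MvPolynomial (ULift.{u} ℝ) F0
  let P := FractionRing R
  let M := AlgebraicClosure P
  have hc : (𝔠 : Cardinal.{u}) = #(ULift.{u} ℝ) := by
    rw [Cardinal.mk_uLift, Cardinal.mk_real, Cardinal.lift_continuum]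
  have haleph : ℵ₀ ≤ (𝔠 : Cardinal.{u}) := aleph0_le_continuum
  -- upper bound
  have hR : #R ≤ 𝔠 := by
    refine (MvPolynomial.cardinalMk_le_max).trans ?_
    rw [← hc]
    exact max_le (max_le hcard le_rfl) haleph
  have hP : #P ≤ 𝔠 := by
    refine (OreLocalization.cardinalMk_le_max (S := nonZeroDivisors R) (X := R)).trans ?_
    rw [Cardinal.lift_id, Cardinal.lift_id]
    exact max_le ((mk_subtype_le _).trans hR) hR
  have hM : #M ≤ 𝔠 := by
    have := Algebra.IsAlgebraic.lift_cardinalMk_le_max P M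
    rw [Cardinal.lift_id, Cardinal.lift_id] at this
    exact this.trans (max_le hP haleph)
  -- lower bound
  have hM' : (𝔠 : Cardinal.{u}) ≤ #M := by
    rw [hc]
    refine Cardinal.mk_le_of_injective (f := fun r => algebraMap P M (algebraMap R P (MvPolynomial.X r))) ?_
    intro r r' h
    have h1 := (algebraMap P M).injective h
    have h2 := IsFractionRing.injective R P h1
    exact MvPolynomial.X_injective h2
  have hMeq : #M = 𝔠 := le_antisymm hM hM'
  have hunc : ℵ₀ < #M := by
    rw [hMeq]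
    exact aleph0_lt_continuum
  have hequiv : Nonempty (M ≃ ℂ) := by
    rw [← Cardinal.lift_mk_eq', hMeq, Cardinal.mk_complex, Cardinal.lift_continuum, Cardinal.lift_continuum]
  obtain ⟨e⟩ := IsAlgClosed.ringEquiv_of_equiv_of_charZero hunc hequiv
  exact ⟨(e : M →+* ℂ).comp ((algebraMap P M).comp ((algebraMap R P).comp MvPolynomial.C))⟩

open WeierstrassCurve WeierstrassCurve.Affine in
/-- Transfer of a torsion bound along two extensions `F ← F0 → K` of a field of definition
`F0` of the curve and of the finitely many points in question. -/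
theorem card_le_of_baseChange {F0 : Type*} {F : Type*} {K : Type*} [Field F0] [Field F] [Field K]
    [DecidableEq F0] [DecidableEq F] [DecidableEq K] [Algebra F0 F] [Algebra F0 K]
    (W0 : WeierstrassCurve F0) (W : WeierstrassCurve F) (hW : W0.baseChange F = W) (p B : ℕ)
    (hK : ∀ T : Finset (W0.baseChange K).toAffine.Point, (∀ P ∈ T, p • P = 0) → T.card ≤ B)
    (T : Finset W.toAffine.Point) (hT : ∀ P ∈ T, p • P = 0)
    (hr : ∀ (x y : F) (h : W.toAffine.Nonsingular x y), Point.some x y h ∈ T →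
      x ∈ Set.range (algebraMap F0 F) ∧ y ∈ Set.range (algebraMap F0 F)) : T.card ≤ B := by
  classical
  subst hW
  let f : F0 →ₐ[F0] F := Algebra.ofId F0 F
  let g : F0 →ₐ[F0] K := Algebra.ofId F0 K
  have hf : Function.Injective (Point.map (W' := W0) f) := Point.map_injective f
  have hg : Function.Injective (Point.map (W' := W0) g) := Point.map_injective g
  have hr' : ∀ P ∈ T, P ∈ Set.range (Point.map (W' := W0) f) := by
    intro P hP
    rcases P with _ | ⟨x, y, h⟩
    · exact ⟨0, rfl⟩
    · obtain ⟨⟨x0, rfl⟩, ⟨y0, rfl⟩⟩ := hr x y h hP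
      exact ⟨Point.some x0 y0 ((WeierstrassCurve.Affine.baseChange_nonsingular (W := W0) (f := f) f.injective x0 y0).1 h), rfl⟩
  let T0 := T.preimage (Point.map (W' := W0) f) hf.injOn
  have hcard : T0.card = T.card := by
    rw [Finset.card_preimage]
    congr 1
    exact Finset.filter_true_of_mem hr'
  let T' := T0.map ⟨Point.map (W' := W0) g, hg⟩
  have key := hK T' (by
    intro P hP
    obtain ⟨Q, hQ, rfl⟩ := Finset.mem_map.1 hP
    have hQ' : Point.map (W' := W0) f Q ∈ T := Finset.mem_preimage.1 hQ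
    have h1 := hT _ hQ'
    rw [← map_nsmul] at h1
    have h2 : p • Q = 0 := hf (by rw [h1, map_zero])
    show p • Point.map (W' := W0) g Q = 0
    rw [← map_nsmul, h2, map_zero])
  rw [Finset.card_map, hcard] at key
  exact key

open WeierstrassCurve WeierstrassCurve.Affine in
/-- **Lefschetz principle for torsion counts.** If every elliptic curve over `ℂ` has at most
`B` points killed by `p`, then so does every elliptic curve over any field of characteristic
zero. -/
theorem card_torsion_le {F : Type*} [Field F] [DecidableEq F] [CharZero F]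
    (W : WeierstrassCurve F) (hΔ : W.Δ ≠ 0) (p : ℕ) (B : ℕ)
    (hC : ∀ (_inst : DecidableEq ℂ) (W' : WeierstrassCurve ℂ), W'.Δ ≠ 0 →
      ∀ T : Finset W'.toAffine.Point, (∀ P ∈ T, p • P = 0) → T.card ≤ B)
    (T : Finset W.toAffine.Point) (hT : ∀ P ∈ T, p • P = 0) : T.card ≤ B := by
  classical
  let cs : W.toAffine.Point → Finset F := fun P => match P with
    | .zero => ∅
    | .some x y _ => {x, y}
  let S : Finset F := {W.a₁, W.a₂, W.a₃, W.a₄, W.a₆} ∪ T.biUnion cs
  let F0 : Subfield F := Subfield.closure (S : Set F)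
  have hS : ∀ x ∈ S, x ∈ F0 := fun x hx => Subfield.subset_closure hx
  have hcard : #F0 ≤ 𝔠 := by
    refine (Subfield.cardinalMk_closure_le_max _).trans (max_le ?_ aleph0_le_continuum)
    exact (S.finite_toSet.countable.le_aleph0).trans aleph0_le_continuum
  obtain ⟨ι⟩ := exists_ringHom_complex F0 hcard
  let _ : Algebra F0 ℂ := ι.toAlgebra
  let W0 : WeierstrassCurve F0 :=
    ⟨⟨W.a₁, hS _ (by simp [S])⟩, ⟨W.a₂, hS _ (by simp [S])⟩, ⟨W.a₃, hS _ (by simp [S])⟩,
      ⟨W.a₄, hS _ (by simp [S])⟩, ⟨W.a₆, hS _ (by simp [S])⟩⟩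
  have hW : W0.baseChange F = W := by
    ext <;> rfl
  have hΔ0 : W0.Δ ≠ 0 := by
    intro h0
    apply hΔ
    rw [← hW]
    show (W0.map (algebraMap F0 F)).Δ = 0
    rw [WeierstrassCurve.map_Δ, h0, map_zero]
  have hΔC : (W0.baseChange ℂ).Δ ≠ 0 := by
    show (W0.map (algebraMap F0 ℂ)).Δ ≠ 0
    rw [WeierstrassCurve.map_Δ]
    exact (map_ne_zero_iff _ (algebraMap F0 ℂ).injective).2 hΔ0
  refine card_le_of_baseChange W0 W hW p B (hC _ _ hΔC) T hT ?_
  intro x y h hP
  have hx : x ∈ S := Finset.mem_union_right _ (Finset.mem_biUnion.2 ⟨_, hP, by simp [cs]⟩)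
  have hy : y ∈ S := Finset.mem_union_right _ (Finset.mem_biUnion.2 ⟨_, hP, by simp [cs]⟩)
  exact ⟨⟨⟨x, hS x hx⟩, rfl⟩, ⟨⟨y, hS y hy⟩, rfl⟩⟩

end Lefschetz

end Fermat.Agent.S05
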