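/-
S05 / Q-transfer: the TRANSFER PRINCIPLE for convergent power series.
If power series `f i` converge on the open unit disc of `ℂ` with sums `F i`, and a polynomial
identity `P (F · Q) = 0` holds for all `0 < ‖Q‖ < 1`, then `P (f ·) = 0` holds formally.
Also a version for series with coefficients in a ring `R` embedded in `ℂ`.
-/
import Mathlib

set_option autoImplicit false

namespace Fermat.Agent.S05

open PowerSeries

namespace Transfer

/-- the scalar formal multilinear series of a power series -/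
noncomputable def fms (g : PowerSeries ℂ) : FormalMultilinearSeries ℂ ℂ ℂ :=
  FormalMultilinearSeries.ofScalars ℂ (fun n => coeff n g)

/-- `g` converges absolutely on the open unit disc. -/
def Conv (g : PowerSeries ℂ) : Prop :=
  ∀ Q : ℂ, ‖Q‖ < 1 → Summable (fun n => ‖coeff n g * Q ^ n‖)

/-- the value of a power series at `Q` -/
noncomputable def ev (Q : ℂ) (g : PowerSeries ℂ) : ℂ := ∑' n, coeff n g * Q ^ n

theorem norm_fms (g : PowerSeries ℂ) (n : ℕ) : ‖fms g n‖ = ‖coeff n g‖ := by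
  unfold fms
  rw [FormalMultilinearSeries.ofScalars_norm]

theorem norm_nnreal (r : NNReal) : ‖((r : ℝ) : ℂ)‖ = (r : ℝ) := by
  rw [Complex.norm_real, Real.norm_eq_abs, NNReal.abs_eq]

theorem conv_of_summable {g : PowerSeries ℂ}
    (h : ∀ Q : ℂ, ‖Q‖ < 1 → Summable (fun n => coeff n g * Q ^ n)) : Conv g := by
  have hrad : ∀ r : NNReal, (r : ℝ) < 1 → (r : ENNReal) ≤ (fms g).radius := by
    intro r hr
    have hs := h ((r : ℝ) : ℂ) (by rw [norm_nnreal]; exact hr)
    have ht := hs.tendsto_atTop_zero.norm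
    rw [norm_zero] at ht
    have he : (fun n => ‖fms g n‖ * (r : ℝ) ^ n) = fun n => ‖coeff n g * ((r : ℝ) : ℂ) ^ n‖ := by
      ext n
      rw [norm_fms, norm_mul, norm_pow, norm_nnreal]
    have ht' : Filter.Tendsto (fun n => ‖fms g n‖ * (r : ℝ) ^ n) Filter.atTop (nhds 0) := by
      rw [he]
      exact ht
    exact (fms g).le_radius_of_tendsto ht'
  intro Q hQ
  obtain ⟨r, hQr, hr1⟩ := exists_between hQ
  have hr0 : 0 ≤ r := (norm_nonneg Q).trans hQr.le
  have hlt : ((‖Q‖₊ : NNReal) : ENNReal) < (fms g).radius := by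
    refine lt_of_lt_of_le ?_ (hrad r.toNNReal (by rw [Real.coe_toNNReal r hr0]; exact hr1))
    rw [ENNReal.coe_lt_coe, ← NNReal.coe_lt_coe, Real.coe_toNNReal r hr0, coe_nnnorm]
    exact hQr
  have hs := (fms g).summable_norm_mul_pow hlt
  refine hs.congr ?_
  intro n
  rw [norm_fms, norm_mul, norm_pow, coe_nnnorm]

theorem Conv.summable {g : PowerSeries ℂ} (hg : Conv g) {Q : ℂ} (hQ : ‖Q‖ < 1) :
    Summable (fun n => coeff n g * Q ^ n) :=
  (hg Q hQ).of_norm

theorem conv_C (a : ℂ) : Conv (C a : PowerSeries ℂ) := by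
  intro Q _
  refine summable_of_ne_finset_zero (s := {0}) ?_
  intro n hn
  have hn' : n ≠ 0 := by simpa using hn
  simp [coeff_C, hn']

theorem ev_C (Q : ℂ) (a : ℂ) : ev Q (C a : PowerSeries ℂ) = a := by
  unfold ev
  rw [tsum_eq_single 0]
  · simp
  · intro n hn
    simp [coeff_C, hn]

theorem Conv.add {g h : PowerSeries ℂ} (hg : Conv g) (hh : Conv h) : Conv (g + h) := by
  intro Q hQ
  refine Summable.of_nonneg_of_le (fun _ => norm_nonneg _) ?_ ((hg Q hQ).add (hh Q hQ))
  intro n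
  rw [map_add, add_mul]
  exact norm_add_le _ _

theorem ev_add {g h : PowerSeries ℂ} (hg : Conv g) (hh : Conv h) {Q : ℂ} (hQ : ‖Q‖ < 1) :
    ev Q (g + h) = ev Q g + ev Q h := by
  unfold ev
  rw [← (hg.summable hQ).tsum_add (hh.summable hQ)]
  congr 1
  ext n
  rw [map_add, add_mul]

theorem term_mul (g h : PowerSeries ℂ) (Q : ℂ) (n : ℕ) :
    coeff n (g * h) * Q ^ n =
      ∑ kl ∈ Finset.HasAntidiagonal.antidiagonal n,
        (coeff kl.1 g * Q ^ kl.1) * (coeff kl.2 h * Q ^ kl.2) := by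
  rw [coeff_mul, Finset.sum_mul]
  refine Finset.sum_congr rfl ?_
  intro kl hkl
  rw [← Finset.HasAntidiagonal.mem_antidiagonal.1 hkl, pow_add]
  ring

theorem Conv.mul {g h : PowerSeries ℂ} (hg : Conv g) (hh : Conv h) : Conv (g * h) := by
  intro Q hQ
  have := summable_norm_sum_mul_antidiagonal_of_summable_norm (hg Q hQ) (hh Q hQ)
  refine this.congr ?_
  intro n
  rw [term_mul]

theorem ev_mul {g h : PowerSeries ℂ} (hg : Conv g) (hh : Conv h) {Q : ℂ} (hQ : ‖Q‖ < 1) :
    ev Q (g * h) = ev Q g * ev Q h := by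
  unfold ev
  rw [tsum_mul_tsum_eq_tsum_sum_antidiagonal_of_summable_norm (hg Q hQ) (hh Q hQ)]
  congr 1
  ext n
  rw [term_mul]

/-- polynomial expressions in convergent series converge, and evaluation commutes. -/
theorem conv_aeval {ι : Type*} (f : ι → PowerSeries ℂ) (hf : ∀ i, Conv (f i))
    (P : MvPolynomial ι ℂ) :
    Conv (MvPolynomial.aeval f P) ∧ ∀ Q : ℂ, ‖Q‖ < 1 →
      ev Q (MvPolynomial.aeval f P) = MvPolynomial.eval (fun i => ev Q (f i)) P := by
  induction P using MvPolynomial.induction_on with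
  | C a =>
    have e : MvPolynomial.aeval f (MvPolynomial.C a : MvPolynomial ι ℂ) = (C a : PowerSeries ℂ) := by
      rw [MvPolynomial.aeval_C]
      rfl
    rw [e]
    exact ⟨conv_C a, fun Q _ => by rw [ev_C, MvPolynomial.eval_C]⟩
  | add p q hp hq =>
    rw [map_add]
    refine ⟨hp.1.add hq.1, fun Q hQ => ?_⟩
    rw [ev_add hp.1 hq.1 hQ, hp.2 Q hQ, hq.2 Q hQ, map_add]
  | mul_X p i hp =>
    rw [map_mul, MvPolynomial.aeval_X]
    refine ⟨hp.1.mul (hf i), fun Q hQ => ?_⟩
    rw [ev_mul hp.1 (hf i) hQ, hp.2 Q hQ, map_mul, MvPolynomial.eval_X]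

/-- identity theorem: a convergent series vanishing on the punctured disc is zero. -/
theorem eq_zero_of_ev_eq_zero {g : PowerSeries ℂ} (hg : Conv g)
    (h : ∀ Q : ℂ, Q ≠ 0 → ‖Q‖ < 1 → ev Q g = 0) : g = 0 := by
  have hsum : (fms g).sum = fun Q => ev Q g := by
    ext Q
    unfold FormalMultilinearSeries.sum ev fms
    congr 1
    ext n
    rw [FormalMultilinearSeries.ofScalars_apply_eq, smul_eq_mul]
  have hrad : (1 : ENNReal) ≤ (fms g).radius := by
    refine ENNReal.le_of_forall_nnreal_lt ?_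
    intro r hr
    have hr' : ‖((r : ℝ) : ℂ)‖ < 1 := by
      rw [norm_nnreal]
      exact_mod_cast hr
    have hs := hg ((r : ℝ) : ℂ) hr'
    refine (fms g).le_radius_of_summable_norm ?_
    refine hs.congr ?_
    intro n
    rw [norm_fms, norm_mul, norm_pow, norm_nnreal]
  have hpos : 0 < (fms g).radius := lt_of_lt_of_le zero_lt_one hrad
  have hp := (fms g).hasFPowerSeriesOnBall hpos
  have hcont : ContinuousAt (fms g).sum 0 := hp.hasFPowerSeriesAt.continuousAt
  have hball : Metric.ball (0 : ℂ) 1 ∈ nhds (0 : ℂ) := Metric.ball_mem_nhds 0 zero_lt_one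
  have hev : ∀ᶠ Q in nhdsWithin (0 : ℂ) {0}ᶜ, (fms g).sum Q = 0 := by
    have h1 : ∀ᶠ Q in nhdsWithin (0 : ℂ) {0}ᶜ, Q ∈ Metric.ball (0 : ℂ) 1 :=
      nhdsWithin_le_nhds hball
    filter_upwards [h1, self_mem_nhdsWithin] with Q hQ1 hQ0
    rw [hsum]
    exact h Q hQ0 (by simpa using hQ1)
  have h0 : (fms g).sum 0 = 0 := by
    have ht : Filter.Tendsto (fms g).sum (nhdsWithin (0 : ℂ) {0}ᶜ) (nhds ((fms g).sum 0)) :=
      hcont.tendsto.mono_left nhdsWithin_le_nhds
    have ht0 : Filter.Tendsto (fms g).sum (nhdsWithin (0 : ℂ) {0}ᶜ) (nhds 0) :=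
      Filter.Tendsto.congr' (Filter.EventuallyEq.symm hev) tendsto_const_nhds
    exact tendsto_nhds_unique ht ht0
  have hzero : (fms g).sum =ᶠ[nhds (0 : ℂ)] 0 := by
    filter_upwards [hball] with Q hQ
    by_cases hQ0 : Q = 0
    · rw [hQ0, h0]
      rfl
    · rw [hsum]
      exact h Q hQ0 (by simpa using hQ)
  have hp0 : HasFPowerSeriesAt (0 : ℂ → ℂ) (fms g) 0 := hp.hasFPowerSeriesAt.congr hzero
  have hfz : fms g = 0 := hp0.eq_zero
  have hc : (fun n => coeff n g) = 0 :=
    (FormalMultilinearSeries.ofScalars_series_eq_zero ℂ).1 hfz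
  ext n
  simpa using congrFun hc n

end Transfer

open Transfer in
/-- TRANSFER PRINCIPLE over `ℂ`. -/
theorem transfer_complex {ι : Type*} (f : ι → PowerSeries ℂ) (F : ι → ℂ → ℂ)
    (hF : ∀ (i : ι) (Q : ℂ), ‖Q‖ < 1 → HasSum (fun n => coeff n (f i) * Q ^ n) (F i Q))
    (P : MvPolynomial ι ℂ)
    (hP : ∀ Q : ℂ, Q ≠ 0 → ‖Q‖ < 1 → MvPolynomial.eval (fun i => F i Q) P = 0) :
    MvPolynomial.aeval f P = 0 := by
  have hf : ∀ i, Conv (f i) := fun i => conv_of_summable (fun Q hQ => (hF i Q hQ).summable)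
  obtain ⟨hc, he⟩ := conv_aeval f hf P
  refine eq_zero_of_ev_eq_zero hc ?_
  intro Q hQ0 hQ1
  rw [he Q hQ1]
  have : (fun i => ev Q (f i)) = fun i => F i Q := by
    ext i
    exact (hF i Q hQ1).tsum_eq
  rw [this]
  exact hP Q hQ0 hQ1

/-- base change of polynomial expressions in power series along a ring hom of coefficients -/
theorem Transfer.map_aeval {R S : Type*} [CommRing R] [CommRing S] (φ : R →+* S) {ι : Type*}
    (f : ι → PowerSeries R) (P : MvPolynomial ι R) :
    PowerSeries.map φ (MvPolynomial.aeval f P) =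
      MvPolynomial.aeval (fun i => PowerSeries.map φ (f i)) (MvPolynomial.map φ P) := by
  rw [MvPolynomial.aeval_def, MvPolynomial.aeval_def, MvPolynomial.eval₂_comp_left,
    MvPolynomial.eval₂_map]
  congr 1
  ext r n
  simp

/-- TRANSFER PRINCIPLE for series with coefficients in a ring `R` embedded in `ℂ` by `φ`:
a polynomial identity between the sum functions on the punctured unit disc holds formally. -/
theorem transfer {R : Type*} [CommRing R] (φ : R →+* ℂ) (hφ : Function.Injective φ) {ι : Type*}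
    (f : ι → PowerSeries R) (F : ι → ℂ → ℂ)
    (hF : ∀ (i : ι) (Q : ℂ), ‖Q‖ < 1 → HasSum (fun n => φ (coeff n (f i)) * Q ^ n) (F i Q))
    (P : MvPolynomial ι R)
    (hP : ∀ Q : ℂ, Q ≠ 0 → ‖Q‖ < 1 →
      MvPolynomial.eval (fun i => F i Q) (MvPolynomial.map φ P) = 0) :
    MvPolynomial.aeval f P = 0 := by
  apply PowerSeries.map_injective φ hφ
  rw [Transfer.map_aeval, map_zero]
  refine transfer_complex (fun i => PowerSeries.map φ (f i)) F ?_ _ hP
  intro i Q hQ
  simpa using hF i Q hQ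

end Fermat.Agent.S05
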