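import Mathlib

/-!
# S05/S13 local structure: the line through two points of a Weierstrass curve

`exists_line`: if `P₁ + P₂ ≠ 0` for two affine points of a Weierstrass curve, there are a line
`y = m x + ν` and a third affine point `P₃` on it with `P₁ + P₂ = -P₃`, and the three
`x`-coordinates satisfy Vieta's relations for the cubic cut out by the line.
-/

set_option autoImplicit false

open WeierstrassCurve WeierstrassCurve.Affine

namespace Fermat.Agent.S05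

namespace Trop

variable {F : Type*} [Field F] [DecidableEq F]

/-- The line through two affine points with non-zero sum, and Vieta's relations. -/
theorem exists_line (W : WeierstrassCurve.Affine F) {x₁ y₁ x₂ y₂ : F}
    (h₁ : W.Nonsingular x₁ y₁) (h₂ : W.Nonsingular x₂ y₂)
    (hxy : ¬(x₁ = x₂ ∧ y₁ = W.negY x₂ y₂)) :
    ∃ (m ν x₃ y₃ : F) (h₃ : W.Nonsingular x₃ y₃),
      Point.some _ _ h₁ + Point.some _ _ h₂ = -Point.some _ _ h₃ ∧
      y₁ = m * x₁ + ν ∧ y₂ = m * x₂ + ν ∧ y₃ = m * x₃ + ν ∧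
      x₁ + x₂ + x₃ = m ^ 2 + W.a₁ * m - W.a₂ ∧
      x₁ * x₂ + x₁ * x₃ + x₂ * x₃ = W.a₄ - (2 * m + W.a₁) * ν - W.a₃ * m ∧
      x₁ * x₂ * x₃ = ν ^ 2 + W.a₃ * ν - W.a₆ := by
  have hpoly := addPolynomial_slope h₁.1 h₂.1 hxy
  rw [addPolynomial_eq, neg_inj, Cubic.prod_X_sub_C_eq, Cubic.toPoly_injective] at hpoly
  have hc := congrArg Cubic.c hpoly
  have hd := congrArg Cubic.d hpoly
  simp only at hc hd
  refine ⟨W.slope x₁ x₂ y₁ y₂, y₁ - W.slope x₁ x₂ y₁ y₂ * x₁,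
    W.addX x₁ x₂ (W.slope x₁ x₂ y₁ y₂), W.negAddY x₁ x₂ y₁ (W.slope x₁ x₂ y₁ y₂),
    nonsingular_negAdd h₁ h₂ hxy, ?_, by ring, ?_, ?_, ?_, ?_, ?_⟩
  · rw [Point.add_some hxy]
    rfl
  · by_cases hx : x₁ = x₂
    · have hy : y₁ ≠ W.negY x₂ y₂ := fun h => hxy ⟨hx, h⟩
      have := Y_eq_of_Y_ne h₁.1 h₂.1 hx hy
      subst hx
      subst this
      ring
    · rw [slope_of_X_ne hx]
      have : x₁ - x₂ ≠ 0 := sub_ne_zero.mpr hx
      field_simp
      ring
  · simp only [negAddY]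
    ring
  · simp only [addX]
    ring
  · rw [← hc]
    ring
  · have : x₁ * x₂ * W.addX x₁ x₂ (W.slope x₁ x₂ y₁ y₂) =
        -(-(x₁ * x₂ * W.addX x₁ x₂ (W.slope x₁ x₂ y₁ y₂))) := by ring
    rw [this, ← hd]
    ring

end Trop

end Fermat.Agent.S05
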