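import Mathlib
import Fermat.Agent.S05.RatVal

/-!
# S05/S13 local structure at a node: the valued-field computations

Model `y² + a₁ x y = x³ + a₂ x² + a₄ x`, `α, α'` the roots of `t² + a₁ t - a₂`
(the tangent directions at the node `(0,0)` of the reduction), `α - α'` a unit, `a₄` in the
maximal ideal.  For a point `(x, y)` put `ψ = y - α x`, `ψ' = y - α' x`; then
`ψ ψ' = x (x² + a₄)` and `ψ' - ψ = (α - α') x`.

For three collinear points on `y = m x + ν` we have `ψᵢ = (m - α) xᵢ + ν` and Vieta's relations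
`e₂`, `e₃`.  This file contains the valuation computations behind the homomorphism `Λ`.
-/

set_option autoImplicit false

namespace Fermat.Agent.S05

namespace Trop

variable {L : Type*} [Field L] {v : RatVal L}

/-- "`x = 0` or `m < w x`". -/
def Gt (v : RatVal L) (x : L) (m : ℚ) : Prop := x = 0 ∨ m < v.w x

theorem gt_zero (m : ℚ) : Gt v (0 : L) m := Or.inl rfl

theorem Gt.ge {x : L} {m : ℚ} (h : Gt v x m) : v.Ge x m := h.imp id le_of_lt

theorem Gt.mono {x : L} {m n : ℚ} (h : Gt v x m) (hn : n ≤ m) : Gt v x n :=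
  h.imp id fun h => lt_of_le_of_lt hn h

theorem Gt.of_ge {x : L} {m n : ℚ} (h : v.Ge x n) (hmn : m < n) : Gt v x m :=
  h.imp id fun h => lt_of_lt_of_le hmn h

theorem Gt.of_is {x : L} {m n : ℚ} (h : v.Is x n) (hmn : m < n) : Gt v x m :=
  Or.inr (h.2 ▸ hmn)

theorem Gt.lt_of_is {x : L} {m n : ℚ} (h : Gt v x m) (h' : v.Is x n) : m < n := by
  rcases h with h | h
  · exact absurd h h'.1
  · rw [← h'.2]; exact h

theorem not_gt_of_is {x : L} {m : ℚ} (h : v.Is x m) : ¬ Gt v x m := fun h' =>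
  lt_irrefl _ (h'.lt_of_is h)

theorem Gt.neg {x : L} {m : ℚ} (hx : Gt v x m) : Gt v (-x) m := by
  rcases hx with h | h
  · exact Or.inl (by rw [h, neg_zero])
  · exact Or.inr (by rwa [v.map_neg])

theorem Gt.add {x y : L} {m : ℚ} (hx : Gt v x m) (hy : Gt v y m) : Gt v (x + y) m := by
  rcases hx with rfl | hx
  · rwa [zero_add]
  rcases hy with rfl | hy
  · rw [add_zero]; exact Or.inr hx
  rcases eq_or_ne x 0 with rfl | hx0
  · rw [zero_add]; exact Or.inr hy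
  rcases eq_or_ne y 0 with rfl | hy0
  · rw [add_zero]; exact Or.inr hx
  rcases eq_or_ne (x + y) 0 with h0 | h0
  · exact Or.inl h0
  · exact Or.inr ((lt_min hx hy).trans_le (v.map_add hx0 hy0 h0))

theorem Gt.sub {x y : L} {m : ℚ} (hx : Gt v x m) (hy : Gt v y m) : Gt v (x - y) m := by
  rw [sub_eq_add_neg]
  exact hx.add hy.neg

theorem Gt.mul_ge {x y : L} {m n : ℚ} (hx : Gt v x m) (hy : v.Ge y n) :
    Gt v (x * y) (m + n) := by
  rcases hx with rfl | hx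
  · rw [zero_mul]; exact Or.inl rfl
  rcases hy with rfl | hy
  · rw [mul_zero]; exact Or.inl rfl
  rcases eq_or_ne x 0 with rfl | hx0
  · rw [zero_mul]; exact Or.inl rfl
  rcases eq_or_ne y 0 with rfl | hy0
  · rw [mul_zero]; exact Or.inl rfl
  · exact Or.inr (by rw [v.map_mul hx0 hy0]; linarith)

theorem Gt.mul_is {x y : L} {m n : ℚ} (hx : Gt v x m) (hy : v.Is y n) :
    Gt v (x * y) (m + n) := hx.mul_ge hy.ge

theorem Gt.is_mul {x y : L} {m n : ℚ} (hx : v.Is x m) (hy : Gt v y n) :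
    Gt v (x * y) (m + n) := by
  rw [mul_comm, add_comm]
  exact hy.mul_is hx

/-- Cancel a factor of known valuation. -/
theorem Gt.of_mul_is {x y : L} {m n : ℚ} (h : Gt v (x * y) (m + n)) (hy : v.Is y n) :
    Gt v x m := by
  rcases eq_or_ne x 0 with rfl | hx0
  · exact Or.inl rfl
  · rcases h with h | h
    · exact absurd h (mul_ne_zero hx0 hy.1)
    · rw [v.map_mul hx0 hy.1, hy.2] at h
      exact Or.inr (by linarith)

theorem Gt.of_is_mul {x y : L} {m n : ℚ} (h : Gt v (x * y) (m + n)) (hx : v.Is x m) :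
    Gt v y n := by
  rw [mul_comm, add_comm] at h
  exact h.of_mul_is hx

/-- Cancel a factor of known valuation. -/
theorem is_of_mul_is {x y : L} {m n : ℚ} (h : v.Is (x * y) (m + n)) (hy : v.Is y n) :
    v.Is x m := by
  have hx0 : x ≠ 0 := left_ne_zero_of_mul h.1
  refine ⟨hx0, ?_⟩
  have := h.2
  rw [v.map_mul hx0 hy.1, hy.2] at this
  linarith

theorem is_of_is_mul {x y : L} {m n : ℚ} (h : v.Is (x * y) (m + n)) (hx : v.Is x m) :
    v.Is y n := by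
  rw [mul_comm, add_comm] at h
  exact is_of_mul_is h hx

/-- Strict dominance. -/
theorem is_add_gt {x y : L} {m : ℚ} (hx : v.Is x m) (hy : Gt v y m) : v.Is (x + y) m := by
  rcases hy with rfl | hy
  · rwa [add_zero]
  · exact hx.add_of_lt (Or.inr le_rfl) hy

theorem is_gt_add {x y : L} {m : ℚ} (hx : Gt v x m) (hy : v.Is y m) : v.Is (x + y) m := by
  rw [add_comm]
  exact is_add_gt hy hx

theorem is_sub_gt {x y : L} {m : ℚ} (hx : v.Is x m) (hy : Gt v y m) : v.Is (x - y) m := by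
  rw [sub_eq_add_neg]
  exact is_add_gt hx hy.neg

/-- The hypotheses on the model at a node: `α + α' = -a₁`, `α - α'` a unit, `a₄` a non-zero
element of the maximal ideal. -/
structure Node (v : RatVal L) (a₁ a₄ α α' : L) : Prop where
  sum : α + α' = -a₁
  delta : v.Is (α - α') 0
  pos : 0 < v.w a₄
  ne : a₄ ≠ 0

variable {a₁ a₄ α α' : L}

theorem Node.is_a₄ (N : Node v a₁ a₄ α α') : v.Is a₄ (v.w a₄) := ⟨N.ne, rfl⟩

theorem Node.symm (N : Node v a₁ a₄ α α') : Node v a₁ a₄ α' α where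
  sum := by rw [add_comm]; exact N.sum
  delta := by
    have := N.delta.neg
    rwa [neg_sub] at this
  pos := N.pos
  ne := N.ne

/-- Points with `x` a unit or non-integral: `ψ` and `ψ'` have valuation `3/2 · w x`. -/
theorem psi_of_nonpos (N : Node v a₁ a₄ α α') {x ψ ψ' : L} {a : ℚ}
    (hc : ψ * ψ' = x * (x ^ 2 + a₄)) (hd : ψ' - ψ = (α - α') * x)
    (hx : v.Is x a) (ha : a ≤ 0) : v.Is ψ (3 / 2 * a) ∧ v.Is ψ' (3 / 2 * a) := by
  have h1 : v.Is (x ^ 2 + a₄) (2 * a) := hx.sq.add_of_lt N.is_a₄.ge (by linarith [N.pos])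
  have h2 : v.Is (ψ * ψ') (a + 2 * a) := hc ▸ hx.mul h1
  have hψ : ψ ≠ 0 := left_ne_zero_of_mul h2.1
  have hψ' : ψ' ≠ 0 := right_ne_zero_of_mul h2.1
  have h3 : v.w ψ + v.w ψ' = 3 * a := by
    have := h2.2
    rw [v.map_mul hψ hψ'] at this
    linarith
  have h4 : v.Is (ψ' - ψ) a := by
    rw [hd]
    have := N.delta.mul hx
    rwa [zero_add] at this
  by_cases hne : v.w ψ' = v.w ψ
  · exact ⟨⟨hψ, by linarith⟩, ⟨hψ', by linarith⟩⟩
  · exfalso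
    have h5 := RatVal.is_add_of_ne (RatVal.is_self hψ') (RatVal.is_self hψ).neg hne
    rw [← sub_eq_add_neg] at h5
    have h6 := h5.unique h4
    rcases le_total (v.w ψ') (v.w ψ) with h | h
    · rw [min_eq_left h] at h6
      have : v.w ψ' < v.w ψ := lt_of_le_of_ne h hne
      linarith
    · rw [min_eq_right h] at h6
      have : v.w ψ < v.w ψ' := lt_of_le_of_ne h (Ne.symm hne)
      linarith

/-- Points with `0 < w x < w a₄`: exactly one of `ψ`, `ψ'` is small. -/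
theorem psi_of_mid (N : Node v a₁ a₄ α α') {x ψ ψ' : L} {a : ℚ}
    (hc : ψ * ψ' = x * (x ^ 2 + a₄)) (hd : ψ' - ψ = (α - α') * x)
    (hx : v.Is x a) (ha : 0 < a) (ha' : a < v.w a₄) :
    (Gt v ψ a ∧ v.Is ψ' a) ∨ (v.Is ψ a ∧ Gt v ψ' a) := by
  have h1 : Gt v (x ^ 2 + a₄) a :=
    (Gt.of_is hx.sq (by linarith)).add (Gt.of_is N.is_a₄ ha')
  have h2 : Gt v (ψ * ψ') (a + a) := hc ▸ Gt.is_mul hx h1
  have h4 : v.Is ((α - α') * x) a := by
    have := N.delta.mul hx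
    rwa [zero_add] at this
  have e1 : ψ' = (α - α') * x + ψ := by rw [← hd]; ring
  have e2 : ψ = ψ' - (α - α') * x := by rw [← hd]; ring
  by_cases hψ : Gt v ψ a
  · left
    exact ⟨hψ, e1 ▸ is_add_gt h4 hψ⟩
  · right
    have hψ0 : ψ ≠ 0 := fun h => hψ (Or.inl h)
    have hle : v.w ψ ≤ a := not_lt.mp fun h => hψ (Or.inr h)
    have hψ' : Gt v ψ' a := by
      rcases eq_or_ne ψ' 0 with h0 | h0
      · exact Or.inl h0
      · rcases h2 with h2 | h2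
        · exact absurd h2 (mul_ne_zero hψ0 h0)
        · rw [v.map_mul hψ0 h0] at h2
          exact Or.inr (by linarith)
    refine ⟨?_, hψ'⟩
    rw [e2]
    exact is_gt_add hψ' h4.neg |>.congr rfl |> fun h => by rwa [← sub_eq_add_neg] at h

/-- The relation `(F2)`: `ν (ψ₁ x₂ + ψ₂' x₁) = x₁ x₂ (a₄ - x₁ x₂)`. -/
theorem line_rel {m ν x₁ x₂ x₃ : L} (hsum : α + α' = -a₁)
    (e₂ : x₁ * x₂ + x₁ * x₃ + x₂ * x₃ = a₄ - (2 * m + a₁) * ν)
    (e₃ : x₁ * x₂ * x₃ = ν ^ 2) :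
    ν * (((m - α) * x₁ + ν) * x₂ + ((m - α') * x₂ + ν) * x₁) = x₁ * x₂ * (a₄ - x₁ * x₂) := by
  linear_combination (x₁ * x₂) * e₂ - (x₁ + x₂) * e₃ - ν * x₁ * x₂ * hsum

/-- `(F2)` for the pair `(1, 3)`. -/
theorem line_rel' {m ν x₁ x₂ x₃ : L} (hsum : α + α' = -a₁)
    (e₂ : x₁ * x₂ + x₁ * x₃ + x₂ * x₃ = a₄ - (2 * m + a₁) * ν)
    (e₃ : x₁ * x₂ * x₃ = ν ^ 2) :
    ν * (((m - α) * x₁ + ν) * x₃ + ((m - α') * x₃ + ν) * x₁) = x₁ * x₃ * (a₄ - x₁ * x₃) :=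
  line_rel (x₃ := x₂) hsum (by linear_combination e₂) (by linear_combination e₃)

section stages

variable {m ν x₁ x₂ x₃ : L}

/-- Stage S1: two points with `w x ≤ 0` on a line; the third point also has `w x ≤ 0`. -/
theorem tri_nonpos (N : Node v a₁ a₄ α α')
    (c₁ : ((m - α) * x₁ + ν) * ((m - α') * x₁ + ν) = x₁ * (x₁ ^ 2 + a₄))
    (c₂ : ((m - α) * x₂ + ν) * ((m - α') * x₂ + ν) = x₂ * (x₂ ^ 2 + a₄))
    (e₂ : x₁ * x₂ + x₁ * x₃ + x₂ * x₃ = a₄ - (2 * m + a₁) * ν)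
    (e₃ : x₁ * x₂ * x₃ = ν ^ 2) {a b : ℚ}
    (h₁ : v.Is x₁ a) (ha : a ≤ 0) (h₂ : v.Is x₂ b) (hb : b ≤ 0) :
    ∃ c, v.Is x₃ c ∧ c ≤ 0 ∧ (a < 0 → b < 0 → c < 0) ∧ v.Is ν ((a + b + c) / 2) := by
  have hψ₁ := (psi_of_nonpos N c₁ (by ring) h₁ ha).1
  have hψ₂ := (psi_of_nonpos N c₂ (by ring) h₂ hb).2
  have hrel := line_rel (m := m) N.sum e₂ e₃
  have h12 : v.Is (x₁ * x₂) (a + b) := h₁.mul h₂
  have hsub : v.Is (a₄ - x₁ * x₂) (a + b) :=
    RatVal.Is.sub_of_lt' N.is_a₄.ge h12 (by linarith [N.pos])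
  have hR : v.Is (ν * (((m - α) * x₁ + ν) * x₂ + ((m - α') * x₂ + ν) * x₁))
      ((a + b) + (a + b)) := hrel ▸ h12.mul hsub
  have hν0 : ν ≠ 0 := left_ne_zero_of_mul hR.1
  have hD0 := right_ne_zero_of_mul hR.1
  have hsumw := hR.2
  rw [v.map_mul hν0 hD0] at hsumw
  have hA : v.Is (((m - α) * x₁ + ν) * x₂) (3 / 2 * a + b) := hψ₁.mul h₂
  have hB : v.Is (((m - α') * x₂ + ν) * x₁) (3 / 2 * b + a) := hψ₂.mul h₁
  have hD : v.Ge (((m - α) * x₁ + ν) * x₂ + ((m - α') * x₂ + ν) * x₁) (3 / 2 * (a + b)) :=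
    (hA.ge_of_le (by linarith)).add (hB.ge_of_le (by linarith))
  have hDle := hD.le_of_is (RatVal.is_self hD0)
  have hν2 : v.Is (ν ^ 2) (2 * v.w ν) := (RatVal.is_self hν0).sq
  rw [← e₃] at hν2
  have hx₃ : v.Is x₃ (2 * v.w ν - (a + b)) :=
    is_of_is_mul (by rw [add_sub_cancel]; exact hν2) h12
  refine ⟨_, hx₃, by linarith, ?_, hν0, by ring⟩
  intro ha' hb'
  have hD' : Gt v (((m - α) * x₁ + ν) * x₂ + ((m - α') * x₂ + ν) * x₁) (3 / 2 * (a + b)) :=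
    (Gt.of_is hA (by linarith)).add (Gt.of_is hB (by linarith))
  have := hD'.lt_of_is (RatVal.is_self hD0)
  linarith

/-- Stage S3: a `(+)`-point and a point with `w x ≤ 0`: the third point is a `(-)`-point
with the same `w x`. -/
theorem tri_plus_nonpos (N : Node v a₁ a₄ α α')
    (c₂ : ((m - α) * x₂ + ν) * ((m - α') * x₂ + ν) = x₂ * (x₂ ^ 2 + a₄))
    (e₂ : x₁ * x₂ + x₁ * x₃ + x₂ * x₃ = a₄ - (2 * m + a₁) * ν)
    (e₃ : x₁ * x₂ * x₃ = ν ^ 2) {a b : ℚ}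
    (h₁ : v.Is x₁ a) (ha : 0 < a) (ha' : a < v.w a₄) (hp₁ : Gt v ((m - α) * x₁ + ν) a)
    (h₂ : v.Is x₂ b) (hb : b ≤ 0) :
    v.Is x₃ a ∧ Gt v ((m - α') * x₃ + ν) a := by
  have hψ₂ := (psi_of_nonpos N c₂ (by ring) h₂ hb).2
  have hrel := line_rel (m := m) N.sum e₂ e₃
  have h12 : v.Is (x₁ * x₂) (a + b) := h₁.mul h₂
  have hsub : v.Is (a₄ - x₁ * x₂) (a + b) :=
    RatVal.Is.sub_of_lt' N.is_a₄.ge h12 (by linarith)
  have hA : Gt v (((m - α) * x₁ + ν) * x₂) (3 / 2 * b + a) :=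
    (hp₁.mul_is h₂).mono (by linarith)
  have hB : v.Is (((m - α') * x₂ + ν) * x₁) (3 / 2 * b + a) := hψ₂.mul h₁
  have hD := is_gt_add hA hB
  have hR : v.Is (ν * (((m - α) * x₁ + ν) * x₂ + ((m - α') * x₂ + ν) * x₁))
      ((a + b / 2) + (3 / 2 * b + a)) := by
    rw [hrel]
    exact (h12.mul hsub).congr (by ring)
  have hν : v.Is ν (a + b / 2) := is_of_mul_is hR hD
  have hν2 : v.Is (ν ^ 2) (2 * (a + b / 2)) := hν.sq
  rw [← e₃] at hν2
  have hx₃ : v.Is x₃ a := is_of_is_mul (hν2.congr (by ring)) h12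
  refine ⟨hx₃, ?_⟩
  have hrel' := line_rel' (m := m) N.sum e₂ e₃
  have h13 : v.Is (x₁ * x₃) (a + a) := h₁.mul hx₃
  have hsub' : Gt v (a₄ - x₁ * x₃) a :=
    (Gt.of_is N.is_a₄ ha').sub (Gt.of_is h13 (by linarith))
  have hR' : Gt v (ν * (((m - α) * x₁ + ν) * x₃ + ((m - α') * x₃ + ν) * x₁))
      ((a + b / 2) + (2 * a - b / 2)) := by
    rw [hrel']
    exact (Gt.is_mul h13 hsub').mono (by linarith)
  have hS : Gt v (((m - α) * x₁ + ν) * x₃ + ((m - α') * x₃ + ν) * x₁) (a + a) :=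
    (hR'.of_is_mul hν).mono (by linarith)
  have hA' : Gt v (((m - α) * x₁ + ν) * x₃) (a + a) := hp₁.mul_is hx₃
  have hB' : Gt v (((m - α') * x₃ + ν) * x₁) (a + a) := by
    have := hS.sub hA'
    rwa [add_sub_cancel_left] at this
  exact hB'.of_mul_is h₁

/-- Stage S4, case `a + b < w a₄`. -/
theorem tri_plus_plus_lt (N : Node v a₁ a₄ α α')
    (c₂ : ((m - α) * x₂ + ν) * ((m - α') * x₂ + ν) = x₂ * (x₂ ^ 2 + a₄))
    (e₂ : x₁ * x₂ + x₁ * x₃ + x₂ * x₃ = a₄ - (2 * m + a₁) * ν)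
    (e₃ : x₁ * x₂ * x₃ = ν ^ 2) {a b : ℚ}
    (h₁ : v.Is x₁ a) (ha : 0 < a) (hp₁ : Gt v ((m - α) * x₁ + ν) a)
    (h₂ : v.Is x₂ b) (hb : 0 < b) (hb' : b < v.w a₄) (hp₂ : Gt v ((m - α) * x₂ + ν) b)
    (hab : a + b < v.w a₄) :
    v.Is x₃ (a + b) ∧ Gt v ((m - α') * x₃ + ν) (a + b) := by
  have hψ₂ : v.Is ((m - α') * x₂ + ν) b := by
    rcases psi_of_mid N c₂ (by ring) h₂ hb hb' with h | h
    · exact h.2
    · exact absurd hp₂ (not_gt_of_is h.1)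
  have hrel := line_rel (m := m) N.sum e₂ e₃
  have h12 : v.Is (x₁ * x₂) (a + b) := h₁.mul h₂
  have hsub : v.Is (a₄ - x₁ * x₂) (a + b) :=
    RatVal.Is.sub_of_lt' N.is_a₄.ge h12 hab
  have hA : Gt v (((m - α) * x₁ + ν) * x₂) (a + b) := hp₁.mul_is h₂
  have hB : v.Is (((m - α') * x₂ + ν) * x₁) (a + b) := (hψ₂.mul h₁).congr (by ring)
  have hD := is_gt_add hA hB
  have hR : v.Is (ν * (((m - α) * x₁ + ν) * x₂ + ((m - α') * x₂ + ν) * x₁))
      ((a + b) + (a + b)) := by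
    rw [hrel]
    exact h12.mul hsub
  have hν : v.Is ν (a + b) := is_of_mul_is hR hD
  have hν2 : v.Is (ν ^ 2) (2 * (a + b)) := hν.sq
  rw [← e₃] at hν2
  have hx₃ : v.Is x₃ (a + b) := is_of_is_mul (hν2.congr (by ring)) h12
  refine ⟨hx₃, ?_⟩
  have hrel' := line_rel' (m := m) N.sum e₂ e₃
  have h13 : v.Is (x₁ * x₃) (a + (a + b)) := h₁.mul hx₃
  have hsub' : Gt v (a₄ - x₁ * x₃) (a + b) :=
    (Gt.of_is N.is_a₄ hab).sub (Gt.of_is h13 (by linarith))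
  have hR' : Gt v (ν * (((m - α) * x₁ + ν) * x₃ + ((m - α') * x₃ + ν) * x₁))
      ((a + b) + (a + (a + b))) := by
    rw [hrel']
    exact (Gt.is_mul h13 hsub').mono (by linarith)
  have hS : Gt v (((m - α) * x₁ + ν) * x₃ + ((m - α') * x₃ + ν) * x₁) (a + (a + b)) :=
    hR'.of_is_mul hν
  have hA' : Gt v (((m - α) * x₁ + ν) * x₃) (a + (a + b)) := hp₁.mul_is hx₃
  have hB' : Gt v (((m - α') * x₃ + ν) * x₁) ((a + b) + a) := by
    have := hS.sub hA'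
    rw [add_sub_cancel_left] at this
    exact this.mono (by linarith)
  exact hB'.of_mul_is h₁

/-- Stage S4, case `a + b > w a₄`. -/
theorem tri_plus_plus_gt (N : Node v a₁ a₄ α α')
    (c₂ : ((m - α) * x₂ + ν) * ((m - α') * x₂ + ν) = x₂ * (x₂ ^ 2 + a₄))
    (c₃ : ((m - α) * x₃ + ν) * ((m - α') * x₃ + ν) = x₃ * (x₃ ^ 2 + a₄))
    (e₂ : x₁ * x₂ + x₁ * x₃ + x₂ * x₃ = a₄ - (2 * m + a₁) * ν)
    (e₃ : x₁ * x₂ * x₃ = ν ^ 2) {a b : ℚ}
    (h₁ : v.Is x₁ a) (ha' : a < v.w a₄) (hp₁ : Gt v ((m - α) * x₁ + ν) a)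
    (h₂ : v.Is x₂ b) (hb : 0 < b) (hb' : b < v.w a₄) (hp₂ : Gt v ((m - α) * x₂ + ν) b)
    (hab : v.w a₄ < a + b) :
    v.Is x₃ (2 * v.w a₄ - a - b) ∧ Gt v ((m - α) * x₃ + ν) (2 * v.w a₄ - a - b) := by
  have hψ₂ : v.Is ((m - α') * x₂ + ν) b := by
    rcases psi_of_mid N c₂ (by ring) h₂ hb hb' with h | h
    · exact h.2
    · exact absurd hp₂ (not_gt_of_is h.1)
  have hrel := line_rel (m := m) N.sum e₂ e₃
  have h12 : v.Is (x₁ * x₂) (a + b) := h₁.mul h₂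
  have hsub : v.Is (a₄ - x₁ * x₂) (v.w a₄) := N.is_a₄.sub_of_lt h12.ge hab
  have hA : Gt v (((m - α) * x₁ + ν) * x₂) (a + b) := hp₁.mul_is h₂
  have hB : v.Is (((m - α') * x₂ + ν) * x₁) (a + b) := (hψ₂.mul h₁).congr (by ring)
  have hD := is_gt_add hA hB
  have hR : v.Is (ν * (((m - α) * x₁ + ν) * x₂ + ((m - α') * x₂ + ν) * x₁))
      (v.w a₄ + (a + b)) := by
    rw [hrel]
    exact (h12.mul hsub).congr (by ring)
  have hν : v.Is ν (v.w a₄) := is_of_mul_is hR hD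
  have hν2 : v.Is (ν ^ 2) (2 * v.w a₄) := hν.sq
  rw [← e₃] at hν2
  have hx₃ : v.Is x₃ (2 * v.w a₄ - a - b) := is_of_is_mul (hν2.congr (by ring)) h12
  refine ⟨hx₃, ?_⟩
  have hrel' := line_rel' (m := m) N.sum e₂ e₃
  have h13 : v.Is (x₁ * x₃) (2 * v.w a₄ - b) := (h₁.mul hx₃).congr (by ring)
  have hsub' : v.Is (a₄ - x₁ * x₃) (v.w a₄) := N.is_a₄.sub_of_lt h13.ge (by linarith)
  have hR' : v.Is (ν * (((m - α) * x₁ + ν) * x₃ + ((m - α') * x₃ + ν) * x₁))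
      (v.w a₄ + (2 * v.w a₄ - b)) := by
    rw [hrel']
    exact (h13.mul hsub').congr (by ring)
  have hS : v.Is (((m - α) * x₁ + ν) * x₃ + ((m - α') * x₃ + ν) * x₁) (2 * v.w a₄ - b) :=
    is_of_is_mul hR' hν
  have hA' : Gt v (((m - α) * x₁ + ν) * x₃) (2 * v.w a₄ - b) :=
    (hp₁.mul_is hx₃).mono (by linarith)
  have hB' : v.Is (((m - α') * x₃ + ν) * x₁) ((2 * v.w a₄ - a - b) + a) := by
    have := is_sub_gt hS hA'
    rw [add_sub_cancel_left] at this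
    exact this.congr (by ring)
  have hψ₃' : v.Is ((m - α') * x₃ + ν) (2 * v.w a₄ - a - b) := is_of_mul_is hB' h₁
  rcases psi_of_mid N c₃ (by ring) hx₃ (by linarith) (by linarith) with h | h
  · exact h.1
  · exact absurd h.2 (not_gt_of_is hψ₃')

/-- Stage S4, case `a + b = w a₄`. -/
theorem tri_plus_plus_eq (N : Node v a₁ a₄ α α')
    (c₂ : ((m - α) * x₂ + ν) * ((m - α') * x₂ + ν) = x₂ * (x₂ ^ 2 + a₄))
    (e₂ : x₁ * x₂ + x₁ * x₃ + x₂ * x₃ = a₄ - (2 * m + a₁) * ν)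
    (e₃ : x₁ * x₂ * x₃ = ν ^ 2) {a b : ℚ}
    (h₁ : v.Is x₁ a) (hp₁ : Gt v ((m - α) * x₁ + ν) a)
    (h₂ : v.Is x₂ b) (hb : 0 < b) (hb' : b < v.w a₄) (hp₂ : Gt v ((m - α) * x₂ + ν) b)
    (hab : a + b = v.w a₄) :
    v.Ge x₃ (v.w a₄) := by
  have hψ₂ : v.Is ((m - α') * x₂ + ν) b := by
    rcases psi_of_mid N c₂ (by ring) h₂ hb hb' with h | h
    · exact h.2
    · exact absurd hp₂ (not_gt_of_is h.1)
  have hrel := line_rel (m := m) N.sum e₂ e₃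
  have h12 : v.Is (x₁ * x₂) (a + b) := h₁.mul h₂
  have hA : Gt v (((m - α) * x₁ + ν) * x₂) (a + b) := hp₁.mul_is h₂
  have hB : v.Is (((m - α') * x₂ + ν) * x₁) (a + b) := (hψ₂.mul h₁).congr (by ring)
  have hD := is_gt_add hA hB
  rcases eq_or_ne (a₄ - x₁ * x₂) 0 with h0 | h0
  · rw [h0, mul_zero] at hrel
    have hν : ν = 0 := (mul_eq_zero.mp hrel).resolve_right hD.1
    rw [hν] at e₃
    left
    have : x₁ * x₂ * x₃ = 0 := by rw [e₃]; ring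
    exact (mul_eq_zero.mp this).resolve_left h12.1
  · have hc : v.w a₄ ≤ v.w (a₄ - x₁ * x₂) := by
      have : v.Ge (a₄ - x₁ * x₂) (v.w a₄) := N.is_a₄.ge.sub (h12.ge_of_le hab.ge)
      exact this.le_of_is (RatVal.is_self h0)
    have hR : v.Is (ν * (((m - α) * x₁ + ν) * x₂ + ((m - α') * x₂ + ν) * x₁))
        (v.w (a₄ - x₁ * x₂) + (a + b)) := by
      rw [hrel]
      exact (h12.mul (RatVal.is_self h0)).congr (by ring)
    have hν : v.Is ν (v.w (a₄ - x₁ * x₂)) := is_of_mul_is hR hD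
    have hν2 := hν.sq
    rw [← e₃] at hν2
    have hx₃ : v.Is x₃ (2 * v.w (a₄ - x₁ * x₂) - (a + b)) :=
      is_of_is_mul (hν2.congr (by ring)) h12
    exact hx₃.ge_of_le (by linarith)

end stages

/-- Translation by the point `(0,0)`: the line through the origin. -/
theorem tri_origin (N : Node v a₁ a₄ α α') {m x x₃ : L} {a : ℚ} (h : x * x₃ = a₄)
    (hx : v.Is x a) :
    v.Is x₃ (v.w a₄ - a) ∧ (Gt v ((m - α) * x) a → Gt v ((m - α) * x₃) (v.w a₄ - a)) ∧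
      (Gt v ((m - α') * x) a → Gt v ((m - α') * x₃) (v.w a₄ - a)) := by
  have hx₃ : v.Is x₃ (v.w a₄ - a) :=
    is_of_is_mul (by rw [h]; exact N.is_a₄.congr (by ring)) hx
  refine ⟨hx₃, fun hg => ?_, fun hg => ?_⟩
  · have h0 : Gt v (m - α) 0 := Gt.of_mul_is (by rwa [zero_add]) hx
    have := h0.mul_is hx₃
    rwa [zero_add] at this
  · have h0 : Gt v (m - α') 0 := Gt.of_mul_is (by rwa [zero_add]) hx
    have := h0.mul_is hx₃
    rwa [zero_add] at this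

end Trop

end Fermat.Agent.S05
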