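import Mathlib
import Fermat.Agent.S05.TropVal
import Fermat.Agent.S05.TropLine

/-!
# S05/S13 local structure at a node: the homomorphism `Λ`

`W : y² + a₁ x y = x³ + a₂ x² + a₄ x` over a field `L` with a `ℚ`-valued valuation `v`
(`RatVal L`), `α, α'` the roots of `t² + a₁ t - a₂` with `α - α'` a unit and `0 < w a₄`.
Then `lam : W.Point →+ ℚ ⧸ 2 (w a₄) ℤ` is a group homomorphism with kernel
`E₀ = {O} ∪ {(x, y) : x ≠ 0, w x ≤ 0}`; on affine points it is given by `lamQ`: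
`0` on `E₀`, `w x` on `(+)`-points (`0 < w x < w a₄`, `y/x ≡ α`), `- w x` on `(-)`-points
(`y/x ≡ α'`), and `w a₄` on the remaining points (`x = 0` or `w a₄ ≤ w x`).
-/

set_option autoImplicit false
set_option linter.unusedSectionVars false

open WeierstrassCurve WeierstrassCurve.Affine

namespace Fermat.Agent.S05

namespace Trop

/-- Additivity from the behaviour on "types": pure group theory. -/
theorem hom_of_types {G H : Type*} [AddCommGroup G] [AddCommGroup H] (f : G → H)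
    (E Pl : G → Prop) (t : G) (b : H)
    (htt : t + t = 0) (hbb : b + b = 0)
    (hneg : ∀ P, f (-P) = -f P)
    (ht : ∀ P, f (P + t) = f P + b)
    (hEneg : ∀ P, E P → E (-P)) (hEadd : ∀ P Q, E P → E Q → E (P + Q))
    (hEf : ∀ P, E P → f P = 0)
    (hPE : ∀ P Q, Pl P → E Q → f (P + Q) = f P)
    (hPP : ∀ P Q, Pl P → Pl Q → f (P + Q) = f P + f Q)
    (hcls : ∀ P, E P ∨ Pl P ∨ Pl (-P) ∨ E (P + t))
    (hMt : ∀ P, Pl (-P) → Pl (P + t)) :
    ∀ P Q, f (P + Q) = f P + f Q := by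
  have hEt : ∀ P, E (P + t) → f P = b := by
    intro P h
    have := ht (P + t)
    rw [hEf _ h, zero_add, add_assoc, htt, add_zero] at this
    exact this
  have inv : ∀ P Q, E Q → f (P + Q) = f P := by
    intro P Q hQ
    rcases hcls P with h | h | h | h
    · rw [hEf _ (hEadd _ _ h hQ), hEf _ h]
    · exact hPE P Q h hQ
    · have := hPE (-P) (-Q) h (hEneg Q hQ)
      rw [← neg_add, hneg, hneg] at this
      exact neg_injective this
    · rw [hEt P h]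
      apply hEt
      have : P + Q + t = (P + t) + Q := by abel
      rw [this]
      exact hEadd _ _ h hQ
  have key : ∀ P Q, (E Q ∨ E (Q + t)) → f (P + Q) = f P + f Q := by
    intro P Q hQ
    rcases hQ with hQ | hQ
    · rw [inv P Q hQ, hEf Q hQ, add_zero]
    · rw [hEt Q hQ]
      have h1 := ht (P + (Q + t))
      rw [inv P _ hQ] at h1
      rw [← h1]
      congr 1
      rw [add_assoc, add_assoc, htt, add_zero]
  have twob : ∀ x : H, x + b + b = x := fun x => by rw [add_assoc, hbb, add_zero]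
  have pm : ∀ P Q, Pl P → Pl (-Q) → f (P + Q) = f P + f Q := by
    intro P Q hP hQ
    have h1 := ht (P + (Q + t))
    rw [hPP P _ hP (hMt Q hQ), ht Q] at h1
    have h2 : P + (Q + t) + t = P + Q := by
      rw [add_assoc, add_assoc, htt, add_zero]
    rw [h2] at h1
    rw [h1, ← add_assoc, twob]
  intro P Q
  rcases hcls Q with hQ | hQ | hQ | hQ
  · exact key P Q (Or.inl hQ)
  · rcases hcls P with hP | hP | hP | hP
    · rw [add_comm P Q, key Q P (Or.inl hP), add_comm]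
    · exact hPP P Q hP hQ
    · rw [add_comm P Q, pm Q P hQ hP, add_comm]
    · rw [add_comm P Q, key Q P (Or.inr hP), add_comm]
  · rcases hcls P with hP | hP | hP | hP
    · rw [add_comm P Q, key Q P (Or.inl hP), add_comm]
    · exact pm P Q hP hQ
    · have := hPP (-P) (-Q) hP hQ
      rw [← neg_add, hneg, hneg, hneg, ← neg_add] at this
      exact neg_injective this
    · rw [add_comm P Q, key Q P (Or.inr hP), add_comm]
  · exact key P Q (Or.inr hQ)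

variable {L : Type*} [Field L]

open Classical in
/-- The `ℚ`-valued representative of `Λ` at an affine point `(x, y)`. -/
noncomputable def lamQ (v : RatVal L) (a₄ α x y : L) : ℚ :=
  if x = 0 then v.w a₄
  else if v.w x ≤ 0 then 0
  else if v.w a₄ ≤ v.w x then v.w a₄
  else if Gt v (y - α * x) (v.w x) then v.w x
  else - v.w x

section lamQ

variable {v : RatVal L} {a₄ α x y : L} {a : ℚ}

theorem lamQ_zero : lamQ v a₄ α 0 y = v.w a₄ := by
  simp [lamQ]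

theorem lamQ_nonpos (hx : v.Is x a) (ha : a ≤ 0) : lamQ v a₄ α x y = 0 := by
  obtain ⟨hx0, rfl⟩ := hx
  simp [lamQ, hx0, ha]

theorem lamQ_big (hx : v.Is x a) (hpos : 0 < v.w a₄) (ha : v.w a₄ ≤ a) :
    lamQ v a₄ α x y = v.w a₄ := by
  obtain ⟨hx0, rfl⟩ := hx
  have : ¬ v.w x ≤ 0 := by linarith
  simp [lamQ, hx0, ha, this]

theorem lamQ_plus (hx : v.Is x a) (ha : 0 < a) (ha' : a < v.w a₄)
    (hp : Gt v (y - α * x) a) : lamQ v a₄ α x y = a := by
  obtain ⟨hx0, rfl⟩ := hx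
  have h1 : ¬ v.w x ≤ 0 := by linarith
  have h2 : ¬ v.w a₄ ≤ v.w x := by linarith
  simp [lamQ, hx0, h1, h2, hp]

theorem lamQ_minus (hx : v.Is x a) (ha : 0 < a) (ha' : a < v.w a₄)
    (hp : ¬ Gt v (y - α * x) a) : lamQ v a₄ α x y = -a := by
  obtain ⟨hx0, rfl⟩ := hx
  have h1 : ¬ v.w x ≤ 0 := by linarith
  have h2 : ¬ v.w a₄ ≤ v.w x := by linarith
  simp [lamQ, hx0, h1, h2, hp]

end lamQ

variable [DecidableEq L]

/-- The Weierstrass model at a node: `y² + a₁ x y = x³ + a₂ x² + a₄ x`, with `α, α'` the roots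
of `t² + a₁ t - a₂`, `α - α'` a unit and `a₄ ≠ 0` of positive valuation. -/
structure NodeCurve (v : RatVal L) (W : WeierstrassCurve.Affine L) (α α' : L) : Prop where
  a₃ : W.a₃ = 0
  a₆ : W.a₆ = 0
  prod : α * α' = -W.a₂
  node : Node v W.a₁ W.a₄ α α'

variable {v : RatVal L} {W : WeierstrassCurve.Affine L} {α α' : L}

theorem NodeCurve.symm (C : NodeCurve v W α α') : NodeCurve v W α' α where
  a₃ := C.a₃
  a₆ := C.a₆
  prod := by rw [mul_comm]; exact C.prod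
  node := C.node.symm

theorem NodeCurve.psi_mul (C : NodeCurve v W α α') {x y : L} (h : W.Equation x y) :
    (y - α * x) * (y - α' * x) = x * (x ^ 2 + W.a₄) := by
  rw [equation_iff] at h
  linear_combination h - x * y * C.node.sum + x ^ 2 * C.prod - y * C.a₃ + C.a₆

theorem NodeCurve.negY_sub (C : NodeCurve v W α α') (x y : L) :
    W.negY x y - α * x = -(y - α' * x) := by
  simp only [negY]
  linear_combination (-x) * C.node.sum - C.a₃

theorem NodeCurve.gt_negY (C : NodeCurve v W α α') {x y : L} {a : ℚ} :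
    Gt v (W.negY x y - α * x) a ↔ Gt v (y - α' * x) a := by
  rw [C.negY_sub]
  constructor
  · intro h
    have := h.neg
    rwa [neg_neg] at this
  · exact Gt.neg

/-- On the line `y = m x + ν`. -/
theorem NodeCurve.psi_mul_line (C : NodeCurve v W α α') {x y m ν : L} (h : W.Equation x y)
    (hy : y = m * x + ν) :
    ((m - α) * x + ν) * ((m - α') * x + ν) = x * (x ^ 2 + W.a₄) := by
  rw [← C.psi_mul h, hy]
  ring

/-- The dichotomy for points with `0 < w x < w a₄`. -/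
theorem NodeCurve.mid (C : NodeCurve v W α α') {x y : L} {a : ℚ} (h : W.Equation x y)
    (hx : v.Is x a) (ha : 0 < a) (ha' : a < v.w W.a₄) :
    (Gt v (y - α * x) a ∧ v.Is (y - α' * x) a) ∨ (v.Is (y - α * x) a ∧ Gt v (y - α' * x) a) :=
  psi_of_mid C.node (C.psi_mul h) (by ring) hx ha ha'

/-- The point `(0, 0)`. -/
theorem NodeCurve.nonsingular_zero (C : NodeCurve v W α α') : W.Nonsingular 0 0 := by
  rw [nonsingular_iff, equation_iff]
  refine ⟨by simp [C.a₆], Or.inl ?_⟩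
  simpa using C.node.ne.symm

/-- The value of `Λ` on points: `lamQ` modulo `2 w(a₄)`. -/
noncomputable def lamFun (v : RatVal L) (W : WeierstrassCurve.Affine L) (α : L) :
    W.Point → ℚ ⧸ AddSubgroup.zmultiples (2 * v.w W.a₄)
  | .zero => 0
  | .some x y _ => ((lamQ v W.a₄ α x y : ℚ) : ℚ ⧸ AddSubgroup.zmultiples (2 * v.w W.a₄))

/-- The subgroup `E₀`: the point at infinity and the affine points with `x ≠ 0`, `w x ≤ 0`. -/
def InE0 (v : RatVal L) (W : WeierstrassCurve.Affine L) : W.Point → Prop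
  | .zero => True
  | .some x _ _ => x ≠ 0 ∧ v.w x ≤ 0

/-- The `(+)`-points: `0 < w x < w a₄` and `y - α x` small. -/
def IsPlus (v : RatVal L) (W : WeierstrassCurve.Affine L) (α : L) : W.Point → Prop
  | .zero => False
  | .some x y _ => x ≠ 0 ∧ 0 < v.w x ∧ v.w x < v.w W.a₄ ∧ Gt v (y - α * x) (v.w x)

@[simp] theorem lamFun_zero : lamFun v W α 0 = 0 := rfl

theorem lamFun_some {x y : L} (h : W.Nonsingular x y) :
    lamFun v W α (Point.some x y h) = ((lamQ v W.a₄ α x y : ℚ) :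
      ℚ ⧸ AddSubgroup.zmultiples (2 * v.w W.a₄)) := rfl

theorem inE0_zero : InE0 v W 0 := trivial

theorem inE0_some {x y : L} (h : W.Nonsingular x y) :
    InE0 v W (Point.some x y h) ↔ x ≠ 0 ∧ v.w x ≤ 0 := Iff.rfl

theorem isPlus_some {x y : L} (h : W.Nonsingular x y) :
    IsPlus v W α (Point.some x y h) ↔
      x ≠ 0 ∧ 0 < v.w x ∧ v.w x < v.w W.a₄ ∧ Gt v (y - α * x) (v.w x) := Iff.rfl

/-- The class of `w a₄` has order two. -/
theorem beta_add_beta (v : RatVal L) (W : WeierstrassCurve.Affine L) :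
    ((v.w W.a₄ : ℚ) : ℚ ⧸ AddSubgroup.zmultiples (2 * v.w W.a₄)) + (v.w W.a₄ : ℚ) = 0 := by
  rw [← QuotientAddGroup.mk_add, QuotientAddGroup.eq_zero_iff]
  exact AddSubgroup.mem_zmultiples_iff.mpr ⟨1, by rw [one_smul]; ring⟩

theorem beta_eq_neg (v : RatVal L) (W : WeierstrassCurve.Affine L) :
    ((v.w W.a₄ : ℚ) : ℚ ⧸ AddSubgroup.zmultiples (2 * v.w W.a₄)) = -((v.w W.a₄ : ℚ) :
      ℚ ⧸ AddSubgroup.zmultiples (2 * v.w W.a₄)) :=
  eq_neg_of_add_eq_zero_left (beta_add_beta v W)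

/-- Coercion of a rational differing by `2 w(a₄)`. -/
theorem mk_sub_two_beta (v : RatVal L) (W : WeierstrassCurve.Affine L) (r : ℚ) :
    ((r - 2 * v.w W.a₄ : ℚ) : ℚ ⧸ AddSubgroup.zmultiples (2 * v.w W.a₄)) = (r : ℚ) := by
  rw [QuotientAddGroup.eq]
  exact AddSubgroup.mem_zmultiples_iff.mpr ⟨1, by rw [one_smul]; ring⟩

section points

variable (C : NodeCurve v W α α')
include C

theorem lamFun_neg (P : W.Point) : lamFun v W α (-P) = -lamFun v W α P := by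
  rcases P with _ | ⟨x, y, h⟩
  · simp [← Point.zero_def]
  · rw [Point.neg_some, lamFun_some, lamFun_some]
    rcases eq_or_ne x 0 with rfl | hx0
    · rw [lamQ_zero, lamQ_zero]
      exact beta_eq_neg v W
    have hx : v.Is x (v.w x) := ⟨hx0, rfl⟩
    rcases le_or_gt (v.w x) 0 with h1 | h1
    · rw [lamQ_nonpos hx h1, lamQ_nonpos hx h1]
      simp
    rcases le_or_gt (v.w W.a₄) (v.w x) with h2 | h2
    · rw [lamQ_big hx C.node.pos h2, lamQ_big hx C.node.pos h2]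
      exact beta_eq_neg v W
    rcases C.mid h.1 hx h1 h2 with ⟨hp, hm⟩ | ⟨hp, hm⟩
    · rw [lamQ_plus hx h1 h2 hp,
        lamQ_minus hx h1 h2 (fun hg => not_gt_of_is hm (C.gt_negY.mp hg))]
      simp
    · rw [lamQ_minus hx h1 h2 (not_gt_of_is hp), lamQ_plus hx h1 h2 (C.gt_negY.mpr hm)]
      simp

theorem inE0_neg (P : W.Point) (hP : InE0 v W P) : InE0 v W (-P) := by
  rcases P with _ | ⟨x, y, h⟩
  · exact hP
  · exact hP

theorem lamFun_of_inE0 (P : W.Point) (hP : InE0 v W P) : lamFun v W α P = 0 := by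
  rcases P with _ | ⟨x, y, h⟩
  · rfl
  · rw [lamFun_some, lamQ_nonpos ⟨hP.1, rfl⟩ hP.2]
    rfl

theorem lamFun_of_isPlus (P : W.Point) (hP : IsPlus v W α P) :
    ∃ x y h, P = Point.some x y h ∧ x ≠ 0 ∧ 0 < v.w x ∧ v.w x < v.w W.a₄ ∧
      Gt v (y - α * x) (v.w x) ∧
      lamFun v W α P = ((v.w x : ℚ) : ℚ ⧸ AddSubgroup.zmultiples (2 * v.w W.a₄)) := by
  rcases P with _ | ⟨x, y, h⟩
  · exact absurd hP (by simp [IsPlus])
  · obtain ⟨h0, h1, h2, h3⟩ := hP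
    exact ⟨x, y, h, rfl, h0, h1, h2, h3, by rw [lamFun_some, lamQ_plus ⟨h0, rfl⟩ h1 h2 h3]⟩

/-- The line through two affine points, in the form used below. -/
theorem line {x₁ y₁ x₂ y₂ : L} (h₁ : W.Nonsingular x₁ y₁) (h₂ : W.Nonsingular x₂ y₂)
    (hxy : ¬(x₁ = x₂ ∧ y₁ = W.negY x₂ y₂)) :
    ∃ (m ν x₃ y₃ : L) (h₃ : W.Nonsingular x₃ y₃),
      Point.some _ _ h₁ + Point.some _ _ h₂ = Point.some x₃ (W.negY x₃ y₃)
        ((nonsingular_neg ..).mpr h₃) ∧
      y₁ = m * x₁ + ν ∧ y₂ = m * x₂ + ν ∧ y₃ = m * x₃ + ν ∧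
      x₁ * x₂ + x₁ * x₃ + x₂ * x₃ = W.a₄ - (2 * m + W.a₁) * ν ∧
      x₁ * x₂ * x₃ = ν ^ 2 := by
  obtain ⟨m, ν, x₃, y₃, h₃, hadd, e1, e2, e3, -, e₂, e₃⟩ := exists_line W h₁ h₂ hxy
  refine ⟨m, ν, x₃, y₃, h₃, ?_, e1, e2, e3, ?_, ?_⟩
  · rw [hadd, Point.neg_some]
  · rw [e₂, C.a₃]; ring
  · rw [e₃, C.a₃, C.a₆]; ring

theorem inE0_add (P Q : W.Point) (hP : InE0 v W P) (hQ : InE0 v W Q) : InE0 v W (P + Q) := by
  rcases P with _ | ⟨x₁, y₁, h₁⟩
  · rw [← Point.zero_def, zero_add]; exact hQ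
  rcases Q with _ | ⟨x₂, y₂, h₂⟩
  · rw [← Point.zero_def, add_zero]; exact hP
  by_cases hxy : x₁ = x₂ ∧ y₁ = W.negY x₂ y₂
  · rw [Point.add_of_Y_eq hxy.1 hxy.2]; exact inE0_zero
  obtain ⟨m, ν, x₃, y₃, h₃, hadd, e1, e2, e3, e₂, e₃⟩ := line C h₁ h₂ hxy
  obtain ⟨c, hc, hc0, -, -⟩ := tri_nonpos C.node (C.psi_mul_line h₁.1 e1)
    (C.psi_mul_line h₂.1 e2) e₂ e₃ ⟨hP.1, rfl⟩ hP.2 ⟨hQ.1, rfl⟩ hQ.2
  rw [hadd]
  exact ⟨hc.1, by rw [hc.2]; exact hc0⟩

theorem lamFun_add_of_isPlus_of_inE0 (P Q : W.Point) (hP : IsPlus v W α P)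
    (hQ : InE0 v W Q) : lamFun v W α (P + Q) = lamFun v W α P := by
  obtain ⟨x₁, y₁, h₁, rfl, hx₁, ha, ha', hp₁, hval⟩ := lamFun_of_isPlus C P hP
  rcases Q with _ | ⟨x₂, y₂, h₂⟩
  · rw [← Point.zero_def, add_zero]
  have hxy : ¬(x₁ = x₂ ∧ y₁ = W.negY x₂ y₂) := by
    rintro ⟨rfl, -⟩
    have := hQ.2
    linarith
  obtain ⟨m, ν, x₃, y₃, h₃, hadd, e1, e2, e3, e₂, e₃⟩ := line C h₁ h₂ hxy
  have hp₁' : Gt v ((m - α) * x₁ + ν) (v.w x₁) := by
    have : (m - α) * x₁ + ν = y₁ - α * x₁ := by rw [e1]; ring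
    rwa [this]
  obtain ⟨hx₃, hg⟩ := tri_plus_nonpos C.node (C.psi_mul_line h₂.1 e2) e₂ e₃
    ⟨hx₁, rfl⟩ ha ha' hp₁' ⟨hQ.1, rfl⟩ hQ.2
  rw [hadd, hval, lamFun_some, lamQ_plus hx₃ ha ha']
  rw [C.gt_negY]
  have : y₃ - α' * x₃ = (m - α') * x₃ + ν := by rw [e3]; ring
  rwa [this]

theorem lamFun_add_of_isPlus (P Q : W.Point) (hP : IsPlus v W α P) (hQ : IsPlus v W α Q) :
    lamFun v W α (P + Q) = lamFun v W α P + lamFun v W α Q := by
  obtain ⟨x₁, y₁, h₁, rfl, hx₁, ha, ha', hp₁, hval₁⟩ := lamFun_of_isPlus C P hP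
  obtain ⟨x₂, y₂, h₂, rfl, hx₂, hb, hb', hp₂, hval₂⟩ := lamFun_of_isPlus C Q hQ
  have hxy : ¬(x₁ = x₂ ∧ y₁ = W.negY x₂ y₂) := by
    rintro ⟨rfl, rfl⟩
    rw [C.gt_negY] at hp₁
    rcases C.mid h₂.1 ⟨hx₂, rfl⟩ hb hb' with ⟨-, hm⟩ | ⟨hm, -⟩
    · exact not_gt_of_is hm hp₁
    · exact not_gt_of_is hm hp₂
  obtain ⟨m, ν, x₃, y₃, h₃, hadd, e1, e2, e3, e₂, e₃⟩ := line C h₁ h₂ hxy
  have hp₁' : Gt v ((m - α) * x₁ + ν) (v.w x₁) := by
    have : (m - α) * x₁ + ν = y₁ - α * x₁ := by rw [e1]; ring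
    rwa [this]
  have hp₂' : Gt v ((m - α) * x₂ + ν) (v.w x₂) := by
    have : (m - α) * x₂ + ν = y₂ - α * x₂ := by rw [e2]; ring
    rwa [this]
  have e3' : y₃ - α' * x₃ = (m - α') * x₃ + ν := by rw [e3]; ring
  have e3'' : y₃ - α * x₃ = (m - α) * x₃ + ν := by rw [e3]; ring
  rw [hadd, hval₁, hval₂, lamFun_some, ← QuotientAddGroup.mk_add]
  rcases lt_trichotomy (v.w x₁ + v.w x₂) (v.w W.a₄) with hab | hab | hab
  · obtain ⟨hx₃, hg⟩ := tri_plus_plus_lt C.node (C.psi_mul_line h₂.1 e2) e₂ e₃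
      ⟨hx₁, rfl⟩ ha hp₁' ⟨hx₂, rfl⟩ hb hb' hp₂' hab
    rw [lamQ_plus hx₃ (by linarith) hab]
    rw [C.gt_negY, e3']
    exact hg
  · have hge := tri_plus_plus_eq C.node (C.psi_mul_line h₂.1 e2) e₂ e₃
      ⟨hx₁, rfl⟩ hp₁' ⟨hx₂, rfl⟩ hb hb' hp₂' hab
    rw [hab]
    rcases hge with rfl | hge
    · rw [lamQ_zero]
    · rcases eq_or_ne x₃ 0 with rfl | hx₃0
      · rw [lamQ_zero]
      · rw [lamQ_big ⟨hx₃0, rfl⟩ C.node.pos hge]
  · obtain ⟨hx₃, hg⟩ := tri_plus_plus_gt C.node (C.psi_mul_line h₂.1 e2)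
      (C.psi_mul_line h₃.1 e3) e₂ e₃ ⟨hx₁, rfl⟩ ha' hp₁' ⟨hx₂, rfl⟩ hb hb' hp₂' hab
    have hm : v.Is (y₃ - α' * x₃) (2 * v.w W.a₄ - v.w x₁ - v.w x₂) := by
      rcases C.mid h₃.1 hx₃ (by linarith) (by linarith) with ⟨-, hm⟩ | ⟨hm, -⟩
      · exact hm
      · rw [e3''] at hm
        exact absurd hg (not_gt_of_is hm)
    rw [lamQ_minus hx₃ (by linarith) (by linarith)
      (fun hg' => not_gt_of_is hm (C.gt_negY.mp hg'))]
    rw [← mk_sub_two_beta v W (v.w x₁ + v.w x₂)]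
    congr 1
    ring

/-- The point `(0, 0)`. -/
noncomputable def T1 (C : NodeCurve v W α α') : W.Point := Point.some 0 0 C.nonsingular_zero

theorem T1_add_T1 : T1 C + T1 C = 0 := by
  unfold T1
  apply Point.add_self_of_Y_eq
  simp [negY, C.a₃]

theorem eq_T1_of_x_eq_zero {y : L} (h : W.Nonsingular 0 y) : Point.some 0 y h = T1 C := by
  have hy : y = 0 := by
    have := h.1
    rw [equation_iff, C.a₃, C.a₆] at this
    have h2 : y ^ 2 = 0 := by linear_combination this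
    exact pow_eq_zero_iff (two_ne_zero) |>.mp h2
  subst hy
  rfl

/-- The line through `(0, 0)` and another affine point. -/
theorem line_T1 {x y : L} (h : W.Nonsingular x y) (hx : x ≠ 0) :
    ∃ (m x₃ y₃ : L) (h₃ : W.Nonsingular x₃ y₃),
      Point.some _ _ h + T1 C = Point.some x₃ (W.negY x₃ y₃) ((nonsingular_neg ..).mpr h₃) ∧
      y = m * x ∧ y₃ = m * x₃ ∧ x * x₃ = W.a₄ := by
  have hxy : ¬(x = 0 ∧ y = W.negY 0 0) := fun hh => hx hh.1
  obtain ⟨m, ν, x₃, y₃, h₃, hadd, e1, e2, e3, e₂, e₃⟩ := line C h C.nonsingular_zero hxy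
  have hν : ν = 0 := by
    rw [mul_zero, zero_add] at e2
    exact e2.symm
  subst hν
  refine ⟨m, x₃, y₃, h₃, hadd, by rw [e1, add_zero], by rw [e3, add_zero], ?_⟩
  linear_combination e₂

theorem lamFun_T1 : lamFun v W α (T1 C) = ((v.w W.a₄ : ℚ) :
    ℚ ⧸ AddSubgroup.zmultiples (2 * v.w W.a₄)) := by
  unfold T1
  rw [lamFun_some, lamQ_zero]

theorem lamFun_add_T1 (P : W.Point) :
    lamFun v W α (P + T1 C) = lamFun v W α P + ((v.w W.a₄ : ℚ) :
      ℚ ⧸ AddSubgroup.zmultiples (2 * v.w W.a₄)) := by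
  rcases P with _ | ⟨x, y, h⟩
  · rw [← Point.zero_def, zero_add, lamFun_T1, lamFun_zero, zero_add]
  rcases eq_or_ne x 0 with rfl | hx0
  · rw [eq_T1_of_x_eq_zero C h, T1_add_T1, lamFun_T1, beta_add_beta, lamFun_zero]
  obtain ⟨m, x₃, y₃, h₃, hadd, e1, e3, e⟩ := line_T1 C h hx0
  have hx : v.Is x (v.w x) := ⟨hx0, rfl⟩
  obtain ⟨hx₃, hg, hg'⟩ := tri_origin (m := m) C.node e hx
  have ey : y - α * x = (m - α) * x := by rw [e1]; ring
  have ey' : y - α' * x = (m - α') * x := by rw [e1]; ring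
  have ey₃ : y₃ - α * x₃ = (m - α) * x₃ := by rw [e3]; ring
  have ey₃' : y₃ - α' * x₃ = (m - α') * x₃ := by rw [e3]; ring
  rw [hadd, lamFun_some, lamFun_some, ← QuotientAddGroup.mk_add]
  rcases le_or_gt (v.w x) 0 with h1 | h1
  · rw [lamQ_nonpos hx h1, lamQ_big hx₃ C.node.pos (by linarith), zero_add]
  rcases le_or_gt (v.w W.a₄) (v.w x) with h2 | h2
  · rw [lamQ_big hx C.node.pos h2, lamQ_nonpos hx₃ (by linarith), ← two_mul,
      ← mk_sub_two_beta v W (2 * v.w W.a₄), sub_self]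
  rcases C.mid h.1 hx h1 h2 with ⟨hp, hm⟩ | ⟨hp, hm⟩
  · rw [lamQ_plus hx h1 h2 hp]
    have hm₃ : v.Is (y₃ - α' * x₃) (v.w W.a₄ - v.w x) := by
      rcases C.mid h₃.1 hx₃ (by linarith) (by linarith) with ⟨-, hm₃⟩ | ⟨hm₃, -⟩
      · exact hm₃
      · rw [ey₃] at hm₃
        rw [ey] at hp
        exact absurd (hg hp) (not_gt_of_is hm₃)
    rw [lamQ_minus hx₃ (by linarith) (by linarith)
      (fun hg'' => not_gt_of_is hm₃ (C.gt_negY.mp hg'')),
      ← mk_sub_two_beta v W (v.w x + v.w W.a₄)]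
    congr 1
    ring
  · rw [lamQ_minus hx h1 h2 (not_gt_of_is hp)]
    rw [lamQ_plus hx₃ (by linarith) (by linarith)]
    · congr 1
      ring
    · rw [C.gt_negY, ey₃']
      rw [ey'] at hm
      exact hg' hm

theorem cases_type (P : W.Point) :
    InE0 v W P ∨ IsPlus v W α P ∨ IsPlus v W α (-P) ∨ InE0 v W (P + T1 C) := by
  rcases P with _ | ⟨x, y, h⟩
  · exact Or.inl trivial
  rcases eq_or_ne x 0 with rfl | hx0
  · right; right; right
    rw [eq_T1_of_x_eq_zero C h, T1_add_T1]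
    exact inE0_zero
  have hx : v.Is x (v.w x) := ⟨hx0, rfl⟩
  rcases le_or_gt (v.w x) 0 with h1 | h1
  · exact Or.inl ⟨hx0, h1⟩
  rcases le_or_gt (v.w W.a₄) (v.w x) with h2 | h2
  · right; right; right
    obtain ⟨m, x₃, y₃, h₃, hadd, e1, e3, e⟩ := line_T1 C h hx0
    obtain ⟨hx₃, -, -⟩ := tri_origin (m := m) C.node e hx
    rw [hadd]
    exact ⟨hx₃.1, by rw [hx₃.2]; linarith⟩
  rcases C.mid h.1 hx h1 h2 with ⟨hp, hm⟩ | ⟨hp, hm⟩
  · exact Or.inr (Or.inl ⟨hx0, h1, h2, hp⟩)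
  · right; right; left
    rw [Point.neg_some]
    exact ⟨hx0, h1, h2, C.gt_negY.mpr hm⟩

theorem isPlus_add_T1 (P : W.Point) (hP : IsPlus v W α (-P)) : IsPlus v W α (P + T1 C) := by
  rcases P with _ | ⟨x, y, h⟩
  · exact absurd hP (by simp [← Point.zero_def, IsPlus])
  rw [Point.neg_some] at hP
  obtain ⟨hx0, h1, h2, hg⟩ := hP
  rw [C.gt_negY] at hg
  have hx : v.Is x (v.w x) := ⟨hx0, rfl⟩
  obtain ⟨m, x₃, y₃, h₃, hadd, e1, e3, e⟩ := line_T1 C h hx0
  obtain ⟨hx₃, -, hg'⟩ := tri_origin (m := m) C.node e hx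
  have ey' : y - α' * x = (m - α') * x := by rw [e1]; ring
  have ey₃' : y₃ - α' * x₃ = (m - α') * x₃ := by rw [e3]; ring
  rw [hadd]
  refine ⟨hx₃.1, by rw [hx₃.2]; linarith, by rw [hx₃.2]; linarith, ?_⟩
  rw [C.gt_negY, ey₃', hx₃.2]
  rw [ey'] at hg
  exact hg' hg

/-- `Λ` is additive. -/
theorem lamFun_add (P Q : W.Point) :
    lamFun v W α (P + Q) = lamFun v W α P + lamFun v W α Q :=
  hom_of_types (lamFun v W α) (InE0 v W) (IsPlus v W α) (T1 C) _ (T1_add_T1 C)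
    (beta_add_beta v W) (lamFun_neg C) (lamFun_add_T1 C) (inE0_neg C) (inE0_add C)
    (lamFun_of_inE0 C) (lamFun_add_of_isPlus_of_inE0 C) (lamFun_add_of_isPlus C)
    (cases_type C) (isPlus_add_T1 C) P Q

end points

/-- The homomorphism `Λ : E(L) → ℚ / 2 w(a₄) ℤ`. -/
noncomputable def lam (C : NodeCurve v W α α') :
    W.Point →+ ℚ ⧸ AddSubgroup.zmultiples (2 * v.w W.a₄) where
  toFun := lamFun v W α
  map_zero' := rfl
  map_add' := lamFun_add C

theorem lam_apply (C : NodeCurve v W α α') (P : W.Point) : lam C P = lamFun v W α P := rfl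

/-- A rational strictly between `0` and `2 β` is non-zero modulo `2 β`. -/
theorem mk_ne_zero_of_lt {β r : ℚ} (h0 : 0 < r) (h1 : r < 2 * β) :
    ((r : ℚ) : ℚ ⧸ AddSubgroup.zmultiples (2 * β)) ≠ 0 := by
  intro h
  rw [QuotientAddGroup.eq_zero_iff, AddSubgroup.mem_zmultiples_iff] at h
  obtain ⟨n, hn⟩ := h
  rw [zsmul_eq_mul] at hn
  have hβ : 0 < 2 * β := by linarith
  have h2 : (0 : ℚ) < n := by
    by_contra hcon
    push Not at hcon
    nlinarith
  have h3 : (n : ℚ) < 1 := by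
    by_contra hcon
    push Not at hcon
    nlinarith
  have h4 : (0 : ℤ) < n := by exact_mod_cast h2
  have h5 : n < 1 := by exact_mod_cast h3
  omega

/-- The kernel of `Λ` is `E₀`. -/
theorem lam_eq_zero_iff (C : NodeCurve v W α α') (P : W.Point) :
    lam C P = 0 ↔ InE0 v W P := by
  refine ⟨fun h => ?_, lamFun_of_inE0 C P⟩
  have hβ := C.node.pos
  rcases cases_type C P with h1 | h1 | h1 | h1
  · exact h1
  · exfalso
    obtain ⟨x, y, hh, rfl, hx, ha, ha', -, hval⟩ := lamFun_of_isPlus C P h1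
    rw [lam_apply, hval] at h
    exact mk_ne_zero_of_lt ha (by linarith) h
  · exfalso
    obtain ⟨x, y, hh, hP, hx, ha, ha', -, hval⟩ := lamFun_of_isPlus C (-P) h1
    rw [← lam_apply C, map_neg, h, neg_zero] at hval
    exact mk_ne_zero_of_lt ha (by linarith) hval.symm
  · exfalso
    have h2 := lamFun_add_T1 C P
    rw [lamFun_of_inE0 C _ h1, ← lam_apply C, h, zero_add] at h2
    exact mk_ne_zero_of_lt hβ (by linarith) h2.symm

/-- The subgroup `E₀` (kernel of `Λ`): the points whose reduction is not the node. -/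
noncomputable def E0 (C : NodeCurve v W α α') : AddSubgroup W.Point := (lam C).ker

theorem mem_E0_iff (C : NodeCurve v W α α') (P : W.Point) : P ∈ E0 C ↔ InE0 v W P := by
  rw [E0, AddMonoidHom.mem_ker, lam_eq_zero_iff]

theorem some_mem_E0_iff (C : NodeCurve v W α α') {x y : L} (h : W.Nonsingular x y) :
    Point.some x y h ∈ E0 C ↔ x ≠ 0 ∧ v.w x ≤ 0 := by
  rw [mem_E0_iff, inE0_some]

/-- The kernel of reduction `E₁`: the point at infinity and the affine points with `w x < 0`. -/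
def InE1 (v : RatVal L) (W : WeierstrassCurve.Affine L) : W.Point → Prop
  | .zero => True
  | .some x _ _ => x ≠ 0 ∧ v.w x < 0

theorem inE1_zero : InE1 v W 0 := trivial

theorem inE1_some {x y : L} (h : W.Nonsingular x y) :
    InE1 v W (Point.some x y h) ↔ x ≠ 0 ∧ v.w x < 0 := Iff.rfl

theorem inE1_add (C : NodeCurve v W α α') (P Q : W.Point) (hP : InE1 v W P)
    (hQ : InE1 v W Q) : InE1 v W (P + Q) := by
  rcases P with _ | ⟨x₁, y₁, h₁⟩
  · rw [← Point.zero_def, zero_add]; exact hQ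
  rcases Q with _ | ⟨x₂, y₂, h₂⟩
  · rw [← Point.zero_def, add_zero]; exact hP
  by_cases hxy : x₁ = x₂ ∧ y₁ = W.negY x₂ y₂
  · rw [Point.add_of_Y_eq hxy.1 hxy.2]; exact inE1_zero
  obtain ⟨m, ν, x₃, y₃, h₃, hadd, e1, e2, e3, e₂, e₃⟩ := line C h₁ h₂ hxy
  obtain ⟨c, hc, -, hc0, -⟩ := tri_nonpos C.node (C.psi_mul_line h₁.1 e1)
    (C.psi_mul_line h₂.1 e2) e₂ e₃ ⟨hP.1, rfl⟩ hP.2.le ⟨hQ.1, rfl⟩ hQ.2.le
  rw [hadd]
  exact ⟨hc.1, by rw [hc.2]; exact hc0 hP.2 hQ.2⟩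

theorem inE1_neg (P : W.Point) (hP : InE1 v W P) : InE1 v W (-P) := by
  rcases P with _ | ⟨x, y, h⟩
  · exact hP
  · exact hP

/-- The subgroup `E₁` (kernel of reduction). -/
noncomputable def E1 (C : NodeCurve v W α α') : AddSubgroup W.Point where
  carrier := {P | InE1 v W P}
  zero_mem' := inE1_zero (v := v) (W := W)
  add_mem' := fun {P Q} hP hQ => inE1_add C P Q hP hQ
  neg_mem' := fun {P} hP => inE1_neg (v := v) (W := W) P hP

theorem mem_E1_iff (C : NodeCurve v W α α') (P : W.Point) : P ∈ E1 C ↔ InE1 v W P := by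
  rw [← AddSubgroup.mem_carrier]
  rfl

theorem some_mem_E1_iff (C : NodeCurve v W α α') {x y : L} (h : W.Nonsingular x y) :
    Point.some x y h ∈ E1 C ↔ x ≠ 0 ∧ v.w x < 0 := by
  rw [mem_E1_iff, inE1_some]

theorem E1_le_E0 (C : NodeCurve v W α α') : E1 C ≤ E0 C := by
  intro P hP
  rw [mem_E1_iff] at hP
  rw [mem_E0_iff]
  rcases P with _ | ⟨x, y, h⟩
  · exact inE0_zero
  · exact ⟨hP.1, hP.2.le⟩

/-! ### Explicit values of `Λ` -/

theorem lam_some (C : NodeCurve v W α α') {x y : L} (h : W.Nonsingular x y) :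
    lam C (Point.some x y h) = ((lamQ v W.a₄ α x y : ℚ) :
      ℚ ⧸ AddSubgroup.zmultiples (2 * v.w W.a₄)) := rfl

/-- Every point is in `E₀`, or a `(+)`-point, or a `(-)`-point, or has `Λ = [w a₄]`. -/
theorem lam_cases (C : NodeCurve v W α α') (P : W.Point) :
    P ∈ E0 C ∨
    (∃ x y h, P = Point.some x y h ∧ x ≠ 0 ∧ 0 < v.w x ∧ v.w x < v.w W.a₄ ∧
      Gt v (y - α * x) (v.w x) ∧
      lam C P = ((v.w x : ℚ) : ℚ ⧸ AddSubgroup.zmultiples (2 * v.w W.a₄))) ∨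
    (∃ x y h, P = Point.some x y h ∧ x ≠ 0 ∧ 0 < v.w x ∧ v.w x < v.w W.a₄ ∧
      Gt v (y - α' * x) (v.w x) ∧
      lam C P = -((v.w x : ℚ) : ℚ ⧸ AddSubgroup.zmultiples (2 * v.w W.a₄))) ∨
    lam C P = ((v.w W.a₄ : ℚ) : ℚ ⧸ AddSubgroup.zmultiples (2 * v.w W.a₄)) := by
  rcases cases_type C P with h1 | h1 | h1 | h1
  · exact Or.inl ((mem_E0_iff C P).mpr h1)
  · right; left
    obtain ⟨x, y, hh, rfl, hx, ha, ha', hg, hval⟩ := lamFun_of_isPlus C P h1
    exact ⟨x, y, hh, rfl, hx, ha, ha', hg, hval⟩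
  · right; right; left
    rcases P with _ | ⟨x, y, hh⟩
    · exact absurd h1 (by simp [← Point.zero_def, IsPlus])
    obtain ⟨x', y', hh', hP, hx, ha, ha', hg, hval⟩ := lamFun_of_isPlus C _ h1
    rw [Point.neg_some] at hP
    injection hP with hx' hy'
    subst hx'
    subst hy'
    rw [C.gt_negY] at hg
    refine ⟨x, y, hh, rfl, hx, ha, ha', hg, ?_⟩
    rw [← lam_apply C, map_neg] at hval
    rw [← hval, neg_neg]
  · right; right; right
    have h2 := lamFun_add_T1 C P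
    rw [lamFun_of_inE0 C _ h1] at h2
    rw [lam_apply, eq_neg_of_add_eq_zero_left h2.symm, ← beta_eq_neg]

end Trop

end Fermat.Agent.S05
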