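import Mathlib
import Fermat.Agent.S05.Trop

/-!
# S05/S13 local structure at a node: Galois equivariance of `Λ`, and a count

For a field endomorphism `σ` preserving the valuation (a member of the decomposition group):
`Λ(σ P) = Λ(P)` if `σ α = α`, and `Λ(σ P) = -Λ(P)` if `σ` swaps `α` and `α'`.
Everything is stated in coordinates.  Also: at most `p` elements of `ℚ / 2βℤ` are killed by `p`.
-/

set_option autoImplicit false
set_option linter.unusedSectionVars false

open WeierstrassCurve WeierstrassCurve.Affine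

namespace Fermat.Agent.S05

namespace Trop

variable {L : Type*} [Field L] [DecidableEq L] {v : RatVal L}
  {W : WeierstrassCurve.Affine L} {α α' : L}

theorem gt_map (σ : L →+* L) (hσw : ∀ z, v.w (σ z) = v.w z) {z : L} {a : ℚ} :
    Gt v (σ z) a ↔ Gt v z a := by
  unfold Gt
  rw [map_eq_zero, hσw]

theorem is_map (σ : L →+* L) (hσw : ∀ z, v.w (σ z) = v.w z) {z : L} {a : ℚ} :
    v.Is (σ z) a ↔ v.Is z a := by
  unfold RatVal.Is
  rw [Ne, map_eq_zero, hσw]

theorem lamQ_map (σ : L →+* L) (hσw : ∀ z, v.w (σ z) = v.w z) (hσα : σ α = α)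
    (a₄ x y : L) : lamQ v a₄ α (σ x) (σ y) = lamQ v a₄ α x y := by
  have h1 : σ y - α * σ x = σ (y - α * x) := by rw [map_sub, map_mul, hσα]
  have e1 : σ x = 0 ↔ x = 0 := map_eq_zero σ
  unfold lamQ
  by_cases c1 : x = 0
  · rw [if_pos c1, if_pos (e1.mpr c1)]
  rw [if_neg c1, if_neg (fun h => c1 (e1.mp h)), hσw]
  by_cases c2 : v.w x ≤ 0
  · rw [if_pos c2, if_pos c2]
  rw [if_neg c2, if_neg c2]
  by_cases c3 : v.w a₄ ≤ v.w x
  · rw [if_pos c3, if_pos c3]
  rw [if_neg c3, if_neg c3]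
  by_cases c4 : Gt v (y - α * x) (v.w x)
  · rw [if_pos c4, if_pos]
    rw [h1, gt_map σ hσw]
    exact c4
  · rw [if_neg c4, if_neg]
    rw [h1, gt_map σ hσw]
    exact c4

/-- `σ` permutes the two tangent directions. -/
theorem map_alpha (C : NodeCurve v W α α') (σ : L →+* L) (hσ₁ : σ W.a₁ = W.a₁)
    (hσ₂ : σ W.a₂ = W.a₂) : (σ α = α ∧ σ α' = α') ∨ (σ α = α' ∧ σ α' = α) := by
  have hsum : σ α + σ α' = α + α' := by
    rw [← map_add, C.node.sum, map_neg, hσ₁]
  have hprod : σ α * σ α' = α * α' := by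
    rw [← map_mul, C.prod, map_neg, hσ₂]
  have h0 : (σ α - α) * (σ α - α') = 0 := by
    linear_combination (σ α) * hsum - hprod
  rcases mul_eq_zero.mp h0 with h | h
  · left
    have h1 : σ α = α := sub_eq_zero.mp h
    refine ⟨h1, ?_⟩
    rw [h1] at hsum
    exact add_left_cancel hsum
  · right
    have h1 : σ α = α' := sub_eq_zero.mp h
    refine ⟨h1, ?_⟩
    rw [h1] at hsum
    linear_combination hsum

/-- Inertia fixes the tangent directions. -/
theorem map_alpha_of_inertia (C : NodeCurve v W α α') (σ : L →+* L) (hσ₁ : σ W.a₁ = W.a₁)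
    (hσ₂ : σ W.a₂ = W.a₂) (hI : Gt v (σ α - α) 0) : σ α = α ∧ σ α' = α' := by
  rcases map_alpha C σ hσ₁ hσ₂ with h | h
  · exact h
  · exfalso
    rw [h.1] at hI
    have := C.node.delta.neg
    rw [neg_sub] at this
    exact not_gt_of_is this hI

/-- `Λ` is invariant under a valuation-preserving `σ` fixing `α`. -/
theorem lam_map_of_fix (C : NodeCurve v W α α') (σ : L →+* L)
    (hσw : ∀ z, v.w (σ z) = v.w z) (hσα : σ α = α) {x y : L} (h : W.Nonsingular x y)
    (h' : W.Nonsingular (σ x) (σ y)) :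
    lam C (Point.some (σ x) (σ y) h') = lam C (Point.some x y h) := by
  rw [lam_some, lam_some, lamQ_map σ hσw hσα]

/-- `Λ` changes sign under a valuation-preserving `σ` swapping `α` and `α'`. -/
theorem lam_map_of_swap (C : NodeCurve v W α α') (σ : L →+* L)
    (hσw : ∀ z, v.w (σ z) = v.w z) (hσα' : σ α' = α) {x y : L} (h : W.Nonsingular x y)
    (h' : W.Nonsingular (σ x) (σ y)) :
    lam C (Point.some (σ x) (σ y) h') = -lam C (Point.some x y h) := by
  rw [lam_some, lam_some]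
  have h1 : σ y - α * σ x = σ (y - α' * x) := by rw [map_sub, map_mul, hσα']
  rcases eq_or_ne x 0 with rfl | hx0
  · rw [map_zero, lamQ_zero, lamQ_zero]
    exact beta_eq_neg v W
  have hx : v.Is x (v.w x) := ⟨hx0, rfl⟩
  have hσx : v.Is (σ x) (v.w x) := (is_map σ hσw).mpr hx
  rcases le_or_gt (v.w x) 0 with h1' | h1'
  · rw [lamQ_nonpos hx h1', lamQ_nonpos hσx h1']
    simp
  rcases le_or_gt (v.w W.a₄) (v.w x) with h2 | h2
  · rw [lamQ_big hx C.node.pos h2, lamQ_big hσx C.node.pos h2]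
    exact beta_eq_neg v W
  rcases C.mid h.1 hx h1' h2 with ⟨hp, hm⟩ | ⟨hp, hm⟩
  · rw [lamQ_plus hx h1' h2 hp, lamQ_minus hσx h1' h2]
    · simp
    · rw [h1, gt_map σ hσw]
      exact not_gt_of_is hm
  · rw [lamQ_minus hx h1' h2 (not_gt_of_is hp), lamQ_plus hσx h1' h2]
    · simp
    · rw [h1, gt_map σ hσw]
      exact hm

/-- The elements of `ℚ / 2βℤ` killed by `p` are the classes of `2 β k / p`. -/
theorem exists_int_of_nsmul_eq_zero {β : ℚ} {p : ℕ} (hp : 0 < p)
    (x : ℚ ⧸ AddSubgroup.zmultiples (2 * β)) (hx : p • x = 0) :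
    ∃ k : ℤ, x = ((2 * β * k / p : ℚ) : ℚ ⧸ AddSubgroup.zmultiples (2 * β)) := by
  obtain ⟨r, rfl⟩ := QuotientAddGroup.mk_surjective x
  rw [← QuotientAddGroup.mk_nsmul, QuotientAddGroup.eq_zero_iff,
    AddSubgroup.mem_zmultiples_iff] at hx
  obtain ⟨n, hn⟩ := hx
  refine ⟨n, ?_⟩
  congr 1
  have hp' : (p : ℚ) ≠ 0 := by exact_mod_cast hp.ne'
  rw [zsmul_eq_mul, nsmul_eq_mul] at hn
  field_simp
  linear_combination -hn

/-- At most `p` elements of `ℚ / 2βℤ` are killed by `p`. -/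
theorem card_le_of_nsmul_eq_zero {β : ℚ} {p : ℕ} (hp : 0 < p)
    (S : Finset (ℚ ⧸ AddSubgroup.zmultiples (2 * β))) (hS : ∀ x ∈ S, p • x = 0) :
    S.card ≤ p := by
  classical
  have hp' : (p : ℚ) ≠ 0 := by exact_mod_cast hp.ne'
  have hsub : S ⊆ (Finset.range p).image
      (fun k : ℕ => ((2 * β * k / p : ℚ) : ℚ ⧸ AddSubgroup.zmultiples (2 * β))) := by
    intro x hx
    obtain ⟨k, rfl⟩ := exists_int_of_nsmul_eq_zero hp x (hS x hx)
    rw [Finset.mem_image]
    refine ⟨(k % (p : ℤ)).toNat, ?_, ?_⟩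
    · rw [Finset.mem_range]
      have h1 : 0 ≤ k % (p : ℤ) := Int.emod_nonneg _ (by exact_mod_cast hp.ne')
      have h2 : k % (p : ℤ) < p := Int.emod_lt_of_pos _ (by exact_mod_cast hp)
      omega
    · rw [QuotientAddGroup.eq, AddSubgroup.mem_zmultiples_iff]
      refine ⟨k / (p : ℤ), ?_⟩
      have h1 : 0 ≤ k % (p : ℤ) := Int.emod_nonneg _ (by exact_mod_cast hp.ne')
      have h3 : (((k % (p : ℤ)).toNat : ℕ) : ℚ) = ((k % (p : ℤ) : ℤ) : ℚ) := by
        have : (((k % (p : ℤ)).toNat : ℕ) : ℤ) = k % (p : ℤ) := Int.toNat_of_nonneg h1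
        exact_mod_cast this
      have h4 : (k : ℚ) = (p : ℚ) * ((k / (p : ℤ) : ℤ) : ℚ) + ((k % (p : ℤ) : ℤ) : ℚ) := by
        have := Int.mul_ediv_add_emod k (p : ℤ)
        exact_mod_cast this.symm
      rw [zsmul_eq_mul, h3, h4]
      field_simp
      ring
  calc S.card ≤ ((Finset.range p).image _).card := Finset.card_le_card hsub
    _ ≤ (Finset.range p).card := Finset.card_image_le
    _ = p := Finset.card_range p

end Trop

end Fermat.Agent.S05
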