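import Fermat.Agent.S05.WPAdd

/-!
# S05/S13, package C (degenerate cases of the addition theorem)

* `derivWeierstrassP_eq_zero_iff` : `℘' z = 0 ↔ 2 z ∈ L` (for `z ∉ L`);
* `weierstrassP_add_self`, `derivWeierstrassP_add_self` : the duplication formula;
* `g₂_cube_sub_g₃_sq_ne_zero` : the discriminant `g₂³ - 27 g₃²` does not vanish.
-/

set_option autoImplicit false

open Complex Filter Topology PeriodPair

namespace Fermat.Agent.S05

namespace WPDup

variable (L : PeriodPair)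

theorem derivWeierstrassP_eq_zero_of_add_self_mem {z : ℂ} (h : z + z ∈ L.lattice) :
    ℘'[L] z = 0 := by
  have e : z = -z + ((⟨z + z, h⟩ : L.lattice) : ℂ) := by simp
  have h1 : ℘'[L] z = -℘'[L] z := by
    conv_lhs => rw [e, L.derivWeierstrassP_add_coe, L.derivWeierstrassP_neg]
  have h2 : (2 : ℂ) * ℘'[L] z = 0 := by linear_combination h1
  simpa using h2

theorem derivWeierstrassP_eq_zero_iff {z : ℂ} (hz : z ∉ L.lattice) :
    ℘'[L] z = 0 ↔ z + z ∈ L.lattice := by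
  constructor
  · intro h
    have hz' : -z ∉ L.lattice := by simpa using hz
    have := sub_mem_lattice_of_weierstrassP_eq L hz hz' (L.weierstrassP_neg z).symm
      (by rw [L.derivWeierstrassP_neg, h, neg_zero])
    simpa using this
  · exact derivWeierstrassP_eq_zero_of_add_self_mem L

/-- The chord slope tends to the tangent slope. -/
theorem tendsto_chord {z : ℂ} (hz : z ∉ L.lattice) (h2 : z + z ∉ L.lattice) :
    Tendsto (fun w => (℘'[L] z - ℘'[L] w) / (℘[L] z - ℘[L] w)) (𝓝[≠] z)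
      (𝓝 ((6 * ℘[L] z ^ 2 - L.g₂ / 2) / ℘'[L] z)) := by
  have hd : ℘'[L] z ≠ 0 := fun h => h2 ((derivWeierstrassP_eq_zero_iff L hz).mp h)
  have h1 : Tendsto (slope ℘'[L] z) (𝓝[≠] z) (𝓝 (6 * ℘[L] z ^ 2 - L.g₂ / 2)) := by
    have := WPAdd.hasDerivAt_derivWeierstrassP L hz
    rw [deriv_derivWeierstrassP L hz] at this
    exact hasDerivAt_iff_tendsto_slope.mp this
  have h0 : Tendsto (slope ℘[L] z) (𝓝[≠] z) (𝓝 (℘'[L] z)) :=
    hasDerivAt_iff_tendsto_slope.mp (WPAdd.hasDerivAt_weierstrassP L hz)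
  refine (h1.div h0 hd).congr' ?_
  filter_upwards [self_mem_nhdsWithin] with w hw
  have hw' : w - z ≠ 0 := sub_ne_zero.mpr hw
  simp only [Pi.div_apply, slope, vsub_eq_sub, smul_eq_mul]
  rw [mul_div_mul_left _ _ (inv_ne_zero hw'), ← neg_sub (℘'[L] z), ← neg_sub (℘[L] z), neg_div_neg_eq]

theorem eventually_generic {z : ℂ} (hz : z ∉ L.lattice) (h2 : z + z ∉ L.lattice) :
    ∀ᶠ w in 𝓝[≠] z, w ∉ L.lattice ∧ z + w ∉ L.lattice ∧ ℘[L] z ≠ ℘[L] w := by
  have e1 : ∀ᶠ w in 𝓝[≠] z, w ∉ L.lattice :=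
    mem_nhdsWithin_of_mem_nhds ((WPAdd.isOpen_compl_lattice L).mem_nhds hz)
  have e2 : ∀ᶠ w in 𝓝[≠] z, z + w ∉ L.lattice := by
    have hc : ContinuousAt (fun w : ℂ => z + w) z := by fun_prop
    exact mem_nhdsWithin_of_mem_nhds (hc.eventually ((WPAdd.isOpen_compl_lattice L).mem_nhds h2))
  have e3 : ∀ᶠ w in 𝓝[≠] z, z - w ∉ L.lattice := by
    have ht : Tendsto (fun w : ℂ => z - w) (𝓝[≠] z) (𝓝[≠] (0 : ℂ)) := by
      refine tendsto_nhdsWithin_iff.mpr ⟨?_, ?_⟩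
      · have hc : ContinuousAt (fun w : ℂ => z - w) z := by fun_prop
        have := hc.tendsto
        simp only [sub_self] at this
        exact this.mono_left nhdsWithin_le_nhds
      · filter_upwards [self_mem_nhdsWithin] with w hw
        exact sub_ne_zero.mpr (Ne.symm hw)
    exact ht.eventually (WPAdd.compl_lattice_mem_nhdsNE L 0)
  filter_upwards [e1, e2, e3] with w hw1 hw2 hw3
  refine ⟨hw1, hw2, fun h => ?_⟩
  rcases (weierstrassP_eq_iff L hz hw1).mp h with h' | h'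
  · exact hw3 h'
  · exact hw2 h'

theorem tendsto_weierstrassP_const_add {z : ℂ} (h2 : z + z ∉ L.lattice) :
    Tendsto (fun w => ℘[L] (z + w)) (𝓝[≠] z) (𝓝 (℘[L] (z + z))) := by
  have hc : ContinuousAt (fun w : ℂ => ℘[L] (z + w)) z := by
    have h1 : ContinuousAt ℘[L] (z + z) := (WPAdd.hasDerivAt_weierstrassP L h2).continuousAt
    have h3 : ContinuousAt (fun w : ℂ => z + w) z := by fun_prop
    exact ContinuousAt.comp (f := fun w : ℂ => z + w) (g := ℘[L]) h1 h3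
  exact hc.tendsto.mono_left nhdsWithin_le_nhds

theorem tendsto_derivWeierstrassP_const_add {z : ℂ} (h2 : z + z ∉ L.lattice) :
    Tendsto (fun w => ℘'[L] (z + w)) (𝓝[≠] z) (𝓝 (℘'[L] (z + z))) := by
  have hc : ContinuousAt (fun w : ℂ => ℘'[L] (z + w)) z := by
    have h1 : ContinuousAt ℘'[L] (z + z) := (WPAdd.hasDerivAt_derivWeierstrassP L h2).continuousAt
    have h3 : ContinuousAt (fun w : ℂ => z + w) z := by fun_prop
    exact ContinuousAt.comp (f := fun w : ℂ => z + w) (g := ℘'[L]) h1 h3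
  exact hc.tendsto.mono_left nhdsWithin_le_nhds

theorem tendsto_weierstrassP_nhdsNE {z : ℂ} (hz : z ∉ L.lattice) :
    Tendsto ℘[L] (𝓝[≠] z) (𝓝 (℘[L] z)) :=
  (WPAdd.hasDerivAt_weierstrassP L hz).continuousAt.tendsto.mono_left nhdsWithin_le_nhds

theorem weierstrassP_add_self {z : ℂ} (hz : z ∉ L.lattice) (h2 : z + z ∉ L.lattice) :
    ℘[L] (z + z) = ((6 * ℘[L] z ^ 2 - L.g₂ / 2) / ℘'[L] z) ^ 2 / 4 - ℘[L] z - ℘[L] z := by
  have hlim1 := tendsto_weierstrassP_const_add L h2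
  have hlim2 : Tendsto (fun w => ((℘'[L] z - ℘'[L] w) / (℘[L] z - ℘[L] w)) ^ 2 / 4 - ℘[L] z -
      ℘[L] w) (𝓝[≠] z)
      (𝓝 (((6 * ℘[L] z ^ 2 - L.g₂ / 2) / ℘'[L] z) ^ 2 / 4 - ℘[L] z - ℘[L] z)) :=
    ((((tendsto_chord L hz h2).pow 2).div_const 4).sub tendsto_const_nhds).sub
      (tendsto_weierstrassP_nhdsNE L hz)
  refine tendsto_nhds_unique hlim1 (hlim2.congr' ?_)
  filter_upwards [eventually_generic L hz h2] with w hw
  exact (weierstrassP_add L hz hw.1 hw.2.1 hw.2.2).symm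

theorem derivWeierstrassP_add_self {z : ℂ} (hz : z ∉ L.lattice) (h2 : z + z ∉ L.lattice) :
    ℘'[L] (z + z) = -℘'[L] z -
      (6 * ℘[L] z ^ 2 - L.g₂ / 2) / ℘'[L] z * (℘[L] (z + z) - ℘[L] z) := by
  have hlim1 := tendsto_derivWeierstrassP_const_add L h2
  have hlim2 : Tendsto (fun w => -℘'[L] z -
      (℘'[L] z - ℘'[L] w) / (℘[L] z - ℘[L] w) * (℘[L] (z + w) - ℘[L] z)) (𝓝[≠] z)
      (𝓝 (-℘'[L] z - (6 * ℘[L] z ^ 2 - L.g₂ / 2) / ℘'[L] z * (℘[L] (z + z) - ℘[L] z))) :=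
    tendsto_const_nhds.sub ((tendsto_chord L hz h2).mul
      ((tendsto_weierstrassP_const_add L h2).sub tendsto_const_nhds))
  refine tendsto_nhds_unique hlim1 (hlim2.congr' ?_)
  filter_upwards [eventually_generic L hz h2] with w hw
  exact (derivWeierstrassP_add L hz hw.1 hw.2.1 hw.2.2).symm

/-! ### The discriminant -/

theorem half_notMem_lattice {a b : ℚ} (h : ¬ (a.den = 1 ∧ b.den = 1)) {x : ℂ}
    (hx : x = (a : ℂ) * L.ω₁ + (b : ℂ) * L.ω₂) : x ∉ L.lattice := by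
  rw [hx]
  exact fun hm => h (PeriodPair.mul_ω₁_add_mul_ω₂_mem_lattice.mp hm)

/-- A cubic `4 x³ - g₂ x - g₃` with three distinct roots has nonzero discriminant. -/
theorem alg_disc (g2 g3 e1 e2 e3 : ℂ) (h1 : 4 * e1 ^ 3 - g2 * e1 - g3 = 0)
    (h2 : 4 * e2 ^ 3 - g2 * e2 - g3 = 0) (h3 : 4 * e3 ^ 3 - g2 * e3 - g3 = 0)
    (h12 : e1 ≠ e2) (h13 : e1 ≠ e3) (h23 : e2 ≠ e3) : g2 ^ 3 - 27 * g3 ^ 2 ≠ 0 := by
  have k12 : 4 * (e1 ^ 2 + e1 * e2 + e2 ^ 2) = g2 := by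
    have : (e1 - e2) * (4 * (e1 ^ 2 + e1 * e2 + e2 ^ 2) - g2) = 0 := by
      linear_combination h1 - h2
    rcases mul_eq_zero.mp this with h | h
    · exact absurd (sub_eq_zero.mp h) h12
    · linear_combination h
  have k13 : 4 * (e1 ^ 2 + e1 * e3 + e3 ^ 2) = g2 := by
    have : (e1 - e3) * (4 * (e1 ^ 2 + e1 * e3 + e3 ^ 2) - g2) = 0 := by
      linear_combination h1 - h3
    rcases mul_eq_zero.mp this with h | h
    · exact absurd (sub_eq_zero.mp h) h13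
    · linear_combination h
  have hsum : e1 + e2 + e3 = 0 := by
    have : (e2 - e3) * (4 * (e1 + e2 + e3)) = 0 := by linear_combination k12 - k13
    rcases mul_eq_zero.mp this with h | h
    · exact absurd (sub_eq_zero.mp h) h23
    · simpa using h
  have he3 : e3 = -e1 - e2 := by linear_combination hsum
  have hg3 : g3 = 4 * e1 ^ 3 - g2 * e1 := by linear_combination -h1
  have hd : g2 ^ 3 - 27 * g3 ^ 2 = 16 * ((e1 - e2) * (e1 - e3) * (e2 - e3)) ^ 2 := by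
    rw [hg3, ← k12, he3]
    ring
  rw [hd]
  exact mul_ne_zero (by norm_num)
    (pow_ne_zero 2 (mul_ne_zero (mul_ne_zero (sub_ne_zero.mpr h12) (sub_ne_zero.mpr h13))
      (sub_ne_zero.mpr h23)))

theorem cubic_eq_zero_of_add_self_mem {z : ℂ} (hz : z ∉ L.lattice) (h : z + z ∈ L.lattice) :
    4 * ℘[L] z ^ 3 - L.g₂ * ℘[L] z - L.g₃ = 0 := by
  rw [← L.derivWeierstrassP_sq z hz, derivWeierstrassP_eq_zero_of_add_self_mem L h]
  ring

theorem g₂_cube_sub_g₃_sq_ne_zero : L.g₂ ^ 3 - 27 * L.g₃ ^ 2 ≠ 0 := by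
  have n1 : L.ω₁ / 2 ∉ L.lattice := L.ω₁_div_two_notMem_lattice
  have n2 : L.ω₂ / 2 ∉ L.lattice := L.ω₂_div_two_notMem_lattice
  have n3 : L.ω₁ / 2 + L.ω₂ / 2 ∉ L.lattice :=
    half_notMem_lattice L (a := 1 / 2) (b := 1 / 2) (by norm_num) (by push_cast; ring)
  have m1 : L.ω₁ / 2 + L.ω₁ / 2 ∈ L.lattice := by
    rw [add_halves]
    exact L.ω₁_mem_lattice
  have m2 : L.ω₂ / 2 + L.ω₂ / 2 ∈ L.lattice := by
    rw [add_halves]
    exact L.ω₂_mem_lattice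
  have m3 : (L.ω₁ / 2 + L.ω₂ / 2) + (L.ω₁ / 2 + L.ω₂ / 2) ∈ L.lattice := by
    have : (L.ω₁ / 2 + L.ω₂ / 2) + (L.ω₁ / 2 + L.ω₂ / 2) = L.ω₁ + L.ω₂ := by ring
    rw [this]
    exact add_mem L.ω₁_mem_lattice L.ω₂_mem_lattice
  refine alg_disc L.g₂ L.g₃ (℘[L] (L.ω₁ / 2)) (℘[L] (L.ω₂ / 2)) (℘[L] (L.ω₁ / 2 + L.ω₂ / 2))
    (cubic_eq_zero_of_add_self_mem L n1 m1) (cubic_eq_zero_of_add_self_mem L n2 m2)
    (cubic_eq_zero_of_add_self_mem L n3 m3) ?_ ?_ ?_
  · intro h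
    rcases (weierstrassP_eq_iff L n1 n2).mp h with h' | h'
    · exact half_notMem_lattice L (a := 1 / 2) (b := -1 / 2) (by norm_num) (by push_cast; ring) h'
    · exact n3 h'
  · intro h
    rcases (weierstrassP_eq_iff L n1 n3).mp h with h' | h'
    · exact half_notMem_lattice L (a := 0) (b := -1 / 2) (by norm_num) (by push_cast; ring) h'
    · exact half_notMem_lattice L (a := 1) (b := 1 / 2) (by norm_num) (by push_cast; ring) h'
  · intro h
    rcases (weierstrassP_eq_iff L n2 n3).mp h with h' | h'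
    · exact half_notMem_lattice L (a := -1 / 2) (b := 0) (by norm_num) (by push_cast; ring) h'
    · exact half_notMem_lattice L (a := 1 / 2) (b := 1) (by norm_num) (by push_cast; ring) h'

end WPDup

/-- For `z ∉ L`: `℘' z = 0 ↔ 2 z ∈ L`. -/
theorem derivWeierstrassP_eq_zero_iff (L : PeriodPair) {z : ℂ} (hz : z ∉ L.lattice) :
    ℘'[L] z = 0 ↔ z + z ∈ L.lattice :=
  WPDup.derivWeierstrassP_eq_zero_iff L hz

/-- **Duplication formula** for the Weierstrass `℘`-function (`x`-coordinate). -/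
theorem weierstrassP_add_self (L : PeriodPair) {z : ℂ} (hz : z ∉ L.lattice)
    (h2 : z + z ∉ L.lattice) :
    ℘[L] (z + z) = ((6 * ℘[L] z ^ 2 - L.g₂ / 2) / ℘'[L] z) ^ 2 / 4 - ℘[L] z - ℘[L] z :=
  WPDup.weierstrassP_add_self L hz h2

/-- **Duplication formula** for the Weierstrass `℘`-function (`y`-coordinate). -/
theorem derivWeierstrassP_add_self (L : PeriodPair) {z : ℂ} (hz : z ∉ L.lattice)
    (h2 : z + z ∉ L.lattice) :
    ℘'[L] (z + z) = -℘'[L] z -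
      (6 * ℘[L] z ^ 2 - L.g₂ / 2) / ℘'[L] z * (℘[L] (z + z) - ℘[L] z) :=
  WPDup.derivWeierstrassP_add_self L hz h2

/-- The discriminant of the Weierstrass cubic does not vanish. -/
theorem g₂_cube_sub_g₃_sq_ne_zero (L : PeriodPair) : L.g₂ ^ 3 - 27 * L.g₃ ^ 2 ≠ 0 :=
  WPDup.g₂_cube_sub_g₃_sq_ne_zero L

end Fermat.Agent.S05
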